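import Mathlib

/-!
# S18: integral models `B` of a pair `(E, Ebar)`, and the layer lemma for `AdjoinRoot`
-/

set_option autoImplicit false

namespace Fermat.Agent.S18

open Polynomial Module

/-- coordinates in the power basis commute with `AdjoinRoot.map` -/
theorem model_repr_map {B C : Type*} [CommRing B] [CommRing C] (φ : B →+* C) {g : B[X]}
    (hg : g.Monic) (y : AdjoinRoot g) (j : Fin g.natDegree) (j' : Fin (g.map φ).natDegree)
    (hj : (j' : ℕ) = j) :
    (AdjoinRoot.powerBasisAux' (hg.map φ)).repr (AdjoinRoot.map φ g (g.map φ) dvd_rfl y) j' =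
      φ ((AdjoinRoot.powerBasisAux' hg).repr y j) := by
  induction y using AdjoinRoot.induction_on with
  | ih f =>
    have hmk : AdjoinRoot.map φ g (g.map φ) dvd_rfl (AdjoinRoot.mk g f) =
        AdjoinRoot.mk (g.map φ) (f.map φ) := by
      rw [AdjoinRoot.map, AdjoinRoot.lift_mk, ← AdjoinRoot.aeval_eq, Polynomial.aeval_def,
        Polynomial.eval₂_map, AdjoinRoot.algebraMap_eq]
    rw [AdjoinRoot.powerBasisAux'_repr_apply_to_fun, AdjoinRoot.powerBasisAux'_repr_apply_to_fun,
      hmk, AdjoinRoot.modByMonicHom_mk, AdjoinRoot.modByMonicHom_mk,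
      ← Polynomial.map_modByMonic φ hg, Polynomial.coeff_map, hj]

/-- An integral model: `B` is free over `O_V`, `E = K ⊗ B`, `Ebar = Kb ⊗ B` (in coordinates). -/
structure Model {K Kb : Type*} [Field K] [Field Kb] (OV : Subring K) (redV : OV →+* Kb)
    (ι : Type*) (B E Eb : Type*) [CommRing B] [Algebra OV B] [CommRing E] [Algebra K E]
    [CommRing Eb] [Algebra Kb Eb] where
  β : Basis ι OV B
  b : Basis ι K E
  bb : Basis ι Kb Eb
  inc : B →+* E
  incb : B →+* Eb
  repr_inc : ∀ y i, b.repr (inc y) i = ((β.repr y i : OV) : K)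
  repr_incb : ∀ y i, bb.repr (incb y) i = redV (β.repr y i)

namespace Model

variable {K Kb : Type*} [Field K] [Field Kb] {OV : Subring K} {redV : OV →+* Kb}
  {ι : Type*} {B E Eb : Type*} [CommRing B] [Algebra OV B] [CommRing E] [Algebra K E]
  [CommRing Eb] [Algebra Kb Eb] (M : Model OV redV ι B E Eb)

theorem inc_injective : Function.Injective M.inc := by
  intro y y' h
  apply M.β.repr.injective
  ext i
  have h1 := M.repr_inc y i
  have h2 := M.repr_inc y' i
  rw [h] at h1
  exact (h1.symm.trans h2)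

/-- `O = ⊕ O_V b_i` -/
def O : Subring E := M.inc.range

theorem mem_O [Finite ι] (y : E) : y ∈ M.O ↔ ∀ i, M.b.repr y i ∈ OV := by
  constructor
  · rintro ⟨z, rfl⟩ i
    rw [M.repr_inc]
    exact (M.β.repr z i).2
  · intro h
    refine ⟨M.β.repr.symm (Finsupp.equivFunOnFinite.symm fun i => ⟨_, h i⟩), ?_⟩
    apply M.b.repr.injective
    ext i
    rw [M.repr_inc]
    simp

/-- the inverse of `inc` on `O` -/
noncomputable def unO : M.O →+* B :=
  ((RingEquiv.ofLeftInverse (f := M.inc) (g := Function.invFun M.inc)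
      (Function.leftInverse_invFun M.inc_injective)).symm : M.inc.range →+* B)

theorem inc_unO (y : M.O) : M.inc (M.unO y) = y :=
  congrArg Subtype.val ((RingEquiv.ofLeftInverse (f := M.inc) (g := Function.invFun M.inc)
      (Function.leftInverse_invFun M.inc_injective)).apply_symm_apply y)

theorem unO_inc (y : B) (h : M.inc y ∈ M.O) : M.unO ⟨M.inc y, h⟩ = y :=
  M.inc_injective (M.inc_unO _)

/-- the reduction `O → Ebar` -/
noncomputable def red : M.O →+* Eb := M.incb.comp M.unO

theorem red_inc (y : B) (h : M.inc y ∈ M.O) : M.red ⟨M.inc y, h⟩ = M.incb y := by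
  rw [red, RingHom.comp_apply, unO_inc]

theorem inc_mem_O (y : B) : M.inc y ∈ M.O := ⟨y, rfl⟩

theorem repr_red (y : M.O) (i : ι) (h : M.b.repr (y : E) i ∈ OV) :
    M.bb.repr (M.red y) i = redV ⟨M.b.repr (y : E) i, h⟩ := by
  obtain ⟨y, ⟨z, rfl⟩⟩ := y
  rw [M.red_inc z (M.inc_mem_O z), M.repr_incb]
  congr 1
  exact Subtype.ext (M.repr_inc z i).symm

/-- the layer lemma -/
noncomputable def adjoin (g : B[X]) (hg : g.Monic) (d : ℕ) (hd : g.natDegree = d)
    [Nontrivial E] [Nontrivial Eb] :
    Model OV redV (ι × Fin d) (AdjoinRoot g) (AdjoinRoot (g.map M.inc))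
      (AdjoinRoot (g.map M.incb)) where
  β := M.β.smulTower ((AdjoinRoot.powerBasisAux' hg).reindex (finCongr hd))
  b := M.b.smulTower ((AdjoinRoot.powerBasisAux' (hg.map M.inc)).reindex
    (finCongr ((hg.natDegree_map M.inc).trans hd)))
  bb := M.bb.smulTower ((AdjoinRoot.powerBasisAux' (hg.map M.incb)).reindex
    (finCongr ((hg.natDegree_map M.incb).trans hd)))
  inc := AdjoinRoot.map M.inc g (g.map M.inc) dvd_rfl
  incb := AdjoinRoot.map M.incb g (g.map M.incb) dvd_rfl
  repr_inc := by
    rintro y ⟨i, j⟩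
    rw [Basis.smulTower_repr_mk, Basis.smulTower_repr_mk, Basis.repr_reindex_apply,
      Basis.repr_reindex_apply,
      model_repr_map M.inc hg y ((finCongr hd).symm j) _ rfl, M.repr_inc]
  repr_incb := by
    rintro y ⟨i, j⟩
    rw [Basis.smulTower_repr_mk, Basis.smulTower_repr_mk, Basis.repr_reindex_apply,
      Basis.repr_reindex_apply,
      model_repr_map M.incb hg y ((finCongr hd).symm j) _ rfl, M.repr_incb]

end Model

/-- the trivial model -/
noncomputable def Model.triv {K Kb : Type*} [Field K] [Field Kb] (OV : Subring K)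
    (redV : OV →+* Kb) : Model OV redV Unit OV K Kb where
  β := Basis.singleton Unit OV
  b := Basis.singleton Unit K
  bb := Basis.singleton Unit Kb
  inc := OV.subtype
  incb := redV
  repr_inc := by intro y i; simp [Basis.singleton_repr]
  repr_incb := by intro y i; simp [Basis.singleton_repr]

end Fermat.Agent.S18
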