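import Fermat.Agent.S18.Base
import Fermat.Agent.S18.Model

/-!
# S18 plan Z, step (2): the bare definitions (D1)-(D4)
-/

set_option autoImplicit false

namespace Fermat.Agent.S18

open Polynomial Module

variable {L : Type*} [Field L] (A : ValuationSubring L)

/-- constants `A → O_V` -/
noncomputable def cOV : A →+* OV A :=
  (RatFunc.C.comp A.subtype).codRestrict (OV A) fun a => C_mem A a.2

@[simp] theorem coe_cOV (a : A) : ((cOV A a : OV A) : RatFunc L) = RatFunc.C (a : L) := rfl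

/-- (D1) the element `Num(τ)/Den(τ)` of `O_V` (`Den` primitive) -/
noncomputable def lineR (Num Den : (↥A)[X]) (hDen : gRed A Den ≠ 0) : OV A :=
  ⟨gIncl A Num / gIncl A Den, div_mem A Num hDen⟩

/-- (D2) `A[Y] → O_V`, `Y ↦ Rτ` -/
noncomputable def evTau (Rτ : OV A) : (↥A)[X] →+* OV A := Polynomial.eval₂RingHom (cOV A) Rτ

/-- (D2) `Φτ := Φ(X, Rτ)` -/
noncomputable def PhiTau (Rτ : OV A) (Φ : (↥A)[X][X]) : (OV A)[X] := Φ.map (evTau A Rτ)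

theorem PhiTau_monic (Rτ : OV A) {Φ : (↥A)[X][X]} (h : Φ.Monic) : (PhiTau A Rτ Φ).Monic :=
  h.map _

/-- (D3) -/
abbrev B1 (Φτ : (OV A)[X]) : Type _ := AdjoinRoot Φτ
abbrev FF (Φτ : (OV A)[X]) : Type _ := AdjoinRoot (Φτ.map (OV A).subtype)
abbrev FFb (Φτ : (OV A)[X]) : Type _ := AdjoinRoot (Φτ.map (redV A))

noncomputable def inc1 (Φτ : (OV A)[X]) : B1 A Φτ →+* FF A Φτ :=
  AdjoinRoot.map (OV A).subtype Φτ _ dvd_rfl

noncomputable def incb1 (Φτ : (OV A)[X]) : B1 A Φτ →+* FFb A Φτ :=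
  AdjoinRoot.map (redV A) Φτ _ dvd_rfl

/-- (D4) the Kummer polynomial -/
noncomputable def kumPoly (Φτ : (OV A)[X]) (p : ℕ) (f1 : B1 A Φτ) : (B1 A Φτ)[X] := X ^ p - C f1

theorem kumPoly_monic (Φτ : (OV A)[X]) {p : ℕ} (hp : p ≠ 0) (f1 : B1 A Φτ) :
    (kumPoly A Φτ p f1).Monic := monic_X_pow_sub_C f1 hp

abbrev B2 (Φτ : (OV A)[X]) (p : ℕ) (f1 : B1 A Φτ) : Type _ := AdjoinRoot (kumPoly A Φτ p f1)
abbrev EE (Φτ : (OV A)[X]) (p : ℕ) (f1 : B1 A Φτ) : Type _ :=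
  AdjoinRoot ((kumPoly A Φτ p f1).map (inc1 A Φτ))
abbrev EEb (Φτ : (OV A)[X]) (p : ℕ) (f1 : B1 A Φτ) : Type _ :=
  AdjoinRoot ((kumPoly A Φτ p f1).map (incb1 A Φτ))

theorem kumPoly_map_inc1 (Φτ : (OV A)[X]) (p : ℕ) (f1 : B1 A Φτ) :
    (kumPoly A Φτ p f1).map (inc1 A Φτ) = X ^ p - C (inc1 A Φτ f1) := by
  simp [kumPoly]

theorem kumPoly_map_incb1 (Φτ : (OV A)[X]) (p : ℕ) (f1 : B1 A Φτ) :
    (kumPoly A Φτ p f1).map (incb1 A Φτ) = X ^ p - C (incb1 A Φτ f1) := by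
  simp [kumPoly]

/-- the model of the first layer -/
noncomputable def model1 (Φτ : (OV A)[X]) (hΦ : Φτ.Monic) (ψ : ℕ) (hψ : Φτ.natDegree = ψ) :
    Model (OV A) (redV A) (Unit × Fin ψ) (B1 A Φτ) (FF A Φτ) (FFb A Φτ) :=
  (Model.triv (OV A) (redV A)).adjoin Φτ hΦ ψ hψ

theorem model1_inc (Φτ : (OV A)[X]) (hΦ : Φτ.Monic) (ψ : ℕ) (hψ : Φτ.natDegree = ψ) :
    (model1 A Φτ hΦ ψ hψ).inc = inc1 A Φτ := rfl

theorem model1_incb (Φτ : (OV A)[X]) (hΦ : Φτ.Monic) (ψ : ℕ) (hψ : Φτ.natDegree = ψ) :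
    (model1 A Φτ hΦ ψ hψ).incb = incb1 A Φτ := rfl

/-- the model of the second layer -/
noncomputable def model2 (Φτ : (OV A)[X]) (hΦ : Φτ.Monic) (ψ : ℕ) (hψ : Φτ.natDegree = ψ)
    (hψ0 : ψ ≠ 0) (p : ℕ) (hp : p ≠ 0) (f1 : B1 A Φτ) :
    Model (OV A) (redV A) ((Unit × Fin ψ) × Fin p) (B2 A Φτ p f1) (EE A Φτ p f1)
      (EEb A Φτ p f1) :=
  haveI : Nontrivial (FF A Φτ) := AdjoinRoot.nontrivial _ (by
    rw [Polynomial.degree_eq_natDegree (hΦ.map _).ne_zero, hΦ.natDegree_map, hψ]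
    exact_mod_cast hψ0)
  haveI : Nontrivial (FFb A Φτ) := AdjoinRoot.nontrivial _ (by
    rw [Polynomial.degree_eq_natDegree (hΦ.map _).ne_zero, hΦ.natDegree_map, hψ]
    exact_mod_cast hψ0)
  haveI : Nontrivial (B1 A Φτ) := (inc1 A Φτ).domain_nontrivial
  (model1 A Φτ hΦ ψ hψ).adjoin (kumPoly A Φτ p f1) (kumPoly_monic A Φτ hp f1) p
    (natDegree_X_pow_sub_C)

end Fermat.Agent.S18
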