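import Mathlib
import Fermat.Agent.S28.IrrCore
import Fermat.Agent.S28.Data
import Fermat.Agent.S18.Defs2

set_option autoImplicit false

namespace Fermat.Agent.S18

open UpperHalfPlane ModularForm ModularCurve CongruenceSubgroup Polynomial
open Fermat.Agent.X0 Fermat.Agent.S24 Fermat.Agent.S28
open scoped MatrixGroups Manifold Real

/-- a monic polynomial all of whose coefficients lift along `φ` lifts to a monic polynomial of the
same degree -/
theorem phi_lift_monic {R S : Type*} [CommRing R] [CommRing S] [Nontrivial R] (φ : R →+* S) (Q : S[X])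
    (hQ : Q.Monic) (p : ℕ → R) (hp : ∀ i, Q.coeff i = φ (p i)) :
    ∃ Φ : R[X], Φ.Monic ∧ Φ.natDegree = Q.natDegree ∧ Φ.map φ = Q := by
  have hl : Q ∈ Polynomial.lifts φ := (Polynomial.lifts_iff_coeff_lifts Q).2 fun i => ⟨p i, (hp i).symm⟩
  obtain ⟨Φ, h1, h2, h3⟩ := Polynomial.lifts_and_natDegree_eq_and_monic hl hQ
  exact ⟨Φ, h3, h2, h1⟩

/-- the modular polynomial over `Zb` together with its roots in `Zb((t))` -/
theorem exists_PhiZ (N : ℕ) [NeZero N] : ∃ (Φ : Zb[X][X]) (x : Cos N → LaurentSeries Zb),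
    Φ.Monic ∧ Φ.natDegree = Nat.card (Cos N) ∧
    Φ.map (aeval (JJ Zb N) : Zb[X] →ₐ[Zb] LaurentSeries Zb).toRingHom = ∏ c, (X - C (x c)) ∧
    x (QuotientGroup.mk 1) = qExpand Zb N (JJ Zb N) ∧
    ∀ (k : Type) [Field k] (f : Zb →+* k), (N : k) ≠ 0 →
      Function.Injective (fun c => coeffMap f (x c)) := by
  have hN0 : (0 : ℝ) < N := by exact_mod_cast Nat.pos_of_ne_zero (NeZero.ne N)
  have E := expRel_relInf (N : ℝ) hN0
  choose x hx using fun c : Cos N => exists_x N (Quotient.out c : SL(2, ℤ))⁻¹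
  have hθ : ∀ γ ∈ Gamma0 N, ∀ z, jdFun N (γ • z) = jdFun N z :=
    fun γ hγ z => jdFun_smul_of_mem_Gamma0 N N dvd_rfl γ hγ z
  have hrel : ∀ c, RelInf (N : ℝ) (conjF N (jdFun N) c) (iotaZ (x c)) := fun c => hx c
  choose p hp using sym_S1 N (jdFun N) hθ (jdFun_mdiff N) x hrel
  have hPm : (∏ c, (X - C (x c))).Monic := monic_prod_of_monic _ _ fun c _ => monic_X_sub_C _
  have hPd : (∏ c, (X - C (x c))).natDegree = Nat.card (Cos N) := by
    rw [natDegree_prod_of_monic _ _ fun c _ => monic_X_sub_C _]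
    simp [Nat.card_eq_fintype_card]
  obtain ⟨Φ, h1, h2, h3⟩ := phi_lift_monic
    (aeval (JJ Zb N) : Zb[X] →ₐ[Zb] LaurentSeries Zb).toRingHom _ hPm p hp
  refine ⟨Φ, x, h1, h2.trans hPd, h3, ?_, ?_⟩
  · have h1 := hx (QuotientGroup.mk 1)
    have h2 : (fun z => jdFun N ((Quotient.out (QuotientGroup.mk 1 : Cos N) : SL(2, ℤ))⁻¹ • z)) =
        jdFun N := by
      ext z
      exact jdFun_smul_of_mem_Gamma0 N N dvd_rfl _ (data_one_mem N) z
    rw [h2] at h1
    exact hd_iotaZ_injective (E.unique_right h1 (data_relInf_jdFun N))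
  · intro k _ f hNk c c' hcc
    exact data_cos_eq N c c' (x_inj N _ _ _ _ (hx c) (hx c') k f hNk hcc)

/-- a ring homomorphism `Zb → ℚ̄` -/
noncomputable def zbKb : Zb →ₐ[ℤ] Kb := IsAlgClosed.lift

theorem zbKb_mem (A : ValuationSubring Kb) (z : Zb) : zbKb z ∈ A := by
  have h1 : IsIntegral ℤ z := Algebra.IsIntegral.isIntegral z
  have h2 : IsIntegral ℤ (zbKb z) := h1.map zbKb
  have h3 : IsIntegral A (zbKb z) := h2.tower_top
  obtain ⟨y, hy⟩ := IsIntegrallyClosed.isIntegral_iff.1 h3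
  rw [← hy]
  exact y.2

/-- a ring homomorphism `Zb → A` -/
noncomputable def zbA (A : ValuationSubring Kb) : Zb →+* A :=
  (zbKb : Zb →+* Kb).codRestrict A.toSubring (zbKb_mem A)


/-! ### the modular polynomial -/

/-- `Φ_N ∈ Zb[Y][X]` -/
noncomputable def PhiZ (N : ℕ) [NeZero N] : Zb[X][X] := (exists_PhiZ N).choose

/-- its roots in `Zb((t))` -/
noncomputable def xZ (N : ℕ) [NeZero N] : Cos N → LaurentSeries Zb :=
  (exists_PhiZ N).choose_spec.choose

theorem PhiZ_monic (N : ℕ) [NeZero N] : (PhiZ N).Monic := (exists_PhiZ N).choose_spec.choose_spec.1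

theorem PhiZ_natDegree (N : ℕ) [NeZero N] : (PhiZ N).natDegree = Nat.card (Cos N) :=
  (exists_PhiZ N).choose_spec.choose_spec.2.1

theorem PhiZ_map (N : ℕ) [NeZero N] :
    (PhiZ N).map (aeval (JJ Zb N) : Zb[X] →ₐ[Zb] LaurentSeries Zb).toRingHom =
      ∏ c, (X - C (xZ N c)) := (exists_PhiZ N).choose_spec.choose_spec.2.2.1

theorem xZ_one (N : ℕ) [NeZero N] : xZ N (QuotientGroup.mk 1) = qExpand Zb N (JJ Zb N) :=
  (exists_PhiZ N).choose_spec.choose_spec.2.2.2.1

theorem xZ_inj (N : ℕ) [NeZero N] (k : Type) [Field k] (f : Zb →+* k) (hN : (N : k) ≠ 0) :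
    Function.Injective (fun c => coeffMap f (xZ N c)) :=
  (exists_PhiZ N).choose_spec.choose_spec.2.2.2.2 k f hN

section PhiOf

variable {R : Type*} [CommRing R] (g : Zb →+* R) (N : ℕ) [NeZero N]

/-- `Φ_N` over any ring under `Zb` -/
noncomputable def PhiOf : R[X][X] := (PhiZ N).map (mapRingHom g)

theorem PhiOf_monic : (PhiOf g N).Monic := (PhiZ_monic N).map _

theorem PhiOf_natDegree [Nontrivial R] : (PhiOf g N).natDegree = Nat.card (Cos N) := by
  rw [PhiOf, (PhiZ_monic N).natDegree_map, PhiZ_natDegree]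

theorem PhiOf_map {S : Type*} [CommRing S] (h : R →+* S) :
    (PhiOf g N).map (mapRingHom h) = PhiOf (h.comp g) N := by
  rw [PhiOf, PhiOf, Polynomial.map_map]
  congr 1
  apply Polynomial.ringHom_ext
  · intro a; simp
  · simp

theorem phi_comp_JJ :
    ((aeval (JJ R N) : R[X] →ₐ[R] LaurentSeries R).toRingHom).comp (mapRingHom g) =
      (coeffMap g).comp (aeval (JJ Zb N) : Zb[X] →ₐ[Zb] LaurentSeries Zb).toRingHom := by
  apply RingHom.ext
  intro p
  exact (symInt_coeffMap_aeval g N p).symm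

theorem PhiOf_map_JJ :
    (PhiOf g N).map (aeval (JJ R N) : R[X] →ₐ[R] LaurentSeries R).toRingHom =
      ∏ c, (X - C (coeffMap g (xZ N c))) := by
  rw [PhiOf, Polynomial.map_map, phi_comp_JJ, ← Polynomial.map_map, PhiZ_map, Polynomial.map_prod]
  refine Finset.prod_congr rfl fun c _ => ?_
  rw [Polynomial.map_sub, Polynomial.map_X, Polynomial.map_C]

theorem phi_comp_qExpand :
    (qExpand R N).comp (aeval (jqModC R) : R[X] →ₐ[R] LaurentSeries R).toRingHom =
      (aeval (JJ R N) : R[X] →ₐ[R] LaurentSeries R).toRingHom := by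
  apply Polynomial.ringHom_ext
  · intro a
    simp only [RingHom.comp_apply, AlgHom.toRingHom_eq_coe, RingHom.coe_coe, aeval_C]
    rw [data_algebraMap, qExpand_C]
  · simp only [RingHom.comp_apply, AlgHom.toRingHom_eq_coe, RingHom.coe_coe, aeval_X]
    rw [JJ]

theorem PhiOf_root :
    ((PhiOf g N).map (aeval (jqModC R) : R[X] →ₐ[R] LaurentSeries R).toRingHom).eval
      (jqNModC R N) = 0 := by
  apply qExpand_injective (R := R) N
  rw [map_zero, ← Polynomial.eval₂_eq_eval_map, Polynomial.hom_eval₂, phi_comp_qExpand,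
    Polynomial.eval₂_eq_eval_map, PhiOf_map_JJ, Polynomial.eval_prod]
  refine Finset.prod_eq_zero (Finset.mem_univ (QuotientGroup.mk 1 : Cos N)) ?_
  rw [xZ_one, coeffMap_qExpand, coeffMap_JJ, JJ, jqNModC]
  simp

end PhiOf

theorem aeval_JJ_injective (k : Type*) [Field k] (N : ℕ) [NeZero N] :
    Function.Injective (aeval (JJ k N) : k[X] →ₐ[k] LaurentSeries k) := by
  rw [injective_iff_map_eq_zero]
  intro P hP
  by_contra h0
  have h1 := symInt_coeff_aeval (S := k) N P.natDegree P (Nat.lt_succ_self _)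
  rw [hP, HahnSeries.coeff_zero] at h1
  exact h0 (Polynomial.leadingCoeff_eq_zero.1 h1.symm)

theorem exists_lift_ratFunc {κ K : Type*} [Field κ] [Field K] (φ : κ[X] →+* K)
    (hφ : Function.Injective φ) :
    ∃ θ : RatFunc κ →+* K, θ.comp (algebraMap κ[X] (RatFunc κ)) = φ :=
  ⟨IsFractionRing.lift hφ, RingHom.ext fun p => IsFractionRing.lift_algebraMap hφ p⟩

/-- separability of `Φ_N` after any injective specialisation of `k[Y]` into a field -/
theorem PhiOf_separable {κ : Type} [Field κ] (g : Zb →+* κ) (N : ℕ) [NeZero N] (hN : (N : κ) ≠ 0)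
    {K : Type*} [Field K] (φ : κ[X] →+* K) (hφ : Function.Injective φ) :
    ((PhiOf g N).map φ).Separable := by
  -- separable over `κ(Y)`
  have h1 : ((PhiOf g N).map (algebraMap κ[X] (RatFunc κ))).Separable := by
    obtain ⟨θ, hθ⟩ := exists_lift_ratFunc
      (aeval (JJ κ N) : κ[X] →ₐ[κ] LaurentSeries κ).toRingHom (aeval_JJ_injective κ N)
    rw [← Polynomial.separable_map θ, Polynomial.map_map, hθ, PhiOf_map_JJ]
    exact (Polynomial.separable_prod_X_sub_C_iff).2 (xZ_inj N κ g hN)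
  obtain ⟨θ', hθ'⟩ := exists_lift_ratFunc φ hφ
  have h2 := h1.map (f := θ')
  rwa [Polynomial.map_map, hθ'] at h2


/-! ### evaluation `A[Y] → O_V` -/

section evTau

variable {L : Type*} [Field L] (A : ValuationSubring L)

theorem redV_cOV (a : A) : redV A (cOV A a) = RatFunc.C (IsLocalRing.residue A a) :=
  redV_C A a.2

@[simp] theorem evTau_C (r : OV A) (a : A) : evTau A r (C a) = cOV A a := by simp [evTau]

@[simp] theorem evTau_X (r : OV A) : evTau A r X = r := by simp [evTau]

theorem subtype_comp_evTau (r : OV A) :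
    (OV A).subtype.comp (evTau A r) =
      ((aeval (r : RatFunc L) : L[X] →ₐ[L] RatFunc L).toRingHom).comp
        (mapRingHom A.subtype) := by
  apply Polynomial.ringHom_ext
  · intro a
    simp [RatFunc.algebraMap_eq_C]
  · simp

theorem redV_comp_evTau (r : OV A) :
    (redV A).comp (evTau A r) =
      ((aeval (redV A r) : (Kres A)[X] →ₐ[Kres A] RatFunc (Kres A)).toRingHom).comp
        (mapRingHom (IsLocalRing.residue A)) := by
  apply Polynomial.ringHom_ext
  · intro a
    simp [RatFunc.algebraMap_eq_C, redV_cOV]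
  · simp

end evTau

/-! ### `Φ_N` over `A` -/

section PhiA

variable (A : ValuationSubring Kb) (N : ℕ) [NeZero N]

/-- `Φ_N ∈ A[Y][X]` -/
noncomputable def PhiA : (↥A)[X][X] := PhiOf (zbA A) N

theorem PhiA_monic : (PhiA A N).Monic := PhiOf_monic _ _

theorem PhiA_natDegree : (PhiA A N).natDegree = Nat.card (Cos N) := PhiOf_natDegree _ _

theorem PhiA_root :
    ((PhiA A N).map (aeval (jqModC ↥A) : (↥A)[X] →ₐ[↥A] LaurentSeries ↥A).toRingHom).eval
      (jqNModC ↥A N) = 0 := PhiOf_root _ _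

theorem PhiA_map_subtype :
    (PhiA A N).map (mapRingHom A.subtype) = PhiOf (A.subtype.comp (zbA A)) N := PhiOf_map _ _ _

theorem PhiA_map_residue :
    (PhiA A N).map (mapRingHom (IsLocalRing.residue A)) =
      PhiOf ((IsLocalRing.residue A).comp (zbA A)) N := PhiOf_map _ _ _

theorem PhiA_root_gen :
    (((PhiA A N).map (mapRingHom A.subtype)).map
      (aeval (jqModC Kb) : Kb[X] →ₐ[Kb] LaurentSeries Kb).toRingHom).eval (jqNModC Kb N) = 0 := by
  rw [PhiA_map_subtype]; exact PhiOf_root _ _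

theorem PhiA_root_bar :
    (((PhiA A N).map (mapRingHom (IsLocalRing.residue A))).map
      (aeval (jqModC (Kres A)) : (Kres A)[X] →ₐ[Kres A] LaurentSeries (Kres A)).toRingHom).eval
        (jqNModC (Kres A) N) = 0 := by
  rw [PhiA_map_residue]; exact PhiOf_root _ _

theorem PhiA_separable_gen {K : Type*} [Field K] (φ : Kb[X] →+* K) (hφ : Function.Injective φ) :
    (((PhiA A N).map (mapRingHom A.subtype)).map φ).Separable := by
  rw [PhiA_map_subtype]
  exact PhiOf_separable _ N (by exact_mod_cast NeZero.ne N) φ hφ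

theorem PhiA_separable_bar (hN : (N : Kres A) ≠ 0) {K : Type*} [Field K]
    (φ : (Kres A)[X] →+* K) (hφ : Function.Injective φ) :
    (((PhiA A N).map (mapRingHom (IsLocalRing.residue A))).map φ).Separable := by
  rw [PhiA_map_residue]
  exact PhiOf_separable _ N hN φ hφ

theorem sep_gen (r : OV A) (hr : Transcendental Kb (r : RatFunc Kb)) :
    ((PhiTau A r (PhiA A N)).map (OV A).subtype).Separable := by
  rw [PhiTau, Polynomial.map_map, subtype_comp_evTau, ← Polynomial.map_map]
  exact PhiA_separable_gen A N _ (transcendental_iff_injective.1 hr)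

theorem sep_bar (hN : (N : Kres A) ≠ 0) (r : OV A) (hr : Transcendental (Kres A) (redV A r)) :
    ((PhiTau A r (PhiA A N)).map (redV A)).Separable := by
  rw [PhiTau, Polynomial.map_map, redV_comp_evTau, ← Polynomial.map_map]
  exact PhiA_separable_bar A N hN _ (transcendental_iff_injective.1 hr)

end PhiA

end Fermat.Agent.S18
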