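import Mathlib
import Fermat.Agent.S28.KeyAux
import Fermat.Agent.S24.Degree
import Fermat.Agent.S24.Frac
import Fermat.Agent.S18.PhiN

set_option autoImplicit false

/-! # S18: independence of the powers of `j_N` over `k(j)` (any `Zb → k`), spanning of `F_N` -/

namespace Fermat.Agent.S18

open UpperHalfPlane ModularForm ModularCurve CongruenceSubgroup Polynomial IntermediateField
open Fermat.Agent.X0 Fermat.Agent.S24 Fermat.Agent.S28
open scoped MatrixGroups Manifold Real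

/-- the data of `S28.exists_data` for an arbitrary `f : Zb →+* k` with `N ≠ 0` in `k` -/
theorem exists_data_of_hom (N : ℕ) [NeZero N] (k : Type) [Field k] (f : Zb →+* k)
    (hNk : (N : k) ≠ 0) :
    ∃ (x h : Cos N → LaurentSeries k),
      Function.Injective x ∧ (∀ c, h c ≠ 0) ∧
      (∀ c, c ≠ (QuotientGroup.mk 1 : Cos N) → 0 < (h c).order) ∧
      x (QuotientGroup.mk 1) = qExpand k N (JJ k N) ∧
      (∀ M m : ℕ, ∃ p : Polynomial k, ∑ c, h c ^ M * x c ^ m = Polynomial.aeval (JJ k N) p) := by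
  have hN0 : (0 : ℝ) < N := by exact_mod_cast Nat.pos_of_ne_zero (NeZero.ne N)
  have E := expRel_relInf (N : ℝ) hN0
  choose x hx using fun c : Cos N => exists_x N (Quotient.out c : SL(2, ℤ))⁻¹
  choose h hh1 hh2 using fun c : Cos N => exists_h N (Quotient.out c : SL(2, ℤ))⁻¹
  refine ⟨fun c => coeffMap f (x c), fun c => coeffMap f (h c), ?_, ?_, ?_, ?_, ?_⟩
  · intro c c' hcc
    exact data_cos_eq N c c' (x_inj N _ _ _ _ (hx c) (hx c') k f hNk hcc)
  · intro c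
    exact (hh2 c k f hNk).1
  · intro c hc
    refine (hh2 c k f hNk).2 fun hdvd => hc (data_out_mem N c ?_)
    rw [Gamma0_mem, ZMod.intCast_zmod_eq_zero_iff_dvd]
    exact hdvd
  · have h1 := hx (QuotientGroup.mk 1)
    have h2 : (fun z => jdFun N ((Quotient.out (QuotientGroup.mk 1 : Cos N) : SL(2, ℤ))⁻¹ • z)) =
        jdFun N := by
      ext z
      exact jdFun_smul_of_mem_Gamma0 N N dvd_rfl _ (data_one_mem N) z
    rw [h2] at h1
    have h3 : x (QuotientGroup.mk 1) = qExpand Zb N (JJ Zb N) :=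
      hd_iotaZ_injective (E.unique_right h1 (data_relInf_jdFun N))
    change coeffMap f (x (QuotientGroup.mk 1)) = _
    rw [h3, coeffMap_qExpand, coeffMap_JJ]
  · intro M m
    obtain ⟨p, hp⟩ := sym_trace N (gFun N ^ M * jdFun N ^ m)
      (fun γ hγ z => by
        simp only [Pi.mul_apply, Pi.pow_apply, gFun_smul N γ hγ z,
          jdFun_smul_of_mem_Gamma0 N N dvd_rfl γ hγ z])
      (((gFun_mdiff N).pow M).mul ((jdFun_mdiff N).pow m))
      (fun c => h c ^ M * x c ^ m)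
      (fun c => by
        rw [map_mul, map_pow, map_pow]
        exact E.mul (hd_expRel_pow E (hh1 c) M) (hd_expRel_pow E (hx c) m))
    refine ⟨p.map f, ?_⟩
    rw [← coeffMap_JJ f, ← data_coeffMap_aeval, ← hp, map_sum]
    refine Finset.sum_congr rfl fun c _ => ?_
    rw [map_mul, map_pow, map_pow]

theorem indep_of_hom (N : ℕ) [NeZero N] (k : Type) [Field k] (f : Zb →+* k) (hNk : (N : k) ≠ 0)
    (P : k[X][X]) (hP : P ≠ 0) (hdeg : P.natDegree < Nat.card (Cos N)) : ev2 k N P ≠ 0 := by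
  obtain ⟨x, h, hx, hh0, hh, hx1, htr⟩ := exists_data_of_hom N k f hNk
  rw [ev2_apply]
  exact irrCore (RingHom.id k) N x h hx hh0 hh hx1 htr P hP hdeg

/-- (IndL) -/
theorem indL (N : ℕ) [NeZero N] (P : Kb[X][X]) (hP : P ≠ 0)
    (hdeg : P.natDegree < Nat.card (Cos N)) : ev2 Kb N P ≠ 0 :=
  indep_of_hom N Kb (zbKb : Zb →+* Kb) (by exact_mod_cast NeZero.ne N) P hP hdeg

/-- (Phi) -/
theorem ev2_PhiA (A : ValuationSubring Kb) (N : ℕ) [NeZero N] : ev2 (↥A) N (PhiA A N) = 0 := by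
  rw [ev2_apply]; exact PhiA_root A N

section Span

variable (N : ℕ) [NeZero N]

theorem span_aeval_mem (a : Kb[X]) : (aeval (jBar N) a : FN N) ∈ Kb⟮jBar N⟯ :=
  IntermediateField.algebra_adjoin_le_adjoin Kb _ (Polynomial.aeval_mem_adjoin_singleton Kb (jBar N))

theorem span_rel (v : Fin (Nat.card (Cos N) + 1) → FN N) :
    ∃ g : Fin (Nat.card (Cos N) + 1) → Kb[X],
      ∑ i, aeval (jBar N) (g i) * v i = 0 ∧ ∃ i, g i ≠ 0 := by
  let φ : Kb[X] →+* FN N := (aeval (jBar N) : Kb[X] →ₐ[Kb] FN N).toRingHom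
  let φ0 : Kb[X] →+* ↥Kb⟮jBar N⟯ := φ.codRestrict Kb⟮jBar N⟯ (span_aeval_mem N)
  let _ : Algebra Kb[X] ↥Kb⟮jBar N⟯ := φ0.toAlgebra
  let _ : Algebra Kb[X] (FN N) := φ.toAlgebra
  have : IsScalarTower Kb[X] ↥Kb⟮jBar N⟯ (FN N) := IsScalarTower.of_algebraMap_eq' rfl
  have : FaithfulSMul Kb[X] ↥Kb⟮jBar N⟯ := by
    rw [faithfulSMul_iff_algebraMap_injective]
    intro a b hab
    exact (transcendental_iff_injective.1 (jBar_transcendental N)) (congrArg Subtype.val hab)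
  have : IsFractionRing Kb[X] ↥Kb⟮jBar N⟯ := by
    refine IsFractionRing.of_field _ _ fun z => ?_
    obtain ⟨a, s, h⟩ := (IntermediateField.mem_adjoin_simple_iff Kb z.1).1 z.2
    exact ⟨a, s, Subtype.ext h⟩
  obtain ⟨g, hg, hi⟩ := keyAux_exists_rel (A := Kb[X]) (K := ↥Kb⟮jBar N⟯) (Nat.card (Cos N))
    (finrank_FN N).le v
  refine ⟨g, ?_, hi⟩
  rw [← hg]
  exact Finset.sum_congr rfl fun i _ => (Algebra.smul_def _ _).symm

theorem coe_jBar : ((jBar N : FN N) : LaurentSeries Kb) = jqModC Kb := by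
  change coeffEmb Kb jq = _
  rw [coeffEmb, ← jqModC_rat, coeffMap_jqModC]

theorem coe_jdS_N : ((jdS N ⟨N, dvd_rfl⟩ : FN N) : LaurentSeries Kb) = jqNModC Kb N := by
  change coeffEmb Kb (qExpand ℚ N jq) = _
  rw [coeffEmb, ← jqModC_rat, coeffMap_qExpand, coeffMap_jqModC, jqNModC]

theorem coe_aeval_jBar (a : Kb[X]) :
    ((aeval (jBar N) a : FN N) : LaurentSeries Kb) = aeval (jqModC Kb) a := by
  have h := Polynomial.aeval_algebraMap_apply (LaurentSeries Kb) (jBar N) a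
  rw [← coe_jBar N]
  exact h.symm

theorem card_cos_pos : 0 < Nat.card (Cos N) := Nat.card_pos

theorem span_natDegree_lt {R : Type*} [CommRing R] {n : ℕ} (hn : 0 < n) (a : Fin n → R) :
    (∑ i : Fin n, C (a i) * X ^ (i : ℕ)).natDegree < n := by
  by_cases h0 : (∑ i : Fin n, C (a i) * X ^ (i : ℕ)) = 0
  · rw [h0]; simpa using hn
  · exact (Polynomial.natDegree_lt_iff_degree_lt h0).2 (Polynomial.degree_sum_fin_lt a)

theorem span_coeff {R : Type*} [CommRing R] {n : ℕ} (a : Fin n → R) (i : Fin n) :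
    (∑ i : Fin n, C (a i) * X ^ (i : ℕ)).coeff i = a i := by
  rw [Polynomial.finsetSum_coeff, Finset.sum_eq_single i]
  · simp
  · intro j _ hj
    rw [Polynomial.coeff_C_mul_X_pow, if_neg]
    exact fun h => hj (Fin.ext h.symm)
  · intro h; exact absurd (Finset.mem_univ i) h

theorem ev2_sum (a : Fin (Nat.card (Cos N)) → Kb[X]) :
    ev2 Kb N (∑ i, C (a i) * X ^ (i : ℕ)) =
      ((∑ i, aeval (jBar N) (a i) * jdS N ⟨N, dvd_rfl⟩ ^ (i : ℕ) : FN N) : LaurentSeries Kb) := by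
  rw [map_sum]
  have : ((∑ i, aeval (jBar N) (a i) * jdS N ⟨N, dvd_rfl⟩ ^ (i : ℕ) : FN N) : LaurentSeries Kb) =
      ∑ i, ((aeval (jBar N) (a i) * jdS N ⟨N, dvd_rfl⟩ ^ (i : ℕ) : FN N) : LaurentSeries Kb) :=
    map_sum (algebraMap (FN N) (LaurentSeries Kb)) _ _
  rw [this]
  refine Finset.sum_congr rfl fun i _ => ?_
  have h2 : ((aeval (jBar N) (a i) * jdS N ⟨N, dvd_rfl⟩ ^ (i : ℕ) : FN N) : LaurentSeries Kb) =
      ((aeval (jBar N) (a i) : FN N) : LaurentSeries Kb) *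
        ((jdS N ⟨N, dvd_rfl⟩ : FN N) : LaurentSeries Kb) ^ (i : ℕ) := rfl
  rw [h2, coe_aeval_jBar, coe_jdS_N, map_mul, map_pow]
  simp [ev2]

/-- (Span) -/
theorem span_FN (f : FN N) : ∃ (Q : Kb[X]) (G : Kb[X][X]), Q ≠ 0 ∧
    G.natDegree < Nat.card (Cos N) ∧
    (f : LaurentSeries Kb) * aeval (jqModC Kb) Q = ev2 Kb N G := by
  obtain ⟨g, hg, hi⟩ := span_rel N
    (Fin.cons f (fun i : Fin (Nat.card (Cos N)) => jdS N ⟨N, dvd_rfl⟩ ^ (i : ℕ)))
  rw [Fin.sum_univ_succ] at hg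
  simp only [Fin.cons_zero, Fin.cons_succ] at hg
  have hpos := card_cos_pos N
  refine ⟨g 0, -∑ i : Fin (Nat.card (Cos N)), C (g i.succ) * X ^ (i : ℕ), ?_, ?_, ?_⟩
  · intro h0
    rw [h0, map_zero, zero_mul, zero_add] at hg
    have h1 : ev2 Kb N (∑ i : Fin (Nat.card (Cos N)), C (g i.succ) * X ^ (i : ℕ)) = 0 := by
      rw [ev2_sum N (fun i => g i.succ), hg]; rfl
    have h2 : (∑ i : Fin (Nat.card (Cos N)), C (g i.succ) * X ^ (i : ℕ)) = 0 := by
      by_contra hne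
      exact indL N _ hne (span_natDegree_lt hpos _) h1
    obtain ⟨i, hi⟩ := hi
    apply hi
    refine Fin.cases h0 (fun j => ?_) i
    have h3 := span_coeff (fun i => g i.succ) j
    rw [h2, Polynomial.coeff_zero] at h3
    exact h3.symm
  · rw [Polynomial.natDegree_neg]
    exact span_natDegree_lt hpos _
  · rw [map_neg, ev2_sum N (fun i => g i.succ), ← coe_aeval_jBar N]
    have h4 : (∑ i : Fin (Nat.card (Cos N)), aeval (jBar N) (g i.succ) *
        jdS N ⟨N, dvd_rfl⟩ ^ (i : ℕ) : FN N) = -(aeval (jBar N) (g 0) * f) := by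
      linear_combination hg
    rw [h4]
    change _ = -(-(((aeval (jBar N) (g 0) : FN N) : LaurentSeries Kb) * (f : LaurentSeries Kb)))
    ring

end Span

end Fermat.Agent.S18
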