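import Mathlib
import Fermat.Prelude.Def_ModularCurve_ReductionModL
import Fermat.Agent.S24.Hurwitz
import Fermat.Agent.S24.Degree
import Fermat.Agent.S24.Frac

/-!
# S18, step (0): translation of the statement

From `ReductionInputsModL` to a statement about `p`-th powers in function fields.
-/

set_option autoImplicit false
set_option linter.unusedSectionVars false
set_option linter.style.haveILetI false
set_option synthInstance.maxHeartbeats 400000

noncomputable section

namespace Fermat.Agent.S18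

open AlgebraicCurve ModularCurve IntermediateField Fermat.Agent.S24

/-! ### reduction to prime order -/

theorem tr_prime_order {G H : Type*} [AddCommGroup G] [AddCommGroup H] (φ : G →+ H) (ℓ : ℕ)
    (core : ∀ p : ℕ, p.Prime → p ≠ ℓ → ∀ z : G, p • z = 0 → φ z = 0 → z = 0) :
    ∀ (m : ℕ), ¬ ℓ ∣ m → ∀ z : G, m • z = 0 → φ z = 0 → z = 0 := by
  intro m
  induction m using Nat.strong_induction_on with
  | _ m ih =>
    intro hm z hmz hz
    rcases Nat.eq_zero_or_pos m with rfl | hpos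
    · exact absurd (dvd_zero ℓ) hm
    by_cases h1 : m = 1
    · subst h1; simpa using hmz
    have hp := Nat.minFac_prime h1
    obtain ⟨m', hm'⟩ := Nat.minFac_dvd m
    have hm'pos : 0 < m' := by
      rcases Nat.eq_zero_or_pos m' with h | h
      · rw [h, mul_zero] at hm'; omega
      · exact h
    have hlt : m' < m := by
      calc m' = 1 * m' := (one_mul _).symm
        _ < m.minFac * m' := Nat.mul_lt_mul_of_pos_right hp.one_lt hm'pos
        _ = m := hm'.symm
    have hne : m.minFac ≠ ℓ := fun h => hm (h ▸ Nat.minFac_dvd m)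
    have h2 : m' • z = 0 := by
      apply core _ hp hne
      · rw [← mul_smul, ← hm']; exact hmz
      · rw [map_nsmul, hz, smul_zero]
    exact ih m' hlt (fun h => hm (hm' ▸ Dvd.dvd.mul_left h _)) z h2 hz

/-! ### notation -/

variable (A : ValuationSubring Kb) (N : ℕ) [NeZero N]

/-- the residue field of `A` -/
abbrev kA : Type := IsLocalRing.ResidueField A

/-- the function field in characteristic `ℓ` -/
abbrev FbN : Type := ↥(modularFunctionFieldFullC (kA A) N)

/-- `A((q)) → ℚ̄((q))` -/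
abbrev inclA : LaurentSeries A →+* LaurentSeries Kb := coeffMap A.subtype

/-- `A((q)) → k((q))` -/
abbrev redA : LaurentSeries A →+* LaurentSeries (kA A) := coeffMap (IsLocalRing.residue A)

/-- `f ∈ F` and `fb ∈ F̄` are quotients `a/b`, `ā/b̄` of integral elements with nonzero
reduction. -/
def UnitRel (f : FN N) (fb : FbN A N) : Prop :=
  ∃ a b : LaurentSeries A, inclA A a ∈ modularFunctionFieldBar N ∧
    inclA A b ∈ modularFunctionFieldBar N ∧
    redA A a ∈ modularFunctionFieldFullC (kA A) N ∧ redA A b ∈ modularFunctionFieldFullC (kA A) N ∧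
    redA A a ≠ 0 ∧ redA A b ≠ 0 ∧
    (f : LaurentSeries Kb) * inclA A b = inclA A a ∧
    (fb : LaurentSeries (kA A)) * redA A b = redA A a

variable {A N}

theorem inclA_injective : Function.Injective (inclA A) := by
  intro x y h
  ext n
  have := congrArg (fun z => z.coeff n) h
  simpa [coeffMap_coeff] using this

theorem inclA_ne_zero_of_redA {a : LaurentSeries A} (h : redA A a ≠ 0) : inclA A a ≠ 0 := by
  intro h0
  have : a = 0 := inclA_injective (by rw [h0, map_zero])
  exact h (by rw [this, map_zero])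

theorem UnitRel.ne_zero {f : FN N} {fb : FbN A N} (h : UnitRel A N f fb) : f ≠ 0 ∧ fb ≠ 0 := by
  obtain ⟨a, b, -, -, -, -, ha, hb, h1, h2⟩ := h
  constructor
  · rintro rfl
    apply inclA_ne_zero_of_redA ha
    rw [← h1]; simp
  · rintro rfl
    apply ha
    rw [← h2]; simp

theorem UnitRel.one : UnitRel A N 1 1 :=
  ⟨1, 1, by rw [map_one]; exact one_mem _, by rw [map_one]; exact one_mem _,
    by rw [map_one]; exact one_mem _, by rw [map_one]; exact one_mem _,
    by rw [map_one]; exact one_ne_zero, by rw [map_one]; exact one_ne_zero, by simp, by simp⟩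

theorem UnitRel.mul {f f' : FN N} {fb fb' : FbN A N} (h : UnitRel A N f fb)
    (h' : UnitRel A N f' fb') : UnitRel A N (f * f') (fb * fb') := by
  obtain ⟨a, b, m1, m2, m3, m4, ha, hb, h1, h2⟩ := h
  obtain ⟨a', b', m1', m2', m3', m4', ha', hb', h1', h2'⟩ := h'
  refine ⟨a * a', b * b', ?_, ?_, ?_, ?_, ?_, ?_, ?_, ?_⟩
  · rw [map_mul]; exact mul_mem m1 m1'
  · rw [map_mul]; exact mul_mem m2 m2'
  · rw [map_mul]; exact mul_mem m3 m3'
  · rw [map_mul]; exact mul_mem m4 m4'
  · rw [map_mul]; exact mul_ne_zero ha ha'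
  · rw [map_mul]; exact mul_ne_zero hb hb'
  · rw [map_mul, map_mul, ← h1, ← h1']; push_cast; ring
  · rw [map_mul, map_mul, ← h2, ← h2']; push_cast; ring

theorem UnitRel.inv {f : FN N} {fb : FbN A N} (h : UnitRel A N f fb) :
    UnitRel A N f⁻¹ fb⁻¹ := by
  obtain ⟨hf, hfb⟩ := h.ne_zero
  obtain ⟨a, b, m1, m2, m3, m4, ha, hb, h1, h2⟩ := h
  refine ⟨b, a, m2, m1, m4, m3, hb, ha, ?_, ?_⟩
  · have hf' : (f : LaurentSeries Kb) ≠ 0 := fun h => hf (Subtype.ext h)
    rw [← h1]; push_cast; field_simp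
  · have hf' : (fb : LaurentSeries (kA A)) ≠ 0 := fun h => hfb (Subtype.ext h)
    rw [← h2]; push_cast; field_simp

theorem UnitRel.of_integral (y : LaurentSeries A) (hy : inclA A y ∈ modularFunctionFieldBar N)
    (hyk : redA A y ∈ modularFunctionFieldFullC (kA A) N) (hne : redA A y ≠ 0) :
    UnitRel A N ⟨inclA A y, hy⟩ ⟨redA A y, hyk⟩ :=
  ⟨y, 1, hy, by rw [map_one]; exact one_mem _, hyk, by rw [map_one]; exact one_mem _, hne,
    by rw [map_one]; exact one_ne_zero, by simp, by simp⟩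

/-! ### lifting elements of `F̄` -/

theorem tr_jd_incl_mem {d : ℕ} [NeZero d] (hd : d ∣ N) :
    inclA A (jqNModC A d) ∈ modularFunctionFieldBar N := by
  have h1 : inclA A (jqNModC A d) = coeffEmb Kb (qExpand ℚ d jq) := by
    rw [coeffMap_jqNModC, coeffEmb, ← jqModC_rat, ← jqNModC, coeffMap_jqNModC]
  rw [h1]
  exact coeffEmb_mem_laurentBaseChange Kb (jqd_mem_full N hd)

theorem tr_exists_lift {u : LaurentSeries (kA A)}
    (hu : u ∈ Algebra.adjoin (kA A) (divisorExpansionsC (kA A) N)) :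
    ∃ y : LaurentSeries A, inclA A y ∈ modularFunctionFieldBar N ∧ redA A y = u := by
  induction hu using Algebra.adjoin_induction with
  | mem x hx =>
    obtain ⟨d, hd0, hd, rfl⟩ := hx
    exact ⟨jqNModC A d, tr_jd_incl_mem hd, by rw [coeffMap_jqNModC]; rfl⟩
  | algebraMap c =>
    obtain ⟨a, rfl⟩ := IsLocalRing.residue_surjective c
    refine ⟨HahnSeries.single 0 a, ?_, ?_⟩
    · rw [coeffMap_single, ← algebraMap_laurentSeries_eq_single]
      exact IntermediateField.algebraMap_mem _ _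
    · rw [coeffMap_single, ← algebraMap_laurentSeries_eq_single]
  | add x y _ _ hx hy =>
    obtain ⟨a, ha, rfl⟩ := hx
    obtain ⟨b, hb, rfl⟩ := hy
    exact ⟨a + b, by rw [map_add]; exact add_mem ha hb, map_add _ _ _⟩
  | mul x y _ _ hx hy =>
    obtain ⟨a, ha, rfl⟩ := hx
    obtain ⟨b, hb, rfl⟩ := hy
    exact ⟨a * b, by rw [map_mul]; exact mul_mem ha hb, map_mul _ _ _⟩

theorem tr_exists_frac_bar (u : FbN A N) (hu : u ≠ 0) : ∃ f : FN N, UnitRel A N f u := by
  have hu' : (u : LaurentSeries (kA A)) ≠ 0 := fun h => hu (Subtype.ext h)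
  obtain ⟨r, hr, s, hs, hrs⟩ := IntermediateField.mem_adjoin_iff_div.mp u.2
  have hs0 : s ≠ 0 := by
    rintro rfl
    rw [div_zero] at hrs
    exact hu' hrs
  have hr0 : r ≠ 0 := by
    rintro rfl
    rw [zero_div] at hrs
    exact hu' hrs
  have hrF : r ∈ modularFunctionFieldFullC (kA A) N :=
    IntermediateField.algebra_adjoin_le_adjoin _ _ hr
  have hsF : s ∈ modularFunctionFieldFullC (kA A) N :=
    IntermediateField.algebra_adjoin_le_adjoin _ _ hs
  obtain ⟨a, ha, rfl⟩ := tr_exists_lift hr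
  obtain ⟨b, hb, rfl⟩ := tr_exists_lift hs
  have hb0 := inclA_ne_zero_of_redA hs0
  refine ⟨⟨inclA A a, ha⟩ / ⟨inclA A b, hb⟩, a, b, ha, hb, hrF, hsF, hr0, hs0, ?_, ?_⟩
  · push_cast
    field_simp
  · rw [hrs]
    field_simp

/-! ### divisors -/

theorem tr_exists_div (f : FN N) :
    ∃ D : Divisor Kb (FN N), (∀ P, D P = P.ord f) ∧ Divisor.degree D = 0 := by
  have hfin := finite_support_ord (K := Kb) (jBar N) f
  refine ⟨Finsupp.ofSupportFinite (fun P : Place Kb (FN N) => P.ord f) hfin, fun P => rfl, ?_⟩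
  rw [hz_degree_eq_finsum (jBar N) (jBar_transcendental N)]
  exact finsum_ord_eq_zero (jBar N) f

variable {r : Place Kb (FN N) → Place (kA A) (FbN A N)}

theorem tr_ord_of_unitRel (hr : IsPlaceReductionModL A N r) {f : FN N} {fb : FbN A N}
    (h : UnitRel A N f fb) (D : Divisor Kb (FN N)) (hD : ∀ P, D P = P.ord f)
    (Q : Place (kA A) (FbN A N)) : Finsupp.mapDomain r D Q = Q.ord fb := by
  obtain ⟨hf, hfb⟩ := h.ne_zero
  obtain ⟨a, b, m1, m2, m3, m4, ha, hb, h1, h2⟩ := h
  obtain ⟨Da, hDa, -⟩ := tr_exists_div (⟨inclA A a, m1⟩ : FN N)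
  obtain ⟨Db, hDb, -⟩ := tr_exists_div (⟨inclA A b, m2⟩ : FN N)
  have hb0 : (⟨inclA A b, m2⟩ : FN N) ≠ 0 := fun h =>
    inclA_ne_zero_of_redA hb (congrArg Subtype.val h)
  have hbb0 : (⟨redA A b, m4⟩ : FbN A N) ≠ 0 := fun h => hb (congrArg Subtype.val h)
  have e1 : f * (⟨inclA A b, m2⟩ : FN N) = ⟨inclA A a, m1⟩ := Subtype.ext h1
  have e2 : fb * (⟨redA A b, m4⟩ : FbN A N) = ⟨redA A a, m3⟩ := Subtype.ext h2
  have hDD : D = Da - Db := by
    ext P
    rw [Finsupp.sub_apply, hD, hDa, hDb, ← e1, P.ord_mul hf hb0]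
    ring
  rw [hDD, Finsupp.mapDomain_sub, Finsupp.sub_apply, hr.2 a m1 m3 ha Da hDa Q,
    hr.2 b m2 m4 hb Db hDb Q, ← e2, Q.ord_mul hfb hbb0]
  ring

theorem tr_exists_div_bar (hr : IsPlaceReductionModL A N r) (u : FbN A N) (hu : u ≠ 0) :
    ∃ E : Divisor (kA A) (FbN A N), (∀ Q, E Q = Q.ord u) ∧ Divisor.degree E = 0 ∧
      ∀ Q, E Q ≠ 0 → Q.deg = 1 := by
  classical
  obtain ⟨f, hf⟩ := tr_exists_frac_bar u hu
  obtain ⟨D, hD, hdeg⟩ := tr_exists_div f
  refine ⟨Finsupp.mapDomain r D, tr_ord_of_unitRel hr hf D hD, ?_, ?_⟩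
  · rw [degree_mapDomain_of_deg_eq hr.1, hdeg]
  · intro Q hQ
    have h1 : Q ∈ (Finsupp.mapDomain r D).support := Finsupp.mem_support_iff.mpr hQ
    have h2 := Finsupp.mapDomain_support h1
    obtain ⟨P, -, rfl⟩ := Finset.mem_image.mp h2
    rw [hr.1 P]
    exact deg_eq_one (jBar N) (jBar_transcendental N) P

/-! ### the `q`-adic place of `F̄` -/

theorem tr_exists_place_infty : ∃ (v : Place (kA A) (FbN A N)) (g : ℤ), 0 < g ∧
    ∀ f : FbN A N, f ≠ 0 → (f : LaurentSeries (kA A)).order = g * v.ord f := by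
  apply exists_place_of_ord (fun f : FbN A N => (f : LaurentSeries (kA A)).order)
  · intro f g hf hg
    have hf' : (f : LaurentSeries (kA A)) ≠ 0 := fun h => hf (Subtype.ext h)
    have hg' : (g : LaurentSeries (kA A)) ≠ 0 := fun h => hg (Subtype.ext h)
    exact HahnSeries.order_mul hf' hg'
  · intro f g hf hg hfg
    have hfg' : (f : LaurentSeries (kA A)) + (g : LaurentSeries (kA A)) ≠ 0 :=
      fun h => hfg (Subtype.ext h)
    exact HahnSeries.min_order_le_order_add hfg'
  · intro c hc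
    change (algebraMap (kA A) (LaurentSeries (kA A)) c).order = 0
    rw [algebraMap_laurentSeries_eq_single, HahnSeries.order_single hc]
  · refine ⟨⟨jqModC (kA A), jqModC_mem_full (kA A) N⟩, ?_, ?_⟩
    · intro h
      exact jqModC_ne_zero_of_nontrivial (kA A) (congrArg Subtype.val h)
    · have h1 : (jqModC (kA A)).coeff (-1) ≠ 0 := by
        rw [coeff_jqModC_neg_one]; exact one_ne_zero
      have h2 := HahnSeries.order_le_of_coeff_ne_zero h1
      change (jqModC (kA A)).order ≠ 0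
      omega

theorem tr_coe_algebraMap (c : kA A) :
    ((algebraMap (kA A) (FbN A N) c : FbN A N) : LaurentSeries (kA A)) = HahnSeries.single 0 c := by
  rw [← algebraMap_laurentSeries_eq_single]; rfl

set_option maxHeartbeats 1600000 in
/-- a function on `X̄` without zeros and poles is constant -/
theorem tr_const_of_ord_eq_zero (hr : IsPlaceReductionModL A N r) (u : FbN A N) (hu : u ≠ 0)
    (h0 : ∀ Q : Place (kA A) (FbN A N), Q.ord u = 0) :
    ∃ c : kA A, c ≠ 0 ∧ u = algebraMap (kA A) (FbN A N) c := by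
  classical
  obtain ⟨v, g, hg, hv⟩ := tr_exists_place_infty (A := A) (N := N)
  have hu' : (u : LaurentSeries (kA A)) ≠ 0 := fun h => hu (Subtype.ext h)
  have hord : (u : LaurentSeries (kA A)).order = 0 := by rw [hv u hu, h0, mul_zero]
  set c : kA A := (u : LaurentSeries (kA A)).coeff 0 with hc
  have hc0 : c ≠ 0 := by
    intro h
    apply hu'
    rw [← HahnSeries.coeff_order_eq_zero, hord]
    exact h
  refine ⟨c, hc0, ?_⟩
  by_contra hne
  set w : FbN A N := u - algebraMap (kA A) (FbN A N) c with hw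
  have hw0 : w ≠ 0 := sub_ne_zero.mpr hne
  have hw' : (w : LaurentSeries (kA A)) ≠ 0 := fun h => hw0 (Subtype.ext h)
  have hwc : ∀ n : ℤ, n ≤ 0 → (w : LaurentSeries (kA A)).coeff n = 0 := by
    intro n hn
    have e : (w : LaurentSeries (kA A)) = (u : LaurentSeries (kA A)) - HahnSeries.single 0 c := by
      rw [← tr_coe_algebraMap (N := N)]; rfl
    rw [e, HahnSeries.coeff_sub]
    rcases hn.lt_or_eq with h | rfl
    · rw [HahnSeries.coeff_eq_zero_of_lt_order (by rw [hord]; exact h),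
        HahnSeries.coeff_single_of_ne h.ne, sub_zero]
    · rw [HahnSeries.coeff_single_same, sub_self]
  have hwpos : 0 < (w : LaurentSeries (kA A)).order := by
    by_contra hle
    exact hw' (HahnSeries.coeff_order_eq_zero.mp (hwc _ (not_lt.mp hle)))
  have hvw : 0 < v.ord w := by
    rw [hv w hw0] at hwpos
    exact (mul_pos_iff_of_pos_left hg).mp hwpos
  obtain ⟨E, hE, hdeg, hE1⟩ := tr_exists_div_bar hr w hw0
  have hcc0 : algebraMap (kA A) (FbN A N) c ≠ 0 := by
    intro h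
    have h2 : ((algebraMap (kA A) (FbN A N) c : FbN A N) : LaurentSeries (kA A))
        = ((0 : FbN A N) : LaurentSeries (kA A)) := by rw [h]
    rw [tr_coe_algebraMap, ZeroMemClass.coe_zero, HahnSeries.single_eq_zero_iff] at h2
    exact hc0 h2
  have hnonneg : ∀ Q : Place (kA A) (FbN A N), 0 ≤ E Q := by
    intro Q
    rw [hE]
    have hcc : -algebraMap (kA A) (FbN A N) c ≠ 0 := neg_ne_zero.mpr hcc0
    have := min_le_ord_add Q hu hcc (by rw [← sub_eq_add_neg]; exact hw0)
    rw [h0, ord_neg, ord_algebraMap, min_self, ← sub_eq_add_neg] at this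
    exact this
  have h1 : Divisor.degree E = E.sum fun v n => n * (v.deg : ℤ) := by
    simp [Divisor.degree, Finsupp.liftAddHom_apply]
  rw [h1, Finsupp.sum] at hdeg
  have hvE : E v ≠ 0 := by rw [hE]; exact hvw.ne'
  have hmem : v ∈ E.support := Finsupp.mem_support_iff.mpr hvE
  have h2 : E v * (v.deg : ℤ) ≤ ∑ Q ∈ E.support, E Q * (Q.deg : ℤ) :=
    Finset.single_le_sum (f := fun Q => E Q * (Q.deg : ℤ))
      (fun Q _ => mul_nonneg (hnonneg Q) (Int.natCast_nonneg _)) hmem
  rw [hdeg, hE1 v hvE, hE] at h2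
  simp only [Nat.cast_one, mul_one] at h2
  omega

/-! ### the translation -/

theorem tr_closure {D : Divisor Kb (FN N)}
    (hD : D ∈ AddSubgroup.closure (integralPrincipalDivisors A (IsLocalRing.residue A) N)) :
    ∃ (f : FN N) (fb : FbN A N), UnitRel A N f fb ∧ ∀ P : Place Kb (FN N), D P = P.ord f := by
  induction hD using AddSubgroup.closure_induction with
  | mem E hE =>
    obtain ⟨y, hy, hyk, hne, hDy⟩ := hE
    exact ⟨_, _, UnitRel.of_integral y hy hyk hne, hDy⟩
  | zero => exact ⟨1, 1, UnitRel.one, fun P => by simp⟩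
  | add E E' _ _ hE hE' =>
    obtain ⟨f, fb, h1, h2⟩ := hE
    obtain ⟨f', fb', h1', h2'⟩ := hE'
    exact ⟨f * f', fb * fb', h1.mul h1', fun P => by
      rw [Finsupp.add_apply, h2, h2', P.ord_mul h1.ne_zero.1 h1'.ne_zero.1]⟩
  | neg E _ hE =>
    obtain ⟨f, fb, h1, h2⟩ := hE
    exact ⟨f⁻¹, fb⁻¹, h1.inv, fun P => by rw [Finsupp.neg_apply, h2, P.ord_inv]⟩

set_option maxHeartbeats 1600000 in
theorem tr_core_prime [IsAlgClosed (kA A)] (h : ReductionInputsModL A N) (p : ℕ) (hp : p.Prime)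
    (core : ∀ (f : FN N) (gb : FbN A N), gb ≠ 0 → UnitRel A N f (gb ^ p) →
      (∀ v : Place Kb (FN N), (p : ℤ) ∣ v.ord f) → ∃ y : FN N, f = y ^ p)
    (z : JZero N) (hpz : p • z = 0) (hz : reductionModL A N z = 0) : z = 0 := by
  obtain ⟨D, rfl⟩ := Pic0.mk_surjective z
  have hr := isPlaceReductionModL_placeReductionModL h
  have hgen : PrincipalGeneratedByIntegral A (IsLocalRing.residue A) N := h.choose_spec.2
  have h1 : (p • (D : Divisor Kb (FN N))) ∈
      Divisor.principal (K := Kb) (F := FN N) := by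
    have h2 : (Pic0.mk (p • D) : JZero N) = 0 := hpz
    rw [Pic0.mk, QuotientAddGroup.eq_zero_iff, AddSubgroup.mem_addSubgroupOf] at h2
    exact h2
  rw [reductionModL_mk h D, Pic0.mk, QuotientAddGroup.eq_zero_iff, AddSubgroup.mem_addSubgroupOf,
    coe_reductionDegZeroAlong] at hz
  obtain ⟨g0, hg0, hg⟩ := hz
  obtain ⟨f, fb, hrel, hf⟩ := tr_closure (hgen h1)
  obtain ⟨hf0, hfb0⟩ := hrel.ne_zero
  have hfb : ∀ Q : Place (kA A) (FbN A N), Q.ord fb = p * Q.ord g0 := by
    intro Q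
    rw [← tr_ord_of_unitRel hr hrel _ hf Q, Finsupp.mapDomain_smul, Finsupp.smul_apply, hg Q]
    simp
  have hgp : g0 ^ p ≠ 0 := pow_ne_zero _ hg0
  obtain ⟨c, hc0, hc⟩ := tr_const_of_ord_eq_zero hr (fb / g0 ^ p) (div_ne_zero hfb0 hgp)
    (fun Q => by rw [ord_div Q hfb0 hgp, ord_pow, hfb]; ring)
  obtain ⟨c1, hc1⟩ := IsAlgClosed.exists_pow_nat_eq c hp.pos
  have hfb' : fb = (algebraMap (kA A) (FbN A N) c1 * g0) ^ p := by
    rw [mul_pow, ← map_pow, hc1, ← hc]
    field_simp
  have hne : algebraMap (kA A) (FbN A N) c1 * g0 ≠ 0 := by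
    intro h0
    rw [h0, zero_pow hp.ne_zero] at hfb'
    exact hfb0 hfb'
  obtain ⟨y, hy⟩ := core f _ hne (hfb' ▸ hrel) (fun v => ⟨D.1 v, by
    rw [← hf]; simp⟩)
  have hy0 : y ≠ 0 := by
    rintro rfl
    rw [zero_pow hp.ne_zero] at hy
    exact hf0 hy
  rw [Pic0.mk, QuotientAddGroup.eq_zero_iff, AddSubgroup.mem_addSubgroupOf]
  refine ⟨y, hy0, fun P => ?_⟩
  have h3 := hf P
  rw [hy, ord_pow, Finsupp.smul_apply, nsmul_eq_mul] at h3
  exact mul_left_cancel₀ (Nat.cast_ne_zero.mpr hp.ne_zero) h3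

/-- **Translation**: S18 follows from the statement `core` on `p`-th powers. -/
theorem s18_of_core [IsAlgClosed (kA A)] (ℓ : ℕ) (h : ReductionInputsModL A N)
    (core : ∀ p : ℕ, p.Prime → p ≠ ℓ → ∀ (f : FN N) (gb : FbN A N), gb ≠ 0 →
      UnitRel A N f (gb ^ p) → (∀ v : Place Kb (FN N), (p : ℤ) ∣ v.ord f) → ∃ y : FN N, f = y ^ p)
    (m : ℕ) (hm : ¬ ℓ ∣ m) (z : JZero N) (hmz : m • z = 0) (hz : reductionModL A N z = 0) :
    z = 0 :=
  tr_prime_order (reductionModL A N) ℓ
    (fun p hp hpl z h1 h2 => tr_core_prime h p hp (core p hp hpl) z h1 h2) m hm z hmz hz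

end Fermat.Agent.S18
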