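import Mathlib

set_option autoImplicit false

/-! # S18 plan Z, module (a): the Gauss valuation ring of `RatFunc L` -/

namespace Fermat.Agent.S18

open Polynomial

variable {L : Type*} [Field L] (A : ValuationSubring L)

/-- the residue field of `A` -/
abbrev Kres : Type _ := IsLocalRing.ResidueField A

/-- `A[τ] → L(τ)` -/
noncomputable def gIncl : (↥A)[X] →+* RatFunc L :=
  (algebraMap L[X] (RatFunc L)).comp (Polynomial.mapRingHom A.subtype)

/-- `A[τ] → k(τ)` -/
noncomputable def gRed : (↥A)[X] →+* RatFunc (Kres A) :=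
  (algebraMap (Kres A)[X] (RatFunc (Kres A))).comp
    (Polynomial.mapRingHom (IsLocalRing.residue A))

theorem gIncl_injective : Function.Injective (gIncl A) := by
  have h1 : Function.Injective (Polynomial.mapRingHom A.subtype) :=
    Polynomial.map_injective _ Subtype.val_injective
  exact (IsFractionRing.injective L[X] (RatFunc L)).comp h1

theorem gRed_eq_zero_iff (p : (↥A)[X]) :
    gRed A p = 0 ↔ p.map (IsLocalRing.residue A) = 0 := by
  unfold gRed
  rw [RingHom.comp_apply, Polynomial.coe_mapRingHom]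
  exact map_eq_zero_iff _ (IsFractionRing.injective (Kres A)[X] (RatFunc (Kres A)))

/-- The Gauss valuation ring of `L(τ)`: fractions `p/q`, `p, q ∈ A[τ]`, `q` primitive. -/
def OV : Subring (RatFunc L) where
  carrier := {f | ∃ p q : (↥A)[X], gRed A q ≠ 0 ∧ f * gIncl A q = gIncl A p}
  mul_mem' := by
    rintro f g ⟨p, q, hq, h⟩ ⟨p', q', hq', h'⟩
    refine ⟨p * p', q * q', ?_, ?_⟩
    · rw [map_mul]; exact mul_ne_zero hq hq'
    · rw [map_mul, map_mul, ← h, ← h']; ring
  one_mem' := ⟨1, 1, by rw [map_one]; exact one_ne_zero, by simp⟩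
  add_mem' := by
    rintro f g ⟨p, q, hq, h⟩ ⟨p', q', hq', h'⟩
    refine ⟨p * q' + p' * q, q * q', ?_, ?_⟩
    · rw [map_mul]; exact mul_ne_zero hq hq'
    · rw [map_mul, map_add, map_mul, map_mul, ← h, ← h']; ring
  zero_mem' := ⟨0, 1, by rw [map_one]; exact one_ne_zero, by simp⟩
  neg_mem' := by
    rintro f ⟨p, q, hq, h⟩
    exact ⟨-p, q, hq, by rw [map_neg, ← h]; ring⟩

theorem mem_OV_iff {f : RatFunc L} :
    f ∈ OV A ↔ ∃ p q : (↥A)[X], gRed A q ≠ 0 ∧ f * gIncl A q = gIncl A p := Iff.rfl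

theorem gIncl_ne_zero {q : (↥A)[X]} (hq : gRed A q ≠ 0) : gIncl A q ≠ 0 := by
  intro h
  have : q = 0 := gIncl_injective A (by rw [h, map_zero])
  exact hq (by rw [this, map_zero])

/-- underlying function of `redV` -/
noncomputable def redVFun (f : OV A) : RatFunc (Kres A) :=
  gRed A f.2.choose / gRed A f.2.choose_spec.choose

theorem redVFun_eq (f : OV A) {p q : (↥A)[X]} (hq : gRed A q ≠ 0)
    (h : (f : RatFunc L) * gIncl A q = gIncl A p) : redVFun A f = gRed A p / gRed A q := by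
  obtain ⟨hq', h'⟩ := f.2.choose_spec.choose_spec
  set p' := f.2.choose
  set q' := f.2.choose_spec.choose
  have key : p' * q = p * q' := by
    apply gIncl_injective A
    rw [map_mul, map_mul, ← h, ← h']; ring
  have key2 : gRed A p' * gRed A q = gRed A p * gRed A q' := by
    rw [← map_mul, ← map_mul, key]
  show gRed A p' / gRed A q' = _
  rw [div_eq_div_iff hq' hq, key2]

/-- reduction `O_V → k(τ)` -/
noncomputable def redV : OV A →+* RatFunc (Kres A) where
  toFun := redVFun A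
  map_one' := by
    rw [redVFun_eq A 1 (p := 1) (q := 1) (by rw [map_one]; exact one_ne_zero) (by simp)]
    simp
  map_zero' := by
    rw [redVFun_eq A 0 (p := 0) (q := 1) (by rw [map_one]; exact one_ne_zero) (by simp)]
    simp
  map_mul' := by
    rintro ⟨f, p, q, hq, h⟩ ⟨g, p', q', hq', h'⟩
    rw [redVFun_eq A ⟨f, p, q, hq, h⟩ hq h, redVFun_eq A ⟨g, p', q', hq', h'⟩ hq' h',
      redVFun_eq A (⟨f, p, q, hq, h⟩ * ⟨g, p', q', hq', h'⟩) (p := p * p') (q := q * q')
        (by rw [map_mul]; exact mul_ne_zero hq hq')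
        (by
          show f * g * _ = _
          rw [map_mul, map_mul, ← h, ← h']; ring)]
    rw [map_mul, map_mul, mul_div_mul_comm]
  map_add' := by
    rintro ⟨f, p, q, hq, h⟩ ⟨g, p', q', hq', h'⟩
    rw [redVFun_eq A ⟨f, p, q, hq, h⟩ hq h, redVFun_eq A ⟨g, p', q', hq', h'⟩ hq' h',
      redVFun_eq A (⟨f, p, q, hq, h⟩ + ⟨g, p', q', hq', h'⟩) (p := p * q' + p' * q) (q := q * q')
        (by rw [map_mul]; exact mul_ne_zero hq hq')
        (by
          show (f + g) * _ = _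
          rw [map_mul, map_add, map_mul, map_mul, ← h, ← h']; ring)]
    rw [map_mul, map_add, map_mul, map_mul, div_add_div _ _ hq hq', mul_comm (gRed A q) (gRed A p')]

theorem redV_eq (f : OV A) {p q : (↥A)[X]} (hq : gRed A q ≠ 0)
    (h : (f : RatFunc L) * gIncl A q = gIncl A p) : redV A f = gRed A p / gRed A q :=
  redVFun_eq A f hq h


/-! ### basic membership -/

theorem gIncl_mem (p : (↥A)[X]) : gIncl A p ∈ OV A :=
  ⟨p, 1, by rw [map_one]; exact one_ne_zero, by simp⟩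

theorem redV_gIncl (p : (↥A)[X]) : redV A ⟨gIncl A p, gIncl_mem A p⟩ = gRed A p := by
  rw [redV_eq A _ (p := p) (q := 1) (by rw [map_one]; exact one_ne_zero) (by simp)]
  simp

theorem div_mem (p : (↥A)[X]) {q : (↥A)[X]} (hq : gRed A q ≠ 0) :
    gIncl A p / gIncl A q ∈ OV A :=
  ⟨p, q, hq, div_mul_cancel₀ _ (gIncl_ne_zero A hq)⟩

theorem redV_div (p : (↥A)[X]) {q : (↥A)[X]} (hq : gRed A q ≠ 0) :
    redV A ⟨gIncl A p / gIncl A q, div_mem A p hq⟩ = gRed A p / gRed A q :=
  redV_eq A _ hq (div_mul_cancel₀ _ (gIncl_ne_zero A hq))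

theorem exists_eq_div (f : OV A) : ∃ p q : (↥A)[X], gRed A q ≠ 0 ∧
    (f : RatFunc L) = gIncl A p / gIncl A q ∧ redV A f = gRed A p / gRed A q := by
  obtain ⟨p, q, hq, h⟩ := f.2
  exact ⟨p, q, hq, by rw [← h, mul_div_cancel_right₀ _ (gIncl_ne_zero A hq)], redV_eq A f hq h⟩

theorem gIncl_C (a : A) : gIncl A (C a) = RatFunc.C (a : L) := by
  simp [gIncl, RatFunc.algebraMap_C]

theorem gRed_C (a : A) : gRed A (C a) = RatFunc.C (IsLocalRing.residue A a) := by
  simp [gRed, RatFunc.algebraMap_C]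

theorem gIncl_X : gIncl A X = RatFunc.X := by
  simp [gIncl, RatFunc.algebraMap_X]

theorem gRed_X : gRed A X = RatFunc.X := by
  simp [gRed, RatFunc.algebraMap_X]

theorem C_mem {a : L} (ha : a ∈ A) : RatFunc.C a ∈ OV A := by
  have := gIncl_mem A (C (⟨a, ha⟩ : A))
  rwa [gIncl_C] at this

theorem redV_C {a : L} (ha : a ∈ A) :
    redV A ⟨RatFunc.C a, C_mem A ha⟩ = RatFunc.C (IsLocalRing.residue A ⟨a, ha⟩) := by
  have h := redV_gIncl A (C (⟨a, ha⟩ : A))
  rw [gRed_C] at h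
  rw [← h]
  congr 1
  exact Subtype.ext (gIncl_C A ⟨a, ha⟩).symm

theorem X_mem : (RatFunc.X : RatFunc L) ∈ OV A := by
  have := gIncl_mem A X
  rwa [gIncl_X] at this

theorem redV_X : redV A ⟨RatFunc.X, X_mem A⟩ = RatFunc.X := by
  have h := redV_gIncl A X
  rw [gRed_X] at h
  rw [← h]
  congr 1
  exact Subtype.ext (gIncl_X A).symm

theorem X_inv_mem : (RatFunc.X : RatFunc L)⁻¹ ∈ OV A := by
  have := div_mem A 1 (q := X) (by rw [gRed_X]; exact RatFunc.X_ne_zero)
  rwa [map_one, gIncl_X, one_div] at this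

theorem redV_X_inv : redV A ⟨RatFunc.X⁻¹, X_inv_mem A⟩ = RatFunc.X⁻¹ := by
  rw [redV_eq A _ (p := 1) (q := X) (by rw [gRed_X]; exact RatFunc.X_ne_zero)
    (by
      show (RatFunc.X : RatFunc L)⁻¹ * _ = _
      rw [gIncl_X, map_one, inv_mul_cancel₀ RatFunc.X_ne_zero])]
  rw [map_one, gRed_X, one_div]

/-! ### lifting polynomials, primitive scaling -/

theorem exists_lift {Q : L[X]} (h : ∀ i, Q.coeff i ∈ A) : ∃ p : (↥A)[X], p.map A.subtype = Q := by
  have : Q ∈ Polynomial.lifts A.subtype := by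
    rw [Polynomial.lifts_iff_coeff_lifts]
    intro n
    exact ⟨⟨Q.coeff n, h n⟩, rfl⟩
  obtain ⟨p, hp⟩ := this
  exact ⟨p, hp⟩

theorem gIncl_eq (p : (↥A)[X]) : gIncl A p = algebraMap L[X] (RatFunc L) (p.map A.subtype) := rfl

theorem gRed_eq (p : (↥A)[X]) :
    gRed A p = algebraMap (Kres A)[X] (RatFunc (Kres A)) (p.map (IsLocalRing.residue A)) := rfl

theorem gRed_ne_zero_iff (p : (↥A)[X]) : gRed A p ≠ 0 ↔ ∃ i, IsUnit (p.coeff i) := by
  rw [Ne, gRed_eq_zero_iff, Polynomial.ext_iff, not_forall]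
  refine exists_congr fun i => ?_
  rw [Polynomial.coeff_map, Polynomial.coeff_zero, IsLocalRing.residue_eq_zero_iff,
    IsLocalRing.mem_maximalIdeal, mem_nonunits_iff, not_not]

theorem exists_primitive {P : L[X]} (hP : P ≠ 0) : ∃ (c : L) (p : (↥A)[X]), c ≠ 0 ∧
    gRed A p ≠ 0 ∧ P = Polynomial.C c * p.map A.subtype := by
  have hne : P.support.Nonempty := by
    rwa [Finset.nonempty_iff_ne_empty, Ne, Polynomial.support_eq_empty]
  obtain ⟨i₀, hi₀, hmax⟩ := Finset.exists_max_image P.support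
    (fun i => A.valuation (P.coeff i)) hne
  set c := P.coeff i₀ with hc
  have hc0 : c ≠ 0 := Polynomial.mem_support_iff.1 hi₀
  have hmem : ∀ i, (Polynomial.C c⁻¹ * P).coeff i ∈ A := by
    intro i
    rw [Polynomial.coeff_C_mul, ← A.valuation_le_one_iff, map_mul, map_inv₀]
    by_cases hi : i ∈ P.support
    · have h1 := hmax i hi
      have hv : A.valuation c ≠ 0 := (Valuation.ne_zero_iff _).2 hc0
      rw [inv_mul_le_iff₀ (zero_lt_iff.2 hv), mul_one]
      exact h1
    · rw [Polynomial.notMem_support_iff.1 hi, map_zero, mul_zero]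
      exact zero_le_one
  obtain ⟨p, hp⟩ := exists_lift A hmem
  refine ⟨c, p, hc0, ?_, ?_⟩
  · rw [gRed_ne_zero_iff]
    refine ⟨i₀, ?_⟩
    have : p.coeff i₀ = 1 := by
      apply Subtype.ext
      have h2 := congrArg (fun Q => Q.coeff i₀) hp
      simp only [Polynomial.coeff_map, Polynomial.coeff_C_mul] at h2
      rw [← hc, inv_mul_cancel₀ hc0] at h2
      exact h2
    rw [this]; exact isUnit_one
  · rw [hp, ← mul_assoc, ← Polynomial.C_mul, mul_inv_cancel₀ hc0, Polynomial.C_1, one_mul]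

theorem mem_of_C_mul {c : L} {r p : (↥A)[X]} (hr : gRed A r ≠ 0)
    (h : Polynomial.C c * r.map A.subtype = p.map A.subtype) : c ∈ A := by
  obtain ⟨i, hi⟩ := (gRed_ne_zero_iff A r).1 hr
  obtain ⟨u, hu⟩ := hi
  have h2 := congrArg (fun Q => Q.coeff i) h
  simp only [Polynomial.coeff_map, Polynomial.coeff_C_mul] at h2
  have h3 : c = (p.coeff i : L) * ((u⁻¹ : (↥A)ˣ) : A) := by
    have h4 : ((r.coeff i : A) : L) * (((u⁻¹ : (↥A)ˣ) : A) : L) = 1 := by
      rw [← hu]
      have h7 : ((u : A) * ((u⁻¹ : (↥A)ˣ) : A) : A) = 1 := Units.mul_inv u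
      have h8 := congrArg (fun x : A => (x : L)) h7
      exact h8
    have h5 : A.subtype (r.coeff i) = ((r.coeff i : A) : L) := rfl
    have h6 : A.subtype (p.coeff i) = ((p.coeff i : A) : L) := rfl
    rw [h5, h6] at h2
    rw [← h2, mul_assoc, h4, mul_one]
  rw [h3]
  exact A.mul_mem _ _ (p.coeff i).2 (((u⁻¹ : (↥A)ˣ) : A)).2


/-! ### valuation ring properties -/

/-- every nonzero rational function is `c * p/q` with `p, q` primitive -/
theorem exists_normal_form {f : RatFunc L} (hf : f ≠ 0) : ∃ (c : L) (p q : (↥A)[X]), c ≠ 0 ∧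
    gRed A p ≠ 0 ∧ gRed A q ≠ 0 ∧ f = RatFunc.C c * (gIncl A p / gIncl A q) := by
  have hnum : f.num ≠ 0 := RatFunc.num_ne_zero hf
  have hden : f.denom ≠ 0 := RatFunc.denom_ne_zero f
  obtain ⟨c, p, hc, hp, hP⟩ := exists_primitive A hnum
  obtain ⟨d, q, hd, hq, hQ⟩ := exists_primitive A hden
  refine ⟨c / d, p, q, div_ne_zero hc hd, hp, hq, ?_⟩
  have h1 := RatFunc.num_div_denom f
  rw [hP, hQ, map_mul, map_mul, RatFunc.algebraMap_C, RatFunc.algebraMap_C] at h1
  rw [← h1, gIncl_eq, gIncl_eq, map_div₀, mul_div_mul_comm]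

theorem mem_or_inv_mem (f : RatFunc L) : f ∈ OV A ∨ f⁻¹ ∈ OV A := by
  by_cases hf : f = 0
  · left; rw [hf]; exact (OV A).zero_mem
  obtain ⟨c, p, q, hc, hp, hq, h⟩ := exists_normal_form A hf
  rcases A.mem_or_inv_mem c with hcA | hcA
  · left
    rw [h]
    exact (OV A).mul_mem (C_mem A hcA) (div_mem A p hq)
  · right
    rw [h, mul_inv, inv_div, ← map_inv₀]
    exact (OV A).mul_mem (C_mem A hcA) (div_mem A q hp)

/-- `O_V` as a valuation subring -/
def OVval : ValuationSubring (RatFunc L) :=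
  { OV A with mem_or_inv_mem' := mem_or_inv_mem A }

theorem OVval_toSubring : (OVval A).toSubring = OV A := rfl

theorem mem_OVval_iff {f : RatFunc L} : f ∈ OVval A ↔ f ∈ OV A := Iff.rfl

theorem exists_scale {f : RatFunc L} (hf : f ≠ 0) :
    ∃ c : L, c ≠ 0 ∧ ∃ h : RatFunc.C c * f ∈ OV A, redV A ⟨_, h⟩ ≠ 0 := by
  obtain ⟨c, p, q, hc, hp, hq, h⟩ := exists_normal_form A hf
  have h1 : RatFunc.C c⁻¹ * f = gIncl A p / gIncl A q := by
    rw [h, ← mul_assoc, ← map_mul, inv_mul_cancel₀ hc, map_one, one_mul]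
  refine ⟨c⁻¹, inv_ne_zero hc, by rw [h1]; exact div_mem A p hq, ?_⟩
  rw [redV_eq A _ (p := p) hq (by
    show RatFunc.C c⁻¹ * f * _ = _
    rw [h1, div_mul_cancel₀ _ (gIncl_ne_zero A hq)])]
  exact div_ne_zero hp hq

theorem inv_mem {f : OV A} (h : redV A f ≠ 0) : (f : RatFunc L)⁻¹ ∈ OV A := by
  obtain ⟨p, q, hq, h1, h2⟩ := exists_eq_div A f
  have hp : gRed A p ≠ 0 := by
    intro h0
    rw [h2, h0, zero_div] at h
    exact h rfl
  rw [h1, inv_div]
  exact div_mem A q hp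

theorem isUnit_iff (f : OV A) : IsUnit f ↔ redV A f ≠ 0 := by
  constructor
  · intro h
    exact (h.map (redV A)).ne_zero
  · intro h
    have hf0 : (f : RatFunc L) ≠ 0 := by
      intro h0
      have : f = 0 := Subtype.ext h0
      rw [this, map_zero] at h
      exact h rfl
    refine IsUnit.of_mul_eq_one ⟨(f : RatFunc L)⁻¹, inv_mem A h⟩ ?_
    apply Subtype.ext
    show (f : RatFunc L) * (f : RatFunc L)⁻¹ = 1
    exact mul_inv_cancel₀ hf0

theorem redV_inv {f : OV A} (h : redV A f ≠ 0) :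
    redV A ⟨(f : RatFunc L)⁻¹, inv_mem A h⟩ = (redV A f)⁻¹ := by
  have hf0 : (f : RatFunc L) ≠ 0 := by
    intro h0
    have : f = 0 := Subtype.ext h0
    rw [this, map_zero] at h
    exact h rfl
  have h1 : f * ⟨(f : RatFunc L)⁻¹, inv_mem A h⟩ = 1 := by
    apply Subtype.ext
    show (f : RatFunc L) * (f : RatFunc L)⁻¹ = 1
    exact mul_inv_cancel₀ hf0
  have h2 := congrArg (redV A) h1
  rw [map_mul, map_one] at h2
  exact eq_inv_of_mul_eq_one_right h2

theorem redV_eq_zero_iff (f : OV A) : redV A f = 0 ↔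
    ∃ a ∈ IsLocalRing.maximalIdeal A, ∃ g : OV A, (f : RatFunc L) = RatFunc.C (a : L) * g := by
  constructor
  · intro h
    obtain ⟨p, q, hq, h1, h2⟩ := exists_eq_div A f
    have hp : gRed A p = 0 := by
      rw [h2, div_eq_zero_iff] at h
      exact h.resolve_right hq
    by_cases hp0 : p = 0
    · refine ⟨0, Ideal.zero_mem _, 0, ?_⟩
      rw [h1, hp0]; simp
    have hP0 : p.map A.subtype ≠ 0 := by
      intro h0
      exact hp0 (Polynomial.map_injective A.subtype Subtype.val_injective (by rw [h0, Polynomial.map_zero]))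
    obtain ⟨c, p₁, hc, hp₁, hP⟩ := exists_primitive A hP0
    have hcA : c ∈ A := mem_of_C_mul A hp₁ hP.symm
    have hpp : p = C (⟨c, hcA⟩ : A) * p₁ := by
      apply Polynomial.map_injective A.subtype Subtype.val_injective
      rw [hP, Polynomial.map_mul, Polynomial.map_C]
      rfl
    refine ⟨⟨c, hcA⟩, ?_, ⟨_, div_mem A p₁ hq⟩, ?_⟩
    · rw [← IsLocalRing.residue_eq_zero_iff]
      rw [hpp, map_mul, gRed_C] at hp
      have := (mul_eq_zero.1 hp).resolve_right hp₁
      exact (map_eq_zero _).1 this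
    · show (f : RatFunc L) = RatFunc.C c * (gIncl A p₁ / gIncl A q)
      rw [h1, hpp, map_mul, gIncl_C, mul_div_assoc]
  · rintro ⟨a, ha, g, h⟩
    have h1 : f = ⟨RatFunc.C (a : L), C_mem A a.2⟩ * g := Subtype.ext h
    rw [h1, map_mul, redV_C A a.2]
    have : IsLocalRing.residue A ⟨(a : L), a.2⟩ = 0 := by
      rw [IsLocalRing.residue_eq_zero_iff]; exact ha
    rw [this, map_zero, zero_mul]

theorem redV_surjective : Function.Surjective (redV A) := by
  intro φ
  obtain ⟨p, hp⟩ := Polynomial.map_surjective _ (IsLocalRing.residue_surjective (R := A)) φ.num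
  obtain ⟨q, hq⟩ := Polynomial.map_surjective _ (IsLocalRing.residue_surjective (R := A)) φ.denom
  have hq0 : gRed A q ≠ 0 := by
    rw [Ne, gRed_eq_zero_iff, hq]
    exact RatFunc.denom_ne_zero φ
  refine ⟨⟨_, div_mem A p hq0⟩, ?_⟩
  rw [redV_div A p hq0, gRed_eq, gRed_eq, hp, hq, RatFunc.num_div_denom]

/-! ### `O_V ∩ L[τ] = A[τ]`, `O_V ∩ L[s] = A[s]` -/

theorem poly_mem_iff (P : L[X]) :
    algebraMap L[X] (RatFunc L) P ∈ OV A ↔ ∀ i, P.coeff i ∈ A := by
  constructor
  · rintro ⟨p, q, hq, h⟩ i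
    by_cases hP : P = 0
    · rw [hP, Polynomial.coeff_zero]; exact A.zero_mem
    obtain ⟨c, p₁, hc, hp₁, hPc⟩ := exists_primitive A hP
    have h1 : Polynomial.C c * (p₁ * q).map A.subtype = p.map A.subtype := by
      apply IsFractionRing.injective L[X] (RatFunc L)
      rw [← gIncl_eq A p, ← h, gIncl_eq, ← map_mul, hPc, Polynomial.map_mul, mul_assoc]
    have hcA : c ∈ A := mem_of_C_mul A (by rw [map_mul]; exact mul_ne_zero hp₁ hq) h1
    rw [hPc, Polynomial.coeff_C_mul, Polynomial.coeff_map]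
    exact A.mul_mem _ _ hcA (p₁.coeff i).2
  · intro h
    obtain ⟨p, hp⟩ := exists_lift A h
    rw [← hp]
    exact gIncl_mem A p

theorem X_pow_mul_mem_iff (n : ℕ) (f : RatFunc L) : RatFunc.X ^ n * f ∈ OV A ↔ f ∈ OV A := by
  constructor
  · intro h
    have h1 := (OV A).mul_mem ((OV A).pow_mem (X_inv_mem A) n) h
    rwa [← mul_assoc, ← mul_pow, inv_mul_cancel₀ RatFunc.X_ne_zero, one_pow, one_mul] at h1
  · intro h
    exact (OV A).mul_mem ((OV A).pow_mem (X_mem A) n) h

theorem X_inv_pow_mul_mem_iff (n : ℕ) (f : RatFunc L) :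
    (RatFunc.X⁻¹) ^ n * f ∈ OV A ↔ f ∈ OV A := by
  constructor
  · intro h
    have h1 := (OV A).mul_mem ((OV A).pow_mem (X_mem A) n) h
    rwa [← mul_assoc, ← mul_pow, mul_inv_cancel₀ RatFunc.X_ne_zero, one_pow, one_mul] at h1
  · intro h
    exact (OV A).mul_mem ((OV A).pow_mem (X_inv_mem A) n) h

theorem aeval_X_inv_eq {κ : Type*} [Field κ] (P : κ[X]) :
    Polynomial.aeval (RatFunc.X⁻¹ : RatFunc κ) P =
      (RatFunc.X⁻¹) ^ P.natDegree * algebraMap κ[X] (RatFunc κ) P.reverse := by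
  let _ : Invertible (RatFunc.X⁻¹ : RatFunc κ) :=
    invertibleOfNonzero (inv_ne_zero RatFunc.X_ne_zero)
  have h := Polynomial.eval₂_reverse_mul_pow (algebraMap κ (RatFunc κ)) (RatFunc.X⁻¹ : RatFunc κ) P
  have h2 : (⅟(RatFunc.X⁻¹ : RatFunc κ)) = RatFunc.X := by
    rw [invOf_eq_inv, inv_inv]
  rw [h2] at h
  rw [Polynomial.aeval_def, ← h, mul_comm]
  congr 1
  have h3 : algebraMap κ[X] (RatFunc κ) P.reverse = Polynomial.aeval (RatFunc.X : RatFunc κ) P.reverse := by
    rw [← RatFunc.algebraMap_X, Polynomial.aeval_algebraMap_apply, Polynomial.aeval_X_left_apply]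
  rw [h3, Polynomial.aeval_def]

theorem polyInv_mem_iff (P : L[X]) :
    Polynomial.aeval (RatFunc.X⁻¹ : RatFunc L) P ∈ OV A ↔ ∀ i, P.coeff i ∈ A := by
  rw [aeval_X_inv_eq, X_inv_pow_mul_mem_iff, poly_mem_iff]
  constructor
  · intro h i
    have := h (Polynomial.revAt P.natDegree i)
    rwa [Polynomial.coeff_reverse, Polynomial.revAt_invol] at this
  · intro h i
    rw [Polynomial.coeff_reverse]
    exact h _


/-! ### reduction of polynomials in `τ` and in `s = τ⁻¹` -/

theorem poly_map_mem (p : (↥A)[X]) : algebraMap L[X] (RatFunc L) (p.map A.subtype) ∈ OV A :=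
  gIncl_mem A p

theorem redV_poly_map (p : (↥A)[X]) :
    redV A ⟨algebraMap L[X] (RatFunc L) (p.map A.subtype), poly_map_mem A p⟩ =
      algebraMap (Kres A)[X] (RatFunc (Kres A)) (p.map (IsLocalRing.residue A)) :=
  redV_gIncl A p

theorem polyInv_map_mem (p : (↥A)[X]) :
    Polynomial.aeval (RatFunc.X⁻¹ : RatFunc L) (p.map A.subtype) ∈ OV A := by
  rw [polyInv_mem_iff]
  intro i
  rw [Polynomial.coeff_map]
  exact (p.coeff i).2

/-- `A[X] → O_V`, `X ↦ s = τ⁻¹` -/
theorem redV_polyInv_map (p : (↥A)[X]) :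
    redV A ⟨Polynomial.aeval (RatFunc.X⁻¹ : RatFunc L) (p.map A.subtype), polyInv_map_mem A p⟩ =
      Polynomial.aeval (RatFunc.X⁻¹ : RatFunc (Kres A)) (p.map (IsLocalRing.residue A)) := by
  -- both sides are ring homs in `p`
  let φ₁ : (↥A)[X] →+* OV A :=
    Polynomial.eval₂RingHom
      ({ toFun := fun a => ⟨RatFunc.C (a : L), C_mem A a.2⟩
         map_one' := by apply Subtype.ext; simp
         map_mul' := fun a b => by apply Subtype.ext; simp
         map_zero' := by apply Subtype.ext; simp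
         map_add' := fun a b => by apply Subtype.ext; simp } : A →+* OV A)
      ⟨RatFunc.X⁻¹, X_inv_mem A⟩
  have h1 : ∀ p : (↥A)[X], ((φ₁ p : OV A) : RatFunc L) =
      Polynomial.aeval (RatFunc.X⁻¹ : RatFunc L) (p.map A.subtype) := by
    intro p
    have e : (OV A).subtype.comp φ₁ =
        ((Polynomial.aeval (RatFunc.X⁻¹ : RatFunc L)).toRingHom).comp
          (Polynomial.mapRingHom A.subtype) := by
      apply Polynomial.ringHom_ext
      · intro a
        simp [φ₁, RatFunc.algebraMap_eq_C]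
      · simp [φ₁]
    exact RingHom.congr_fun e p
  have h2 : (redV A).comp φ₁ =
      ((Polynomial.aeval (RatFunc.X⁻¹ : RatFunc (Kres A))).toRingHom).comp
        (Polynomial.mapRingHom (IsLocalRing.residue A)) := by
    apply Polynomial.ringHom_ext
    · intro a
      simp only [φ₁, RingHom.comp_apply, Polynomial.coe_eval₂RingHom, Polynomial.eval₂_C,
        RingHom.coe_mk, MonoidHom.coe_mk, OneHom.coe_mk]
      rw [redV_C A a.2]
      simp [RatFunc.algebraMap_eq_C]
    · simp only [φ₁, RingHom.comp_apply, Polynomial.coe_eval₂RingHom, Polynomial.eval₂_X]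
      rw [redV_X_inv]
      simp
  have h3 := RingHom.congr_fun h2 p
  have h4 : φ₁ p = ⟨Polynomial.aeval (RatFunc.X⁻¹ : RatFunc L) (p.map A.subtype),
      polyInv_map_mem A p⟩ := Subtype.ext (h1 p)
  rw [← h4]
  exact h3

end Fermat.Agent.S18
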