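import Mathlib
import Fermat.Agent.S28.KeyAux
import Fermat.Agent.S18.Gauss

/-!
# S18, (I-2/3): transfer from `q`-expansions to polynomial identities

* `tf_dvd`: a polynomial relation between `j` and `j_N` is divisible by the modular polynomial;
* `tf_prim2`: primitive scaling of polynomials in two variables;
* `tf_ow`: coordinates of (quotients of) integral elements lie in the Gauss ring, and reduce to the
  coordinates of the reduction.
-/

set_option autoImplicit false
set_option linter.unusedSectionVars false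

noncomputable section

namespace Fermat.Agent.S18

open ModularCurve Polynomial Fermat.Agent.S28

theorem tf_dvd {R : Type*} [CommRing R] (N : ℕ) [NeZero N] {ψ : ℕ} {Φ : R[X][X]} (hΦ : Φ.Monic)
    (hdeg : Φ.natDegree = ψ) (hev : ev2 R N Φ = 0)
    (Ind : ∀ P : R[X][X], P ≠ 0 → P.natDegree < ψ → ev2 R N P ≠ 0)
    {G : R[X][X]} (hG : ev2 R N G = 0) : Φ ∣ G := by
  rcases subsingleton_or_nontrivial R with hs | hn
  · exact ⟨0, Subsingleton.elim _ _⟩
  rw [← modByMonic_eq_zero_iff_dvd hΦ]
  by_contra hne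
  have h1 : (G %ₘ Φ).natDegree < ψ := by
    rw [← hdeg]
    apply natDegree_modByMonic_lt _ hΦ
    intro h1
    rw [h1, map_one] at hev
    have : Nontrivial (LaurentSeries R) := inferInstance
    exact one_ne_zero hev
  apply Ind _ hne h1
  have h2 := modByMonic_add_div G Φ
  have h3 := congrArg (ev2 R N) h2
  rw [map_add, map_mul, hev, zero_mul, add_zero, hG] at h3
  exact h3

variable {L : Type*} [Field L] (A : ValuationSubring L)

theorem tf_prim2 {G : L[X][X]} (hG : G ≠ 0) : ∃ (c : L) (G2 : (↥A)[X][X]), c ≠ 0 ∧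
    G2.map (mapRingHom (IsLocalRing.residue A)) ≠ 0 ∧
    G = C (C c) * G2.map (mapRingHom A.subtype) := by
  classical
  set s : Finset (Σ _ : ℕ, ℕ) := G.support.sigma (fun n => (G.coeff n).support) with hs
  have hne : s.Nonempty := by
    obtain ⟨n, hn⟩ : G.support.Nonempty := by
      rwa [Finset.nonempty_iff_ne_empty, Ne, support_eq_empty]
    obtain ⟨m, hm⟩ : (G.coeff n).support.Nonempty := by
      rw [Finset.nonempty_iff_ne_empty, Ne, support_eq_empty]
      exact mem_support_iff.1 hn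
    exact ⟨⟨n, m⟩, Finset.mem_sigma.2 ⟨hn, hm⟩⟩
  obtain ⟨⟨n0, m0⟩, h0, hmax⟩ := Finset.exists_max_image s
    (fun x => A.valuation ((G.coeff x.1).coeff x.2)) hne
  set c := (G.coeff n0).coeff m0 with hc
  have hc0 : c ≠ 0 := mem_support_iff.1 (Finset.mem_sigma.1 h0).2
  have hmem : ∀ n m, ((C (C c⁻¹) * G).coeff n).coeff m ∈ A := by
    intro n m
    rw [coeff_C_mul, coeff_C_mul, ← A.valuation_le_one_iff, map_mul, map_inv₀]
    by_cases h : (G.coeff n).coeff m = 0
    · rw [h, map_zero, mul_zero]; exact zero_le_one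
    · have hmem : (⟨n, m⟩ : Σ _ : ℕ, ℕ) ∈ s :=
        Finset.mem_sigma.2 ⟨mem_support_iff.2 (fun h' => h (by rw [h', coeff_zero])),
          mem_support_iff.2 h⟩
      have h1 := hmax _ hmem
      have hv : A.valuation c ≠ 0 := (Valuation.ne_zero_iff _).2 hc0
      rw [inv_mul_le_iff₀ (zero_lt_iff.2 hv), mul_one]
      exact h1
  obtain ⟨G2, hG2⟩ : ∃ G2 : (↥A)[X][X], G2.map (mapRingHom A.subtype) = C (C c⁻¹) * G := by
    rw [← mem_lifts, lifts_iff_coeff_lifts]
    intro n
    obtain ⟨p, hp⟩ := exists_lift A (hmem n)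
    exact ⟨p, hp⟩
  refine ⟨c, G2, hc0, ?_, ?_⟩
  · intro h
    have h1 : ((G2.coeff n0).coeff m0 : A) = 1 := by
      apply Subtype.ext
      have h2 := congrArg (fun Q => (Q.coeff n0).coeff m0) hG2
      simp only [coeff_map, coe_mapRingHom, coeff_C_mul] at h2
      rw [← hc, inv_mul_cancel₀ hc0] at h2
      exact h2
    have h3 := congrArg (fun Q => (Q.coeff n0).coeff m0) h
    simp only [coeff_map, coe_mapRingHom, coeff_zero, h1, map_one] at h3
    exact one_ne_zero h3
  · rw [hG2, ← mul_assoc, ← C_mul, ← C_mul, mul_inv_cancel₀ hc0, C_1, C_1, one_mul]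

theorem tf_ev2_CC {R : Type*} [CommRing R] (N : ℕ) [NeZero N] (r : R) :
    ev2 R N (C (C r)) = algebraMap R (LaurentSeries R) r := by
  simp [ev2]

theorem tf_ev2_C {R : Type*} [CommRing R] (N : ℕ) [NeZero N] (Q : R[X]) :
    ev2 R N (C Q) = aeval (jqModC R) Q := by
  simp [ev2]

theorem tf_incl_injective : Function.Injective (coeffMap A.subtype) := by
  intro x y h
  ext n
  have := congrArg (fun z => z.coeff n) h
  simpa [coeffMap_coeff] using this

theorem tf_ow_aux1 {RA RL Rk : Type*} [CommRing RA] [CommRing RL] [CommRing Rk] [IsDomain Rk]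
    (incl : RA →+* RL) (hinj : Function.Injective incl) (red : RA →+* Rk) (y : RL) (yb : Rk)
    (a b q g : RA) (hb : red b ≠ 0) (h1 : y * incl b = incl a) (h2 : yb * red b = red a)
    (hG : y * incl q = incl g) : yb * red q = red g := by
  have e1 : a * q = g * b := by
    apply hinj
    rw [map_mul, map_mul, ← h1, ← hG]; ring
  have e2 := congrArg red e1
  rw [map_mul, map_mul, ← h2] at e2
  apply mul_right_cancel₀ hb
  rw [← e2]; ring

theorem tf_ow_aux2 {RA RL Rk : Type*} [CommRing RA] [CommRing RL] [CommRing Rk] [IsDomain Rk]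
    (incl : RA →+* RL) (hinj : Function.Injective incl) (red : RA →+* Rk) (y : RL)
    (a b q g e : RA) (d : RL) (hb : red b ≠ 0) (h1 : y * incl b = incl a)
    (he : red e = 0) (hed : incl e * d = 1)
    (hG : y * incl q = d * incl g) : red g = 0 := by
  have e1 : e * a * q = g * b := by
    apply hinj
    rw [map_mul, map_mul, map_mul, ← h1]
    calc incl e * (y * incl b) * incl q = incl e * (y * incl q) * incl b := by ring
      _ = (incl e * d) * incl g * incl b := by rw [hG]; ring
      _ = _ := by rw [hed, one_mul]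
  have e2 := congrArg red e1
  rw [map_mul, map_mul, map_mul, he, zero_mul, zero_mul] at e2
  exact (mul_eq_zero.1 e2.symm).resolve_right hb

theorem tf_residue_inv_eq_zero {d : L} (hdA : d ∉ A) (hinv : d⁻¹ ∈ A) :
    IsLocalRing.residue A ⟨d⁻¹, hinv⟩ = 0 := by
  rw [IsLocalRing.residue_eq_zero_iff, IsLocalRing.mem_maximalIdeal, mem_nonunits_iff]
  intro hu
  obtain ⟨u, hu⟩ := hu
  apply hdA
  have e : ((u⁻¹ : (↥A)ˣ) : A) * (⟨d⁻¹, hinv⟩ : A) = 1 := by rw [← hu]; exact Units.inv_mul u
  have e' : (((u⁻¹ : (↥A)ˣ) : A) : L) * d⁻¹ = 1 := congrArg Subtype.val e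
  have hd0 : d ≠ 0 := fun h0 => hdA (h0 ▸ A.zero_mem)
  have : d = (((u⁻¹ : (↥A)ˣ) : A) : L) := by
    field_simp at e'
    exact e'.symm
  rw [this]; exact Subtype.property _

set_option maxHeartbeats 800000 in
theorem tf_ow (N : ℕ) [NeZero N] (ψ : ℕ)
    (Indk : ∀ P : (Kres A)[X][X], P ≠ 0 → P.natDegree < ψ → ev2 (Kres A) N P ≠ 0)
    (y : LaurentSeries L) (yb : LaurentSeries (Kres A)) (a b : LaurentSeries A)
    (hb : coeffMap (IsLocalRing.residue A) b ≠ 0)
    (h1 : y * coeffMap A.subtype b = coeffMap A.subtype a)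
    (h2 : yb * coeffMap (IsLocalRing.residue A) b = coeffMap (IsLocalRing.residue A) a)
    (Q0 : L[X]) (hQ0 : Q0 ≠ 0) (G0 : L[X][X]) (hG0 : G0.natDegree < ψ)
    (h : y * aeval (jqModC L) Q0 = ev2 L N G0) :
    ∃ (Q : (↥A)[X]) (G : (↥A)[X][X]), Q.map (IsLocalRing.residue A) ≠ 0 ∧ G.natDegree < ψ ∧
      y * coeffMap A.subtype (aeval (jqModC A) Q) = coeffMap A.subtype (ev2 A N G) ∧
      yb * coeffMap (IsLocalRing.residue A) (aeval (jqModC A) Q) =
        coeffMap (IsLocalRing.residue A) (ev2 A N G) := by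
  obtain ⟨c, Q, hc, hQ, hQ0eq⟩ := exists_primitive A hQ0
  have hQ' : Q.map (IsLocalRing.residue A) ≠ 0 := fun h0 => hQ ((gRed_eq_zero_iff A Q).2 h0)
  have hψ : 0 < ψ := lt_of_le_of_lt (Nat.zero_le _) hG0
  -- `Q(j)` has nonzero reduction
  have hQred : coeffMap (IsLocalRing.residue A) (aeval (jqModC A) Q) ≠ 0 := by
    rw [coeffMap_aeval_jqModC, ← tf_ev2_C N]
    apply Indk
    · intro h0; exact hQ' (C_eq_zero.1 h0)
    · rw [natDegree_C]; exact hψ
  have hQincl : coeffMap A.subtype (aeval (jqModC A) Q) ≠ 0 := by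
    intro h0
    have : aeval (jqModC A) Q = 0 := tf_incl_injective A (by rw [h0, map_zero])
    exact hQred (by rw [this, map_zero])
  have hcL : algebraMap L (LaurentSeries L) c ≠ 0 := by
    rw [Ne, map_eq_zero]; exact hc
  have hQ0j : aeval (jqModC L) Q0 =
      algebraMap L (LaurentSeries L) c * coeffMap A.subtype (aeval (jqModC A) Q) := by
    rw [hQ0eq, map_mul, aeval_C, coeffMap_aeval_jqModC]
  -- the second statement follows from the first
  have key : ∀ G : (↥A)[X][X],
      y * coeffMap A.subtype (aeval (jqModC A) Q) = coeffMap A.subtype (ev2 A N G) →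
      yb * coeffMap (IsLocalRing.residue A) (aeval (jqModC A) Q) =
        coeffMap (IsLocalRing.residue A) (ev2 A N G) := fun G hG =>
    tf_ow_aux1 _ (tf_incl_injective A) _ y yb a b _ _ hb h1 h2 hG
  by_cases hG : G0 = 0
  · have h0 : y * coeffMap A.subtype (aeval (jqModC A) Q) = coeffMap A.subtype (ev2 A N 0) := by
      rw [hG, map_zero, hQ0j] at h
      rcases mul_eq_zero.1 h with h0 | h0
      · rw [h0, zero_mul, map_zero, map_zero]
      · exact absurd h0 (mul_ne_zero hcL hQincl)
    exact ⟨Q, 0, hQ', by simpa using hψ, h0, key 0 h0⟩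
  obtain ⟨c', G2, hc', hG2, hGeq⟩ := tf_prim2 A hG
  have hdegG2 : G2.natDegree < ψ := by
    have e : G0.natDegree = G2.natDegree := by
      rw [hGeq, natDegree_C_mul (by rw [Ne, C_eq_zero]; exact hc'),
        natDegree_map_eq_of_injective (map_injective _ A.subtype_injective)]
    rw [← e]; exact hG0
  have hev : ev2 L N G0 =
      algebraMap L (LaurentSeries L) c' * coeffMap A.subtype (ev2 A N G2) := by
    rw [hGeq, map_mul, tf_ev2_CC, coeffMap_ev2]
  set d : L := c' / c with hd
  have hy : y * coeffMap A.subtype (aeval (jqModC A) Q) =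
      algebraMap L (LaurentSeries L) d * coeffMap A.subtype (ev2 A N G2) := by
    rw [hQ0j, hev] at h
    apply mul_left_cancel₀ hcL
    have e5 : algebraMap L (LaurentSeries L) c * algebraMap L (LaurentSeries L) d =
        algebraMap L (LaurentSeries L) c' := by rw [← map_mul, hd, mul_div_cancel₀ _ hc]
    rw [← mul_assoc _ (algebraMap L (LaurentSeries L) d), e5, ← h]
    exact mul_left_comm _ _ _
  have hdA : d ∈ A := by
    by_contra hdA
    have hd0 : d ≠ 0 := fun h0 => hdA (h0 ▸ A.zero_mem)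
    have hinv : d⁻¹ ∈ A := (A.mem_or_inv_mem d).resolve_left hdA
    have hres := tf_residue_inv_eq_zero A hdA hinv
    have h0 := tf_ow_aux2 _ (tf_incl_injective A) (coeffMap (IsLocalRing.residue A)) y a b _ _
      (algebraMap A (LaurentSeries A) ⟨d⁻¹, hinv⟩) (algebraMap L (LaurentSeries L) d) hb h1
      (by rw [keyAux_coeffMap_algebraMap, hres, map_zero])
      (by
        rw [keyAux_coeffMap_algebraMap]
        have e3 : A.subtype ⟨d⁻¹, hinv⟩ = d⁻¹ := rfl
        rw [e3, ← map_mul, inv_mul_cancel₀ hd0, map_one]) hy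
    rw [coeffMap_ev2] at h0
    exact Indk _ hG2 (lt_of_le_of_lt natDegree_map_le hdegG2) h0
  have hfin : y * coeffMap A.subtype (aeval (jqModC A) Q) =
      coeffMap A.subtype (ev2 A N (C (C ⟨d, hdA⟩) * G2)) := by
    have e3 : A.subtype ⟨d, hdA⟩ = d := rfl
    rw [hy, map_mul, map_mul, tf_ev2_CC, keyAux_coeffMap_algebraMap, e3]
  have hdeg : (C (C (⟨d, hdA⟩ : A)) * G2).natDegree < ψ :=
    lt_of_le_of_lt (natDegree_C_mul_le _ _) hdegG2
  exact ⟨Q, _, hQ', hdeg, hfin, key _ hfin⟩

end Fermat.Agent.S18
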