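import Mathlib
import Fermat.Agent.S18.Transfer
import Fermat.Agent.S18.Trans
import Fermat.Agent.S18.PhiSpan
import Fermat.Agent.S18.Defs2

/-!
# S18, (I-2/3): the embedding `F_N → FF` and the elements `f1`, `f1'`, `g1`
-/

set_option autoImplicit false
set_option linter.unusedSectionVars false

noncomputable section

namespace Fermat.Agent.S18

open ModularCurve Polynomial Fermat.Agent.S28 Fermat.Agent.S24 Fermat.Agent.X0

/-! ### an abstract extension lemma -/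

theorem emb_exists {F P Lau T : Type*} [CommRing F] [CommRing P] [CommRing Lau] [CommRing T]
    (ι : F →+* Lau) (ev : P →+* Lau) (eT : P →+* T) (S : P → Prop) (h1 : S 1)
    (hmul : ∀ s s', S s → S s' → S (s * s'))
    (hS : ∀ s, S s → IsUnit (eT s)) (hker : ∀ g, ev g = 0 → eT g = 0)
    (hspan : ∀ f, ∃ s, S s ∧ ∃ g, ι f * ev s = ev g) :
    ∃ emb : F →+* T, ∀ f s g, S s → ι f * ev s = ev g → emb f * eT s = eT g := by
  choose s hs g hg using hspan
  let e : F → T := fun f => ((hS _ (hs f)).unit⁻¹ : Tˣ) * eT (g f)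
  have he : ∀ f, e f * eT (s f) = eT (g f) := by
    intro f
    have h2 : ((hS _ (hs f)).unit⁻¹ : Tˣ) * eT (s f) = (1 : T) := by
      have := Units.inv_mul (hS _ (hs f)).unit
      rwa [IsUnit.unit_spec] at this
    calc e f * eT (s f) = (((hS _ (hs f)).unit⁻¹ : Tˣ) * eT (s f)) * eT (g f) := by
          simp only [e]; ring
      _ = _ := by rw [h2, one_mul]
  have uniq : ∀ f s' g', S s' → ι f * ev s' = ev g' → e f * eT s' = eT g' := by
    intro f s' g' hs' hg'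
    have h3 : eT (s' * g f - s f * g') = 0 := by
      apply hker
      rw [map_sub, map_mul, map_mul, ← hg f, ← hg']; ring
    rw [map_sub, map_mul, map_mul, sub_eq_zero] at h3
    apply (hS _ (hs f)).mul_left_cancel
    calc eT (s f) * (e f * eT s') = (e f * eT (s f)) * eT s' := by ring
      _ = eT s' * eT (g f) := by rw [he]; ring
      _ = _ := h3
  have hone : e 1 = 1 := by
    have := uniq 1 1 1 h1 (by simp)
    simpa using this
  have hmul' : ∀ a b, e (a * b) = e a * e b := by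
    intro a b
    have h4 := uniq (a * b) (s a * s b) (g a * g b) (hmul _ _ (hs a) (hs b)) (by
      rw [map_mul, map_mul, map_mul, ← hg a, ← hg b]; ring)
    apply (hS _ (hmul _ _ (hs a) (hs b))).mul_right_cancel
    rw [h4, map_mul, map_mul, ← he a, ← he b]; ring
  have hadd' : ∀ a b, e (a + b) = e a + e b := by
    intro a b
    have h4 := uniq (a + b) (s a * s b) (g a * s b + g b * s a) (hmul _ _ (hs a) (hs b)) (by
      rw [map_add, map_mul, map_add, map_mul, map_mul, ← hg a, ← hg b]; ring)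
    apply (hS _ (hmul _ _ (hs a) (hs b))).mul_right_cancel
    rw [h4, map_add, map_mul, map_mul, map_mul, ← he a, ← he b]; ring
  have hzero : e 0 = 0 := by
    have := hadd' 0 0
    rw [add_zero] at this
    exact left_eq_add.mp this
  exact ⟨{ toFun := e, map_one' := hone, map_mul' := hmul', map_zero' := hzero,
           map_add' := hadd' }, uniq⟩

/-! ### the three evaluations -/

variable (A : ValuationSubring Kb) (N : ℕ) [NeZero N] (Rτ : OV A)

/-- `Φτ` -/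
abbrev PhiT : (OV A)[X] := PhiTau A Rτ (PhiA A N)

def e0A : (↥A)[X] →+* B1 A (PhiT A N Rτ) := (AdjoinRoot.of _).comp (evTau A Rτ)

def eTA : (↥A)[X][X] →+* B1 A (PhiT A N Rτ) := eval₂RingHom (e0A A N Rτ) (AdjoinRoot.root _)

def e0L : Kb[X] →+* FF A (PhiT A N Rτ) :=
  (AdjoinRoot.of _).comp (aeval (Rτ : RatFunc Kb) : Kb[X] →ₐ[Kb] RatFunc Kb).toRingHom

def eTL : Kb[X][X] →+* FF A (PhiT A N Rτ) := eval₂RingHom (e0L A N Rτ) (AdjoinRoot.root _)

def e0k : (Kres A)[X] →+* FFb A (PhiT A N Rτ) :=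
  (AdjoinRoot.of _).comp
    (aeval (redV A Rτ) : (Kres A)[X] →ₐ[Kres A] RatFunc (Kres A)).toRingHom

def eTk : (Kres A)[X][X] →+* FFb A (PhiT A N Rτ) :=
  eval₂RingHom (e0k A N Rτ) (AdjoinRoot.root _)

theorem eTA_Phi : eTA A N Rτ (PhiA A N) = 0 := by
  change eval₂ ((AdjoinRoot.of _).comp (evTau A Rτ)) (AdjoinRoot.root _) (PhiA A N) = 0
  rw [← eval₂_map]
  exact AdjoinRoot.eval₂_root _

theorem inc1_e0A (Q : (↥A)[X]) :
    inc1 A (PhiT A N Rτ) (e0A A N Rτ Q) = e0L A N Rτ (Q.map A.subtype) := by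
  change inc1 A (PhiT A N Rτ) (AdjoinRoot.of _ (evTau A Rτ Q)) = AdjoinRoot.of _ _
  rw [inc1, AdjoinRoot.map_of]
  congr 1
  exact congrArg (fun φ => φ Q) (subtype_comp_evTau A Rτ)

theorem incb1_e0A (Q : (↥A)[X]) :
    incb1 A (PhiT A N Rτ) (e0A A N Rτ Q) = e0k A N Rτ (Q.map (IsLocalRing.residue A)) := by
  change incb1 A (PhiT A N Rτ) (AdjoinRoot.of _ (evTau A Rτ Q)) = AdjoinRoot.of _ _
  rw [incb1, AdjoinRoot.map_of]
  congr 1
  exact congrArg (fun φ => φ Q) (redV_comp_evTau A Rτ)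

theorem inc1_eTA (G : (↥A)[X][X]) :
    inc1 A (PhiT A N Rτ) (eTA A N Rτ G) = eTL A N Rτ (G.map (mapRingHom A.subtype)) := by
  have h : (inc1 A (PhiT A N Rτ)).comp (eTA A N Rτ) =
      (eTL A N Rτ).comp (mapRingHom (mapRingHom A.subtype)) := by
    apply Polynomial.ringHom_ext
    · intro a
      simp only [RingHom.comp_apply, coe_mapRingHom, map_C, eTA, eTL, coe_eval₂RingHom, eval₂_C]
      exact inc1_e0A A N Rτ a
    · simp only [RingHom.comp_apply, coe_mapRingHom, map_X, eTA, eTL, coe_eval₂RingHom, eval₂_X]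
      rw [inc1, AdjoinRoot.map_root]
  exact congrArg (fun φ => φ G) h

theorem incb1_eTA (G : (↥A)[X][X]) :
    incb1 A (PhiT A N Rτ) (eTA A N Rτ G) =
      eTk A N Rτ (G.map (mapRingHom (IsLocalRing.residue A))) := by
  have h : (incb1 A (PhiT A N Rτ)).comp (eTA A N Rτ) =
      (eTk A N Rτ).comp (mapRingHom (mapRingHom (IsLocalRing.residue A))) := by
    apply Polynomial.ringHom_ext
    · intro a
      simp only [RingHom.comp_apply, coe_mapRingHom, map_C, eTA, eTk, coe_eval₂RingHom, eval₂_C]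
      exact incb1_e0A A N Rτ a
    · simp only [RingHom.comp_apply, coe_mapRingHom, map_X, eTA, eTk, coe_eval₂RingHom, eval₂_X]
      rw [incb1, AdjoinRoot.map_root]
  exact congrArg (fun φ => φ G) h

theorem eTA_C (Q : (↥A)[X]) : eTA A N Rτ (C Q) = e0A A N Rτ Q := by simp [eTA]
theorem eTL_C (Q : Kb[X]) : eTL A N Rτ (C Q) = e0L A N Rτ Q := by simp [eTL]
theorem eTk_C (Q : (Kres A)[X]) : eTk A N Rτ (C Q) = e0k A N Rτ Q := by simp [eTk]

/-! ### kernels -/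

theorem eTL_of_ev2 {G : Kb[X][X]} (hG : ev2 Kb N G = 0) : eTL A N Rτ G = 0 := by
  have hdvd : (PhiA A N).map (mapRingHom A.subtype) ∣ G := by
    refine tf_dvd N ((PhiA_monic A N).map _) ?_ ?_ (indL N) hG
    · rw [(PhiA_monic A N).natDegree_map, PhiA_natDegree]
    · rw [← coeffMap_ev2, ev2_PhiA, map_zero]
  obtain ⟨H, rfl⟩ := hdvd
  rw [map_mul, ← inc1_eTA, eTA_Phi, map_zero, zero_mul]

theorem eTk_of_ev2
    (Indk : ∀ P : (Kres A)[X][X], P ≠ 0 → P.natDegree < Nat.card (Cos N) → ev2 (Kres A) N P ≠ 0)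
    {G : (Kres A)[X][X]} (hG : ev2 (Kres A) N G = 0) : eTk A N Rτ G = 0 := by
  have hdvd : (PhiA A N).map (mapRingHom (IsLocalRing.residue A)) ∣ G := by
    refine tf_dvd N ((PhiA_monic A N).map _) ?_ ?_ Indk hG
    · rw [(PhiA_monic A N).natDegree_map, PhiA_natDegree]
    · rw [← coeffMap_ev2, ev2_PhiA, map_zero]
  obtain ⟨H, rfl⟩ := hdvd
  rw [map_mul, ← incb1_eTA, eTA_Phi, map_zero, zero_mul]

theorem PhiA_dvd_of_ev2 {G : (↥A)[X][X]} (hG : ev2 A N G = 0) : PhiA A N ∣ G := by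
  refine tf_dvd N (PhiA_monic A N) (PhiA_natDegree A N) (ev2_PhiA A N) ?_ hG
  intro P hP hdeg h0
  have hinj : Function.Injective (mapRingHom (mapRingHom A.subtype)) :=
    map_injective _ (map_injective _ A.subtype_injective)
  refine indL N (P.map (mapRingHom A.subtype)) ?_ (lt_of_le_of_lt natDegree_map_le hdeg) ?_
  · intro h1
    exact hP (hinj (by rw [coe_mapRingHom, h1, Polynomial.map_zero]))
  · rw [← coeffMap_ev2, h0, map_zero]

theorem eTA_of_ev2 {G : (↥A)[X][X]} (hG : ev2 A N G = 0) : eTA A N Rτ G = 0 := by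
  obtain ⟨H, rfl⟩ := PhiA_dvd_of_ev2 A N hG
  rw [map_mul, eTA_Phi, zero_mul]

theorem eTA_congr {G G' : (↥A)[X][X]} (h : ev2 A N G = ev2 A N G') :
    eTA A N Rτ G = eTA A N Rτ G' := by
  obtain ⟨H, hH⟩ := PhiA_dvd_of_ev2 A N (G := G - G') (by rw [map_sub, h, sub_self])
  have h2 : G = G' + PhiA A N * H := by rw [← hH]; ring
  rw [h2, map_add, map_mul, eTA_Phi, zero_mul, add_zero]

theorem eTk_congr
    (Indk : ∀ P : (Kres A)[X][X], P ≠ 0 → P.natDegree < Nat.card (Cos N) → ev2 (Kres A) N P ≠ 0)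
    {G G' : (Kres A)[X][X]} (h : ev2 (Kres A) N G = ev2 (Kres A) N G') :
    eTk A N Rτ G = eTk A N Rτ G' := by
  have h1 := eTk_of_ev2 A N Rτ Indk (G := G - G') (by rw [map_sub, h, sub_self])
  have h2 : eTk A N Rτ (G - G') = eTk A N Rτ G - eTk A N Rτ G' := RingHom.map_sub _ _ _
  rw [h2] at h1
  exact sub_eq_zero.1 h1

/-! ### units -/

theorem isUnit_e0L (hR : Transcendental Kb (Rτ : RatFunc Kb)) {Q : Kb[X]} (hQ : Q ≠ 0) :
    IsUnit (e0L A N Rτ Q) := by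
  have h1 : aeval (Rτ : RatFunc Kb) Q ≠ 0 := fun h0 => hQ ((transcendental_iff.1 hR) Q h0)
  exact (IsUnit.mk0 _ h1).map (AdjoinRoot.of _)

theorem isUnit_e0k (hRb : Transcendental (Kres A) (redV A Rτ)) {Q : (Kres A)[X]} (hQ : Q ≠ 0) :
    IsUnit (e0k A N Rτ Q) := by
  have h1 : aeval (redV A Rτ) Q ≠ 0 := fun h0 => hQ ((transcendental_iff.1 hRb) Q h0)
  exact (IsUnit.mk0 _ h1).map (AdjoinRoot.of _)

theorem isUnit_e0A (hRb : Transcendental (Kres A) (redV A Rτ)) {Q : (↥A)[X]}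
    (hQ : Q.map (IsLocalRing.residue A) ≠ 0) : IsUnit (e0A A N Rτ Q) := by
  have h1 : redV A (evTau A Rτ Q) ≠ 0 := by
    have e : redV A (evTau A Rτ Q) = aeval (redV A Rτ) (Q.map (IsLocalRing.residue A)) :=
      congrArg (fun φ => φ Q) (redV_comp_evTau A Rτ)
    rw [e]
    exact fun h0 => hQ ((transcendental_iff.1 hRb) _ h0)
  exact ((isUnit_iff A _).2 h1).map (AdjoinRoot.of _)

/-! ### the embedding -/

theorem exists_embFF (hR : Transcendental Kb (Rτ : RatFunc Kb)) :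
    ∃ emb : FN N →+* FF A (PhiT A N Rτ), ∀ (f : FN N) (Q : Kb[X]) (G : Kb[X][X]), Q ≠ 0 →
      (f : LaurentSeries Kb) * aeval (jqModC Kb) Q = ev2 Kb N G →
        emb f * e0L A N Rτ Q = eTL A N Rτ G := by
  obtain ⟨emb, hemb⟩ := emb_exists (F := FN N) (P := Kb[X][X]) (Lau := LaurentSeries Kb)
    (T := FF A (PhiT A N Rτ)) (modularFunctionFieldBar N).val.toRingHom (ev2 Kb N) (eTL A N Rτ)
    (fun s => ∃ Q : Kb[X], Q ≠ 0 ∧ s = C Q) ⟨1, one_ne_zero, by simp⟩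
    (by
      rintro _ _ ⟨Q, hQ, rfl⟩ ⟨Q', hQ', rfl⟩
      exact ⟨Q * Q', mul_ne_zero hQ hQ', by simp⟩)
    (by
      rintro _ ⟨Q, hQ, rfl⟩
      rw [eTL_C]
      exact isUnit_e0L A N Rτ hR hQ)
    (fun g hg => eTL_of_ev2 A N Rτ hg)
    (by
      intro f
      obtain ⟨Q, G, hQ, -, h⟩ := span_FN N f
      exact ⟨C Q, ⟨Q, hQ, rfl⟩, G, by rw [tf_ev2_C]; exact h⟩)
  refine ⟨emb, fun f Q G hQ h => ?_⟩
  have := hemb f (C Q) G ⟨Q, hQ, rfl⟩ (by rw [tf_ev2_C]; exact h)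
  rwa [eTL_C] at this

/-- the embedding `F_N → FF` -/
def embFF (hR : Transcendental Kb (Rτ : RatFunc Kb)) : FN N →+* FF A (PhiT A N Rτ) :=
  (exists_embFF A N Rτ hR).choose

theorem embFF_spec (hR : Transcendental Kb (Rτ : RatFunc Kb)) (f : FN N) (Q : Kb[X])
    (G : Kb[X][X]) (hQ : Q ≠ 0) (h : (f : LaurentSeries Kb) * aeval (jqModC Kb) Q = ev2 Kb N G) :
    embFF A N Rτ hR f * e0L A N Rτ Q = eTL A N Rτ G :=
  (exists_embFF A N Rτ hR).choose_spec f Q G hQ h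

theorem embFF_of_ev2 (hR : Transcendental Kb (Rτ : RatFunc Kb)) (f : FN N) (G : Kb[X][X])
    (h : (f : LaurentSeries Kb) = ev2 Kb N G) : embFF A N Rτ hR f = eTL A N Rτ G := by
  have := embFF_spec A N Rτ hR f 1 G one_ne_zero (by rw [map_one, mul_one]; exact h)
  rwa [map_one, mul_one] at this

theorem embFF_algebraMap (hR : Transcendental Kb (Rτ : RatFunc Kb)) (c : Kb) :
    embFF A N Rτ hR (algebraMap Kb (FN N) c) = AdjoinRoot.of _ (RatFunc.C c) := by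
  rw [embFF_of_ev2 A N Rτ hR _ (C (C c)) (by rw [tf_ev2_CC]; rfl), eTL_C]
  change AdjoinRoot.of _ (aeval (Rτ : RatFunc Kb) (C c)) = _
  rw [aeval_C, RatFunc.algebraMap_eq_C]

theorem embFF_jBar (hR : Transcendental Kb (Rτ : RatFunc Kb)) :
    embFF A N Rτ hR (jBar N) = AdjoinRoot.of _ (Rτ : RatFunc Kb) := by
  rw [embFF_of_ev2 A N Rτ hR _ (C X) (by rw [tf_ev2_C, aeval_X, coe_jBar]), eTL_C]
  change AdjoinRoot.of _ (aeval (Rτ : RatFunc Kb) X) = _
  rw [aeval_X]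

theorem embFF_jN (hR : Transcendental Kb (Rτ : RatFunc Kb)) :
    embFF A N Rτ hR (jdS N ⟨N, dvd_rfl⟩) = AdjoinRoot.root _ := by
  rw [embFF_of_ev2 A N Rτ hR _ X (by rw [coe_jdS_N]; simp [ev2])]
  simp [eTL]

/-! ### representations of quotients of integral elements -/

variable {A N}

theorem exists_rep
    (Indk : ∀ P : (Kres A)[X][X], P ≠ 0 → P.natDegree < Nat.card (Cos N) → ev2 (Kres A) N P ≠ 0)
    {f : FN N} {fb : FbN A N} (h : UnitRel A N f fb) :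
    ∃ (Q : (↥A)[X]) (G : (↥A)[X][X]), Q.map (IsLocalRing.residue A) ≠ 0 ∧
      (f : LaurentSeries Kb) * coeffMap A.subtype (aeval (jqModC A) Q) =
        coeffMap A.subtype (ev2 A N G) ∧
      (fb : LaurentSeries (Kres A)) * coeffMap (IsLocalRing.residue A) (aeval (jqModC A) Q) =
        coeffMap (IsLocalRing.residue A) (ev2 A N G) := by
  obtain ⟨a, b, -, -, -, -, -, hb, h1, h2⟩ := h
  obtain ⟨Q0, G0, hQ0, hG0, h0⟩ := span_FN N f
  obtain ⟨Q, G, hQ, -, e1, e2⟩ := tf_ow A N (Nat.card (Cos N)) Indk (f : LaurentSeries Kb)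
    (fb : LaurentSeries (Kres A)) a b hb h1 h2 Q0 hQ0 G0 hG0 h0
  exact ⟨Q, G, hQ, e1, e2⟩

variable (A N)

/-- abstract cancellation -/
theorem emb_cancel {T : Type*} [CommRing T] {x y u : T} (hu : IsUnit u) (h : x * u = y * u) :
    x = y := hu.mul_right_cancel h

theorem exists_B1 (hRb : Transcendental (Kres A) (redV A Rτ)) {Q : (↥A)[X]}
    (hQ : Q.map (IsLocalRing.residue A) ≠ 0) (G : (↥A)[X][X]) :
    ∃ f1 : B1 A (PhiT A N Rτ), f1 * e0A A N Rτ Q = eTA A N Rτ G := by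
  obtain ⟨u, hu⟩ := isUnit_e0A A N Rτ hRb hQ
  refine ⟨eTA A N Rτ G * ((u⁻¹ : (B1 A (PhiT A N Rτ))ˣ) : B1 A (PhiT A N Rτ)), ?_⟩
  rw [← hu, mul_assoc, Units.inv_mul, mul_one]

theorem map_subtype_ne_zero {Q : (↥A)[X]} (hQ : Q.map (IsLocalRing.residue A) ≠ 0) :
    Q.map A.subtype ≠ 0 := by
  intro h0
  have : Q = 0 := map_injective _ A.subtype_injective (by rw [h0, Polynomial.map_zero])
  exact hQ (by rw [this, Polynomial.map_zero])

theorem embFF_eq_inc1 (hR : Transcendental Kb (Rτ : RatFunc Kb)) {f : FN N} {Q : (↥A)[X]}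
    {G : (↥A)[X][X]} (hQ : Q.map (IsLocalRing.residue A) ≠ 0)
    (h : (f : LaurentSeries Kb) * coeffMap A.subtype (aeval (jqModC A) Q) =
        coeffMap A.subtype (ev2 A N G))
    {f1 : B1 A (PhiT A N Rτ)} (hf1 : f1 * e0A A N Rτ Q = eTA A N Rτ G) :
    embFF A N Rτ hR f = inc1 A (PhiT A N Rτ) f1 := by
  have hQ' := map_subtype_ne_zero A hQ
  apply emb_cancel (isUnit_e0L A N Rτ hR hQ')
  rw [embFF_spec A N Rτ hR f _ (G.map (mapRingHom A.subtype)) hQ'
    (by rw [← coeffMap_aeval_jqModC, ← coeffMap_ev2]; exact h), ← inc1_e0A, ← map_mul, hf1,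
    inc1_eTA]

theorem f1_mul_eq_one (hRb : Transcendental (Kres A) (redV A Rτ)) {f : FN N} (hf : f ≠ 0)
    {Q Q' : (↥A)[X]} {G G' : (↥A)[X][X]}
    (hQ : Q.map (IsLocalRing.residue A) ≠ 0) (hQ' : Q'.map (IsLocalRing.residue A) ≠ 0)
    (h : (f : LaurentSeries Kb) * coeffMap A.subtype (aeval (jqModC A) Q) =
        coeffMap A.subtype (ev2 A N G))
    (h' : ((f⁻¹ : FN N) : LaurentSeries Kb) * coeffMap A.subtype (aeval (jqModC A) Q') =
        coeffMap A.subtype (ev2 A N G'))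
    {f1 f1' : B1 A (PhiT A N Rτ)} (hf1 : f1 * e0A A N Rτ Q = eTA A N Rτ G)
    (hf1' : f1' * e0A A N Rτ Q' = eTA A N Rτ G') : f1 * f1' = 1 := by
  have hff : (f : LaurentSeries Kb) * ((f⁻¹ : FN N) : LaurentSeries Kb) = 1 := by
    have : f * f⁻¹ = 1 := mul_inv_cancel₀ hf
    exact congrArg Subtype.val this
  have h0 : ev2 A N (G * G') = ev2 A N (C (Q * Q')) := by
    apply tf_incl_injective A
    rw [map_mul, map_mul, ← h, ← h', tf_ev2_C, map_mul, map_mul]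
    calc _ = ((f : LaurentSeries Kb) * ((f⁻¹ : FN N) : LaurentSeries Kb)) *
          (coeffMap A.subtype (aeval (jqModC A) Q) * coeffMap A.subtype (aeval (jqModC A) Q')) := by
          ring
      _ = _ := by rw [hff, one_mul]
  have h1 := eTA_congr A N Rτ h0
  rw [RingHom.map_mul, eTA_C, RingHom.map_mul, ← hf1, ← hf1'] at h1
  apply emb_cancel ((isUnit_e0A A N Rτ hRb hQ).mul (isUnit_e0A A N Rτ hRb hQ'))
  calc f1 * f1' * (e0A A N Rτ Q * e0A A N Rτ Q')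
      = f1 * e0A A N Rτ Q * (f1' * e0A A N Rτ Q') := by ring
    _ = e0A A N Rτ Q * e0A A N Rτ Q' := h1
    _ = _ := (one_mul _).symm

theorem incb1_eq_pow
    (Indk : ∀ P : (Kres A)[X][X], P ≠ 0 → P.natDegree < Nat.card (Cos N) → ev2 (Kres A) N P ≠ 0)
    (hRb : Transcendental (Kres A) (redV A Rτ)) (p : ℕ) {gb : FbN A N}
    {Q Q' : (↥A)[X]} {G G' : (↥A)[X][X]}
    (hQ : Q.map (IsLocalRing.residue A) ≠ 0) (hQ' : Q'.map (IsLocalRing.residue A) ≠ 0)
    (h : ((gb ^ p : FbN A N) : LaurentSeries (Kres A)) *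
        coeffMap (IsLocalRing.residue A) (aeval (jqModC A) Q) =
        coeffMap (IsLocalRing.residue A) (ev2 A N G))
    (h' : (gb : LaurentSeries (Kres A)) * coeffMap (IsLocalRing.residue A) (aeval (jqModC A) Q') =
        coeffMap (IsLocalRing.residue A) (ev2 A N G'))
    {f1 g1 : B1 A (PhiT A N Rτ)} (hf1 : f1 * e0A A N Rτ Q = eTA A N Rτ G)
    (hg1 : g1 * e0A A N Rτ Q' = eTA A N Rτ G') :
    incb1 A (PhiT A N Rτ) f1 = (incb1 A (PhiT A N Rτ) g1) ^ p := by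
  have h0 : ev2 (Kres A) N ((C (Q' ^ p) * G).map (mapRingHom (IsLocalRing.residue A))) =
      ev2 (Kres A) N ((C Q * G' ^ p).map (mapRingHom (IsLocalRing.residue A))) := by
    rw [← coeffMap_ev2, ← coeffMap_ev2, RingHom.map_mul, RingHom.map_mul, RingHom.map_mul,
      RingHom.map_mul, tf_ev2_C, tf_ev2_C, RingHom.map_pow (ev2 (↥A) N),
      RingHom.map_pow (coeffMap (IsLocalRing.residue A)), ← h, ← h', map_pow, map_pow]
    push_cast
    ring
  have h1 := eTk_congr A N Rτ Indk h0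
  rw [← incb1_eTA, ← incb1_eTA, RingHom.map_mul (eTA A N Rτ), RingHom.map_mul (eTA A N Rτ),
    eTA_C, eTA_C, RingHom.map_pow (eTA A N Rτ), ← hf1, ← hg1, RingHom.map_pow (e0A A N Rτ)] at h1
  simp only [RingHom.map_mul, RingHom.map_pow] at h1
  have hu : IsUnit ((incb1 A (PhiT A N Rτ) (e0A A N Rτ Q')) ^ p *
      incb1 A (PhiT A N Rτ) (e0A A N Rτ Q)) :=
    (((isUnit_e0A A N Rτ hRb hQ').map _).pow p).mul ((isUnit_e0A A N Rτ hRb hQ).map _)
  apply emb_cancel hu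
  calc _ = (incb1 A (PhiT A N Rτ)) (e0A A N Rτ Q') ^ p *
        ((incb1 A (PhiT A N Rτ)) f1 * (incb1 A (PhiT A N Rτ)) (e0A A N Rτ Q)) := by ring
    _ = _ := by rw [h1]; ring

/-- **TRANSFER**: the elements `f1`, `f1'`, `g1`. -/
theorem exists_f1
    (Indk : ∀ P : (Kres A)[X][X], P ≠ 0 → P.natDegree < Nat.card (Cos N) → ev2 (Kres A) N P ≠ 0)
    (hR : Transcendental Kb (Rτ : RatFunc Kb)) (hRb : Transcendental (Kres A) (redV A Rτ))
    (p : ℕ) (f : FN N) (gb : FbN A N) (hgb : gb ≠ 0) (h : UnitRel A N f (gb ^ p)) :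
    ∃ (f1 f1' g1 g1' : B1 A (PhiT A N Rτ)), f1 * f1' = 1 ∧ g1 * g1' = 1 ∧
      incb1 A (PhiT A N Rτ) f1 = (incb1 A (PhiT A N Rτ) g1) ^ p ∧
      embFF A N Rτ hR f = inc1 A (PhiT A N Rτ) f1 := by
  obtain ⟨Q, G, hQ, e1, e2⟩ := exists_rep Indk h
  obtain ⟨Q', G', hQ', e1', -⟩ := exists_rep Indk h.inv
  obtain ⟨fg, hfg⟩ := tr_exists_frac_bar gb hgb
  obtain ⟨Qg, Gg, hQg, eg1, eg2⟩ := exists_rep Indk hfg
  obtain ⟨Qg', Gg', hQg', eg1', -⟩ := exists_rep Indk hfg.inv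
  obtain ⟨f1, hf1⟩ := exists_B1 A N Rτ hRb hQ G
  obtain ⟨f1', hf1'⟩ := exists_B1 A N Rτ hRb hQ' G'
  obtain ⟨g1, hg1⟩ := exists_B1 A N Rτ hRb hQg Gg
  obtain ⟨g1', hg1'⟩ := exists_B1 A N Rτ hRb hQg' Gg'
  exact ⟨f1, f1', g1, g1', f1_mul_eq_one A N Rτ hRb h.ne_zero.1 hQ hQ' e1 e1' hf1 hf1',
    f1_mul_eq_one A N Rτ hRb hfg.ne_zero.1 hQg hQg' eg1 eg1' hg1 hg1',
    incb1_eq_pow A N Rτ Indk hRb p hQ hQg e2 eg2 hf1 hg1,
    embFF_eq_inc1 A N Rτ hR hQ e1 hf1⟩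

end Fermat.Agent.S18
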