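import Mathlib

/-!
# S18, plan Z: explicit algebra of the base lines (`λ`-line, Hesse `μ`-line)
-/

set_option autoImplicit false
set_option linter.unusedSimpArgs false

namespace Fermat.Agent.S18

open Polynomial

section Defs

variable (R : Type*) [CommRing R]

noncomputable def lamNum : R[X] := 256 * (X ^ 2 - X + 1) ^ 3
noncomputable def lamDen : R[X] := (X * (1 - X)) ^ 2
noncomputable def muNum : R[X] := 27 * (X * (X ^ 3 + 8)) ^ 3
noncomputable def muDen : R[X] := (X ^ 3 - 1) ^ 3
/-- the `s = 1/τ` chart of the `μ`-line -/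
noncomputable def muNumS : R[X] := 27 * (1 + 8 * X ^ 3) ^ 3
noncomputable def muDenS : R[X] := (X * (1 - X ^ 3)) ^ 3

variable {R} {S : Type*} [CommRing S] (f : R →+* S)

theorem lamNum_map : (lamNum R).map f = lamNum S := by simp [lamNum]
theorem lamDen_map : (lamDen R).map f = lamDen S := by simp [lamDen]
theorem muNum_map : (muNum R).map f = muNum S := by simp [muNum]
theorem muDen_map : (muDen R).map f = muDen S := by simp [muDen]
theorem muNumS_map : (muNumS R).map f = muNumS S := by simp [muNumS]
theorem muDenS_map : (muDenS R).map f = muDenS S := by simp [muDenS]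

end Defs

variable {K : Type*} [Field K]

/-- local behaviour of `R = Num / Den` : `P¹ → P¹_j`. -/
structure LocalLine (Num Den : K[X]) (c : ℕ) : Prop where
  fin : ∀ a, Den.eval a ≠ 0 → ∃ (m : ℕ) (G : K[X]),
    Num - C (Num.eval a / Den.eval a) * Den = (X - C a) ^ m * G ∧ G.eval a ≠ 0 ∧
      ((Num.eval a = 0 ∧ m = 3) ∨ (Num.eval a = 1728 * Den.eval a ∧ m = 2) ∨
        (Num.eval a ≠ 0 ∧ Num.eval a ≠ 1728 * Den.eval a ∧ m = 1))
  cusp : ∀ a, Den.eval a = 0 → Num.eval a ≠ 0 ∧
    ∃ D1 : K[X], Den = (X - C a) ^ c * D1 ∧ D1.eval a ≠ 0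

theorem exists_factor_of_simple_root (h : K[X]) (a : K) (h0 : h.eval a = 0) :
    ∃ g : K[X], h = (X - C a) * g ∧ g.eval a = h.derivative.eval a := by
  obtain ⟨g, hg⟩ := dvd_iff_isRoot.2 h0
  refine ⟨g, hg, ?_⟩
  rw [hg, derivative_mul]
  simp

theorem exists_factor_pow (U h : K[X]) (a : K) (e : ℕ) (h0 : h.eval a = 0)
    (h1 : h.derivative.eval a ≠ 0) (hU : U.eval a ≠ 0) :
    ∃ G : K[X], U * h ^ e = (X - C a) ^ e * G ∧ G.eval a ≠ 0 := by
  obtain ⟨g, hg, hga⟩ := exists_factor_of_simple_root h a h0
  refine ⟨U * g ^ e, ?_, ?_⟩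
  · conv_lhs => rw [hg, mul_pow]
    ring
  · rw [eval_mul, eval_pow, hga]
    exact mul_ne_zero hU (pow_ne_zero _ h1)

theorem localLine_of (Num Den h0 h1 hc : K[X]) (u0 u1 κ : K) (c : ℕ) (hc0 : c ≠ 0)
    (e0 : Num = C u0 * h0 ^ 3) (e1 : Num - C 1728 * Den = C u1 * h1 ^ 2) (ec : Den = hc ^ c)
    (eW : derivative Num * Den - Num * derivative Den = C κ * h0 ^ 2 * h1 * hc ^ (c - 1))
    (hu0 : u0 ≠ 0) (hu1 : u1 ≠ 0) (hκ : κ ≠ 0)
    (s0 : ∀ a, h0.eval a = 0 → h0.derivative.eval a ≠ 0)
    (s1 : ∀ a, h1.eval a = 0 → h1.derivative.eval a ≠ 0)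
    (sc : ∀ a, hc.eval a = 0 → hc.derivative.eval a ≠ 0)
    (hcop : ∀ a, hc.eval a = 0 → h0.eval a ≠ 0) : LocalLine Num Den c := by
  constructor
  · intro a hD
    have hca : hc.eval a ≠ 0 := by
      intro h
      apply hD
      rw [ec, eval_pow, h, zero_pow hc0]
    by_cases hN0 : Num.eval a = 0
    · have hh0 : h0.eval a = 0 := by
        rw [e0, eval_mul, eval_C, eval_pow] at hN0
        simpa [hu0] using hN0
      obtain ⟨G, hG, hGa⟩ := exists_factor_pow (C u0) h0 a 3 hh0 (s0 a hh0) (by simpa using hu0)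
      refine ⟨3, G, ?_, hGa, Or.inl ⟨hN0, rfl⟩⟩
      rw [hN0, zero_div, C_0, zero_mul, sub_zero, e0, hG]
    by_cases hN1 : Num.eval a = 1728 * Den.eval a
    · have hh1 : h1.eval a = 0 := by
        have := congrArg (eval a) e1
        rw [eval_sub, eval_mul, eval_C, hN1, sub_self, eval_mul, eval_C, eval_pow] at this
        simpa [hu1] using this.symm
      obtain ⟨G, hG, hGa⟩ := exists_factor_pow (C u1) h1 a 2 hh1 (s1 a hh1) (by simpa using hu1)
      refine ⟨2, G, ?_, hGa, Or.inr (Or.inl ⟨hN1, rfl⟩)⟩
      rw [hN1, mul_div_cancel_right₀ _ hD, e1, hG]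
    · set j0 := Num.eval a / Den.eval a with hj0
      have hroot : (Num - C j0 * Den).eval a = 0 := by
        rw [eval_sub, eval_mul, eval_C, hj0, div_mul_cancel₀ _ hD, sub_self]
      obtain ⟨G, hG, hGa⟩ := exists_factor_of_simple_root _ a hroot
      refine ⟨1, G, by rw [pow_one]; exact hG, ?_, Or.inr (Or.inr ⟨hN0, hN1, rfl⟩)⟩
      rw [hGa]
      have hh0 : h0.eval a ≠ 0 := by
        intro h
        apply hN0
        rw [e0, eval_mul, eval_pow, h]
        simp
      have hh1 : h1.eval a ≠ 0 := by
        intro h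
        apply hN1
        have := congrArg (eval a) e1
        rw [eval_sub, eval_mul, eval_C, eval_mul, eval_pow, h] at this
        simp at this
        linear_combination this
      have hW := congrArg (eval a) eW
      simp only [eval_sub, eval_mul, eval_C, eval_pow] at hW
      have hne : κ * h0.eval a ^ 2 * h1.eval a * hc.eval a ^ (c - 1) ≠ 0 :=
        mul_ne_zero (mul_ne_zero (mul_ne_zero hκ (pow_ne_zero _ hh0)) hh1) (pow_ne_zero _ hca)
      rw [← hW] at hne
      intro h
      apply hne
      simp only [derivative_sub, derivative_mul, derivative_C, zero_mul, zero_add, eval_sub,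
        eval_mul, eval_C] at h
      have : eval a (derivative Num) = j0 * eval a (derivative Den) := by linear_combination h
      rw [this, hj0]
      field_simp
      ring
  · intro a hD
    have hca : hc.eval a = 0 := by
      rw [ec, eval_pow] at hD
      exact (pow_eq_zero_iff hc0).1 hD
    refine ⟨?_, ?_⟩
    · rw [e0, eval_mul, eval_C, eval_pow]
      exact mul_ne_zero hu0 (pow_ne_zero _ (hcop a hca))
    · obtain ⟨G, hG, hGa⟩ := exists_factor_pow 1 hc a c hca (sc a hca) (by simp)
      exact ⟨G, by rw [ec, ← hG, one_mul], hGa⟩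

section Instances

variable [CharZero K]

theorem localLine_lambda : LocalLine (lamNum K) (lamDen K) 2 := by
  refine localLine_of (lamNum K) (lamDen K) (X ^ 2 - X + 1) ((X + 1) * (X - 2) * (2 * X - 1))
    (X * (1 - X)) 256 64 (-256) 2 two_ne_zero ?_ ?_ rfl ?_ (by norm_num) (by norm_num)
    (by norm_num) ?_ ?_ ?_ ?_
  · simp only [lamNum, map_ofNat]
  · simp only [lamNum, lamDen, map_ofNat]
    ring
  · simp only [lamNum, lamDen, map_neg, map_ofNat, derivative_mul, derivative_pow, derivative_sub,
      derivative_add, derivative_X, derivative_one, derivative_ofNat, Nat.cast_ofNat]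
    ring
  · intro a h0 h1
    simp only [derivative_sub, derivative_add, derivative_X, derivative_one, derivative_X_pow,
      eval_sub, eval_add, eval_mul, eval_pow, eval_X, eval_one, eval_C, eval_zero,
      Nat.cast_ofNat] at h0 h1
    have : (3 : K) = 0 := by linear_combination 4 * h0 - (2 * a - 1) * h1
    norm_num at this
  · intro a h0 h1
    simp only [derivative_mul, derivative_sub, derivative_add, derivative_X, derivative_one,
      derivative_ofNat, eval_sub, eval_add, eval_mul, eval_X, eval_one, eval_ofNat,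
      eval_zero] at h0 h1
    have e1 : a = 1 / 2 := by linear_combination (-1 / 3 : K) * h0 + (a / 9 - 1 / 18) * h1
    rw [e1] at h1
    norm_num at h1
  · intro a h0 h1
    simp only [derivative_mul, derivative_sub, derivative_X, derivative_one,
      eval_sub, eval_add, eval_mul, eval_X, eval_one, eval_zero] at h0 h1
    have e1 : a = 1 / 2 := by linear_combination (-1 / 2 : K) * h1
    rw [e1] at h0
    norm_num at h0
  · intro a h0 h1
    simp only [eval_sub, eval_add, eval_mul, eval_pow, eval_X, eval_one] at h0 h1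
    have : (1 : K) = 0 := by linear_combination h1 + h0
    norm_num at this

theorem localLine_mu : LocalLine (muNum K) (muDen K) 3 := by
  refine localLine_of (muNum K) (muDen K) (X * (X ^ 3 + 8)) (X ^ 6 - 20 * X ^ 3 - 8)
    (X ^ 3 - 1) 27 27 81 3 three_ne_zero ?_ ?_ rfl ?_ (by norm_num) (by norm_num)
    (by norm_num) ?_ ?_ ?_ ?_
  · simp only [muNum, map_ofNat]
  · simp only [muNum, muDen, map_ofNat]
    ring
  · simp only [muNum, muDen, map_ofNat, derivative_mul, derivative_pow, derivative_sub,
      derivative_add, derivative_X, derivative_one, derivative_ofNat, Nat.cast_ofNat]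
    ring
  · intro a h0 h1
    simp only [derivative_mul, derivative_add, derivative_X, derivative_ofNat, derivative_X_pow,
      eval_sub, eval_add, eval_mul, eval_pow, eval_X, eval_one, eval_C, eval_zero, eval_ofNat,
      Nat.cast_ofNat] at h0 h1
    have : (8 : K) = 0 := by linear_combination h1 - (a ^ 2 / 6) * (4 * h0 - a * h1)
    norm_num at this
  · intro a h0 h1
    simp only [derivative_mul, derivative_sub, derivative_X, derivative_ofNat, derivative_X_pow,
      eval_sub, eval_add, eval_mul, eval_pow, eval_X, eval_one, eval_C, eval_zero, eval_ofNat,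
      Nat.cast_ofNat] at h0 h1
    have : (216 / 25 : K) = 0 := by
      linear_combination h0 - (-a ^ 3 / 60 + 26 / 75) * (6 * h0 - a * h1)
    norm_num at this
  · intro a h0 h1
    simp only [derivative_sub, derivative_one, derivative_X_pow,
      eval_sub, eval_add, eval_mul, eval_pow, eval_X, eval_one, eval_C, eval_zero,
      Nat.cast_ofNat] at h0 h1
    have : (3 : K) = 0 := by linear_combination a * h1 - 3 * h0
    norm_num at this
  · intro a h0 h1
    simp only [eval_sub, eval_add, eval_mul, eval_pow, eval_X, eval_one, eval_ofNat] at h0 h1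
    have : (1 : K) = 0 := by linear_combination (a ^ 2 / 9) * (h1 - a * h0) - h0
    norm_num at this

theorem localLine_muS : LocalLine (muNumS K) (muDenS K) 3 := by
  refine localLine_of (muNumS K) (muDenS K) (1 + 8 * X ^ 3) (1 - 20 * X ^ 3 - 8 * X ^ 6)
    (X * (1 - X ^ 3)) 27 27 (-81) 3 three_ne_zero ?_ ?_ rfl ?_ (by norm_num) (by norm_num)
    (by norm_num) ?_ ?_ ?_ ?_
  · simp only [muNumS, map_ofNat]
  · simp only [muNumS, muDenS, map_ofNat]
    ring
  · simp only [muNumS, muDenS, map_neg, map_ofNat, derivative_mul, derivative_pow, derivative_sub,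
      derivative_add, derivative_X, derivative_one, derivative_ofNat, Nat.cast_ofNat]
    ring
  · intro a h0 h1
    simp only [derivative_mul, derivative_add, derivative_one, derivative_ofNat, derivative_X_pow,
      eval_sub, eval_add, eval_mul, eval_pow, eval_X, eval_one, eval_C, eval_zero, eval_ofNat,
      Nat.cast_ofNat] at h0 h1
    have : (1 : K) = 0 := by linear_combination h0 - (a / 3) * h1
    norm_num at this
  · intro a h0 h1
    simp only [derivative_mul, derivative_sub, derivative_one, derivative_ofNat, derivative_X_pow,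
      eval_sub, eval_add, eval_mul, eval_pow, eval_X, eval_one, eval_C, eval_zero, eval_ofNat,
      Nat.cast_ofNat] at h0 h1
    have : (-27 / 25 : K) = 0 := by
      linear_combination h0 - (2 * a ^ 3 / 15 + 26 / 75) * (6 * h0 - a * h1)
    norm_num at this
  · intro a h0 h1
    simp only [derivative_mul, derivative_sub, derivative_one, derivative_X, derivative_X_pow,
      eval_sub, eval_add, eval_mul, eval_pow, eval_X, eval_one, eval_C, eval_zero,
      Nat.cast_ofNat] at h0 h1
    have : (1 : K) = 0 := by linear_combination h1 + (4 * a ^ 2 / 3) * (4 * h0 - a * h1)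
    norm_num at this
  · intro a h0 h1
    simp only [eval_sub, eval_add, eval_mul, eval_pow, eval_X, eval_one, eval_ofNat] at h0 h1
    have : (1 : K) = 0 := by linear_combination h1 - (8 * a ^ 2 / 9) * (8 * h0 + a * h1)
    norm_num at this

end Instances

section Charts

variable {R Ω : Type*} [CommRing R] [Field Ω] (f : R →+* Ω)

/-- `R_λ(1/t) = R_λ(t)` -/
theorem lam_chart {t : Ω} (ht : t ≠ 0) :
    eval₂ f t⁻¹ (lamNum R) * eval₂ f t (lamDen R) = eval₂ f t (lamNum R) * eval₂ f t⁻¹ (lamDen R) := by
  simp only [lamNum, lamDen, eval₂_mul, eval₂_pow, eval₂_sub, eval₂_add, eval₂_X, eval₂_one,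
    eval₂_ofNat]
  field_simp
  ring

/-- the `s`-chart of the `μ`-line -/
theorem mu_chart {t : Ω} (ht : t ≠ 0) :
    eval₂ f t⁻¹ (muNumS R) * eval₂ f t (muDen R) = eval₂ f t (muNum R) * eval₂ f t⁻¹ (muDenS R) := by
  simp only [muNum, muDen, muNumS, muDenS, eval₂_mul, eval₂_pow, eval₂_sub, eval₂_add, eval₂_X,
    eval₂_one, eval₂_ofNat]
  field_simp

end Charts

end Fermat.Agent.S18
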