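import Fermat.Agent.S18.EndFN
import Fermat.Agent.S18.Defs2
import Fermat.Agent.S18.Lines

/-!
# S18 plan Z, step (F'): the end of the proof for `FF = AdjoinRoot Φ0`
-/

set_option autoImplicit false
set_option linter.unusedSimpArgs false

namespace Fermat.Agent.S18

open Polynomial ModularCurve AlgebraicCurve Fermat.Agent.S24

theorem ei_hgen {K : Type*} [Field K] (g : K[X]) (y : AdjoinRoot g) :
    ∃ P : K[X], y = aeval (AdjoinRoot.root g) P := by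
  obtain ⟨P, rfl⟩ := AdjoinRoot.mk_surjective y
  exact ⟨P, (AdjoinRoot.aeval_eq P).symm⟩

section lineR

variable {L : Type*} [Field L] (A : ValuationSubring L)

theorem lineR_mul (Num Den : (↥A)[X]) (hDen : gRed A Den ≠ 0) :
    ((lineR A Num Den hDen : OV A) : RatFunc L) * gIncl A Den = gIncl A Num :=
  div_mul_cancel₀ _ (gIncl_ne_zero A hDen)

theorem gIncl_lamNum : gIncl A (lamNum A) = 256 * (RatFunc.X ^ 2 - RatFunc.X + 1) ^ 3 := by
  simp only [lamNum, map_mul, map_pow, map_sub, map_add, map_one, map_ofNat, gIncl_X]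

theorem gIncl_lamDen : gIncl A (lamDen A) = (RatFunc.X * (1 - RatFunc.X)) ^ 2 := by
  simp only [lamDen, map_mul, map_pow, map_sub, map_add, map_one, map_ofNat, gIncl_X]

theorem gIncl_muNum : gIncl A (muNum A) = 27 * (RatFunc.X * (RatFunc.X ^ 3 + 8)) ^ 3 := by
  simp only [muNum, map_mul, map_pow, map_sub, map_add, map_one, map_ofNat, gIncl_X]

theorem gIncl_muDen : gIncl A (muDen A) = (RatFunc.X ^ 3 - 1) ^ 3 := by
  simp only [muDen, map_mul, map_pow, map_sub, map_add, map_one, map_ofNat, gIncl_X]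

theorem lineR_lambda_spec (hDen : gRed A (lamDen A) ≠ 0) :
    ((lineR A (lamNum A) (lamDen A) hDen : OV A) : RatFunc L) * (RatFunc.X * (1 - RatFunc.X)) ^ 2 =
      256 * (RatFunc.X ^ 2 - RatFunc.X + 1) ^ 3 := by
  rw [← gIncl_lamDen, ← gIncl_lamNum]
  exact lineR_mul A _ _ hDen

theorem lineR_mu_spec (hDen : gRed A (muDen A) ≠ 0) :
    ((lineR A (muNum A) (muDen A) hDen : OV A) : RatFunc L) * (RatFunc.X ^ 3 - 1) ^ 3 =
      27 * (RatFunc.X * (RatFunc.X ^ 3 + 8)) ^ 3 := by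
  rw [← gIncl_muDen, ← gIncl_muNum]
  exact lineR_mul A _ _ hDen

end lineR

variable {N : ℕ} [NeZero N]

/-- step (F') on the `λ`-line -/
theorem end_lambda (Φ0 : (RatFunc Kb)[X]) (Rτ : RatFunc Kb)
    (hR : Rτ * (RatFunc.X * (1 - RatFunc.X)) ^ 2 = 256 * (RatFunc.X ^ 2 - RatFunc.X + 1) ^ 3)
    (emb : FN N →+* AdjoinRoot Φ0)
    (hembc : ∀ c : Kb, emb (algebraMap Kb (FN N) c) = AdjoinRoot.of Φ0 (RatFunc.C c))
    (hembj : emb (jBar N) = AdjoinRoot.of Φ0 Rτ)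
    (x0 : FN N) (hembx : emb x0 = AdjoinRoot.root Φ0)
    {p : ℕ} (hp : p.Prime) (hp3 : p ≠ 3) {f : FN N} (hf0 : f ≠ 0)
    (hf : ∀ v : Place Kb (FN N), (p : ℤ) ∣ v.ord f)
    (m : Ideal (AdjoinRoot Φ0)) (hm : m.IsMaximal) (z : AdjoinRoot Φ0 ⧸ m)
    (hz : z ^ p = Ideal.Quotient.mk m (emb f)) : ∃ y : FN N, f = y ^ p := by
  refine core_end_lambda emb hembc x0 (fun y => by rw [hembx]; exact ei_hgen Φ0 y)
    (algebraMap (RatFunc Kb) (AdjoinRoot Φ0) RatFunc.X) rfl ?_ hp hp3 hf0 hf m z hz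
  rw [hembj]
  have h := congrArg (AdjoinRoot.of Φ0) hR
  simp only [map_mul, map_pow, map_sub, map_add, map_one, map_ofNat] at h
  rw [AdjoinRoot.algebraMap_eq, ← h]
  ring

/-- step (F') on the `μ`-line -/
theorem end_mu (Φ0 : (RatFunc Kb)[X]) (Rτ : RatFunc Kb)
    (hR : Rτ * (RatFunc.X ^ 3 - 1) ^ 3 = 27 * (RatFunc.X * (RatFunc.X ^ 3 + 8)) ^ 3)
    (emb : FN N →+* AdjoinRoot Φ0)
    (hembc : ∀ c : Kb, emb (algebraMap Kb (FN N) c) = AdjoinRoot.of Φ0 (RatFunc.C c))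
    (hembj : emb (jBar N) = AdjoinRoot.of Φ0 Rτ)
    (x0 : FN N) (hembx : emb x0 = AdjoinRoot.root Φ0)
    {p : ℕ} (hp : p.Prime) (hp2 : p ≠ 2) {f : FN N} (hf0 : f ≠ 0)
    (hf : ∀ v : Place Kb (FN N), (p : ℤ) ∣ v.ord f)
    (m : Ideal (AdjoinRoot Φ0)) (hm : m.IsMaximal) (z : AdjoinRoot Φ0 ⧸ m)
    (hz : z ^ p = Ideal.Quotient.mk m (emb f)) : ∃ y : FN N, f = y ^ p := by
  refine core_end_mu emb hembc x0 (fun y => by rw [hembx]; exact ei_hgen Φ0 y)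
    (algebraMap (RatFunc Kb) (AdjoinRoot Φ0) RatFunc.X) rfl ?_ hp hp2 hf0 hf m z hz
  rw [hembj]
  have h := congrArg (AdjoinRoot.of Φ0) hR
  simp only [map_mul, map_pow, map_sub, map_add, map_one, map_ofNat] at h
  rw [AdjoinRoot.algebraMap_eq, h]
  ring

end Fermat.Agent.S18
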