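import Mathlib

/-!
# S18 (G3), abstract part: traces via embeddings, local integrality criterion, NEWTON-TAME
-/

set_option autoImplicit false
set_option linter.unusedSectionVars false

namespace Fermat.Agent.S18.Tame

open Polynomial

section Val

variable {Om : Type*} [Field Om] (v : AddValuation Om (WithTop ℤ))

/-- `m ≤ v x` -/
def Ge (m : ℤ) (x : Om) : Prop := ((m : ℤ) : WithTop ℤ) ≤ v x

variable {v}

theorem ge_zero (m : ℤ) : Ge v m 0 := by
  unfold Ge; rw [v.map_zero]; exact le_top

theorem ge_one : Ge v 0 1 := by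
  unfold Ge; rw [v.map_one]; rfl

theorem Ge.mono {m m' : ℤ} {x : Om} (h : Ge v m x) (hm : m' ≤ m) : Ge v m' x :=
  le_trans (WithTop.coe_le_coe.2 hm) h

theorem Ge.add {m : ℤ} {x y : Om} (hx : Ge v m x) (hy : Ge v m y) : Ge v m (x + y) :=
  le_trans (le_min hx hy) (v.map_add x y)

theorem Ge.neg {m : ℤ} {x : Om} (hx : Ge v m x) : Ge v m (-x) := by
  unfold Ge; rw [v.map_neg]; exact hx

theorem Ge.sub {m : ℤ} {x y : Om} (hx : Ge v m x) (hy : Ge v m y) : Ge v m (x - y) := by
  rw [sub_eq_add_neg]; exact hx.add hy.neg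

theorem Ge.mul {m m' : ℤ} {x y : Om} (hx : Ge v m x) (hy : Ge v m' y) : Ge v (m + m') (x * y) := by
  unfold Ge; rw [v.map_mul, WithTop.coe_add]; exact add_le_add hx hy

theorem Ge.pow {m : ℤ} {x : Om} (hx : Ge v m x) (k : ℕ) : Ge v (k * m) (x ^ k) := by
  induction k with
  | zero => simpa using ge_one
  | succ k ih =>
    rw [pow_succ]
    have := ih.mul hx
    convert this using 1
    push_cast; ring

theorem ge_sum {ι : Type*} {s : Finset ι} {f : ι → Om} {m : ℤ} (h : ∀ i ∈ s, Ge v m (f i)) :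
    Ge v m (∑ i ∈ s, f i) :=
  v.map_le_sum h

theorem ge_of_eq {m : ℤ} {x : Om} (h : v x = (m : ℤ)) : Ge v m x := le_of_eq h.symm

theorem not_ge_succ_of_eq {m : ℤ} {x : Om} (h : v x = (m : ℤ)) : ¬ Ge v (m + 1) x := by
  unfold Ge; rw [h, WithTop.coe_le_coe]; omega

/-- cancel a factor of known valuation -/
theorem ge_of_mul {m s : ℤ} {u x : Om} (hu : v u = (m : ℤ)) (h : Ge v s (u * x)) :
    Ge v (s - m) x := by
  unfold Ge at h ⊢
  rw [v.map_mul, hu] at h
  rcases hx : v x with _ | w
  · exact le_top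
  · rw [hx] at h
    change ((s : ℤ) : WithTop ℤ) ≤ ((m : ℤ) : WithTop ℤ) + ((w : ℤ) : WithTop ℤ) at h
    change (((s - m : ℤ)) : WithTop ℤ) ≤ ((w : ℤ) : WithTop ℤ)
    rw [← WithTop.coe_add, WithTop.coe_le_coe] at h
    rw [WithTop.coe_le_coe]; omega

theorem eq_pow {m : ℤ} {x : Om} (h : v x = (m : ℤ)) (k : ℕ) : v (x ^ k) = ((k * m : ℤ)) := by
  rw [v.map_pow, h]
  induction k with
  | zero => simp
  | succ k ih =>
    rw [succ_nsmul, ih, ← WithTop.coe_add]
    congr 1
    push_cast; ring

theorem eq_mul {m m' : ℤ} {x y : Om} (h : v x = (m : ℤ)) (h' : v y = (m' : ℤ)) :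
    v (x * y) = ((m + m' : ℤ)) := by
  rw [v.map_mul, h, h', WithTop.coe_add]

/-- either `Ge (μ+1)` or the valuation is an integer `≤ μ` -/
theorem ge_or_exists (μ : ℤ) (x : Om) : Ge v (μ + 1) x ∨ ∃ w : ℤ, v x = (w : ℤ) ∧ w ≤ μ := by
  rcases hx : v x with _ | w
  · left; unfold Ge; rw [hx]; exact le_top
  · by_cases h : w ≤ μ
    · right; exact ⟨w, rfl, h⟩
    · left; unfold Ge; rw [hx]
      change (((μ + 1 : ℤ)) : WithTop ℤ) ≤ ((w : ℤ) : WithTop ℤ)
      rw [WithTop.coe_le_coe]; omega

/-- Newton polygon bound, strict form -/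
theorem ge_succ_of_root (G : Om[X]) (hG : G.Monic) (x : Om) (hx : G.eval x = 0) (μ : ℤ)
    (hc : ∀ k, k < G.natDegree → Ge v ((G.natDegree - k : ℤ) * μ + 1) (G.coeff k)) :
    Ge v (μ + 1) x := by
  rcases ge_or_exists (v := v) μ x with h | ⟨w, hw, hwμ⟩
  · exact h
  exfalso
  set n := G.natDegree with hn
  have h1 : x ^ n = - ∑ k ∈ Finset.range n, G.coeff k * x ^ k := by
    rw [Polynomial.eval_eq_sum_range, Finset.sum_range_succ, ← hn] at hx
    have : G.coeff n = 1 := hG.coeff_natDegree
    rw [this, one_mul] at hx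
    linear_combination hx
  have h2 : Ge v (n * w + 1) (x ^ n) := by
    rw [h1]
    refine (ge_sum fun k hk => ?_).neg
    have hk' := Finset.mem_range.1 hk
    have h3 := (hc k hk').mul ((ge_of_eq hw).pow k)
    refine h3.mono ?_
    have h4 : (0 : ℤ) < (n : ℤ) - k := by
      have : (k : ℤ) < n := by exact_mod_cast hk'
      omega
    nlinarith
  exact not_ge_succ_of_eq (eq_pow hw n) h2

/-- valuation rings are integrally closed -/
theorem ge_zero_of_root (G : Om[X]) (hG : G.Monic) (x : Om) (hx : G.eval x = 0)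
    (hc : ∀ k, Ge v 0 (G.coeff k)) : Ge v 0 x := by
  have := ge_succ_of_root G hG x hx (-1) (fun k hk => (hc k).mono (by
    have : (k : ℤ) < G.natDegree := by exact_mod_cast hk
    omega))
  simpa using this

/-- the valuation ring as a subring -/
def Ov (v : AddValuation Om (WithTop ℤ)) : Subring Om where
  carrier := {x | Ge v 0 x}
  mul_mem' := fun {x y} hx hy => by simpa using Ge.mul hx hy
  one_mem' := ge_one
  add_mem' := fun {x y} hx hy => Ge.add hx hy
  zero_mem' := ge_zero 0
  neg_mem' := fun {x} hx => Ge.neg hx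

theorem mem_Ov {x : Om} : x ∈ Ov v ↔ Ge v 0 x := Iff.rfl

end Val

section Emb

variable {K0 E Om ι : Type*} [Field K0] [CommRing E] [Algebra K0 E] [Field Om] [Fintype ι]
  [DecidableEq ι] (b : Module.Basis ι K0 E) (φ : K0 →+* Om) (σ : ι → E →+* Om)

/-- the matrix `σ i (b j)` -/
noncomputable def Vm : Matrix ι ι Om := Matrix.of fun i j => σ i (b j)

variable {φ σ}

omit [DecidableEq ι] in
theorem sig_eq_sum (hφ : ∀ i c, σ i (algebraMap K0 E c) = φ c) (i : ι) (y : E) :
    σ i y = ∑ j, φ (b.repr y j) * σ i (b j) := by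
  conv_lhs => rw [← b.sum_repr y]
  rw [map_sum]
  refine Finset.sum_congr rfl fun j _ => ?_
  rw [Algebra.smul_def, map_mul, hφ]

theorem isUnit_Vm (hσ : Function.Injective σ) (hφ : ∀ i c, σ i (algebraMap K0 E c) = φ c) :
    IsUnit (Vm b σ) := by
  rw [← Matrix.vecMul_injective_iff_isUnit]
  have hli : LinearIndependent Om (fun i : ι => ((σ i : E →* Om) : E → Om)) := by
    have := linearIndependent_monoidHom E Om
    refine this.comp (fun i : ι => (σ i : E →* Om)) ?_
    intro i j hij
    apply hσ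
    ext x
    exact DFunLike.congr_fun hij x
  have key : ∀ c : ι → Om, Matrix.vecMul c (Vm b σ) = 0 → c = 0 := by
    intro c hc
    have h0 : ∑ i, c i • ((σ i : E →* Om) : E → Om) = 0 := by
      ext y
      simp only [Finset.sum_apply, Pi.smul_apply, smul_eq_mul, Pi.zero_apply]
      have : ∀ i, c i * (σ i : E →* Om) y = ∑ j, φ (b.repr y j) * (c i * σ i (b j)) := by
        intro i
        change c i * σ i y = _
        rw [sig_eq_sum b hφ i y, Finset.mul_sum]
        exact Finset.sum_congr rfl fun j _ => by ring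
      simp only [this]
      rw [Finset.sum_comm]
      refine Finset.sum_eq_zero fun j _ => ?_
      rw [← Finset.mul_sum]
      have := congrFun hc j
      simp only [Matrix.vecMul, dotProduct, Vm, Matrix.of_apply, Pi.zero_apply] at this
      rw [this, mul_zero]
    funext i
    exact Fintype.linearIndependent_iff.1 hli c h0 i
  intro c c' hcc
  have := key (c - c') (by
    rw [Matrix.sub_vecMul]
    exact sub_eq_zero.2 hcc)
  exact sub_eq_zero.1 this

theorem diag_mul_Vm (hφ : ∀ i c, σ i (algebraMap K0 E c) = φ c) (y : E) :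
    Matrix.diagonal (fun i => σ i y) * Vm b σ =
      Vm b σ * (Algebra.leftMulMatrix b y).map φ := by
  ext i j
  rw [Matrix.diagonal_mul, Matrix.mul_apply]
  simp only [Vm, Matrix.of_apply, Matrix.map_apply, Algebra.leftMulMatrix_eq_repr_mul]
  rw [← map_mul, sig_eq_sum b hφ i (y * b j)]
  exact Finset.sum_congr rfl fun k _ => by ring

theorem map_leftMul_eq (hσ : Function.Injective σ)
    (hφ : ∀ i c, σ i (algebraMap K0 E c) = φ c) (y : E) :
    ∃ U : (Matrix ι ι Om)ˣ, Matrix.diagonal (fun i => σ i y) =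
      (U : Matrix ι ι Om) * (Algebra.leftMulMatrix b y).map φ * ((U⁻¹ : (Matrix ι ι Om)ˣ) : Matrix ι ι Om) := by
  obtain ⟨U, hU⟩ := isUnit_Vm b hσ hφ
  refine ⟨U, ?_⟩
  rw [hU, ← diag_mul_Vm b hφ y, ← hU, mul_assoc, Units.mul_inv, mul_one]

/-- (i) the characteristic polynomial via the embeddings -/
theorem charpoly_map_eq (hσ : Function.Injective σ)
    (hφ : ∀ i c, σ i (algebraMap K0 E c) = φ c) (y : E) :
    (Algebra.leftMulMatrix b y).charpoly.map φ = ∏ i, (X - C (σ i y)) := by
  obtain ⟨U, hU⟩ := map_leftMul_eq b hσ hφ y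
  rw [← Matrix.charpoly_map, ← Matrix.charpoly_diagonal, hU]
  have := Matrix.charpoly_units_conj U ((Algebra.leftMulMatrix b y).map φ)
  rw [← this]
  congr 2
  exact (Matrix.coe_units_inv U).symm

include b in
/-- (i) the trace via the embeddings -/
theorem trace_map_eq (hσ : Function.Injective σ)
    (hφ : ∀ i c, σ i (algebraMap K0 E c) = φ c) (y : E) :
    φ (Algebra.trace K0 E y) = ∑ i, σ i y := by
  obtain ⟨U, hU⟩ := map_leftMul_eq b hσ hφ y
  rw [Algebra.trace_eq_matrix_trace b, ← Matrix.trace_diagonal, hU, Matrix.trace_units_conj]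
  simp only [Matrix.trace, Matrix.diag, map_sum, Matrix.map_apply]

end Emb

section Main

variable {L K0 E Om ι : Type*} [Field L] [Field K0] [Algebra L K0]
  [CommRing E] [Algebra K0 E] [Field Om] [Fintype ι]

/-- the coefficient ring `L[t]` -/
noncomputable abbrev Rt (L : Type*) {K0 : Type*} [Field L] [Field K0] [Algebra L K0] (t : K0) : Subalgebra L K0 :=
  (aeval t : L[X] →ₐ[L] K0).range

/-- the local data at all finite points of the `t`-line -/
structure IsLocData (t : K0) (v : AddValuation Om (WithTop ℤ)) (eps : L → ℕ)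
    (phi : L → K0 →+* Om) (sig : L → ι → E →+* Om) : Prop where
  ht : ∀ c : K0, ∃ p q : L[X], aeval t q ≠ 0 ∧ c * aeval t q = aeval t p
  hv : ∀ k : ℕ, k ≠ 0 → v (k : Om) = 0
  heps : ∀ a, 1 ≤ eps a
  hinj : ∀ a, Function.Injective (sig a)
  halg : ∀ a i c, sig a i (algebraMap K0 E c) = phi a c
  hconst : ∀ a c, Ge v 0 (phi a (algebraMap L K0 c))
  hpt : ∀ a, v (phi a (t - algebraMap L K0 a)) = ((eps a : ℤ) : WithTop ℤ)

variable {t : K0} {v : AddValuation Om (WithTop ℤ)} {eps : L → ℕ}
    {phi : L → K0 →+* Om} {sig : L → ι → E →+* Om}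

namespace IsLocData

variable (D : IsLocData t v eps phi sig)
include D

theorem const_eq (a : L) {c : L} (hc : c ≠ 0) : v (phi a (algebraMap L K0 c)) = 0 := by
  have h1 := D.hconst a c
  have h2 := D.hconst a c⁻¹
  have h3 : v (phi a (algebraMap L K0 c)) + v (phi a (algebraMap L K0 c⁻¹)) = 0 := by
    rw [← v.map_mul, ← map_mul, ← map_mul, mul_inv_cancel₀ hc, map_one, map_one, v.map_one]
  refine le_antisymm ?_ h1
  calc v (phi a (algebraMap L K0 c)) ≤ v (phi a (algebraMap L K0 c)) + v (phi a (algebraMap L K0 c⁻¹)) :=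
        le_add_of_nonneg_right h2
    _ = 0 := h3

theorem ge_t (a : L) : Ge v 0 (phi a t) := by
  have h : t = (t - algebraMap L K0 a) + algebraMap L K0 a := by ring
  rw [h, map_add]
  refine Ge.add ?_ (D.hconst a a)
  exact (ge_of_eq (D.hpt a)).mono (by positivity)

theorem ge_aeval (a : L) (p : L[X]) : Ge v 0 (phi a (aeval t p)) := by
  induction p using Polynomial.induction_on' with
  | add p q hp hq => rw [map_add, map_add]; exact hp.add hq
  | monomial n c =>
    rw [aeval_monomial, map_mul, map_pow]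
    have := (D.hconst a c).mul ((D.ge_t a).pow n)
    simpa using this

omit D in
theorem aeval_split (a : L) (p : L[X]) : aeval t p =
    algebraMap L K0 (p.eval a) + (t - algebraMap L K0 a) * aeval t (p /ₘ (X - C a)) := by
  conv_lhs => rw [← modByMonic_add_div p (X - C a), modByMonic_X_sub_C_eq_C_eval]
  simp

theorem ge_eps_of_root (a : L) {p : L[X]} (hp : p.eval a = 0) :
    Ge v (eps a) (phi a (aeval t p)) := by
  rw [aeval_split a p, hp, map_zero, zero_add, map_mul]
  simpa using (ge_of_eq (D.hpt a)).mul (D.ge_aeval a _)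

theorem eq_zero_of_eval_ne (a : L) {p : L[X]} (hp : p.eval a ≠ 0) :
    v (phi a (aeval t p)) = 0 := by
  rw [aeval_split a p, map_add, v.map_add_eq_of_lt_left, D.const_eq a hp]
  rw [D.const_eq a hp, map_mul]
  have h1 : Ge v (eps a) (phi a (t - algebraMap L K0 a) * phi a (aeval t (p /ₘ (X - C a)))) := by
    simpa using (ge_of_eq (D.hpt a)).mul (D.ge_aeval a _)
  refine lt_of_lt_of_le ?_ h1
  have := D.heps a
  change ((0 : ℤ) : WithTop ℤ) < _
  rw [WithTop.coe_lt_coe]
  exact_mod_cast this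

theorem eval_eq_zero_of_ge_one (a : L) {p : L[X]} (h : Ge v 1 (phi a (aeval t p))) :
    p.eval a = 0 := by
  by_contra hp
  have h0 : v (phi a (aeval t p)) = ((0 : ℤ) : WithTop ℤ) := D.eq_zero_of_eval_ne a hp
  exact not_ge_succ_of_eq h0 (by simpa using h)

theorem mem_Rt_of_regular [IsAlgClosed L] (c : K0) (h : ∀ a, Ge v 0 (phi a c)) : c ∈ Rt L t := by
  have key : ∀ n : ℕ, ∀ p q : L[X], q.natDegree = n → aeval t q ≠ 0 →
      c * aeval t q = aeval t p → c ∈ Rt L t := by
    intro n
    induction n with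
    | zero =>
      intro p q hq hq0 hpq
      rw [Polynomial.eq_C_of_natDegree_eq_zero hq] at hq0 hpq
      rw [aeval_C] at hq0 hpq
      have hc0 : q.coeff 0 ≠ 0 := by
        intro h0; rw [h0, map_zero] at hq0; exact hq0 rfl
      refine ⟨C (q.coeff 0)⁻¹ * p, ?_⟩
      change aeval t (C (q.coeff 0)⁻¹ * p) = c
      rw [map_mul, aeval_C, ← hpq, map_inv₀]
      field_simp
    | succ n ih =>
      intro p q hq hq0 hpq
      obtain ⟨a, ha⟩ := IsAlgClosed.exists_root q (by
        intro hd
        have h0 : q.natDegree = 0 := Polynomial.natDegree_eq_of_degree_eq_some hd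
        omega)
      have hqa : q.eval a = 0 := ha
      have hp1 : Ge v 1 (phi a (aeval t p)) := by
        rw [← hpq, map_mul]
        have := (h a).mul (D.ge_eps_of_root a hqa)
        refine this.mono ?_
        have := D.heps a
        omega
      have hpa := D.eval_eq_zero_of_ge_one a hp1
      have e1 := aeval_split (t := t) a p
      have e2 := aeval_split (t := t) a q
      rw [hpa, map_zero, zero_add] at e1
      rw [hqa, map_zero, zero_add] at e2
      have hta : t - algebraMap L K0 a ≠ 0 := by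
        intro h0; rw [h0, zero_mul] at e2; exact hq0 e2
      refine ih (p /ₘ (X - C a)) (q /ₘ (X - C a)) ?_ ?_ ?_
      · rw [Polynomial.natDegree_divByMonic _ (monic_X_sub_C a), hq, natDegree_X_sub_C]
        rfl
      · intro h0; rw [h0, mul_zero] at e2; exact hq0 e2
      · apply mul_left_cancel₀ hta
        rw [← e1, ← hpq, e2]; ring
  obtain ⟨p, q, hq, hpq⟩ := D.ht c
  exact key _ p q rfl hq hpq

variable [DecidableEq ι] (b : Module.Basis ι K0 E)

omit D in
theorem coeff_prod_mem (x : ι → Om) (hx : ∀ i, Ge v 0 (x i)) (k : ℕ) :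
    Ge v 0 ((∏ i, (X - C (x i))).coeff k) := by
  have : (∏ i, (X - C (x i))) =
      (∏ i, (X - C (⟨x i, hx i⟩ : Ov v))).map (Ov v).subtype := by
    rw [Polynomial.map_prod]
    refine Finset.prod_congr rfl fun i _ => ?_
    simp
  rw [this, coeff_map]
  exact ((∏ i, (X - C (⟨x i, hx i⟩ : Ov v))).coeff k).2

omit D in
theorem aeval_charpoly_self (y : E) : aeval y (Algebra.leftMulMatrix b y).charpoly = 0 := by
  apply Algebra.leftMulMatrix_injective b
  rw [map_zero, ← Polynomial.aeval_algHom_apply]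
  exact Matrix.aeval_self_charpoly _

omit D in
theorem isIntegral_of_coeff_mem (y : E)
    (h : ∀ k, (Algebra.leftMulMatrix b y).charpoly.coeff k ∈ Rt L t) : IsIntegral (Rt L t) y := by
  have hl : (Algebra.leftMulMatrix b y).charpoly ∈ Polynomial.lifts (algebraMap (Rt L t) K0) := by
    rw [Polynomial.lifts_iff_coeff_lifts]
    intro k
    exact ⟨⟨_, h k⟩, rfl⟩
  obtain ⟨q, hq, -, hm⟩ := Polynomial.lifts_and_natDegree_eq_and_monic hl (Matrix.charpoly_monic _)
  refine ⟨q, hm, ?_⟩
  have := aeval_charpoly_self b y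
  rw [← hq, aeval_def, eval₂_map] at this
  rw [← this]
  congr 1

include b in
/-- (ii) local criterion of integrality -/
theorem isIntegral_of_regular [IsAlgClosed L] (y : E) (h : ∀ a i, Ge v 0 (sig a i y)) :
    IsIntegral (Rt L t) y := by
  refine isIntegral_of_coeff_mem b y fun k => D.mem_Rt_of_regular _ fun a => ?_
  rw [← coeff_map, charpoly_map_eq b (D.hinj a) (D.halg a) y]
  exact coeff_prod_mem _ (h a) k

theorem ge_of_mem_Rt (a : L) {c : K0} (hc : c ∈ Rt L t) : Ge v 0 (phi a c) := by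
  obtain ⟨p, rfl⟩ := hc
  exact D.ge_aeval a p

/-- converse of (ii) -/
theorem ge_of_isIntegral (a : L) (i : ι) {y : E} (hy : IsIntegral (Rt L t) y) :
    Ge v 0 (sig a i y) := by
  obtain ⟨q, hm, hq⟩ := hy
  refine ge_zero_of_root (q.map ((sig a i).comp (algebraMap (Rt L t) E))) (hm.map _) _ ?_ ?_
  · rw [eval_map, ← hom_eval₂, hq, map_zero]
  · intro k
    rw [coeff_map]
    have : algebraMap (Rt L t) E (q.coeff k) = algebraMap K0 E (q.coeff k : K0) := rfl
    rw [RingHom.comp_apply, this, D.halg]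
    exact D.ge_of_mem_Rt a (q.coeff k).2

omit D in
theorem exists_val {x : Om} (hx : x ≠ 0) : ∃ w : ℤ, v x = (w : ℤ) := by
  rcases h : v x with _ | w
  · exact absurd ((v.top_iff).1 h) hx
  · exact ⟨w, rfl⟩

include b in
/-- clearing denominators -/
theorem exists_clear (y : E) : ∃ d : L[X], aeval t d ≠ 0 ∧
    ∀ a i, Ge v 0 (sig a i (algebraMap K0 E (aeval t d) * y)) := by
  classical
  set G := (Algebra.leftMulMatrix b y).charpoly with hG
  choose p q hq hpq using fun k : ℕ => D.ht (G.coeff k)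
  set n := G.natDegree with hn
  set d : L[X] := ∏ k ∈ Finset.range n, q k with hd
  have hd0 : aeval t d ≠ 0 := by
    rw [hd, map_prod]
    exact Finset.prod_ne_zero_iff.2 fun k _ => hq k
  have hmem : ∀ k, k < n → G.coeff k * aeval t d ∈ Rt L t := by
    intro k hk
    rw [hd, ← Finset.mul_prod_erase _ _ (Finset.mem_range.2 hk), map_mul, ← mul_assoc, hpq,
      ← map_mul]
    exact ⟨_, rfl⟩
  refine ⟨d, hd0, fun a i => ?_⟩
  have hphi0 : phi a (aeval t d) ≠ 0 := (_root_.map_ne_zero _).2 hd0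
  obtain ⟨δ, hδ⟩ := exists_val (v := v) hphi0
  have hδ0 : 0 ≤ δ := by
    have := D.ge_aeval a d
    unfold Ge at this
    rw [hδ, WithTop.coe_le_coe] at this
    exact this
  have hmon : (G.map (phi a)).Monic := (Matrix.charpoly_monic _).map _
  have hdeg : (G.map (phi a)).natDegree = n := natDegree_map _
  have hroot : (G.map (phi a)).eval (sig a i y) = 0 := by
    rw [hG, charpoly_map_eq b (D.hinj a) (D.halg a) y, eval_prod]
    exact Finset.prod_eq_zero (Finset.mem_univ i) (by simp)
  have h1 := ge_succ_of_root (v := v) (G.map (phi a)) hmon (sig a i y) hroot (-δ - 1) (by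
    intro k hk
    rw [hdeg] at hk ⊢
    have h2 := D.ge_of_mem_Rt a (hmem k hk)
    rw [mul_comm, map_mul] at h2
    have h3 := ge_of_mul hδ h2
    rw [coeff_map]
    refine h3.mono ?_
    have h4 : (0 : ℤ) < (n : ℤ) - k := by
      have : (k : ℤ) < n := by exact_mod_cast hk
      omega
    nlinarith)
  rw [map_mul, D.halg]
  have := (ge_of_eq hδ).mul h1
  refine this.mono (by omega)

/-- the trace dual of the integral closure -/
def IsDual (L : Type*) {K0 E : Type*} [Field L] [Field K0] [Algebra L K0] [CommRing E]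
    [Algebra K0 E] (t : K0) (h : E) : Prop :=
  ∀ y : E, IsIntegral (Rt L t) y → Algebra.trace K0 E (h * y) ∈ Rt L t

omit D in
theorem ge_neg_one_pow (j : ℕ) : Ge v 0 ((-1 : Om) ^ j) := by
  simpa using (ge_one (v := v)).neg.pow j

include b in
/-- bound for the power sums -/
theorem psum_bound [IsAlgClosed L] {h : E} (hh : IsDual L t h) (a : L) (ν : ℕ) (hν : eps a ≤ ν)
    (hx : ∀ i, Ge v (-(ν : ℤ)) (sig a i h)) (k : ℕ) :
    Ge v (-(((k + 1 : ℕ) : ℤ) * (ν : ℤ)) + 1) (∑ i, sig a i h ^ (k + 1)) := by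
  have hε := D.heps a
  obtain ⟨c, hc1, hc2⟩ : ∃ c : ℕ, k * ν ≤ eps a * c ∧ eps a * c ≤ k * ν + eps a - 1 := by
    refine ⟨(k * ν + eps a - 1) / eps a, ?_, ?_⟩
    · have h1 := Nat.div_add_mod (k * ν + eps a - 1) (eps a)
      have h2 := Nat.mod_lt (k * ν + eps a - 1) (show 0 < eps a by omega)
      generalize eps a * ((k * ν + eps a - 1) / eps a) = ec at *
      generalize k * ν = kn at *
      omega
    · exact Nat.mul_div_le _ _
  set π : K0 := t - algebraMap L K0 a with hπ
  set y : E := h ^ k * algebraMap K0 E (π ^ c) with hy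
  have hya : ∀ i, Ge v 0 (sig a i y) := by
    intro i
    rw [hy, map_mul, D.halg, map_pow, map_pow]
    have := ((hx i).pow k).mul ((ge_of_eq (D.hpt a)).pow c)
    refine this.mono ?_
    have : ((k * ν : ℕ) : ℤ) ≤ ((eps a * c : ℕ) : ℤ) := by exact_mod_cast hc1
    push_cast at this
    nlinarith
  obtain ⟨d, hd0, hd⟩ := D.exists_clear b y
  have hdne : d ≠ 0 := by
    rintro rfl; exact hd0 (map_zero _)
  obtain ⟨q, hq, hqa⟩ := exists_eq_pow_rootMultiplicity_mul_and_not_dvd d hdne a
  set r := rootMultiplicity a d with hr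
  have hqa' : q.eval a ≠ 0 := by
    rwa [dvd_iff_isRoot] at hqa
  have hπX : π = aeval t (X - C a) := by simp [hπ]
  have hint : IsIntegral (Rt L t) (algebraMap K0 E (aeval t q) * y) := by
    refine D.isIntegral_of_regular b _ fun a' i => ?_
    by_cases haa : a' = a
    · subst haa
      rw [map_mul, D.halg]
      simpa using (D.ge_aeval _ q).mul (hya i)
    · have h1 := hd a' i
      have e : algebraMap K0 E (aeval t d) * y =
          algebraMap K0 E (π ^ r) * (algebraMap K0 E (aeval t q) * y) := by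
        rw [hq, map_mul, map_pow, ← hπX, map_mul]; ring
      rw [e, map_mul, D.halg, map_pow] at h1
      have hπ0 : v (phi a' π) = ((0 : ℤ) : WithTop ℤ) := by
        rw [hπX]
        exact D.eq_zero_of_eval_ne a' (by simpa [sub_eq_zero] using haa)
      have := ge_of_mul (eq_pow hπ0 r) h1
      simpa using this
  have h2 := D.ge_of_mem_Rt a (hh _ hint)
  rw [trace_map_eq b (D.hinj a) (D.halg a)] at h2
  have e2 : ∑ i, sig a i (h * (algebraMap K0 E (aeval t q) * y)) =
      (phi a (aeval t q) * phi a π ^ c) * ∑ i, sig a i h ^ (k + 1) := by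
    rw [Finset.mul_sum]
    refine Finset.sum_congr rfl fun i _ => ?_
    rw [hy, map_mul, map_mul, map_mul, D.halg, D.halg, map_pow, map_pow]
    ring
  rw [e2] at h2
  have hval : v (phi a (aeval t q) * phi a π ^ c) = (((0 : ℤ) + (c : ℤ) * (eps a : ℤ) : ℤ)) :=
    eq_mul (D.eq_zero_of_eval_ne a hqa') (eq_pow (D.hpt a) c)
  have h3 := ge_of_mul hval h2
  refine h3.mono ?_
  have h4 : ((eps a * c : ℕ) : ℤ) ≤ ((k * ν + eps a - 1 : ℕ) : ℤ) := by exact_mod_cast hc2
  have h5 : ((k * ν + eps a - 1 : ℕ) : ℤ) = (k : ℤ) * ν + eps a - 1 := by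
    rw [Nat.cast_sub (by omega)]; push_cast; ring
  rw [h5] at h4
  push_cast at h4 ⊢
  have h6 : (eps a : ℤ) ≤ ν := by exact_mod_cast hν
  nlinarith

include b in
/-- (iii) NEWTON-TAME -/
theorem tame [IsAlgClosed L] {h : E} (hh : IsDual L t h) (a : L) (i : ι) :
    Ge v (-(eps a : ℤ) + 1) (sig a i h) := by
  by_contra hcon
  obtain ⟨i0, -, hi0⟩ := Finset.exists_min_image Finset.univ (fun i => v (sig a i h))
    ⟨i, Finset.mem_univ i⟩
  rcases ge_or_exists (v := v) (-(eps a : ℤ)) (sig a i0 h) with h1 | ⟨w, hw, hwε⟩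
  · exact hcon (le_trans h1 (hi0 i (Finset.mem_univ i)))
  obtain ⟨ν, hν⟩ : ∃ ν : ℕ, w = -(ν : ℤ) := ⟨(-w).toNat, by omega⟩
  have hx : ∀ j, Ge v (-(ν : ℤ)) (sig a j h) := fun j => by
    unfold Ge; rw [← hν, ← hw]; exact hi0 j (Finset.mem_univ j)
  have hps := D.psum_bound b hh a ν (by omega) hx
  set x : ι → Om := fun j => sig a j h with hxdef
  set Es : ℕ → Om := fun m => MvPolynomial.aeval x (MvPolynomial.esymm ι Om m) with hEs
  have hE : ∀ m : ℕ, Ge v (-((m : ℤ) * ν)) (Es m) ∧ (1 ≤ m → Ge v (-((m : ℤ) * ν) + 1) (Es m)) := by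
    intro m
    induction m using Nat.strong_induction_on with
    | _ m ih =>
      rcases Nat.eq_zero_or_pos m with rfl | hm
      · refine ⟨?_, fun h => absurd h (by norm_num)⟩
        simp only [hEs, MvPolynomial.esymm_zero, map_one]
        simpa using ge_one (v := v)
      have key : Ge v (-((m : ℤ) * ν) + 1) (Es m) := by
        have hN := congrArg (MvPolynomial.aeval x) (MvPolynomial.mul_esymm_eq_sum ι Om m)
        simp only [map_mul, map_natCast, map_pow, map_neg, map_one, map_sum] at hN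
        have hvm : v ((m : ℕ) : Om) = ((0 : ℤ) : WithTop ℤ) := D.hv m (by omega)
        have h1 : Ge v (-((m : ℤ) * ν) + 1) ((m : Om) * Es m) := by
          rw [hEs]
          simp only
          rw [hN]
          have h2 : Ge v (-((m : ℤ) * ν) + 1) (∑ a ∈ Finset.HasAntidiagonal.antidiagonal m with a.1 < m,
              (-1 : Om) ^ a.1 * (MvPolynomial.aeval x) (MvPolynomial.esymm ι Om a.1) *
                (MvPolynomial.aeval x) (MvPolynomial.psum ι Om a.2)) := by
            refine ge_sum fun c hc => ?_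
            rw [Finset.mem_filter, Finset.HasAntidiagonal.mem_antidiagonal] at hc
            obtain ⟨hc1, hc2⟩ := hc
            obtain ⟨k, hk⟩ : ∃ k, c.2 = k + 1 := ⟨c.2 - 1, by omega⟩
            have h3 := (ih c.1 hc2).1
            have h4 := hps k
            have e : (MvPolynomial.aeval x) (MvPolynomial.psum ι Om c.2) =
                ∑ i, sig a i h ^ (k + 1) := by
              rw [hk]; simp [MvPolynomial.psum, hxdef]
            rw [e]
            have h5 := ((ge_neg_one_pow (v := v) c.1).mul h3).mul h4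
            refine h5.mono ?_
            have : (m : ℤ) = c.1 + (k + 1) := by
              have : m = c.1 + (k + 1) := by omega
              exact_mod_cast this
            rw [this]; push_cast; nlinarith
          simpa using (ge_neg_one_pow (v := v) (m + 1)).mul h2
        simpa using ge_of_mul hvm h1
      exact ⟨key.mono (by omega), fun _ => key⟩
  set s : Multiset Om := Finset.univ.val.map x with hs
  set G : Om[X] := (s.map (fun t => X - C t)).prod with hG
  have hGm : G.Monic := monic_multiset_prod_of_monic _ _ fun t _ => monic_X_sub_C t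
  have hGd : G.natDegree = Multiset.card s := natDegree_multiset_prod_X_sub_C_eq_card s
  have hroot : G.eval (x i0) = 0 := by
    rw [hG, eval_multiset_prod]
    apply Multiset.prod_eq_zero
    rw [Multiset.mem_map]
    refine ⟨X - C (x i0), ?_, by simp⟩
    rw [Multiset.mem_map]
    exact ⟨x i0, by rw [hs, Multiset.mem_map]; exact ⟨i0, Finset.mem_univ_val i0, rfl⟩, rfl⟩
  have hfin := ge_succ_of_root (v := v) G hGm (x i0) hroot (-(ν : ℤ)) (by
    intro k hk
    rw [hGd] at hk ⊢
    rw [hG, Multiset.prod_X_sub_C_coeff s hk.le, hs,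
      ← MvPolynomial.aeval_esymm_eq_multiset_esymm ι Om]
    have h1 := (hE (Multiset.card s - k)).2 (by omega)
    have h2 := (ge_neg_one_pow (v := v) (Multiset.card s - k)).mul h1
    refine h2.mono ?_
    rw [Nat.cast_sub hk.le]
    nlinarith)
  exact not_ge_succ_of_eq (by rw [hw, hν]) hfin

include b in
/-- (G3), abstract form -/
theorem g3 [IsAlgClosed L] (P : L[X]) (M : ℕ) (hM : ∀ a, eps a ≤ M)
    (hP : ∀ a, P.eval a ≠ 0 → eps a = 1) {h : E} (hh : IsDual L t h) :
    ∃ y : E, IsIntegral (Rt L t) y ∧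
      (algebraMap K0 E (aeval t P) * h) ^ M = algebraMap K0 E (aeval t P) * y := by
  have hM1 : 1 ≤ M := le_trans (D.heps 0) (hM 0)
  refine ⟨algebraMap K0 E (aeval t P) ^ (M - 1) * h ^ M, ?_, ?_⟩
  · refine D.isIntegral_of_regular b _ fun a i => ?_
    rw [map_mul, map_pow, map_pow, D.halg]
    have h1 := D.tame b hh a i
    by_cases hPa : P.eval a = 0
    · have := ((D.ge_eps_of_root a hPa).pow (M - 1)).mul (h1.pow M)
      refine this.mono ?_
      have h2 : (eps a : ℤ) ≤ M := by exact_mod_cast hM a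
      rw [Nat.cast_sub hM1]
      push_cast
      nlinarith
    · have := ((D.ge_aeval a P).pow (M - 1)).mul (h1.pow M)
      refine this.mono ?_
      rw [hP a hPa]
      simp
  · rw [mul_pow, ← mul_assoc, ← pow_succ', Nat.sub_add_cancel hM1]

end IsLocData

end Main

end Fermat.Agent.S18.Tame
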