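import Mathlib
import Fermat.Agent.S18.Tame

/-!
# S18 (G3): generic algebra for the families of embeddings of `E`
-/

set_option autoImplicit false
set_option linter.unusedSectionVars false

namespace Fermat.Agent.S18.Fam

open Polynomial Fermat.Agent.S18.Tame

/-- lift of a "transcendental" element to a hom of `RatFunc` -/
theorem exists_ratFunc_hom {κ Om : Type*} [Field κ] [Field Om] (i0 : κ →+* Om) (T : Om)
    (hT : ∀ q : κ[X], q ≠ 0 → q.eval₂ i0 T ≠ 0) :
    ∃ φ : RatFunc κ →+* Om, (∀ q : κ[X], φ (algebraMap κ[X] (RatFunc κ) q) = q.eval₂ i0 T) ∧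
      (∀ c, φ (RatFunc.C c) = i0 c) ∧ φ RatFunc.X = T := by
  have hg : Function.Injective (eval₂RingHom i0 T) := by
    rw [injective_iff_map_eq_zero]
    intro q hq
    by_contra h0
    exact hT q h0 hq
  have h1 : ∀ q : κ[X], IsFractionRing.lift (K := RatFunc κ) hg (algebraMap κ[X] (RatFunc κ) q) =
      q.eval₂ i0 T := fun q => IsFractionRing.lift_algebraMap hg q
  refine ⟨IsFractionRing.lift (K := RatFunc κ) hg, h1, fun c => ?_, ?_⟩
  · rw [← RatFunc.algebraMap_C, h1, eval₂_C]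
  · rw [← RatFunc.algebraMap_X, h1, eval₂_X]

section Trans

variable {κ Om : Type*} [Field κ] [Field Om] {v : AddValuation Om (WithTop ℤ)} {i0 : κ →+* Om}

theorem ge_eval₂ (hc : ∀ c, Ge v 0 (i0 c)) {T : Om} (hT : Ge v 0 T) (q : κ[X]) :
    Ge v 0 (q.eval₂ i0 T) := by
  induction q using Polynomial.induction_on' with
  | add p q hp hq => rw [eval₂_add]; exact hp.add hq
  | monomial n c =>
    rw [eval₂_monomial]
    simpa using (hc c).mul (hT.pow n)

theorem eval₂_split (a : κ) (T : Om) (q : κ[X]) : q.eval₂ i0 T =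
    i0 (q.eval a) + (T - i0 a) * (q /ₘ (X - C a)).eval₂ i0 T := by
  conv_lhs => rw [← modByMonic_add_div q (X - C a), modByMonic_X_sub_C_eq_C_eval]
  simp [eval₂_add, eval₂_mul, eval₂_sub]

theorem val_const (hc : ∀ c, Ge v 0 (i0 c)) {c : κ} (h0 : c ≠ 0) : v (i0 c) = 0 := by
  have h1 := hc c
  have h2 := hc c⁻¹
  have h3 : v (i0 c) + v (i0 c⁻¹) = 0 := by
    rw [← v.map_mul, ← map_mul, mul_inv_cancel₀ h0, map_one, v.map_one]
  refine le_antisymm ?_ h1
  calc v (i0 c) ≤ v (i0 c) + v (i0 c⁻¹) := le_add_of_nonneg_right h2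
    _ = 0 := h3

/-- an element with `0 < v (T - a) < ∞` is transcendental over the constants -/
theorem eval₂_ne_zero (hc : ∀ c, Ge v 0 (i0 c)) (a : κ) {T : Om} {ε : ℕ} (hε : 1 ≤ ε)
    (hT : v (T - i0 a) = ((ε : ℤ) : WithTop ℤ)) (q : κ[X]) (hq : q ≠ 0) : q.eval₂ i0 T ≠ 0 := by
  have hT0 : Ge v 0 T := by
    have : T = (T - i0 a) + i0 a := by ring
    rw [this]
    exact ((Tame.ge_of_eq hT).mono (by positivity)).add (hc a)
  have hTa : T - i0 a ≠ 0 := by
    intro h0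
    rw [h0, v.map_zero] at hT
    exact WithTop.top_ne_coe hT
  obtain ⟨q1, hq1, hq1a⟩ := exists_eq_pow_rootMultiplicity_mul_and_not_dvd q hq a
  have hq1a' : q1.eval a ≠ 0 := by rwa [dvd_iff_isRoot] at hq1a
  rw [hq1, eval₂_mul, eval₂_pow, eval₂_sub, eval₂_X, eval₂_C]
  refine mul_ne_zero (pow_ne_zero _ hTa) ?_
  intro h0
  have h1 : v (q1.eval₂ i0 T) = 0 := by
    rw [eval₂_split a T q1, v.map_add_eq_of_lt_left, val_const hc hq1a']
    rw [val_const hc hq1a']
    have h2 : Ge v ε ((T - i0 a) * (q1 /ₘ (X - C a)).eval₂ i0 T) := by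
      simpa using (Tame.ge_of_eq hT).mul (ge_eval₂ hc hT0 _)
    refine lt_of_lt_of_le ?_ h2
    change ((0 : ℤ) : WithTop ℤ) < _
    rw [WithTop.coe_lt_coe]
    exact_mod_cast hε
  rw [h0, v.map_zero] at h1
  exact WithTop.top_ne_zero h1

end Trans

section Homs

variable {K0 Om : Type*} [Field K0] [Field Om]

/-- the homs out of the Kummer layer over the first layer -/
theorem exists_homs (Φ0 : K0[X]) (p : ℕ) (φ : K0 →+* Om) {I : Type*} (ξ : I → Om)
    (hξ : Function.Injective ξ) (hroot : ∀ i, Φ0.eval₂ φ (ξ i) = 0)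
    (g' : (AdjoinRoot Φ0)[X]) (f' : AdjoinRoot Φ0) (hg' : g' = X ^ p - C f')
    (hpow : ∀ i, ∃ γ : Om, γ ≠ 0 ∧ γ ^ p = AdjoinRoot.lift φ (ξ i) (hroot i) f')
    (ζ : Om) (hζ : IsPrimitiveRoot ζ p) :
    ∃ sig : I × Fin p → AdjoinRoot g' →+* Om, Function.Injective sig ∧
      (∀ i c, sig i (algebraMap K0 (AdjoinRoot g') c) = φ c) ∧
      ∀ i y, sig i (AdjoinRoot.of g' y) = AdjoinRoot.lift φ (ξ i.1) (hroot i.1) y := by
  choose γ hγ0 hγ using hpow
  have hr : ∀ il : I × Fin p,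
      g'.eval₂ (AdjoinRoot.lift φ (ξ il.1) (hroot il.1)) (ζ ^ (il.2 : ℕ) * γ il.1) = 0 := by
    intro il
    rw [hg', eval₂_sub, eval₂_pow, eval₂_X, eval₂_C, mul_pow, hγ, ← pow_mul, mul_comm _ p, pow_mul,
      hζ.pow_eq_one, one_pow, one_mul, sub_self]
  refine ⟨fun il => AdjoinRoot.lift _ _ (hr il), ?_, ?_, ?_⟩
  · rintro ⟨i, l⟩ ⟨i', l'⟩ h
    have h1 := DFunLike.congr_fun h (AdjoinRoot.of g' (AdjoinRoot.root Φ0))
    simp only [AdjoinRoot.lift_of, AdjoinRoot.lift_root] at h1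
    have hi : i = i' := hξ h1
    subst hi
    have h2 := DFunLike.congr_fun h (AdjoinRoot.root g')
    simp only [AdjoinRoot.lift_root] at h2
    have h3 := mul_right_cancel₀ (hγ0 i) h2
    have h4 := hζ.pow_inj l.2 l'.2 h3
    exact Prod.ext rfl (Fin.ext h4)
  · intro il c
    have : algebraMap K0 (AdjoinRoot g') c = AdjoinRoot.of g' (AdjoinRoot.of Φ0 c) := rfl
    rw [this, AdjoinRoot.lift_of, AdjoinRoot.lift_of]
  · intro il y
    rw [AdjoinRoot.lift_of]

end Homs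

end Fermat.Agent.S18.Fam
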