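import Mathlib
import Fermat.Agent.S24.Families
import Fermat.Agent.S24.PlaceCount
import Fermat.Agent.S28.Tw

/-!
# S18 (G3): the S24 families, with the separation property
-/

set_option autoImplicit false

namespace Fermat.Agent.S18.Fam

open UpperHalfPlane ModularForm EisensteinSeries ModularCurve HahnSeries CongruenceSubgroup
open Fermat.Agent.X0 Fermat.Agent.S24
open scoped MatrixGroups Manifold Real

variable (N : ℕ) [NeZero N]

/-- the ramification index of `j` at `j0` -/
noncomputable def eJ (j0 : Kb) : ℕ := if j0 = 0 then 3 else if j0 = 1728 then 2 else 1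

/-- what we need from a family -/
def IsFam (s : Cos N → FN N →+* LaurentSeries ℂ) : Prop :=
  (∀ i c, s i (algebraMap Kb (FN N) c) = HahnSeries.C (iotaC c)) ∧
  (∀ i k, s i (jBar N) = s k (jBar N)) ∧
  (∀ x y, s x (jdS N ⟨N, dvd_rfl⟩) = s y (jdS N ⟨N, dvd_rfl⟩) → x = y)

theorem fam_fin (j0 : Kb) : ∃ s : Cos N → FN N →+* LaurentSeries ℂ, IsFam N s ∧
    ∀ i, (s i (jBar N - algebraMap Kb (FN N) j0)).order = eJ j0 := by
  unfold eJ
  split_ifs with h0 h1
  · subst h0
    obtain ⟨σ, h1, h2, h3, -⟩ := exists_family_at N rhoH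
    refine ⟨σ, ⟨h1.2.1, h1.2.2, h3⟩, fun x => ?_⟩
    have h := relAt_order rhoH (h2 x 0) 3 (by
      have := jFun_order_of_E4 rhoH relAt_E4_rhoH
      have e : (fun z => jFun z - iotaC 0) ∘ ofComplex = fun w : ℂ => jFun (ofComplex w) := by
        ext w; simp
      rw [e]
      exact this)
    simpa using h
  · subst h1
    obtain ⟨σ, h1, h2, h3, -⟩ := exists_family_at N UpperHalfPlane.I
    refine ⟨σ, ⟨h1.2.1, h1.2.2, h3⟩, fun x => ?_⟩
    have h := relAt_order UpperHalfPlane.I (h2 x 1728) 2 (by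
      have := jFun_order_of_E6 UpperHalfPlane.I jf_E6_I
      have e : iotaC 1728 = 1728 := map_ofNat iotaC 1728
      rw [e]
      exact this)
    simpa using h
  · obtain ⟨z₀, hz₀⟩ := jFun_surjective (iotaC j0)
    obtain ⟨σ, h1', h2, h3, -⟩ := exists_family_at N z₀
    refine ⟨σ, ⟨h1'.2.1, h1'.2.2, h3⟩, fun x => ?_⟩
    have h4 : E₄ z₀ ≠ 0 := by
      rw [Ne, ← jFun_eq_zero_iff, hz₀, map_eq_zero]
      exact h0
    have h6 : E₆ z₀ ≠ 0 := by
      rw [Ne, ← jFun_eq_1728_iff, hz₀]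
      intro h
      apply h1
      apply iotaC.injective
      rw [h, map_ofNat]
    have h := relAt_order z₀ (h2 x j0) 1 (by
      have := jFun_order_generic z₀ h4 h6
      rw [hz₀] at this
      exact this)
    simpa using h

theorem qExpand_C (c : ℕ) [NeZero c] (a : ℂ) :
    qExpand ℂ c (HahnSeries.C a) = HahnSeries.C a := by
  change qExpand ℂ c (HahnSeries.single 0 a) = HahnSeries.single 0 a
  rw [qExpand_single, mul_zero]

theorem fam_inf (c : ℕ) [NeZero c] : ∃ s : Cos N → FN N →+* LaurentSeries ℂ, IsFam N s ∧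
    ∀ i, (s i (jBar N)⁻¹).order = ((c * N : ℕ) : ℤ) := by
  obtain ⟨σ, h1, h2, -, -, h3, -⟩ := exists_family_infty' N
  refine ⟨fun i => (qExpand ℂ c).comp (σ i), ⟨fun i a => ?_, fun i k => ?_, fun x y h => ?_⟩,
    fun i => ?_⟩
  · rw [RingHom.comp_apply, h1.2.1, qExpand_C]
  · rw [RingHom.comp_apply, RingHom.comp_apply, h1.2.2 i k]
  · exact h3 x y ((qExpand ℂ c).injective h)
  · rw [RingHom.comp_apply, Fermat.Agent.S28.order_qExpand, h2]
    push_cast; ring

end Fermat.Agent.S18.Fam
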