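import Mathlib
import Fermat.Agent.S18.Fam
import Fermat.Agent.S18.FamS24

/-!
# S18 (G3): the embeddings of `E` at one point
-/

set_option autoImplicit false
set_option linter.unusedSectionVars false

namespace Fermat.Agent.S18.Fam

open Polynomial AlgebraicCurve
open Fermat.Agent.X0 Fermat.Agent.S24 Fermat.Agent.S18.Tame

/-- `ℂ((u))` -/
abbrev LS : Type := LaurentSeries ℂ

/-- the `u`-adic valuation -/
noncomputable abbrev vLS : AddValuation LS (WithTop ℤ) := HahnSeries.addVal ℤ ℂ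

/-- `ℚ̄(τ)` -/
abbrev K0 : Type := RatFunc Kb

/-- the constants -/
noncomputable def iC : Kb →+* LS := (HahnSeries.C : ℂ →+* LS).comp iotaC

theorem iC_apply (c : Kb) : iC c = HahnSeries.C (iotaC c) := rfl

theorem vLS_of_ne {z : LS} (hz : z ≠ 0) : vLS z = ((z.order : ℤ) : WithTop ℤ) :=
  HahnSeries.addVal_apply_of_ne hz

theorem ge_iC (c : Kb) : Ge vLS 0 (iC c) := by
  by_cases h : iC c = 0
  · rw [h]; exact Tame.ge_zero 0
  · apply Tame.ge_of_eq
    rw [vLS_of_ne h, iC_apply, HahnSeries.order_C]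

theorem vLS_natCast (k : ℕ) (hk : k ≠ 0) : vLS (k : LS) = 0 := by
  have e : (k : LS) = HahnSeries.C (k : ℂ) := by simp
  have h0 : (k : LS) ≠ 0 := by
    rw [e]
    intro h
    have := HahnSeries.C_injective (h.trans (map_zero _).symm)
    exact hk (by exact_mod_cast this)
  rw [vLS_of_ne h0, e, HahnSeries.order_C]
  rfl

/-- existence of `p`-th roots -/
def HasRoots (p : ℕ) : Prop :=
  ∀ z : LS, z ≠ 0 → (p : ℤ) ∣ z.order → ∃ γ : LS, γ ^ p = z

section Point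

variable (N : ℕ) [NeZero N] (p : ℕ)
  (Φ' : Kb[X][X])
  (Rτ : K0) (Φ0 : K0[X])
  (emb : FN N →+* AdjoinRoot Φ0)
  (f : FN N)
  (g' : (AdjoinRoot Φ0)[X])

/-- the algebraic input describing `E` -/
structure IsInput : Prop where
  hp : p.Prime
  hΦ' : (Φ'.map (aeval (jBar N)).toRingHom).eval (jdS N ⟨N, dvd_rfl⟩) = 0
  hΦ0 : Φ0 = Φ'.map (eval₂RingHom RatFunc.C Rτ)
  hembc : ∀ c, emb (algebraMap Kb (FN N) c) = AdjoinRoot.of Φ0 (RatFunc.C c)
  hembj : emb (jBar N) = AdjoinRoot.of Φ0 Rτ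
  hf0 : f ≠ 0
  hf : ∀ v : Place Kb (FN N), (p : ℤ) ∣ v.ord f
  hg' : g' = X ^ p - C (emb f)

variable {N p Φ' Rτ Φ0 emb f g'}

theorem point (I : IsInput N p Φ' Rτ Φ0 emb f g') (H2 : HasRoots p)
    (s : Cos N → FN N →+* LS) (hs : IsFam N s) (w : LS) (hsj : ∀ i, s i (jBar N) = w)
    (hw : ∃ c : Kb, (w - iC c).order ≠ 0)
    (φ : K0 →+* LS) (hφc : ∀ c, φ (RatFunc.C c) = iC c) (hφR : φ Rτ = w) :
    ∃ sig : Cos N × Fin p → AdjoinRoot g' →+* LS, Function.Injective sig ∧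
      ∀ i c, sig i (algebraMap K0 (AdjoinRoot g') c) = φ c := by
  obtain ⟨hsc, -, hsx⟩ := hs
  have hroot : ∀ i, Φ0.eval₂ φ (s i (jdS N ⟨N, dvd_rfl⟩)) = 0 := by
    intro i
    have e : φ.comp (eval₂RingHom RatFunc.C Rτ) = (s i).comp (aeval (jBar N)).toRingHom := by
      apply Polynomial.ringHom_ext
      · intro c
        simp only [RingHom.comp_apply, coe_eval₂RingHom, eval₂_C, AlgHom.toRingHom_eq_coe,
          RingHom.coe_coe, aeval_C]
        rw [hφc, hsc]; rfl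
      · simp only [RingHom.comp_apply, coe_eval₂RingHom, eval₂_X, AlgHom.toRingHom_eq_coe,
          RingHom.coe_coe, aeval_X]
        rw [hφR, hsj]
    rw [I.hΦ0, eval₂_map, e, ← hom_eval₂, eval₂_eq_eval_map, I.hΦ', map_zero]
  have hpow : ∀ i, ∃ γ : LS, γ ≠ 0 ∧
      γ ^ p = AdjoinRoot.lift φ (s i (jdS N ⟨N, dvd_rfl⟩)) (hroot i) (emb f) := by
    intro i
    set ρ : FN N →+* LS := (AdjoinRoot.lift φ (s i (jdS N ⟨N, dvd_rfl⟩)) (hroot i)).comp emb with hρ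
    have hK : ∀ c, ρ (algebraMap Kb (FN N) c) = HahnSeries.C (iotaC c) := by
      intro c
      rw [hρ, RingHom.comp_apply, I.hembc, AdjoinRoot.lift_of, hφc]; rfl
    obtain ⟨c, hc⟩ := hw
    have hy : ρ (jBar N - algebraMap Kb (FN N) c) = w - iC c := by
      rw [map_sub, hK, hρ, RingHom.comp_apply, I.hembj, AdjoinRoot.lift_of, hφR]; rfl
    obtain ⟨v, g, -, hv⟩ := exists_induces iotaC ρ hK ⟨jBar N - algebraMap Kb (FN N) c, by
      intro h0
      rw [h0, map_zero] at hy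
      rw [← hy] at hc
      exact hc HahnSeries.order_zero, by rw [hy]; exact hc⟩
    have hρf : ρ f ≠ 0 := (_root_.map_ne_zero ρ).2 I.hf0
    obtain ⟨γ, hγ⟩ := H2 (ρ f) hρf (by
      rw [hv.hord f I.hf0]
      exact Dvd.dvd.mul_left (I.hf v) g)
    refine ⟨γ, ?_, hγ⟩
    rintro rfl
    rw [zero_pow I.hp.ne_zero] at hγ
    exact hρf hγ.symm
  have hζ : IsPrimitiveRoot (HahnSeries.C (Complex.exp (2 * Real.pi * Complex.I / p)) : LS) p :=
    (Complex.isPrimitiveRoot_exp p I.hp.ne_zero).map_of_injective HahnSeries.C_injective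
  obtain ⟨sig, h1, h2, -⟩ := exists_homs Φ0 p φ (fun i => s i (jdS N ⟨N, dvd_rfl⟩))
    (fun x y h => hsx x y h) hroot g' (emb f) I.hg' hpow _ hζ
  exact ⟨sig, h1, h2⟩

end Point

end Fermat.Agent.S18.Fam
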