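import Mathlib
import Fermat.Agent.S18.FamPt

/-!
# S18 (G3): the local data on one chart of the `τ`-line
-/

set_option autoImplicit false
set_option linter.unusedSectionVars false

namespace Fermat.Agent.S18.Fam

open Polynomial AlgebraicCurve
open Fermat.Agent.X0 Fermat.Agent.S24 Fermat.Agent.S18.Tame

/-- the Hensel block -/
def HasHensel : Prop :=
  ∀ (N1 D1 G : ℂ[X]) (a j0 : ℂ) (m ε : ℕ) (w : LS), 1 ≤ m → 1 ≤ ε → D1.eval a ≠ 0 →
    N1 - Polynomial.C j0 * D1 = (X - Polynomial.C a) ^ m * G → G.eval a ≠ 0 →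
    w - HahnSeries.C j0 ≠ 0 → (w - HahnSeries.C j0).order = ((m * ε : ℕ) : ℤ) →
    ∃ T : LS, T - HahnSeries.C a ≠ 0 ∧ (T - HahnSeries.C a).order = (ε : ℤ) ∧
      N1.eval₂ HahnSeries.C T = w * D1.eval₂ HahnSeries.C T

/-- a chart of the `τ`-line: `t = X` or `X⁻¹`, `R = Num(t)/Den(t)` -/
structure IsChart (N : ℕ) (Rτ t : K0) (Num Den : Kb[X]) (c : ℕ) (eps : Kb → ℕ) : Prop where
  hR : Rτ * aeval t Den = aeval t Num
  ht : ∀ x : K0, ∃ p q : Kb[X], aeval t q ≠ 0 ∧ x * aeval t q = aeval t p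
  hlift : ∀ T : LS, (∀ q : Kb[X], q ≠ 0 → q.eval₂ iC T ≠ 0) →
    ∃ φ : K0 →+* LS, (∀ c, φ (RatFunc.C c) = iC c) ∧ ∀ q : Kb[X], φ (aeval t q) = q.eval₂ iC T
  hc : 1 ≤ c
  fin : ∀ a, Den.eval a ≠ 0 → ∃ (m : ℕ) (G : Kb[X]), 1 ≤ m ∧ 1 ≤ eps a ∧
    Num - C (Num.eval a / Den.eval a) * Den = (X - C a) ^ m * G ∧ G.eval a ≠ 0 ∧
    m * eps a = eJ (Num.eval a / Den.eval a)
  cusp : ∀ a, Den.eval a = 0 → Num.eval a ≠ 0 ∧ eps a = N ∧
    ∃ D1, Den = (X - C a) ^ c * D1 ∧ D1.eval a ≠ 0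

theorem eval₂_iC (q : Kb[X]) (T : LS) : (q.map iotaC).eval₂ HahnSeries.C T = q.eval₂ iC T := by
  rw [eval₂_map]; rfl

theorem eval_map_iotaC (q : Kb[X]) (a : Kb) : (q.map iotaC).eval (iotaC a) = iotaC (q.eval a) := by
  rw [eval_map, eval₂_hom]

variable {N : ℕ} [NeZero N] {p : ℕ} {Φ' : Kb[X][X]} {Rτ : K0} {Φ0 : K0[X]}
  {emb : FN N →+* AdjoinRoot Φ0} {f : FN N} {g' : (AdjoinRoot Φ0)[X]}

/-- from a solution `T` to the data at the point `a` -/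
theorem point_of_T (I : IsInput N p Φ' Rτ Φ0 emb f g') (H2 : HasRoots p)
    {t : K0} {Num Den : Kb[X]} {c : ℕ} {eps : Kb → ℕ} (Ch : IsChart N Rτ t Num Den c eps)
    (s : Cos N → FN N →+* LS) (hs : IsFam N s) (w : LS) (hsj : ∀ i, s i (jBar N) = w)
    (hw : ∃ c : Kb, (w - iC c).order ≠ 0) (a : Kb) (ε : ℕ) (hε : 1 ≤ ε) (T : LS)
    (hT0 : T - iC a ≠ 0) (hT : (T - iC a).order = (ε : ℤ))
    (hTw : Num.eval₂ iC T = w * Den.eval₂ iC T) (hDen : Den ≠ 0) :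
    ∃ (φ : K0 →+* LS) (sig : Cos N × Fin p → AdjoinRoot g' →+* LS), Function.Injective sig ∧
      (∀ i c, sig i (algebraMap K0 (AdjoinRoot g') c) = φ c) ∧
      (∀ c, Ge vLS 0 (φ (algebraMap Kb K0 c))) ∧
      vLS (φ (t - algebraMap Kb K0 a)) = ((ε : ℤ) : WithTop ℤ) := by
  have hv : vLS (T - iC a) = ((ε : ℤ) : WithTop ℤ) := by rw [vLS_of_ne hT0, hT]
  have htr := eval₂_ne_zero (v := vLS) ge_iC a hε hv
  obtain ⟨φ, hφc, hφ⟩ := Ch.hlift T htr
  have hφR : φ Rτ = w := by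
    have h1 := congrArg φ Ch.hR
    rw [map_mul, hφ, hφ, hTw] at h1
    exact mul_right_cancel₀ (htr Den hDen) h1
  obtain ⟨sig, h1, h2⟩ := point I H2 s hs w hsj hw φ hφc hφR
  refine ⟨φ, sig, h1, h2, fun c => ?_, ?_⟩
  · rw [RatFunc.algebraMap_eq_C, hφc]; exact ge_iC c
  · have e : t - algebraMap Kb K0 a = aeval t (X - C a : Kb[X]) := by simp
    rw [e, hφ, eval₂_sub, eval₂_X, eval₂_C, hv]

theorem exists_point (I : IsInput N p Φ' Rτ Φ0 emb f g') (H1 : HasHensel) (H2 : HasRoots p)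
    {t : K0} {Num Den : Kb[X]} {c : ℕ} {eps : Kb → ℕ} (Ch : IsChart N Rτ t Num Den c eps)
    (a : Kb) :
    ∃ (φ : K0 →+* LS) (sig : Cos N × Fin p → AdjoinRoot g' →+* LS), Function.Injective sig ∧
      (∀ i c, sig i (algebraMap K0 (AdjoinRoot g') c) = φ c) ∧
      (∀ c, Ge vLS 0 (φ (algebraMap Kb K0 c))) ∧
      vLS (φ (t - algebraMap Kb K0 a)) = ((eps a : ℤ) : WithTop ℤ) := by
  by_cases hD : Den.eval a = 0
  · obtain ⟨hNa, hεa, D1, hD1, hD1a⟩ := Ch.cusp a hD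
    have : NeZero c := ⟨by have := Ch.hc; omega⟩
    obtain ⟨s, hs, ho⟩ := fam_inf N c
    set w : LS := s (QuotientGroup.mk 1) (jBar N) with hw
    have hN : 1 ≤ N := Nat.pos_of_ne_zero (NeZero.ne N)
    have hcN : 1 ≤ c * N := Nat.mul_pos Ch.hc hN
    have ho1 : (w⁻¹).order = ((c * N : ℕ) : ℤ) := by rw [hw, ← map_inv₀]; exact ho _
    have hwi0 : w⁻¹ ≠ 0 := by
      intro h0
      rw [h0, HahnSeries.order_zero] at ho1
      have : (0 : ℤ) < ((c * N : ℕ) : ℤ) := by exact_mod_cast hcN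
      omega
    have hw0 : w ≠ 0 := fun h0 => hwi0 (by rw [h0, inv_zero])
    have hDen : Den ≠ 0 := by
      rintro rfl
      have : (X - C a : Kb[X]) ^ c * D1 ≠ 0 :=
        mul_ne_zero (pow_ne_zero _ (X_sub_C_ne_zero a)) (by rintro rfl; simp at hD1a)
      exact this hD1.symm
    obtain ⟨T, hT0, hT, hTw⟩ := H1 (Den.map iotaC) (Num.map iotaC) (D1.map iotaC) (iotaC a) 0 c N
      w⁻¹ Ch.hc hN (by rw [eval_map_iotaC]; exact (_root_.map_ne_zero _).2 hNa)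
      (by rw [hD1]; simp) (by rw [eval_map_iotaC]; exact (_root_.map_ne_zero _).2 hD1a)
      (by simpa using hwi0) (by simpa using ho1)
    rw [eval₂_iC, eval₂_iC] at hTw
    rw [hεa]
    refine point_of_T I H2 Ch s hs w (fun i => hs.2.1 i _) ⟨0, ?_⟩ a N hN T hT0 hT ?_ hDen
    · have h1 : w.order + (w⁻¹).order = 0 := by
        rw [← HahnSeries.order_mul hw0 hwi0, mul_inv_cancel₀ hw0, HahnSeries.order_one]
      rw [map_zero, sub_zero]
      have : (0 : ℤ) < ((c * N : ℕ) : ℤ) := by exact_mod_cast hcN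
      omega
    · rw [hTw, ← mul_assoc, mul_inv_cancel₀ hw0, one_mul]
  · obtain ⟨m, G, hm, hε, hfac, hG, hme⟩ := Ch.fin a hD
    set j0 : Kb := Num.eval a / Den.eval a with hj0
    obtain ⟨s, hs, ho⟩ := fam_fin N j0
    set w : LS := s (QuotientGroup.mk 1) (jBar N) with hw
    have hmε : 1 ≤ m * eps a := Nat.mul_pos hm hε
    have e1 : w - iC j0 = s (QuotientGroup.mk 1) (jBar N - algebraMap Kb (FN N) j0) := by
      rw [map_sub, hs.1]; rfl
    have ho1 : (w - iC j0).order = ((m * eps a : ℕ) : ℤ) := by rw [e1, ho, hme]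
    have hw0 : w - iC j0 ≠ 0 := by
      intro h0
      rw [h0, HahnSeries.order_zero] at ho1
      have : (0 : ℤ) < ((m * eps a : ℕ) : ℤ) := by exact_mod_cast hmε
      omega
    have hDen : Den ≠ 0 := by rintro rfl; simp at hD
    obtain ⟨T, hT0, hT, hTw⟩ := H1 (Num.map iotaC) (Den.map iotaC) (G.map iotaC) (iotaC a)
      (iotaC j0) m (eps a) w hm hε (by rw [eval_map_iotaC]; exact (_root_.map_ne_zero _).2 hD)
      (by
        have := congrArg (Polynomial.map iotaC) hfac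
        simpa using this)
      (by rw [eval_map_iotaC]; exact (_root_.map_ne_zero _).2 hG) hw0 ho1
    rw [eval₂_iC, eval₂_iC] at hTw
    refine point_of_T I H2 Ch s hs w (fun i => hs.2.1 i _) ⟨j0, ?_⟩ a (eps a) hε T hT0 hT hTw hDen
    rw [ho1]
    have : (0 : ℤ) < ((m * eps a : ℕ) : ℤ) := by exact_mod_cast hmε
    omega

/-- the local data on a chart -/
theorem exists_locData (I : IsInput N p Φ' Rτ Φ0 emb f g') (H1 : HasHensel) (H2 : HasRoots p)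
    {t : K0} {Num Den : Kb[X]} {c : ℕ} {eps : Kb → ℕ} (Ch : IsChart N Rτ t Num Den c eps) :
    ∃ (phi : Kb → K0 →+* LS) (sig : Kb → Cos N × Fin p → AdjoinRoot g' →+* LS),
      IsLocData t vLS eps phi sig := by
  choose phi sig h1 h2 h3 h4 using exists_point I H1 H2 Ch
  refine ⟨phi, sig, Ch.ht, vLS_natCast, fun a => ?_, h1, h2, h3, h4⟩
  by_cases hD : Den.eval a = 0
  · rw [(Ch.cusp a hD).2.1]; exact Nat.pos_of_ne_zero (NeZero.ne N)
  · obtain ⟨m, G, -, hε, -⟩ := Ch.fin a hD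
    exact hε

end Fermat.Agent.S18.Fam
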