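import Mathlib

/-!
# S18 (G3), HENSEL block: solving `(τ - a)^e G(τ) = w' D(τ)` in Laurent series, and `p`-th roots
-/

set_option autoImplicit false

namespace Fermat.Agent.S18.Hensel

open Polynomial
open scoped Ring

/-- Hensel's lemma for adically complete rings, without the monicity assumption
(same Newton iteration as in Mathlib's `IsAdicComplete.henselianRing`). -/
theorem hensel_nonmonic (R : Type*) [CommRing R] (I : Ideal R) [IsAdicComplete I R]
    (f : R[X]) (a₀ : R) (h₁ : f.eval a₀ ∈ I)
    (h₂ : IsUnit (Ideal.Quotient.mk I (f.derivative.eval a₀))) :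
    ∃ a : R, f.IsRoot a ∧ a - a₀ ∈ I := by
  classical
      let f' := derivative f
      let c : ℕ → R := fun n => Nat.recOn n a₀ fun _ b => b - f.eval b * (f'.eval b)⁻¹ʳ
      have hc : ∀ n, c (n + 1) = c n - f.eval (c n) * (f'.eval (c n))⁻¹ʳ := by
        intro n
        simp only [c]
      have hc_mod : ∀ n, c n ≡ a₀ [SMOD I] := by
        intro n
        induction n with
        | zero => rfl
        | succ n ih => ?_
        rw [hc, sub_eq_add_neg, ← add_zero a₀]
        refine ih.add ?_
        rw [SModEq.zero, Ideal.neg_mem_iff]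
        refine I.mul_mem_right _ ?_
        rw [← SModEq.zero] at h₁ ⊢
        exact (ih.eval f).trans h₁
      have hf'c : ∀ n, IsUnit (f'.eval (c n)) := by
        intro n
        have := isLocalHom_of_le_jacobson_bot I (IsAdicComplete.le_jacobson_bot I)
        apply IsUnit.of_map (Ideal.Quotient.mk I)
        convert! h₂ using 1
        exact SModEq.def.mp ((hc_mod n).eval _)
      have hfcI : ∀ n, f.eval (c n) ∈ I ^ (n + 1) := by
        intro n
        induction n with
        | zero => simpa only [Nat.rec_zero, zero_add, pow_one] using! h₁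
        | succ n ih => ?_
        rw [← taylor_eval_sub (c n), hc, sub_eq_add_neg, sub_eq_add_neg,
          add_neg_cancel_comm]
        rw [eval_eq_sum, sum_over_range' _ _ _ (lt_add_of_pos_right _ zero_lt_two), ←
          Finset.sum_range_add_sum_Ico _ (Nat.le_add_left _ _)]
        swap
        · intro i
          rw [zero_mul]
        refine Ideal.add_mem _ ?_ ?_
        · rw [← one_add_one_eq_two, Finset.sum_range_succ, Finset.range_one, Finset.sum_singleton,
            taylor_coeff_zero, taylor_coeff_one, pow_zero, pow_one, mul_one, mul_neg,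
            mul_left_comm, Ring.mul_inverse_cancel _ (hf'c n), mul_one, add_neg_cancel]
          exact Ideal.zero_mem _
        · refine Submodule.sum_mem _ ?_
          simp only [Finset.mem_Ico]
          rintro i ⟨h2i, _⟩
          have aux : n + 2 ≤ i * (n + 1) := by trans 2 * (n + 1) <;> nlinarith only [h2i]
          refine Ideal.mul_mem_left _ _ (Ideal.pow_le_pow_right aux ?_)
          rw [pow_mul']
          exact Ideal.pow_mem_pow ((Ideal.neg_mem_iff _).2 <| Ideal.mul_mem_right _ _ ih) _
      have aux : ∀ m n, m ≤ n → c m ≡ c n [SMOD (I ^ m • ⊤ : Ideal R)] := by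
        intro m n hmn
        rw [← Ideal.one_eq_top, Ideal.smul_eq_mul, mul_one]
        obtain ⟨k, rfl⟩ := Nat.exists_eq_add_of_le hmn
        clear hmn
        induction k with
        | zero => rw [add_zero]
        | succ k ih => ?_
        rw [← add_assoc, hc, ← add_zero (c m), sub_eq_add_neg]
        refine ih.add ?_
        symm
        rw [SModEq.zero, Ideal.neg_mem_iff]
        refine Ideal.mul_mem_right _ _ (Ideal.pow_le_pow_right ?_ (hfcI _))
        rw [add_assoc]
        exact le_self_add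
      obtain ⟨a, ha⟩ := IsPrecomplete.prec' c (aux _ _)
      refine ⟨a, ?_, ?_⟩
      · show f.IsRoot a
        suffices ∀ n, f.eval a ≡ 0 [SMOD (I ^ n • ⊤ : Ideal R)] by exact IsHausdorff.haus' _ this
        intro n
        specialize ha n
        rw [← Ideal.one_eq_top, Ideal.smul_eq_mul, mul_one] at ha ⊢
        refine (ha.symm.eval f).trans ?_
        rw [SModEq.zero]
        exact Ideal.pow_le_pow_right le_self_add (hfcI _)
      · show a - a₀ ∈ I
        specialize ha (0 + 1)
        rw [hc, pow_one, ← Ideal.one_eq_top, Ideal.smul_eq_mul, mul_one, sub_eq_add_neg] at ha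
        rw [← SModEq.sub_mem, ← add_zero a₀]
        refine ha.symm.trans (SModEq.rfl.add ?_)
        rw [SModEq.zero, Ideal.neg_mem_iff]
        exact Ideal.mul_mem_right _ _ h₁

section PS

variable {C : Type*} [Field C]

/-- Hensel's lemma in `C⟦X⟧`, in terms of the reduction of the polynomial. -/
theorem ps_hensel (f : (PowerSeries C)[X]) (z0 : C)
    (h1 : (f.map PowerSeries.constantCoeff).eval z0 = 0)
    (h2 : (f.map PowerSeries.constantCoeff).derivative.eval z0 ≠ 0) :
    ∃ z : PowerSeries C, f.eval z = 0 ∧ PowerSeries.constantCoeff z = z0 := by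
  have hcc : ∀ g : (PowerSeries C)[X], PowerSeries.constantCoeff (g.eval (PowerSeries.C z0)) =
      (g.map PowerSeries.constantCoeff).eval z0 := by
    intro g
    rw [eval_map, ← Polynomial.eval₂_at_apply, PowerSeries.constantCoeff_C]
  obtain ⟨z, hz, hz0⟩ := hensel_nonmonic (PowerSeries C) (Ideal.span {PowerSeries.X}) f
    (PowerSeries.C z0)
    (by rw [Ideal.mem_span_singleton, PowerSeries.X_dvd_iff, hcc, h1])
    (by
      apply IsUnit.map
      rw [PowerSeries.isUnit_iff_constantCoeff, hcc, ← derivative_map]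
      exact isUnit_iff_ne_zero.2 h2)
  refine ⟨z, hz, ?_⟩
  rw [Ideal.mem_span_singleton, PowerSeries.X_dvd_iff, map_sub, PowerSeries.constantCoeff_C,
    sub_eq_zero] at hz0
  exact hz0

theorem constantCoeff_aeval (G : C[X]) (x : PowerSeries C) :
    PowerSeries.constantCoeff (aeval x G) = G.eval (PowerSeries.constantCoeff x) := by
  have : (PowerSeries.constantCoeff (R := C)) (aeval x G) =
      aeval (PowerSeries.constantCoeff x) G := by
    induction G using Polynomial.induction_on' with
    | add p q hp hq => simp only [map_add, hp, hq]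
    | monomial n c => simp [aeval_monomial]
  rw [this, coe_aeval_eq_eval]

/-- the core equation, in power series -/
theorem ps_core [IsAlgClosed C] [CharZero C] (G D : C[X]) (a : C) (hG : G.eval a ≠ 0)
    (hD : D.eval a ≠ 0) (e eps : ℕ) (he : 0 < e) (heps : 0 < eps) (W : PowerSeries C)
    (hW : PowerSeries.constantCoeff W ≠ 0) :
    ∃ Z : PowerSeries C, PowerSeries.constantCoeff Z ≠ 0 ∧
      Z ^ e * aeval (PowerSeries.C a + PowerSeries.X ^ eps * Z) G =
        W * aeval (PowerSeries.C a + PowerSeries.X ^ eps * Z) D := by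
  set W0 := PowerSeries.constantCoeff W with hW0
  obtain ⟨z0, hz0⟩ := IsAlgClosed.exists_pow_nat_eq (W0 * D.eval a / G.eval a) he
  have hz0ne : z0 ≠ 0 := by
    rintro rfl
    rw [zero_pow he.ne'] at hz0
    exact div_ne_zero (mul_ne_zero hW hD) hG hz0.symm
  let ell : (PowerSeries C)[X] :=
    Polynomial.C (PowerSeries.C a) + Polynomial.C (PowerSeries.X ^ eps) * X
  let H : (PowerSeries C)[X] :=
    X ^ e * ((G.map (algebraMap C (PowerSeries C))).comp ell) -
      Polynomial.C W * ((D.map (algebraMap C (PowerSeries C))).comp ell)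
  have hell : ell.map PowerSeries.constantCoeff = Polynomial.C a := by
    simp [ell, heps.ne']
  have hmm : ∀ Q : C[X], ((Q.map (algebraMap C (PowerSeries C))).comp ell).map
      PowerSeries.constantCoeff = Polynomial.C (Q.eval a) := by
    intro Q
    rw [Polynomial.map_comp, hell, Polynomial.map_map]
    have : (PowerSeries.constantCoeff (R := C)).comp (algebraMap C (PowerSeries C)) =
        RingHom.id C := by
      ext x; simp
    rw [this, Polynomial.map_id, comp_C]
  have hH : H.map PowerSeries.constantCoeff =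
      X ^ e * Polynomial.C (G.eval a) - Polynomial.C (W0 * D.eval a) := by
    simp only [H, Polynomial.map_sub, Polynomial.map_mul, Polynomial.map_pow, Polynomial.map_X,
      hmm, Polynomial.map_C, ← hW0, Polynomial.C_mul]
  obtain ⟨Z, hZ, hZ0⟩ := ps_hensel H z0
    (by
      rw [hH]
      simp only [eval_sub, eval_mul, eval_pow, eval_X, eval_C, hz0]
      field_simp
      ring)
    (by
      rw [hH]
      simp only [derivative_sub, derivative_mul, derivative_X_pow, derivative_C, mul_zero,
        add_zero, sub_zero, eval_mul, eval_pow, eval_X, eval_C]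
      exact mul_ne_zero (mul_ne_zero (Nat.cast_ne_zero.2 he.ne') (pow_ne_zero _ hz0ne)) hG)
  refine ⟨Z, by rw [hZ0]; exact hz0ne, ?_⟩
  have hev : ∀ Q : C[X], ((Q.map (algebraMap C (PowerSeries C))).comp ell).eval Z =
      aeval (PowerSeries.C a + PowerSeries.X ^ eps * Z) Q := by
    intro Q
    rw [eval_comp, eval_map_algebraMap]
    simp [ell]
  simp only [H, eval_sub, eval_mul, eval_pow, eval_X, eval_C, hev, sub_eq_zero] at hZ
  exact hZ

end PS

section Laurent

variable {C : Type*} [Field C]

theorem ofPS_ne_zero {Z : PowerSeries C} (hZ : Z ≠ 0) : HahnSeries.ofPowerSeries ℤ C Z ≠ 0 :=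
  (map_ne_zero_iff _ HahnSeries.ofPowerSeries_injective).2 hZ

theorem order_ofPS_unit (Z : PowerSeries C) (hZ : PowerSeries.constantCoeff Z ≠ 0) :
    (HahnSeries.ofPowerSeries ℤ C Z).order = 0 := by
  have hne : HahnSeries.ofPowerSeries ℤ C Z ≠ 0 := ofPS_ne_zero (by rintro rfl; simp at hZ)
  apply le_antisymm
  · apply HahnSeries.order_le_of_coeff_ne_zero
    have := PowerSeries.coeff_coe (R := C) Z 0
    simp only [lt_self_iff_false, if_false, Int.natAbs_zero,
      PowerSeries.coeff_zero_eq_constantCoeff] at this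
    rw [this]
    exact hZ
  · by_contra hlt
    push Not at hlt
    apply mt HahnSeries.coeff_order_eq_zero.1 hne
    have := PowerSeries.coeff_coe (R := C) Z (HahnSeries.ofPowerSeries ℤ C Z).order
    rw [if_pos hlt] at this
    exact this

/-- evaluation of a polynomial with constant coefficients at a Laurent series
(instance-free: via the ring hom `HahnSeries.C`) -/
noncomputable abbrev ev (τ : LaurentSeries C) (Q : C[X]) : LaurentSeries C :=
  Polynomial.eval₂ (HahnSeries.C : C →+* LaurentSeries C) τ Q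

theorem ev_ofPS (Q : C[X]) (t : PowerSeries C) :
    ev (HahnSeries.ofPowerSeries ℤ C t) Q = HahnSeries.ofPowerSeries ℤ C (aeval t Q) := by
  induction Q using Polynomial.induction_on' with
  | add p q hp hq => simp only [ev, eval₂_add, map_add] at hp hq ⊢; rw [hp, hq]
  | monomial n c =>
    simp only [ev, eval₂_monomial, aeval_monomial, map_mul, map_pow]
    congr 1
    rw [PowerSeries.algebraMap_apply, Algebra.algebraMap_self_apply, HahnSeries.ofPowerSeries_C]

/-- **HENSEL, core form.**  `G(a) ≠ 0`, `D(a) ≠ 0`, `ord w' = e * eps`: there is `τ` with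
`ord (τ - a) = eps` and `(τ - a)^e G(τ) = w' D(τ)`. -/
theorem laurent_core [IsAlgClosed C] [CharZero C] (G D : C[X]) (a : C) (hG : G.eval a ≠ 0)
    (hD : D.eval a ≠ 0) (e eps : ℕ) (he : 0 < e) (heps : 0 < eps) (w' : LaurentSeries C)
    (hw' : w'.order = ((e * eps : ℕ) : ℤ)) :
    ∃ τ : LaurentSeries C, (τ - HahnSeries.C a).order = (eps : ℤ) ∧
      (τ - HahnSeries.C a) ^ e * ev τ G = w' * ev τ D ∧
      ev τ G ≠ 0 ∧ ev τ D ≠ 0 ∧ (ev τ G).order = 0 ∧ (ev τ D).order = 0 := by
  have hne : w' ≠ 0 := by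
    rintro rfl
    rw [HahnSeries.order_zero] at hw'
    have : 0 < e * eps := Nat.mul_pos he heps
    omega
  have hW : PowerSeries.constantCoeff w'.powerSeriesPart ≠ 0 := by
    rw [← PowerSeries.coeff_zero_eq_constantCoeff_apply, LaurentSeries.powerSeriesPart_coeff]
    simpa using mt HahnSeries.coeff_order_eq_zero.1 hne
  obtain ⟨Z, hZ0, hZ⟩ := ps_core G D a hG hD e eps he heps w'.powerSeriesPart hW
  set t : PowerSeries C := PowerSeries.C a + PowerSeries.X ^ eps * Z with ht
  have hsub : HahnSeries.ofPowerSeries ℤ C t - HahnSeries.C a =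
      HahnSeries.single (eps : ℤ) 1 * HahnSeries.ofPowerSeries ℤ C Z := by
    rw [ht, map_add, map_mul, HahnSeries.ofPowerSeries_C, HahnSeries.ofPowerSeries_X_pow,
      add_sub_cancel_left]
  have hcc : PowerSeries.constantCoeff t = a := by
    simp [ht, heps.ne']
  have hGu : PowerSeries.constantCoeff (aeval t G) ≠ 0 := by
    rw [constantCoeff_aeval, hcc]; exact hG
  have hDu : PowerSeries.constantCoeff (aeval t D) ≠ 0 := by
    rw [constantCoeff_aeval, hcc]; exact hD
  have hs1 : (HahnSeries.single (eps : ℤ) (1 : C)) ≠ 0 := HahnSeries.single_ne_zero one_ne_zero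
  have hZne : HahnSeries.ofPowerSeries ℤ C Z ≠ 0 := ofPS_ne_zero (by rintro rfl; simp at hZ0)
  refine ⟨HahnSeries.ofPowerSeries ℤ C t, ?_, ?_, ?_, ?_, ?_, ?_⟩
  · rw [hsub, HahnSeries.order_mul hs1 hZne, HahnSeries.order_single one_ne_zero,
      order_ofPS_unit Z hZ0, add_zero]
  · rw [hsub, ev_ofPS, ev_ofPS, mul_pow, mul_assoc,
      ← map_pow (HahnSeries.ofPowerSeries ℤ C), ← map_mul (HahnSeries.ofPowerSeries ℤ C), hZ,
      map_mul, ← mul_assoc, HahnSeries.single_pow, one_pow]
    congr 1
    conv_rhs => rw [← LaurentSeries.single_order_mul_powerSeriesPart w', hw']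
    congr 2
  · rw [ev_ofPS]; exact ofPS_ne_zero (by intro h; rw [h] at hGu; simp at hGu)
  · rw [ev_ofPS]; exact ofPS_ne_zero (by intro h; rw [h] at hDu; simp at hDu)
  · rw [ev_ofPS]; exact order_ofPS_unit _ hGu
  · rw [ev_ofPS]; exact order_ofPS_unit _ hDu

/-- `p`-th roots in Laurent series. -/
theorem exists_pow_eq [IsAlgClosed C] [CharZero C] (p : ℕ) (hp : 0 < p) (φ : LaurentSeries C)
    (hφ : (p : ℤ) ∣ φ.order) : ∃ ψ : LaurentSeries C, ψ ^ p = φ := by
  rcases eq_or_ne φ 0 with rfl | hne
  · exact ⟨0, zero_pow hp.ne'⟩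
  obtain ⟨k, hk⟩ := hφ
  have hW : PowerSeries.constantCoeff φ.powerSeriesPart ≠ 0 := by
    rw [← PowerSeries.coeff_zero_eq_constantCoeff_apply, LaurentSeries.powerSeriesPart_coeff]
    simpa using mt HahnSeries.coeff_order_eq_zero.1 hne
  obtain ⟨Z, -, hZ⟩ := ps_core (1 : C[X]) 1 0 (by simp) (by simp) p 1 hp one_pos
    φ.powerSeriesPart hW
  simp only [map_one, mul_one] at hZ
  refine ⟨HahnSeries.single k 1 * HahnSeries.ofPowerSeries ℤ C Z, ?_⟩
  rw [mul_pow, ← map_pow (HahnSeries.ofPowerSeries ℤ C), hZ, HahnSeries.single_pow, one_pow]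
  conv_rhs => rw [← LaurentSeries.single_order_mul_powerSeriesPart φ, hk]
  congr 2

theorem ev_X_sub_C_pow_mul (a : C) (e : ℕ) (G : C[X]) (τ : LaurentSeries C) :
    ev τ ((X - Polynomial.C a) ^ e * G) = (τ - HahnSeries.C a) ^ e * ev τ G := by
  simp only [ev, eval₂_mul, eval₂_pow, eval₂_sub, eval₂_X, eval₂_C]

/-- **HENSEL at a point `a` which is not a pole of `R = Num / Den`**, `R(a) = j0`,
`R - j0` vanishing to order `e` at `a`. -/
theorem exists_tau_finite [IsAlgClosed C] [CharZero C] (Num Den G : C[X]) (a j0 : C) (e eps : ℕ)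
    (he : 0 < e) (heps : 0 < eps)
    (hfac : Num - Polynomial.C j0 * Den = (X - Polynomial.C a) ^ e * G)
    (hG : G.eval a ≠ 0) (hD : Den.eval a ≠ 0) (w : LaurentSeries C)
    (hw : (w - HahnSeries.C j0).order = ((e * eps : ℕ) : ℤ)) :
    ∃ τ : LaurentSeries C, (τ - HahnSeries.C a).order = (eps : ℤ) ∧ ev τ Den ≠ 0 ∧
      ev τ Num = w * ev τ Den := by
  obtain ⟨τ, h1, h2, -, h4, -, -⟩ := laurent_core G Den a hG hD e eps he heps _ hw
  refine ⟨τ, h1, h4, ?_⟩
  have h5 := congrArg (ev τ) hfac
  rw [ev_X_sub_C_pow_mul, h2] at h5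
  simp only [ev, eval₂_sub, eval₂_mul, eval₂_C] at h5 ⊢
  linear_combination h5

/-- **HENSEL at a finite pole `a` of `R = Num / Den`** of order `e`. -/
theorem exists_tau_pole [IsAlgClosed C] [CharZero C] (Num Den D1 : C[X]) (a : C) (e eps : ℕ)
    (he : 0 < e) (heps : 0 < eps) (hfac : Den = (X - Polynomial.C a) ^ e * D1)
    (hD1 : D1.eval a ≠ 0) (hN : Num.eval a ≠ 0) (w : LaurentSeries C)
    (hw : (w⁻¹).order = ((e * eps : ℕ) : ℤ)) :
    ∃ τ : LaurentSeries C, (τ - HahnSeries.C a).order = (eps : ℤ) ∧ ev τ Den ≠ 0 ∧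
      ev τ Num = w * ev τ Den := by
  obtain ⟨τ, h1, h2, h3, -, -, -⟩ := laurent_core D1 Num a hD1 hN e eps he heps _ hw
  have hw0 : w ≠ 0 := by
    rintro rfl
    rw [inv_zero, HahnSeries.order_zero] at hw
    have : 0 < e * eps := Nat.mul_pos he heps
    omega
  have hsub : τ - HahnSeries.C a ≠ 0 := by
    intro h
    rw [h, HahnSeries.order_zero] at h1
    omega
  refine ⟨τ, h1, ?_, ?_⟩
  · rw [hfac, ev_X_sub_C_pow_mul]
    exact mul_ne_zero (pow_ne_zero _ hsub) h3
  · rw [hfac, ev_X_sub_C_pow_mul, h2, ← mul_assoc, mul_inv_cancel₀ hw0, one_mul]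

/-- **HENSEL at `∞`**, a pole of `R = Num / Den` of order `e = deg Num - deg Den`. -/
theorem exists_tau_infty [IsAlgClosed C] [CharZero C] (Num Den : C[X]) (e eps : ℕ)
    (he : 0 < e) (heps : 0 < eps) (hdeg : Num.natDegree = Den.natDegree + e) (hDen : Den ≠ 0)
    (w : LaurentSeries C) (hw : (w⁻¹).order = ((e * eps : ℕ) : ℤ)) :
    ∃ τ : LaurentSeries C, (τ⁻¹).order = (eps : ℤ) ∧ ev τ Den ≠ 0 ∧
      ev τ Num = w * ev τ Den := by
  have hNum : Num ≠ 0 := by
    rintro rfl
    rw [natDegree_zero] at hdeg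
    omega
  obtain ⟨s, h1, h2, h3, -, -, -⟩ := laurent_core Den.reverse Num.reverse 0
    (by rw [← coeff_zero_eq_eval_zero, coeff_zero_reverse]; exact leadingCoeff_ne_zero.2 hDen)
    (by rw [← coeff_zero_eq_eval_zero, coeff_zero_reverse]; exact leadingCoeff_ne_zero.2 hNum)
    e eps he heps _ hw
  rw [map_zero, sub_zero] at h1 h2
  have hw0 : w ≠ 0 := by
    rintro rfl
    rw [inv_zero, HahnSeries.order_zero] at hw
    have : 0 < e * eps := Nat.mul_pos he heps
    omega
  have hs : s ≠ 0 := by
    rintro rfl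
    rw [HahnSeries.order_zero] at h1
    omega
  have hrev : ∀ Q : C[X], ev s⁻¹ Q = ev s Q.reverse * (s⁻¹) ^ Q.natDegree := by
    intro Q
    let _ : Invertible (s⁻¹) := invertibleOfNonzero (inv_ne_zero hs)
    have h := Polynomial.eval₂_reverse_mul_pow (HahnSeries.C : C →+* LaurentSeries C) (s⁻¹) Q
    rw [invOf_eq_inv, inv_inv] at h
    exact h.symm
  refine ⟨s⁻¹, by rw [inv_inv]; exact h1, ?_, ?_⟩
  · rw [hrev]
    exact mul_ne_zero h3 (pow_ne_zero _ (inv_ne_zero hs))
  · rw [hrev Num, hrev Den, hdeg, pow_add]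
    have h4 : ev s Num.reverse = w * (s ^ e * ev s Den.reverse) := by
      rw [h2, ← mul_assoc, mul_inv_cancel₀ hw0, one_mul]
    rw [h4]
    have h5 : s ^ e * (s⁻¹) ^ e = 1 := by rw [← mul_pow, mul_inv_cancel₀ hs, one_pow]
    linear_combination (w * ev s Den.reverse * (s⁻¹) ^ Den.natDegree) * h5

end Laurent

end Fermat.Agent.S18.Hensel
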