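import Fermat.Agent.S18.GaussRanges

set_option autoImplicit false

/-! # S18 plan Z: ring-theoretic instances for `κ[τ]`, `κ[s]` inside `κ(τ)` -/

namespace Fermat.Agent.S18

open Polynomial

variable (κ : Type*) [Field κ]

theorem transcendental_tau : Transcendental κ (RatFunc.X : RatFunc κ) := RatFunc.transcendental_X

theorem transcendental_s : Transcendental κ (RatFunc.X⁻¹ : RatFunc κ) := fun h =>
  transcendental_tau κ (IsAlgebraic.inv_iff.1 h)

theorem aeval_tau_injective :
    Function.Injective (Polynomial.aeval (RatFunc.X : RatFunc κ) : κ[X] →ₐ[κ] RatFunc κ) :=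
  transcendental_iff_injective.1 (transcendental_tau κ)

theorem aeval_s_injective :
    Function.Injective (Polynomial.aeval (RatFunc.X⁻¹ : RatFunc κ) : κ[X] →ₐ[κ] RatFunc κ) :=
  transcendental_iff_injective.1 (transcendental_s κ)

/-- `κ[X] ≃ κ[τ]` -/
noncomputable def polyEquivRtau : κ[X] ≃ₐ[κ] Rtau κ :=
  AlgEquiv.ofInjective (Polynomial.aeval (RatFunc.X : RatFunc κ)) (aeval_tau_injective κ)

/-- `κ[X] ≃ κ[s]` -/
noncomputable def polyEquivRs : κ[X] ≃ₐ[κ] Rs κ :=
  AlgEquiv.ofInjective (Polynomial.aeval (RatFunc.X⁻¹ : RatFunc κ)) (aeval_s_injective κ)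

variable {κ}

@[simp] theorem coe_polyEquivRtau (P : κ[X]) :
    ((polyEquivRtau κ P : Rtau κ) : RatFunc κ) = Polynomial.aeval (RatFunc.X : RatFunc κ) P := rfl

@[simp] theorem coe_polyEquivRs (P : κ[X]) :
    ((polyEquivRs κ P : Rs κ) : RatFunc κ) = Polynomial.aeval (RatFunc.X⁻¹ : RatFunc κ) P := rfl

variable (κ)

instance instPIDRtau : IsPrincipalIdealRing (Rtau κ) :=
  IsPrincipalIdealRing.of_surjective (polyEquivRtau κ).toRingEquiv.toRingHom
    (polyEquivRtau κ).surjective

instance instPIDRs : IsPrincipalIdealRing (Rs κ) :=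
  IsPrincipalIdealRing.of_surjective (polyEquivRs κ).toRingEquiv.toRingHom
    (polyEquivRs κ).surjective

instance instFracRtau : IsFractionRing (Rtau κ) (RatFunc κ) := by
  refine IsFractionRing.of_field _ _ (fun z => ?_)
  refine ⟨polyEquivRtau κ z.num, polyEquivRtau κ z.denom, ?_⟩
  change z = Polynomial.aeval (RatFunc.X : RatFunc κ) z.num /
    Polynomial.aeval (RatFunc.X : RatFunc κ) z.denom
  rw [aeval_X_eq, aeval_X_eq, RatFunc.num_div_denom]

instance instFracRs : IsFractionRing (Rs κ) (RatFunc κ) := by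
  refine IsFractionRing.of_field _ _ (fun z => ?_)
  refine ⟨polyEquivRs κ (X ^ z.denom.natDegree * z.num.reverse),
    polyEquivRs κ (X ^ z.num.natDegree * z.denom.reverse), ?_⟩
  change z = Polynomial.aeval (RatFunc.X⁻¹ : RatFunc κ) (X ^ z.denom.natDegree * z.num.reverse) /
    Polynomial.aeval (RatFunc.X⁻¹ : RatFunc κ) (X ^ z.num.natDegree * z.denom.reverse)
  have hX : (RatFunc.X : RatFunc κ) ≠ 0 := RatFunc.X_ne_zero
  have key : ∀ P : κ[X], Polynomial.aeval (RatFunc.X⁻¹ : RatFunc κ) P.reverse =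
      (RatFunc.X⁻¹) ^ P.natDegree * algebraMap κ[X] (RatFunc κ) P := by
    intro P
    let _ : Invertible (RatFunc.X : RatFunc κ) := invertibleOfNonzero hX
    have h := Polynomial.eval₂_reverse_mul_pow (algebraMap κ (RatFunc κ)) (RatFunc.X : RatFunc κ) P
    have h2 : (⅟(RatFunc.X : RatFunc κ)) = RatFunc.X⁻¹ := invOf_eq_inv _
    rw [h2] at h
    rw [← aeval_X_eq, Polynomial.aeval_def, Polynomial.aeval_def, ← h, mul_comm, mul_assoc,
      ← mul_pow, mul_inv_cancel₀ hX, one_pow, mul_one]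
  rw [map_mul, map_mul, map_pow, map_pow, Polynomial.aeval_X, key, key]
  have hd : algebraMap κ[X] (RatFunc κ) z.denom ≠ 0 := RatFunc.algebraMap_ne_zero z.denom_ne_zero
  have hs : (RatFunc.X⁻¹ : RatFunc κ) ≠ 0 := inv_ne_zero hX
  conv_lhs => rw [← RatFunc.num_div_denom z]
  field_simp

variable {κ}

theorem mem_range_Rtau {x : RatFunc κ} :
    x ∈ (algebraMap (Rtau κ) (RatFunc κ)).range ↔ x ∈ Rtau κ :=
  ⟨by rintro ⟨y, rfl⟩; exact y.2, fun h => ⟨⟨x, h⟩, rfl⟩⟩

theorem mem_range_Rs {x : RatFunc κ} :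
    x ∈ (algebraMap (Rs κ) (RatFunc κ)).range ↔ x ∈ Rs κ :=
  ⟨by rintro ⟨y, rfl⟩; exact y.2, fun h => ⟨⟨x, h⟩, rfl⟩⟩

variable (κ)

theorem Rtau_eq_adjoin : Rtau κ = Algebra.adjoin κ {(RatFunc.X : RatFunc κ)} :=
  (Algebra.adjoin_singleton_eq_range_aeval κ _).symm

theorem Rs_eq_adjoin : Rs κ = Algebra.adjoin κ {(RatFunc.X⁻¹ : RatFunc κ)} :=
  (Algebra.adjoin_singleton_eq_range_aeval κ _).symm

variable {κ}

theorem isRadical_span_polyEquivRtau {P : κ[X]} (h : Squarefree P) :
    (Ideal.span {polyEquivRtau κ P}).IsRadical := by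
  have h1 : Squarefree (polyEquivRtau κ P) := by
    intro x hx
    have h2 : (polyEquivRtau κ).symm x * (polyEquivRtau κ).symm x ∣ P := by
      have := map_dvd (polyEquivRtau κ).symm hx
      rwa [map_mul, AlgEquiv.symm_apply_apply] at this
    have h3 := (h _ h2).map (polyEquivRtau κ)
    rwa [AlgEquiv.apply_symm_apply] at h3
  exact (isRadical_iff_span_singleton).1 h1.isRadical

theorem isRadical_span_polyEquivRs {P : κ[X]} (h : Squarefree P) :
    (Ideal.span {polyEquivRs κ P}).IsRadical := by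
  have h1 : Squarefree (polyEquivRs κ P) := by
    intro x hx
    have h2 : (polyEquivRs κ).symm x * (polyEquivRs κ).symm x ∣ P := by
      have := map_dvd (polyEquivRs κ).symm hx
      rwa [map_mul, AlgEquiv.symm_apply_apply] at this
    have h3 := (h _ h2).map (polyEquivRs κ)
    rwa [AlgEquiv.apply_symm_apply] at h3
  exact (isRadical_iff_span_singleton).1 h1.isRadical

example : IsDomain (Rtau κ) := inferInstance
example : IsIntegrallyClosed (Rtau κ) := inferInstance
example : IsDomain (Rs κ) := inferInstance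
example : IsIntegrallyClosed (Rs κ) := inferInstance

end Fermat.Agent.S18
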