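import Mathlib
import Fermat.Agent.S18.FamChart
import Fermat.Agent.S18.Hensel
import Fermat.Agent.S18.RInst

/-!
# S18 (G3): the two charts `t = X`, `t = X⁻¹`, and the final abstract form of (G3)
-/

set_option autoImplicit false
set_option linter.unusedSectionVars false

namespace Fermat.Agent.S18.Fam

open Polynomial AlgebraicCurve
open Fermat.Agent.X0 Fermat.Agent.S24 Fermat.Agent.S18.Tame

theorem hasHensel : HasHensel := by
  intro N1 D1 G a j0 m ε w hm hε hD hfac hG _ hw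
  obtain ⟨T, h1, -, h3⟩ := Hensel.exists_tau_finite N1 D1 G a j0 m ε hm hε hfac hG hD w hw
  refine ⟨T, ?_, h1, h3⟩
  intro h0
  rw [h0, HahnSeries.order_zero] at h1
  omega

theorem hasRoots (p : ℕ) (hp : 0 < p) : HasRoots p := fun z _ hd =>
  Hensel.exists_pow_eq p hp z hd

theorem aeval_X_eq (q : Kb[X]) : aeval (RatFunc.X : K0) q = algebraMap Kb[X] K0 q :=
  RatFunc.aeval_X_left_eq_algebraMap q

theorem ht_X (x : K0) : ∃ p q : Kb[X], aeval (RatFunc.X : K0) q ≠ 0 ∧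
    x * aeval (RatFunc.X : K0) q = aeval (RatFunc.X : K0) p := by
  refine ⟨x.num, x.denom, ?_, ?_⟩
  · rw [aeval_X_eq]; exact RatFunc.algebraMap_ne_zero (RatFunc.denom_ne_zero x)
  · rw [aeval_X_eq, aeval_X_eq]
    have h0 : algebraMap Kb[X] K0 x.denom ≠ 0 := RatFunc.algebraMap_ne_zero (RatFunc.denom_ne_zero x)
    have h1 := RatFunc.num_div_denom x
    rw [div_eq_iff h0] at h1
    exact h1.symm

theorem ht_Xinv (x : K0) : ∃ p q : Kb[X], aeval (RatFunc.X⁻¹ : K0) q ≠ 0 ∧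
    x * aeval (RatFunc.X⁻¹ : K0) q = aeval (RatFunc.X⁻¹ : K0) p := by
  obtain ⟨a, b, hb, hab⟩ := IsFractionRing.div_surjective (A := Rs Kb) x
  obtain ⟨⟨a', p, hp⟩, rfl⟩ : ∃ a'' : Rs Kb, a'' = a := ⟨a, rfl⟩
  obtain ⟨⟨b', q, hq⟩, rfl⟩ : ∃ b'' : Rs Kb, b'' = b := ⟨b, rfl⟩
  have hb0 : b' ≠ 0 := by
    intro h0
    have := nonZeroDivisors.ne_zero hb
    exact this (Subtype.ext h0)
  have e1 : algebraMap (Rs Kb) K0 ⟨a', p, hp⟩ = a' := rfl
  have e2 : algebraMap (Rs Kb) K0 ⟨b', q, hq⟩ = b' := rfl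
  rw [e1, e2] at hab
  have hp' : aeval (RatFunc.X⁻¹ : K0) p = a' := hp
  have hq' : aeval (RatFunc.X⁻¹ : K0) q = b' := hq
  refine ⟨p, q, by rw [hq']; exact hb0, ?_⟩
  rw [hp', hq', ← hab]
  field_simp

theorem hlift_X (T : LS) (hT : ∀ q : Kb[X], q ≠ 0 → q.eval₂ iC T ≠ 0) :
    ∃ φ : K0 →+* LS, (∀ c, φ (RatFunc.C c) = iC c) ∧
      ∀ q : Kb[X], φ (aeval (RatFunc.X : K0) q) = q.eval₂ iC T := by
  obtain ⟨φ, h1, h2, -⟩ := exists_ratFunc_hom iC T hT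
  exact ⟨φ, h2, fun q => by rw [aeval_X_eq, h1]⟩

theorem hlift_Xinv (T : LS) (hT : ∀ q : Kb[X], q ≠ 0 → q.eval₂ iC T ≠ 0) :
    ∃ φ : K0 →+* LS, (∀ c, φ (RatFunc.C c) = iC c) ∧
      ∀ q : Kb[X], φ (aeval (RatFunc.X⁻¹ : K0) q) = q.eval₂ iC T := by
  have hT0 : T ≠ 0 := by
    have := hT X X_ne_zero
    rwa [eval₂_X] at this
  have hT' : ∀ q : Kb[X], q ≠ 0 → q.eval₂ iC T⁻¹ ≠ 0 := by
    intro q hq
    let _ : Invertible (T⁻¹) := invertibleOfNonzero (inv_ne_zero hT0)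
    have h := Polynomial.eval₂_reverse_mul_pow iC (T⁻¹) q
    rw [invOf_eq_inv, inv_inv] at h
    rw [← h]
    exact mul_ne_zero (hT _ (by rwa [Ne, Polynomial.reverse_eq_zero]))
      (pow_ne_zero _ (inv_ne_zero hT0))
  obtain ⟨φ, -, h2, h3⟩ := exists_ratFunc_hom iC T⁻¹ hT'
  refine ⟨φ, h2, fun q => ?_⟩
  rw [aeval_def, hom_eval₂, map_inv₀, h3, inv_inv]
  congr 1
  ext c
  rw [RingHom.comp_apply, RatFunc.algebraMap_eq_C, h2]

/-- constructor of charts from the local description of the line -/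
theorem isChart_mk (N : ℕ) (Rτ t : K0) (Num Den : Kb[X]) (c : ℕ) (hc : 1 ≤ c)
    (ht : t = RatFunc.X ∨ t = RatFunc.X⁻¹)
    (hR : Rτ * aeval t Den = aeval t Num)
    (fin : ∀ a, Den.eval a ≠ 0 → ∃ (m : ℕ) (G : Kb[X]),
      Num - C (Num.eval a / Den.eval a) * Den = (X - C a) ^ m * G ∧ G.eval a ≠ 0 ∧
      ((Num.eval a = 0 ∧ m = 3) ∨ (Num.eval a = 1728 * Den.eval a ∧ m = 2) ∨
        (Num.eval a ≠ 0 ∧ Num.eval a ≠ 1728 * Den.eval a ∧ m = 1)))
    (cusp : ∀ a, Den.eval a = 0 → Num.eval a ≠ 0 ∧ ∃ D1, Den = (X - C a) ^ c * D1 ∧ D1.eval a ≠ 0) :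
    IsChart N Rτ t Num Den c (fun a => if Den.eval a = 0 then N else 1) := by
  refine ⟨hR, ?_, ?_, hc, ?_, ?_⟩
  · rcases ht with rfl | rfl
    · exact ht_X
    · exact ht_Xinv
  · rcases ht with rfl | rfl
    · exact hlift_X
    · exact hlift_Xinv
  · intro a ha
    obtain ⟨m, G, h1, h2, h3⟩ := fin a ha
    refine ⟨m, G, ?_, ?_, h1, h2, ?_⟩
    · rcases h3 with ⟨-, rfl⟩ | ⟨-, rfl⟩ | ⟨-, -, rfl⟩ <;> norm_num
    · simp [ha]
    · simp only [ha, if_false, mul_one]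
      unfold eJ
      rcases h3 with ⟨h, rfl⟩ | ⟨h, rfl⟩ | ⟨h, h', rfl⟩
      · rw [if_pos (by rw [h, zero_div])]
      · have e : Num.eval a / Den.eval a = 1728 := by rw [h]; field_simp
        rw [e, if_neg (by norm_num), if_pos rfl]
      · rw [if_neg (div_ne_zero h ha), if_neg]
        intro e
        apply h'
        rw [← e]; field_simp
  · intro a ha
    obtain ⟨h1, h2⟩ := cusp a ha
    exact ⟨h1, by simp [ha], h2⟩

variable {N : ℕ} [NeZero N] {p : ℕ} {Φ' : Kb[X][X]} {Rτ : K0} {Φ0 : K0[X]}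
  {emb : FN N →+* AdjoinRoot Φ0} {f : FN N} {g' : (AdjoinRoot Φ0)[X]}

/-- (G3) on a chart -/
theorem g3_chart (I : IsInput N p Φ' Rτ Φ0 emb f g')
    {t : K0} {Num Den : Kb[X]} {c : ℕ}
    (Ch : IsChart N Rτ t Num Den c (fun a => if Den.eval a = 0 then N else 1))
    {ι : Type*} [Fintype ι] (b : Module.Basis ι K0 (AdjoinRoot g'))
    (hcard : Fintype.card ι = Nat.card (Cos N) * p)
    (P : Kb[X]) (hP : ∀ a, Den.eval a = 0 → P.eval a = 0)
    (h : AdjoinRoot g') (hh : IsLocData.IsDual Kb t h) :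
    ∃ y : AdjoinRoot g', IsIntegral (Rt Kb t) y ∧
      (algebraMap K0 (AdjoinRoot g') (aeval t P) * h) ^ N =
        algebraMap K0 (AdjoinRoot g') (aeval t P) * y := by
  classical
  have : Fintype (Cos N) := Fintype.ofFinite _
  obtain ⟨phi, sig, D⟩ := exists_locData I hasHensel (hasRoots p I.hp.pos) Ch
  have e : ι ≃ Cos N × Fin p := Fintype.equivOfCardEq (by
    rw [hcard, Fintype.card_prod, Fintype.card_fin, Nat.card_eq_fintype_card])
  refine D.g3 (b.reindex e) P N (fun a => ?_) (fun a ha => ?_) hh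
  · have hN : 1 ≤ N := Nat.pos_of_ne_zero (NeZero.ne N)
    split_ifs <;> omega
  · rw [if_neg (fun h0 => ha (hP a h0))]

end Fermat.Agent.S18.Fam
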