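import Mathlib
import Fermat.Agent.S18.FamCharts
import Fermat.Agent.S18.Lines

/-!
# S18 (G3): the four charts (lambda and mu lines)
-/

set_option autoImplicit false
set_option linter.unusedSectionVars false

namespace Fermat.Agent.S18.Fam

open Polynomial
open Fermat.Agent.S24 Fermat.Agent.S18

theorem aeval_X_ne_zero {q : Kb[X]} (hq : q ≠ 0) : aeval (RatFunc.X : K0) q ≠ 0 := by
  rw [aeval_X_eq]; exact RatFunc.algebraMap_ne_zero hq

theorem lamDen_ne_zero : lamDen Kb ≠ 0 := by
  intro h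
  have := congrArg (Polynomial.eval 2) h
  simp [lamDen] at this
  norm_num at this

theorem muDen_ne_zero : muDen Kb ≠ 0 := by
  intro h
  have := congrArg (Polynomial.eval 0) h
  simp [muDen] at this

variable (N : ℕ) (Rτ : K0)

theorem chart_lam (hR : Rτ * aeval RatFunc.X (lamDen Kb) = aeval RatFunc.X (lamNum Kb)) :
    IsChart N Rτ RatFunc.X (lamNum Kb) (lamDen Kb) 2
      (fun a => if (lamDen Kb).eval a = 0 then N else 1) :=
  isChart_mk N Rτ _ _ _ 2 (by norm_num) (Or.inl rfl) hR localLine_lambda.fin localLine_lambda.cusp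

theorem chartS_lam (hR : Rτ * aeval RatFunc.X (lamDen Kb) = aeval RatFunc.X (lamNum Kb)) :
    IsChart N Rτ RatFunc.X⁻¹ (lamNum Kb) (lamDen Kb) 2
      (fun a => if (lamDen Kb).eval a = 0 then N else 1) := by
  refine isChart_mk N Rτ _ _ _ 2 (by norm_num) (Or.inr rfl) ?_ localLine_lambda.fin
    localLine_lambda.cusp
  have h := lam_chart (R := Kb) (algebraMap Kb K0) (t := (RatFunc.X : K0)) RatFunc.X_ne_zero
  rw [← aeval_def, ← aeval_def, ← aeval_def, ← aeval_def, ← hR] at h
  apply mul_right_cancel₀ (aeval_X_ne_zero lamDen_ne_zero)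
  rw [h]; ring

theorem chart_mu (hR : Rτ * aeval RatFunc.X (muDen Kb) = aeval RatFunc.X (muNum Kb)) :
    IsChart N Rτ RatFunc.X (muNum Kb) (muDen Kb) 3
      (fun a => if (muDen Kb).eval a = 0 then N else 1) :=
  isChart_mk N Rτ _ _ _ 3 (by norm_num) (Or.inl rfl) hR localLine_mu.fin localLine_mu.cusp

theorem chartS_mu (hR : Rτ * aeval RatFunc.X (muDen Kb) = aeval RatFunc.X (muNum Kb)) :
    IsChart N Rτ RatFunc.X⁻¹ (muNumS Kb) (muDenS Kb) 3
      (fun a => if (muDenS Kb).eval a = 0 then N else 1) := by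
  refine isChart_mk N Rτ _ _ _ 3 (by norm_num) (Or.inr rfl) ?_ localLine_muS.fin
    localLine_muS.cusp
  have h := mu_chart (R := Kb) (algebraMap Kb K0) (t := (RatFunc.X : K0)) RatFunc.X_ne_zero
  rw [← aeval_def, ← aeval_def, ← aeval_def, ← aeval_def, ← hR] at h
  apply mul_right_cancel₀ (aeval_X_ne_zero muDen_ne_zero)
  rw [h]; ring

theorem lamDen_root {a : Kb} (h : (lamDen Kb).eval a = 0) : a * (1 - a) = 0 := by
  simpa [lamDen] using h

theorem muDen_root {a : Kb} (h : (muDen Kb).eval a = 0) : a ^ 3 - 1 = 0 := by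
  simpa [muDen] using h

theorem muDenS_root {a : Kb} (h : (muDenS Kb).eval a = 0) : a * (1 - a ^ 3) = 0 := by
  simpa [muDenS] using h

end Fermat.Agent.S18.Fam
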