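import Fermat.Agent.S18.EndGlue
import Fermat.Agent.S24.Places
import Fermat.Agent.S24.Defs
import Fermat.Prelude.Def_ModularCurve_X0ModL
import Fermat.Prelude.Thm_ModularCurve_coeff_jqModC_neg_one

/-!
# S18, plan Z: order functions on `FN N`
-/

set_option autoImplicit false
set_option linter.unusedSectionVars false
set_option linter.unusedVariables false

namespace Fermat.Agent.S18

open Polynomial ModularCurve AlgebraicCurve Fermat.Agent.S24

/-- if `p` divides the order of `f` at all places then `p` divides the order of `σ f` for every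
embedding `σ` into a field of Laurent series which is "constant on the constants". -/
theorem efn_dvd_order {K F Γ : Type*} [Field K] [Field F] [Algebra K F] [Field Γ]
    (σ : F →+* LaurentSeries Γ) (hK : ∀ c : K, c ≠ 0 → (σ (algebraMap K F c)).order = 0)
    (p : ℤ) (f : F) (hf : ∀ v : Place K F, p ∣ v.ord f) : p ∣ (σ f).order := by
  by_cases hf0 : f = 0
  · rw [hf0, map_zero, HahnSeries.order_zero]; exact dvd_zero p
  by_cases hne : ∃ g : F, g ≠ 0 ∧ (σ g).order ≠ 0
  · obtain ⟨v, g, -, hv⟩ := exists_place_of_ord (K := K) (fun y : F => (σ y).order)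
      (fun a b ha hb => by
        rw [map_mul]
        exact HahnSeries.order_mul ((map_ne_zero σ).2 ha) ((map_ne_zero σ).2 hb))
      (fun a b ha hb hab => by
        rw [map_add]
        exact HahnSeries.min_order_le_order_add (by rw [← map_add]; exact (map_ne_zero σ).2 hab))
      hK hne
    have : (σ f).order = g * v.ord f := hv f hf0
    rw [this]
    exact Dvd.dvd.mul_left (hf v) g
  · push Not at hne
    rw [hne f hf0]; exact dvd_zero p

variable (N : ℕ) [NeZero N]

theorem efn_coe_jBar : ((jBar N : FN N) : LaurentSeries Kb) = jqModC Kb := by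
  have h1 : jq = jqModC ℚ := rfl
  change coeffEmb Kb jq = _
  rw [h1]
  change coeffMap (algebraMap ℚ Kb) (jqModC ℚ) = _
  rw [coeffMap_jqModC]

theorem efn_order_jBar_sub (c : Kb) :
    ((jBar N - algebraMap Kb (FN N) c : FN N) : LaurentSeries Kb).order = -1 := by
  have e : ((jBar N - algebraMap Kb (FN N) c : FN N) : LaurentSeries Kb) =
      jqModC Kb - HahnSeries.single 0 c := by
    rw [← efn_coe_jBar N, ← algebraMap_laurentSeries_eq_single]; rfl
  rw [e]
  have h1 : (jqModC Kb - HahnSeries.single 0 c).coeff (-1) ≠ 0 := by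
    rw [HahnSeries.coeff_sub, coeff_jqModC_neg_one, HahnSeries.coeff_single_of_ne (by norm_num),
      sub_zero]
    exact one_ne_zero
  have hne : jqModC Kb - HahnSeries.single 0 c ≠ 0 := by
    intro h
    rw [h] at h1
    exact h1 rfl
  apply le_antisymm (HahnSeries.order_le_of_coeff_ne_zero h1)
  rw [HahnSeries.le_order_iff_forall hne]
  intro i hi
  rw [HahnSeries.coeff_sub, coeff_jqModC_of_lt Kb hi,
    HahnSeries.coeff_single_of_ne (by omega), sub_zero]

theorem efn_order_jBar : ((jBar N : FN N) : LaurentSeries Kb).order = -1 := by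
  have := efn_order_jBar_sub N 0
  rwa [map_zero, sub_zero] at this

theorem efn_order_jBar_sub_1728 : ((jBar N - 1728 : FN N) : LaurentSeries Kb).order = -1 := by
  have := efn_order_jBar_sub N 1728
  rwa [map_ofNat] at this

theorem efn_order_mul (a b : FN N) (ha : a ≠ 0) (hb : b ≠ 0) :
    ((a * b : FN N) : LaurentSeries Kb).order =
      (a : LaurentSeries Kb).order + (b : LaurentSeries Kb).order :=
  HahnSeries.order_mul (fun h => ha (Subtype.ext h)) (fun h => hb (Subtype.ext h))

theorem efn_dvd_order_coe (p : ℤ) (f : FN N) (hf : ∀ v : Place Kb (FN N), p ∣ v.ord f) :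
    p ∣ (f : LaurentSeries Kb).order :=
  efn_dvd_order (K := Kb) (modularFunctionFieldBar N).val.toRingHom (fun c hc => by
    change (algebraMap Kb (LaurentSeries Kb) c).order = 0
    rw [algebraMap_laurentSeries_eq_single, HahnSeries.order_single hc]) p f hf

theorem efn_exists_omega : ∃ ω : FN N, ω ^ 2 + ω + 1 = 0 := by
  obtain ⟨w, hw⟩ := IsAlgClosed.exists_root (X ^ 2 + X + 1 : Kb[X]) (by
    have : (X ^ 2 + X + 1 : Kb[X]).degree = 2 := by compute_degree!
    rw [this]; norm_num)
  refine ⟨algebraMap Kb (FN N) w, ?_⟩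
  have h : w ^ 2 + w + 1 = 0 := by simpa [Polynomial.IsRoot] using hw
  rw [← map_pow, ← map_add, ← map_one (algebraMap Kb (FN N)), ← map_add, h, map_zero]

variable {N}

/-- the end of the proof of `core` on the `λ`-line -/
theorem core_end_lambda {FF : Type*} [CommRing FF] [Algebra (RatFunc Kb) FF] (emb : FN N →+* FF)
    (hembC : ∀ c : Kb, emb (algebraMap Kb (FN N) c) = algebraMap (RatFunc Kb) FF (RatFunc.C c))
    (x0 : FN N) (hgen : ∀ y : FF, ∃ P : (RatFunc Kb)[X], y = Polynomial.aeval (emb x0) P)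
    (τ : FF) (hτ0 : τ = algebraMap (RatFunc Kb) FF RatFunc.X)
    (hτ : 256 * (τ ^ 2 - τ + 1) ^ 3 = emb (jBar N) * (τ ^ 2 * (1 - τ) ^ 2))
    {p : ℕ} (hp : p.Prime) (hp3 : p ≠ 3) {f : FN N} (hf0 : f ≠ 0)
    (hf : ∀ v : Place Kb (FN N), (p : ℤ) ∣ v.ord f)
    (m : Ideal FF) [hm : m.IsMaximal] (z : FF ⧸ m) (hz : z ^ p = Ideal.Quotient.mk m (emb f)) :
    ∃ y : FN N, f = y ^ p := by
  have : CharZero (FN N) := charZero_of_injective_algebraMap (algebraMap Kb (FN N)).injective
  obtain ⟨y, hy⟩ := eg_lambda emb hembC x0 hgen (jBar N) τ hτ0 hτ hp hp3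
    (fun y : FN N => (y : LaurentSeries Kb).order) (efn_order_mul N)
    (efn_order_jBar_sub_1728 N) hf0 (efn_dvd_order_coe N p f hf) m z hz
  exact ⟨y, hy.symm⟩

/-- the end of the proof of `core` on the `μ`-line -/
theorem core_end_mu {FF : Type*} [CommRing FF] [Algebra (RatFunc Kb) FF] (emb : FN N →+* FF)
    (hembC : ∀ c : Kb, emb (algebraMap Kb (FN N) c) = algebraMap (RatFunc Kb) FF (RatFunc.C c))
    (x0 : FN N) (hgen : ∀ y : FF, ∃ P : (RatFunc Kb)[X], y = Polynomial.aeval (emb x0) P)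
    (τ : FF) (hτ0 : τ = algebraMap (RatFunc Kb) FF RatFunc.X)
    (hτ : 27 * τ ^ 3 * (τ ^ 3 + 8) ^ 3 = emb (jBar N) * (τ ^ 3 - 1) ^ 3)
    {p : ℕ} (hp : p.Prime) (hp2 : p ≠ 2) {f : FN N} (hf0 : f ≠ 0)
    (hf : ∀ v : Place Kb (FN N), (p : ℤ) ∣ v.ord f)
    (m : Ideal FF) [hm : m.IsMaximal] (z : FF ⧸ m) (hz : z ^ p = Ideal.Quotient.mk m (emb f)) :
    ∃ y : FN N, f = y ^ p := by
  have : CharZero (FN N) := charZero_of_injective_algebraMap (algebraMap Kb (FN N)).injective
  have hj0 : jBar N ≠ 0 := by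
    intro h
    have := efn_order_jBar N
    rw [h] at this
    simp at this
  obtain ⟨y, hy⟩ := eg_mu emb hembC x0 hgen (jBar N) τ hτ0 hτ (efn_exists_omega N) hp hp2
    (fun y : FN N => (y : LaurentSeries Kb).order) (efn_order_mul N) hj0
    (efn_order_jBar N) hf0 (efn_dvd_order_coe N p f hf) m z hz
  exact ⟨y, hy.symm⟩

end Fermat.Agent.S18
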