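import Mathlib
import Fermat.Agent.S18.FamCharts
import Fermat.Agent.S18.PhiN
import Fermat.Agent.S18.EndFN
import Fermat.Agent.S18.Defs2

/-!
# S18 (G3): the hypotheses `G3`, `G3'` of `core_step`
-/

set_option autoImplicit false
set_option linter.unusedSectionVars false

namespace Fermat.Agent.S18.Fam

open Polynomial AlgebraicCurve ModularCurve
open Fermat.Agent.X0 Fermat.Agent.S24 Fermat.Agent.S18.Tame Fermat.Agent.S18

variable (N : ℕ) [NeZero N]

theorem coe_jdS_N : ((jdS N ⟨N, dvd_rfl⟩ : FN N) : LaurentSeries Kb) = jqNModC Kb N := by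
  change coeffMap (algebraMap ℚ Kb) (jqNModC ℚ N) = _
  rw [coeffMap_jqNModC]

variable (A : ValuationSubring Kb)

theorem hPhi' : (((PhiA A N).map (mapRingHom A.subtype)).map
    (aeval (jBar N) : Kb[X] →ₐ[Kb] FN N).toRingHom).eval (jdS N ⟨N, dvd_rfl⟩) = 0 := by
  have hinj : Function.Injective ((modularFunctionFieldBar N).val : FN N → LaurentSeries Kb) :=
    Subtype.val_injective
  apply hinj
  have h := PhiA_root_gen A N
  rw [eval_map] at h ⊢
  have e : ((modularFunctionFieldBar N).val : FN N →ₐ[Kb] LaurentSeries Kb).toRingHom.comp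
      (aeval (jBar N) : Kb[X] →ₐ[Kb] FN N).toRingHom =
      (aeval (jqModC Kb) : Kb[X] →ₐ[Kb] LaurentSeries Kb).toRingHom := by
    apply Polynomial.ringHom_ext
    · intro c
      simp
    · simp only [AlgHom.toRingHom_eq_coe, RingHom.comp_apply, RingHom.coe_coe, aeval_X]
      exact efn_coe_jBar N
  have h2 := Polynomial.hom_eval₂ ((PhiA A N).map (mapRingHom A.subtype))
    (aeval (jBar N) : Kb[X] →ₐ[Kb] FN N).toRingHom
    ((modularFunctionFieldBar N).val : FN N →ₐ[Kb] LaurentSeries Kb).toRingHom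
    (jdS N ⟨N, dvd_rfl⟩)
  rw [e] at h2
  have e3 : ((modularFunctionFieldBar N).val : FN N →ₐ[Kb] LaurentSeries Kb).toRingHom
      (jdS N ⟨N, dvd_rfl⟩) = jqNModC Kb N := coe_jdS_N N
  rw [e3, h] at h2
  rw [map_zero]
  exact h2

theorem hPhi0 (Rτ : OV A) : (PhiTau A Rτ (PhiA A N)).map (OV A).subtype =
    ((PhiA A N).map (mapRingHom A.subtype)).map
      (eval₂RingHom (RatFunc.C : Kb →+* K0) (Rτ : K0)) := by
  rw [PhiTau, Polynomial.map_map, subtype_comp_evTau, Polynomial.map_map]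
  congr 1

variable {N A}

theorem isInput_defs2 {p : ℕ} (hp : p.Prime) (Rτ : OV A)
    (f1 : B1 A (PhiTau A Rτ (PhiA A N)))
    (emb : FN N →+* FF A (PhiTau A Rτ (PhiA A N)))
    (hembc : ∀ c, emb (algebraMap Kb (FN N) c) = AdjoinRoot.of _ (RatFunc.C c))
    (hembj : emb (jBar N) = AdjoinRoot.of _ (Rτ : K0))
    (f : FN N) (hf0 : f ≠ 0) (hf : ∀ v : Place Kb (FN N), (p : ℤ) ∣ v.ord f)
    (hemb : emb f = inc1 A _ f1) :
    IsInput N p ((PhiA A N).map (mapRingHom A.subtype)) (Rτ : K0)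
      ((PhiTau A Rτ (PhiA A N)).map (OV A).subtype) emb f
      ((kumPoly A (PhiTau A Rτ (PhiA A N)) p f1).map (inc1 A _)) :=
  ⟨hp, hPhi' N A, hPhi0 N A Rτ, hembc, hembj, hf0, hf, by rw [kumPoly_map_inc1, hemb]⟩

/-- the two hypotheses of `core_step` -/
theorem g3_final {p : ℕ} (hp : p.Prime) (Rτ : OV A)
    (f1 : B1 A (PhiTau A Rτ (PhiA A N)))
    (emb : FN N →+* FF A (PhiTau A Rτ (PhiA A N)))
    (hembc : ∀ c, emb (algebraMap Kb (FN N) c) = AdjoinRoot.of _ (RatFunc.C c))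
    (hembj : emb (jBar N) = AdjoinRoot.of _ (Rτ : K0))
    (f : FN N) (hf0 : f ≠ 0) (hf : ∀ v : Place Kb (FN N), (p : ℤ) ∣ v.ord f)
    (hemb : emb f = inc1 A _ f1)
    {ι : Type*} [Fintype ι] (b : Module.Basis ι K0 (EE A (PhiTau A Rτ (PhiA A N)) p f1))
    (hcard : Fintype.card ι = Nat.card (Cos N) * p)
    {Num Den NumS DenS : Kb[X]} {c c' : ℕ}
    (Ch : IsChart N (Rτ : K0) RatFunc.X Num Den c (fun a => if Den.eval a = 0 then N else 1))
    (ChS : IsChart N (Rτ : K0) RatFunc.X⁻¹ NumS DenS c'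
      (fun a => if DenS.eval a = 0 then N else 1))
    (P P' : (↥A)[X]) (hP : ∀ a, Den.eval a = 0 → (P.map A.subtype).eval a = 0)
    (hP' : ∀ a, DenS.eval a = 0 → (P'.map A.subtype).eval a = 0) :
    (∀ h : EE A (PhiTau A Rτ (PhiA A N)) p f1,
      InDual (Rtau Kb) (RatFunc Kb) (EE A (PhiTau A Rτ (PhiA A N)) p f1) h →
      ∃ u : EE A (PhiTau A Rτ (PhiA A N)) p f1, IsIntegral (Rtau Kb) u ∧
        (polTau A P • h) ^ N = polTau A P • u) ∧
    (∀ h : EE A (PhiTau A Rτ (PhiA A N)) p f1,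
      InDual (Rs Kb) (RatFunc Kb) (EE A (PhiTau A Rτ (PhiA A N)) p f1) h →
      ∃ u : EE A (PhiTau A Rτ (PhiA A N)) p f1, IsIntegral (Rs Kb) u ∧
        (polS A P' • h) ^ N = polS A P' • u) := by
  have I := isInput_defs2 hp Rτ f1 emb hembc hembj f hf0 hf hemb
  constructor
  · intro h hh
    obtain ⟨y, hy1, hy2⟩ := g3_chart I Ch b hcard (P.map A.subtype) hP h (fun y hy => by
      have := hh y hy
      rwa [mem_range_Rtau] at this)
    refine ⟨y, hy1, ?_⟩
    rw [Algebra.smul_def, Algebra.smul_def]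
    exact hy2
  · intro h hh
    obtain ⟨y, hy1, hy2⟩ := g3_chart I ChS b hcard (P'.map A.subtype) hP' h (fun y hy => by
      have := hh y hy
      rwa [mem_range_Rs] at this)
    refine ⟨y, hy1, ?_⟩
    rw [Algebra.smul_def, Algebra.smul_def]
    exact hy2

end Fermat.Agent.S18.Fam
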