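import Mathlib
import Fermat.Agent.S18.G3Final
import Fermat.Agent.S18.Charts4

/-!
# S18 (G3): the hypotheses `G3`, `G3'` of `core_step` for the lambda and mu lines
-/

set_option autoImplicit false
set_option linter.unusedSectionVars false

namespace Fermat.Agent.S18.Fam

open Polynomial AlgebraicCurve ModularCurve
open Fermat.Agent.X0 Fermat.Agent.S24 Fermat.Agent.S18.Tame Fermat.Agent.S18

variable {N : ℕ} [NeZero N] {A : ValuationSubring Kb}

theorem card_model_index (ψ p : ℕ) : Fintype.card ((Unit × Fin ψ) × Fin p) = ψ * p := by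
  simp

theorem g3_lambda {p : ℕ} (hp : p.Prime) (Rτ : OV A)
    (hR : (Rτ : K0) * (RatFunc.X * (1 - RatFunc.X)) ^ 2 =
      256 * (RatFunc.X ^ 2 - RatFunc.X + 1) ^ 3)
    (f1 : B1 A (PhiTau A Rτ (PhiA A N)))
    (emb : FN N →+* FF A (PhiTau A Rτ (PhiA A N)))
    (hembc : ∀ c, emb (algebraMap Kb (FN N) c) = AdjoinRoot.of _ (RatFunc.C c))
    (hembj : emb (jBar N) = AdjoinRoot.of _ (Rτ : K0))
    (f : FN N) (hf0 : f ≠ 0) (hf : ∀ v : Place Kb (FN N), (p : ℤ) ∣ v.ord f)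
    (hemb : emb f = inc1 A _ f1)
    {ι : Type*} [Fintype ι] (b : Module.Basis ι K0 (EE A (PhiTau A Rτ (PhiA A N)) p f1))
    (hcard : Fintype.card ι = Nat.card (Cos N) * p)
    (P P' : (↥A)[X]) (hPm : P.map A.subtype = X * (1 - X)) (hPm' : P'.map A.subtype = X * (X - 1)) :
    (∀ h : EE A (PhiTau A Rτ (PhiA A N)) p f1,
      InDual (Rtau Kb) (RatFunc Kb) (EE A (PhiTau A Rτ (PhiA A N)) p f1) h →
      ∃ u : EE A (PhiTau A Rτ (PhiA A N)) p f1, IsIntegral (Rtau Kb) u ∧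
        (polTau A P • h) ^ N = polTau A P • u) ∧
    (∀ h : EE A (PhiTau A Rτ (PhiA A N)) p f1,
      InDual (Rs Kb) (RatFunc Kb) (EE A (PhiTau A Rτ (PhiA A N)) p f1) h →
      ∃ u : EE A (PhiTau A Rτ (PhiA A N)) p f1, IsIntegral (Rs Kb) u ∧
        (polS A P' • h) ^ N = polS A P' • u) := by
  have hR' : (Rτ : K0) * aeval RatFunc.X (lamDen Kb) = aeval RatFunc.X (lamNum Kb) := by
    simp only [lamNum, lamDen, map_mul, map_pow, map_sub, map_add, map_one, map_ofNat, aeval_X]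
    exact hR
  refine g3_final hp Rτ f1 emb hembc hembj f hf0 hf hemb b hcard (chart_lam N _ hR')
    (chartS_lam N _ hR') P P' (fun a ha => ?_) (fun a ha => ?_)
  · rw [hPm]; simpa using lamDen_root ha
  · rw [hPm']
    have := lamDen_root ha
    simp only [eval_mul, eval_X, eval_sub, eval_one]
    linear_combination -this

theorem g3_mu {p : ℕ} (hp : p.Prime) (Rτ : OV A)
    (hR : (Rτ : K0) * (RatFunc.X ^ 3 - 1) ^ 3 = 27 * (RatFunc.X * (RatFunc.X ^ 3 + 8)) ^ 3)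
    (f1 : B1 A (PhiTau A Rτ (PhiA A N)))
    (emb : FN N →+* FF A (PhiTau A Rτ (PhiA A N)))
    (hembc : ∀ c, emb (algebraMap Kb (FN N) c) = AdjoinRoot.of _ (RatFunc.C c))
    (hembj : emb (jBar N) = AdjoinRoot.of _ (Rτ : K0))
    (f : FN N) (hf0 : f ≠ 0) (hf : ∀ v : Place Kb (FN N), (p : ℤ) ∣ v.ord f)
    (hemb : emb f = inc1 A _ f1)
    {ι : Type*} [Fintype ι] (b : Module.Basis ι K0 (EE A (PhiTau A Rτ (PhiA A N)) p f1))
    (hcard : Fintype.card ι = Nat.card (Cos N) * p)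
    (P P' : (↥A)[X]) (hPm : P.map A.subtype = X ^ 3 - 1)
    (hPm' : P'.map A.subtype = X * (1 - X ^ 3)) :
    (∀ h : EE A (PhiTau A Rτ (PhiA A N)) p f1,
      InDual (Rtau Kb) (RatFunc Kb) (EE A (PhiTau A Rτ (PhiA A N)) p f1) h →
      ∃ u : EE A (PhiTau A Rτ (PhiA A N)) p f1, IsIntegral (Rtau Kb) u ∧
        (polTau A P • h) ^ N = polTau A P • u) ∧
    (∀ h : EE A (PhiTau A Rτ (PhiA A N)) p f1,
      InDual (Rs Kb) (RatFunc Kb) (EE A (PhiTau A Rτ (PhiA A N)) p f1) h →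
      ∃ u : EE A (PhiTau A Rτ (PhiA A N)) p f1, IsIntegral (Rs Kb) u ∧
        (polS A P' • h) ^ N = polS A P' • u) := by
  have hR' : (Rτ : K0) * aeval RatFunc.X (muDen Kb) = aeval RatFunc.X (muNum Kb) := by
    simp only [muNum, muDen, map_mul, map_pow, map_sub, map_add, map_one, map_ofNat, aeval_X]
    exact hR
  refine g3_final hp Rτ f1 emb hembc hembj f hf0 hf hemb b hcard (chart_mu N _ hR')
    (chartS_mu N _ hR') P P' (fun a ha => ?_) (fun a ha => ?_)
  · rw [hPm]; simpa using muDen_root ha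
  · rw [hPm']; simpa using muDenS_root ha

end Fermat.Agent.S18.Fam
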