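import Fermat.Agent.S18.Defs2
import Fermat.Agent.S18.Lines

/-! # S18 plan Z, (D1): the base lines `λ`, `μ` over `ℤ` and their reductions -/

set_option autoImplicit false

namespace Fermat.Agent.S18

open Polynomial

section generic

variable {L : Type*} [Field L] (A : ValuationSubring L)

/-- `ℤ[X] → A[X]` -/
noncomputable abbrev zA (P : ℤ[X]) : (↥A)[X] := P.map (Int.castRingHom A)

theorem zA_map_subtype (P : ℤ[X]) : (zA A P).map A.subtype = P.map (Int.castRingHom L) := by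
  rw [zA, Polynomial.map_map]
  congr 1

theorem zA_map_residue (P : ℤ[X]) :
    (zA A P).map (IsLocalRing.residue A) = P.map (Int.castRingHom (Kres A)) := by
  rw [zA, Polynomial.map_map]
  congr 1

theorem gRed_zA (P : ℤ[X]) : gRed A (zA A P) =
    algebraMap (Kres A)[X] (RatFunc (Kres A)) (P.map (Int.castRingHom (Kres A))) := by
  rw [gRed_eq, zA_map_residue]

theorem gIncl_zA (P : ℤ[X]) : gIncl A (zA A P) =
    algebraMap L[X] (RatFunc L) (P.map (Int.castRingHom L)) := by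
  rw [gIncl_eq, zA_map_subtype]

theorem gRed_zA_ne_zero {D : ℤ[X]} (hD : D.map (Int.castRingHom (Kres A)) ≠ 0) :
    gRed A (zA A D) ≠ 0 := by
  rw [gRed_zA]
  exact (map_ne_zero_iff _ (IsFractionRing.injective _ _)).2 hD

/-- the rational function `Num / Den` as an element of the Gauss valuation ring -/
noncomputable def lineRZ (Num Den : ℤ[X]) (hD : Den.map (Int.castRingHom (Kres A)) ≠ 0) : OV A :=
  lineR A (zA A Num) (zA A Den) (gRed_zA_ne_zero A hD)

theorem lineRZ_spec (Num Den : ℤ[X]) (hD : Den.map (Int.castRingHom (Kres A)) ≠ 0) :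
    (lineRZ A Num Den hD : RatFunc L) * algebraMap L[X] (RatFunc L) (Den.map (Int.castRingHom L)) =
      algebraMap L[X] (RatFunc L) (Num.map (Int.castRingHom L)) := by
  rw [← gIncl_zA, ← gIncl_zA]
  exact div_mul_cancel₀ _ (gIncl_ne_zero A (gRed_zA_ne_zero A hD))

theorem redV_lineRZ (Num Den : ℤ[X]) (hD : Den.map (Int.castRingHom (Kres A)) ≠ 0) :
    redV A (lineRZ A Num Den hD) = gRed A (zA A Num) / gRed A (zA A Den) :=
  redV_div A _ (gRed_zA_ne_zero A hD)

theorem redV_lineRZZ_spec (Num Den : ℤ[X]) (hD : Den.map (Int.castRingHom (Kres A)) ≠ 0) :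
    redV A (lineRZ A Num Den hD) *
        algebraMap (Kres A)[X] (RatFunc (Kres A)) (Den.map (Int.castRingHom (Kres A))) =
      algebraMap (Kres A)[X] (RatFunc (Kres A)) (Num.map (Int.castRingHom (Kres A))) := by
  rw [redV_lineRZ, ← gRed_zA, ← gRed_zA]
  exact div_mul_cancel₀ _ (gRed_zA_ne_zero A hD)

theorem den_ne_zero_of_res {D : ℤ[X]} (hD : D.map (Int.castRingHom (Kres A)) ≠ 0) :
    algebraMap L[X] (RatFunc L) (D.map (Int.castRingHom L)) ≠ 0 := by
  rw [← gIncl_zA]
  exact gIncl_ne_zero A (gRed_zA_ne_zero A hD)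

end generic

theorem transcendental_of_spec {κ : Type*} [Field κ] (r : RatFunc κ) (Num Den : κ[X])
    (h : r * algebraMap κ[X] (RatFunc κ) Den = algebraMap κ[X] (RatFunc κ) Num)
    (hdeg : Den.natDegree < Num.natDegree) : Transcendental κ r := by
  apply RatFunc.transcendental_of_ne_C
  rintro ⟨c, rfl⟩
  have h1 : algebraMap κ[X] (RatFunc κ) (C c * Den) = algebraMap κ[X] (RatFunc κ) Num := by
    rw [map_mul, RatFunc.algebraMap_C, h]
  have h2 : C c * Den = Num := IsFractionRing.injective κ[X] (RatFunc κ) h1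
  have h3 : Num.natDegree ≤ Den.natDegree := by
    rw [← h2]
    exact natDegree_C_mul_le c Den
  omega

theorem algebraMap_eq_aeval_X {κ : Type*} [Field κ] (P : κ[X]) :
    algebraMap κ[X] (RatFunc κ) P = Polynomial.aeval (RatFunc.X : RatFunc κ) P := by
  rw [← RatFunc.algebraMap_X, Polynomial.aeval_algebraMap_apply, Polynomial.aeval_X_left_apply]

/-! ### the `λ`-line -/

noncomputable def lamNumZ : ℤ[X] := C 256 * (X ^ 2 - X + 1) ^ 3
noncomputable def lamDenZ : ℤ[X] := X ^ 2 * (1 - X) ^ 2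
noncomputable def lamPZ : ℤ[X] := X * (1 - X)
noncomputable def lamPZ' : ℤ[X] := X * (X - 1)

/-! ### the `μ`-line -/

noncomputable def muNumZ : ℤ[X] := C 27 * X ^ 3 * (X ^ 3 + 8) ^ 3
noncomputable def muDenZ : ℤ[X] := (X ^ 3 - 1) ^ 3
noncomputable def muNumSZ : ℤ[X] := C 27 * (1 + C 8 * X ^ 3) ^ 3
noncomputable def muDenSZ : ℤ[X] := X ^ 3 * (1 - X ^ 3) ^ 3
noncomputable def muPZ : ℤ[X] := X ^ 3 - 1
noncomputable def muPZ' : ℤ[X] := X * (1 - X ^ 3)

section maps

variable (κ : Type*) [Field κ]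

theorem lamNumZ_map : lamNumZ.map (Int.castRingHom κ) = C 256 * (X ^ 2 - X + 1) ^ 3 := by
  rw [map_ofNat C 256]
  simp [lamNumZ]

theorem lamDenZ_map : lamDenZ.map (Int.castRingHom κ) = X ^ 2 * (1 - X) ^ 2 := by
  simp [lamDenZ]

theorem lamPZ_map : lamPZ.map (Int.castRingHom κ) = X * (1 - X) := by
  simp [lamPZ]

theorem lamPZ'_map : lamPZ'.map (Int.castRingHom κ) = X * (X - 1) := by
  simp [lamPZ']

theorem muNumZ_map : muNumZ.map (Int.castRingHom κ) = C 27 * X ^ 3 * (X ^ 3 + 8) ^ 3 := by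
  rw [map_ofNat C 27]
  simp [muNumZ]

theorem muDenZ_map : muDenZ.map (Int.castRingHom κ) = (X ^ 3 - 1) ^ 3 := by
  simp [muDenZ]

theorem muNumSZ_map : muNumSZ.map (Int.castRingHom κ) = C 27 * (1 + C 8 * X ^ 3) ^ 3 := by
  rw [map_ofNat C 27, map_ofNat C 8]
  simp [muNumSZ]

theorem muDenSZ_map : muDenSZ.map (Int.castRingHom κ) = X ^ 3 * (1 - X ^ 3) ^ 3 := by
  simp [muDenSZ]

theorem muPZ_map : muPZ.map (Int.castRingHom κ) = X ^ 3 - 1 := by
  simp [muPZ]

theorem muPZ'_map : muPZ'.map (Int.castRingHom κ) = X * (1 - X ^ 3) := by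
  simp [muPZ']

theorem lamDenZ_map_natDegree : (lamDenZ.map (Int.castRingHom κ)).natDegree = 4 := by
  rw [lamDenZ_map]
  have h1 : (1 - X : κ[X]).natDegree = 1 := by
    have : (1 - X : κ[X]) = C (-1) * X + C 1 := by simp; ring
    rw [this]
    exact natDegree_linear (by norm_num)
  have h0 : (1 - X : κ[X]) ≠ 0 := by
    intro h; rw [h] at h1; simp at h1
  rw [natDegree_mul (pow_ne_zero _ X_ne_zero) (pow_ne_zero _ h0), natDegree_pow, natDegree_pow,
    natDegree_X, h1]

theorem lamDenZ_map_ne_zero : lamDenZ.map (Int.castRingHom κ) ≠ 0 := by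
  intro h
  have := lamDenZ_map_natDegree κ
  rw [h] at this
  simp at this

theorem lamNumZ_map_natDegree (h2 : (2 : κ) ≠ 0) :
    (lamNumZ.map (Int.castRingHom κ)).natDegree = 6 := by
  rw [lamNumZ_map]
  have h1 : (X ^ 2 - X + 1 : κ[X]).natDegree = 2 := by
    have : (X ^ 2 - X + 1 : κ[X]) = C 1 * X ^ 2 + C (-1) * X + C 1 := by simp; ring
    rw [this]
    exact natDegree_quadratic one_ne_zero
  have h256 : (256 : κ) ≠ 0 := by
    have : (256 : κ) = 2 ^ 8 := by norm_num
    rw [this]; exact pow_ne_zero _ h2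
  rw [natDegree_C_mul h256, natDegree_pow, h1]

theorem muDenZ_map_natDegree : (muDenZ.map (Int.castRingHom κ)).natDegree = 9 := by
  rw [muDenZ_map, natDegree_pow]
  have : (X ^ 3 - 1 : κ[X]) = X ^ 3 - C 1 := by simp
  rw [this, natDegree_X_pow_sub_C]

theorem muDenZ_map_ne_zero : muDenZ.map (Int.castRingHom κ) ≠ 0 := by
  intro h
  have := muDenZ_map_natDegree κ
  rw [h] at this
  simp at this

theorem muNumZ_map_natDegree (h3 : (3 : κ) ≠ 0) :
    (muNumZ.map (Int.castRingHom κ)).natDegree = 12 := by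
  rw [muNumZ_map]
  have h1 : (X ^ 3 + 8 : κ[X]).natDegree = 3 := by
    have : (X ^ 3 + 8 : κ[X]) = X ^ 3 + C 8 := by rw [map_ofNat C 8]
    rw [this, natDegree_X_pow_add_C]
  have h0 : (X ^ 3 + 8 : κ[X]) ≠ 0 := by
    intro h; rw [h] at h1; simp at h1
  have h27 : (27 : κ) ≠ 0 := by
    have : (27 : κ) = 3 ^ 3 := by norm_num
    rw [this]; exact pow_ne_zero _ h3
  rw [mul_assoc, natDegree_C_mul h27, natDegree_mul (pow_ne_zero _ X_ne_zero) (pow_ne_zero _ h0),
    natDegree_pow, natDegree_pow, natDegree_X, h1]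

theorem lamPZ_map_squarefree : Squarefree (lamPZ.map (Int.castRingHom κ)) := by
  rw [lamPZ_map]
  apply Polynomial.Separable.squarefree
  refine ⟨C 4, 1 - C 2 * X, ?_⟩
  simp only [derivative_mul, derivative_X, derivative_sub, derivative_one]
  have : (C 4 : κ[X]) = 4 := map_ofNat C 4
  have h2 : (C 2 : κ[X]) = 2 := map_ofNat C 2
  rw [this, h2]
  ring

theorem lamPZ'_map_squarefree : Squarefree (lamPZ'.map (Int.castRingHom κ)) := by
  rw [lamPZ'_map]
  apply Polynomial.Separable.squarefree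
  refine ⟨-C 4, C 2 * X - 1, ?_⟩
  simp only [derivative_mul, derivative_X, derivative_sub, derivative_one]
  have : (C 4 : κ[X]) = 4 := map_ofNat C 4
  have h2 : (C 2 : κ[X]) = 2 := map_ofNat C 2
  rw [this, h2]
  ring

theorem muPZ_map_separable (h3 : (3 : κ) ≠ 0) : (X ^ 3 - 1 : κ[X]).Separable := by
  have : (X ^ 3 - 1 : κ[X]) = X ^ 3 - C 1 := by simp
  rw [this]
  exact separable_X_pow_sub_C 1 (by exact_mod_cast h3) one_ne_zero

theorem muPZ_map_squarefree (h3 : (3 : κ) ≠ 0) : Squarefree (muPZ.map (Int.castRingHom κ)) := by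
  rw [muPZ_map]
  exact (muPZ_map_separable κ h3).squarefree

theorem muPZ'_map_squarefree (h3 : (3 : κ) ≠ 0) : Squarefree (muPZ'.map (Int.castRingHom κ)) := by
  rw [muPZ'_map]
  apply Polynomial.Separable.squarefree
  have h1 : (1 - X ^ 3 : κ[X]).Separable := by
    have : (1 - X ^ 3 : κ[X]) = C (-1) * (X ^ 3 - 1) := by simp
    rw [this]
    exact Separable.unit_mul (isUnit_C.2 (by norm_num)) (muPZ_map_separable κ h3)
  exact separable_X.mul h1 ⟨X ^ 2, 1, by ring⟩

end maps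

section inst

variable {L : Type*} [Field L] (A : ValuationSubring L)

/-- `j` as a function of `λ` -/
noncomputable def lamR : OV A := lineRZ A lamNumZ lamDenZ (lamDenZ_map_ne_zero _)

/-- `j` as a function of `μ` -/
noncomputable def muR : OV A := lineRZ A muNumZ muDenZ (muDenZ_map_ne_zero _)

theorem lamR_spec : (lamR A : RatFunc L) *
      algebraMap L[X] (RatFunc L) (lamDenZ.map (Int.castRingHom L)) =
    algebraMap L[X] (RatFunc L) (lamNumZ.map (Int.castRingHom L)) := lineRZ_spec A _ _ _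

theorem muR_spec : (muR A : RatFunc L) *
      algebraMap L[X] (RatFunc L) (muDenZ.map (Int.castRingHom L)) =
    algebraMap L[X] (RatFunc L) (muNumZ.map (Int.castRingHom L)) := lineRZ_spec A _ _ _

theorem redV_lamR_spec : redV A (lamR A) *
      algebraMap (Kres A)[X] (RatFunc (Kres A)) (lamDenZ.map (Int.castRingHom (Kres A))) =
    algebraMap (Kres A)[X] (RatFunc (Kres A)) (lamNumZ.map (Int.castRingHom (Kres A))) :=
  redV_lineRZZ_spec A _ _ _

theorem redV_muR_spec : redV A (muR A) *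
      algebraMap (Kres A)[X] (RatFunc (Kres A)) (muDenZ.map (Int.castRingHom (Kres A))) =
    algebraMap (Kres A)[X] (RatFunc (Kres A)) (muNumZ.map (Int.castRingHom (Kres A))) :=
  redV_lineRZZ_spec A _ _ _

theorem lamR_transcendental (h2 : (2 : L) ≠ 0) : Transcendental L (lamR A : RatFunc L) :=
  transcendental_of_spec _ _ _ (lamR_spec A)
    (by rw [lamDenZ_map_natDegree, lamNumZ_map_natDegree L h2]; norm_num)

theorem muR_transcendental (h3 : (3 : L) ≠ 0) : Transcendental L (muR A : RatFunc L) :=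
  transcendental_of_spec _ _ _ (muR_spec A)
    (by rw [muDenZ_map_natDegree, muNumZ_map_natDegree L h3]; norm_num)

theorem redV_lamR_transcendental (h2 : (2 : Kres A) ≠ 0) :
    Transcendental (Kres A) (redV A (lamR A)) :=
  transcendental_of_spec _ _ _ (redV_lamR_spec A)
    (by rw [lamDenZ_map_natDegree, lamNumZ_map_natDegree _ h2]; norm_num)

theorem redV_muR_transcendental (h3 : (3 : Kres A) ≠ 0) :
    Transcendental (Kres A) (redV A (muR A)) :=
  transcendental_of_spec _ _ _ (redV_muR_spec A)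
    (by rw [muDenZ_map_natDegree, muNumZ_map_natDegree _ h3]; norm_num)

theorem lamP_sqfree : Squarefree ((zA A lamPZ).map (IsLocalRing.residue A)) := by
  rw [zA_map_residue]; exact lamPZ_map_squarefree _

theorem lamP'_sqfree : Squarefree ((zA A lamPZ').map (IsLocalRing.residue A)) := by
  rw [zA_map_residue]; exact lamPZ'_map_squarefree _

theorem muP_sqfree (h3 : (3 : Kres A) ≠ 0) :
    Squarefree ((zA A muPZ).map (IsLocalRing.residue A)) := by
  rw [zA_map_residue]; exact muPZ_map_squarefree _ h3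

theorem muP'_sqfree (h3 : (3 : Kres A) ≠ 0) :
    Squarefree ((zA A muPZ').map (IsLocalRing.residue A)) := by
  rw [zA_map_residue]; exact muPZ'_map_squarefree _ h3

end inst

section schart

variable {κ : Type*} [Field κ]

/-- `s`-chart of the `λ`-line: `R(1/s) = R(s)` -/
theorem lam_schart (r : RatFunc κ)
    (h : r * algebraMap κ[X] (RatFunc κ) (lamDenZ.map (Int.castRingHom κ)) =
      algebraMap κ[X] (RatFunc κ) (lamNumZ.map (Int.castRingHom κ))) :
    r * Polynomial.aeval (RatFunc.X⁻¹ : RatFunc κ) (lamDenZ.map (Int.castRingHom κ)) =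
      Polynomial.aeval (RatFunc.X⁻¹ : RatFunc κ) (lamNumZ.map (Int.castRingHom κ)) := by
  have hx : (RatFunc.X : RatFunc κ) ≠ 0 := RatFunc.X_ne_zero
  rw [algebraMap_eq_aeval_X, algebraMap_eq_aeval_X] at h
  rw [lamDenZ_map, lamNumZ_map] at h ⊢
  simp only [map_mul, map_pow, map_sub, map_add, map_one, aeval_X, aeval_C] at h ⊢
  generalize (RatFunc.X : RatFunc κ) = x at *
  generalize algebraMap κ (RatFunc κ) 256 = c at *
  calc r * (x⁻¹ ^ 2 * (1 - x⁻¹) ^ 2) = (r * (x ^ 2 * (1 - x) ^ 2)) * x⁻¹ ^ 6 := by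
        field_simp
        ring
    _ = (c * (x ^ 2 - x + 1) ^ 3) * x⁻¹ ^ 6 := by rw [h]
    _ = c * (x⁻¹ ^ 2 - x⁻¹ + 1) ^ 3 := by
        field_simp
        ring

/-- `s`-chart of the `μ`-line -/
theorem mu_schart (r : RatFunc κ)
    (h : r * algebraMap κ[X] (RatFunc κ) (muDenZ.map (Int.castRingHom κ)) =
      algebraMap κ[X] (RatFunc κ) (muNumZ.map (Int.castRingHom κ))) :
    r * Polynomial.aeval (RatFunc.X⁻¹ : RatFunc κ) (muDenSZ.map (Int.castRingHom κ)) =
      Polynomial.aeval (RatFunc.X⁻¹ : RatFunc κ) (muNumSZ.map (Int.castRingHom κ)) := by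
  have hx : (RatFunc.X : RatFunc κ) ≠ 0 := RatFunc.X_ne_zero
  rw [algebraMap_eq_aeval_X, algebraMap_eq_aeval_X] at h
  rw [muDenZ_map, muNumZ_map] at h
  rw [muDenSZ_map, muNumSZ_map]
  have h8 : (8 : κ[X]) = C 8 := (map_ofNat C 8).symm
  rw [h8] at h
  simp only [map_mul, map_pow, map_sub, map_add, map_one, aeval_X, aeval_C] at h ⊢
  generalize (RatFunc.X : RatFunc κ) = x at *
  generalize algebraMap κ (RatFunc κ) 27 = c at *
  generalize algebraMap κ (RatFunc κ) 8 = e at *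
  calc r * (x⁻¹ ^ 3 * (1 - x⁻¹ ^ 3) ^ 3) = (r * (x ^ 3 - 1) ^ 3) * x⁻¹ ^ 12 := by
        field_simp
    _ = (c * x ^ 3 * (x ^ 3 + e) ^ 3) * x⁻¹ ^ 12 := by rw [h]
    _ = c * (1 + e * x⁻¹ ^ 3) ^ 3 := by
        field_simp

end schart

/-! ### bridges to `Lines.lean` -/

theorem lamNumZ_eq : lamNumZ = lamNum ℤ := by
  rw [lamNumZ, lamNum, map_ofNat C 256]

theorem lamDenZ_eq : lamDenZ = lamDen ℤ := by
  rw [lamDenZ, lamDen, mul_pow]

theorem muNumZ_eq : muNumZ = muNum ℤ := by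
  rw [muNumZ, muNum, map_ofNat C 27, mul_pow, mul_assoc]

theorem muDenZ_eq : muDenZ = muDen ℤ := rfl

theorem muNumSZ_eq : muNumSZ = muNumS ℤ := by
  rw [muNumSZ, muNumS, map_ofNat C 27, map_ofNat C 8]

theorem muDenSZ_eq : muDenSZ = muDenS ℤ := by
  rw [muDenSZ, muDenS, mul_pow]

section bridge

variable {L : Type*} [Field L] (A : ValuationSubring L)

theorem zA_lamNumZ : zA A lamNumZ = lamNum ↥A := by rw [zA, lamNumZ_eq, lamNum_map]
theorem zA_lamDenZ : zA A lamDenZ = lamDen ↥A := by rw [zA, lamDenZ_eq, lamDen_map]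
theorem zA_muNumZ : zA A muNumZ = muNum ↥A := by rw [zA, muNumZ_eq, muNum_map]
theorem zA_muDenZ : zA A muDenZ = muDen ↥A := by rw [zA, muDenZ_eq, muDen_map]

theorem gRed_lamDen_ne_zero : gRed A (lamDen ↥A) ≠ 0 := by
  rw [← zA_lamDenZ]; exact gRed_zA_ne_zero A (lamDenZ_map_ne_zero _)

theorem gRed_muDen_ne_zero : gRed A (muDen ↥A) ≠ 0 := by
  rw [← zA_muDenZ]; exact gRed_zA_ne_zero A (muDenZ_map_ne_zero _)

theorem lamR_eq_lineR : lamR A = lineR A (lamNum ↥A) (lamDen ↥A) (gRed_lamDen_ne_zero A) := by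
  apply Subtype.ext
  show gIncl A (zA A lamNumZ) / gIncl A (zA A lamDenZ) = gIncl A (lamNum ↥A) / gIncl A (lamDen ↥A)
  rw [zA_lamNumZ, zA_lamDenZ]

theorem muR_eq_lineR : muR A = lineR A (muNum ↥A) (muDen ↥A) (gRed_muDen_ne_zero A) := by
  apply Subtype.ext
  show gIncl A (zA A muNumZ) / gIncl A (zA A muDenZ) = gIncl A (muNum ↥A) / gIncl A (muDen ↥A)
  rw [zA_muNumZ, zA_muDenZ]

theorem lamR_spec' : (lamR A : RatFunc L) * Polynomial.aeval (RatFunc.X : RatFunc L) (lamDen L) =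
    Polynomial.aeval (RatFunc.X : RatFunc L) (lamNum L) := by
  have h := lamR_spec A
  rwa [lamDenZ_eq, lamNumZ_eq, lamDen_map, lamNum_map, algebraMap_eq_aeval_X,
    algebraMap_eq_aeval_X] at h

theorem muR_spec' : (muR A : RatFunc L) * Polynomial.aeval (RatFunc.X : RatFunc L) (muDen L) =
    Polynomial.aeval (RatFunc.X : RatFunc L) (muNum L) := by
  have h := muR_spec A
  rwa [muDenZ_eq, muNumZ_eq, muDen_map, muNum_map, algebraMap_eq_aeval_X,
    algebraMap_eq_aeval_X] at h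

theorem lamR_schart' : (lamR A : RatFunc L) *
      Polynomial.aeval (RatFunc.X⁻¹ : RatFunc L) (lamDen L) =
    Polynomial.aeval (RatFunc.X⁻¹ : RatFunc L) (lamNum L) := by
  have h := lam_schart _ (lamR_spec A)
  rwa [lamDenZ_eq, lamNumZ_eq, lamDen_map, lamNum_map] at h

theorem muR_schart' : (muR A : RatFunc L) *
      Polynomial.aeval (RatFunc.X⁻¹ : RatFunc L) (muDenS L) =
    Polynomial.aeval (RatFunc.X⁻¹ : RatFunc L) (muNumS L) := by
  have h := mu_schart _ (muR_spec A)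
  rwa [muDenSZ_eq, muNumSZ_eq, muDenS_map, muNumS_map] at h

end bridge

end Fermat.Agent.S18
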