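import Mathlib
import Fermat.Agent.S18.PhiSpan

set_option autoImplicit false

/-! # S18: `Φ_N(j, j_N) = 0` inside `F_N`, and `Φτ` over `RatFunc Kb` -/

namespace Fermat.Agent.S18

open ModularCurve Polynomial
open Fermat.Agent.X0 Fermat.Agent.S24 Fermat.Agent.S28

variable (A : ValuationSubring Kb) (N : ℕ) [NeZero N]

/-- evaluation at `(j, j_N)` inside `F_N` is `ev2` -/
theorem coe_eval_FN (G : Kb[X][X]) :
    (((G.map (aeval (jBar N) : Kb[X] →ₐ[Kb] FN N).toRingHom).eval (jdS N ⟨N, dvd_rfl⟩) : FN N) :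
      LaurentSeries Kb) = ev2 Kb N G := by
  have h : (algebraMap (FN N) (LaurentSeries Kb)).comp
      (Polynomial.eval₂RingHom (aeval (jBar N) : Kb[X] →ₐ[Kb] FN N).toRingHom
        (jdS N ⟨N, dvd_rfl⟩)) = ev2 Kb N := by
    apply Polynomial.ringHom_ext
    · intro a
      simp only [RingHom.comp_apply, coe_eval₂RingHom, eval₂_C, ev2]
      exact coe_aeval_jBar N a
    · simp only [RingHom.comp_apply, coe_eval₂RingHom, eval₂_X, ev2]
      exact coe_jdS_N N
  rw [← h, ← Polynomial.eval₂_eq_eval_map]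
  rfl

theorem eval_FN_eq_zero_iff (G : Kb[X][X]) :
    (G.map (aeval (jBar N) : Kb[X] →ₐ[Kb] FN N).toRingHom).eval (jdS N ⟨N, dvd_rfl⟩) = 0 ↔
      ev2 Kb N G = 0 := by
  rw [← coe_eval_FN]
  exact ⟨fun h => by rw [h]; rfl, fun h => Subtype.ext h⟩

/-- helper1's `hΦ'` -/
theorem PhiA_root_FN :
    (((PhiA A N).map (mapRingHom A.subtype)).map
      (aeval (jBar N) : Kb[X] →ₐ[Kb] FN N).toRingHom).eval (jdS N ⟨N, dvd_rfl⟩) = 0 := by
  rw [eval_FN_eq_zero_iff, ev2_apply]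
  exact PhiA_root_gen A N

/-- helper1's `hΦ0` -/
theorem PhiTau_map_subtype (Rτ : OV A) (Φ : (↥A)[X][X]) :
    (PhiTau A Rτ Φ).map (OV A).subtype =
      (Φ.map (mapRingHom A.subtype)).map
        (Polynomial.eval₂RingHom (RatFunc.C : Kb →+* RatFunc Kb) (Rτ : RatFunc Kb)) := by
  rw [PhiTau, Polynomial.map_map, Polynomial.map_map]
  congr 1
  apply Polynomial.ringHom_ext
  · intro a
    simp
  · simp

end Fermat.Agent.S18
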