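import Mathlib
import Fermat.Agent.S18.Transfer
import Fermat.Agent.S18.PhiFN
import Fermat.Agent.S18.Trans

/-!
# S18: the generators of the function field in characteristic `ℓ` lie in `k(j, j_N)`
-/

set_option autoImplicit false
set_option linter.unusedSectionVars false

namespace Fermat.Agent.S18

open ModularCurve Polynomial Fermat.Agent.S28 Fermat.Agent.S24 Fermat.Agent.X0

variable (A : ValuationSubring Kb) (N : ℕ) [NeZero N]

/-- (IndK) -/
theorem indK (hN : (N : Kres A) ≠ 0) (P : (Kres A)[X][X]) (hP : P ≠ 0)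
    (hdeg : P.natDegree < Nat.card (Cos N)) : ev2 (Kres A) N P ≠ 0 :=
  indep_of_hom N (Kres A) ((IsLocalRing.residue A).comp (zbA A)) hN P hP hdeg

/-- the transfer for a pair in `UnitRel` -/
theorem unitRel_transfer (hN : (N : Kres A) ≠ 0) {f : FN N} {fb : FbN A N}
    (h : UnitRel A N f fb) :
    ∃ (Q : (↥A)[X]) (G : (↥A)[X][X]), Q.map (IsLocalRing.residue A) ≠ 0 ∧
      G.natDegree < Nat.card (Cos N) ∧
      (f : LaurentSeries Kb) * coeffMap A.subtype (aeval (jqModC A) Q) =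
        coeffMap A.subtype (ev2 A N G) ∧
      (fb : LaurentSeries (Kres A)) * coeffMap (IsLocalRing.residue A) (aeval (jqModC A) Q) =
        coeffMap (IsLocalRing.residue A) (ev2 A N G) := by
  obtain ⟨a, b, -, -, -, -, -, hb, h1, h2⟩ := h
  obtain ⟨Q0, G0, hQ0, hG0, h0⟩ := span_FN N f
  exact tf_ow A N _ (indK A N hN) _ _ a b hb h1 h2 Q0 hQ0 G0 hG0 h0

/-- (SpanB) on generators -/
theorem spanb_gen (hN : (N : Kres A) ≠ 0) (d : ℕ) [NeZero d] (hd : d ∣ N) :
    ∃ (Q : (Kres A)[X]) (G : (Kres A)[X][X]), Q ≠ 0 ∧ G.natDegree < Nat.card (Cos N) ∧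
      qExpand (Kres A) d (jqModC (Kres A)) * aeval (jqModC (Kres A)) Q = ev2 (Kres A) N G := by
  obtain ⟨Q0, G0, hQ0, hG0, h0⟩ := span_FN N ⟨inclA A (jqNModC A d), tr_jd_incl_mem hd⟩
  obtain ⟨Q, G, hQ, hG, -, h2⟩ := tf_ow A N _ (indK A N hN) (inclA A (jqNModC A d))
    (redA A (jqNModC A d)) (jqNModC A d) 1 (by rw [map_one]; exact one_ne_zero)
    (by rw [map_one, mul_one]) (by rw [map_one, mul_one]) Q0 hQ0 G0 hG0 h0
  refine ⟨Q.map (IsLocalRing.residue A), G.map (mapRingHom (IsLocalRing.residue A)), hQ,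
    lt_of_le_of_lt natDegree_map_le hG, ?_⟩
  rw [coeffMap_aeval_jqModC, coeffMap_ev2, coeffMap_jqNModC] at h2
  exact h2

end Fermat.Agent.S18
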