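import Fermat.Agent.S18.Core2
import Fermat.Agent.S18.G3Lines
import Fermat.Agent.S18.EndInst
import Fermat.Agent.S18.Emb
import Fermat.Agent.S18.LineData
import Fermat.Agent.S18.SpanB

/-!
# S18 plan Z: final assembly on the two lines
-/

set_option autoImplicit false

namespace Fermat.Agent.S18

open ModularCurve AlgebraicCurve Polynomial Fermat.Agent.S28 Fermat.Agent.S24 Fermat.Agent.X0

theorem core_lambda (A : ValuationSubring Kb) (N : ℕ) [NeZero N] (hA : IsRankOne A)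
    (h2 : (2 : Kres A) ≠ 0) (hN : (N : Kres A) ≠ 0) (p : ℕ) (hp : p.Prime) (hp3 : p ≠ 3)
    (hpk : (p : Kres A) ≠ 0) (f : FN N) (gb : FbN A N) (hgb : gb ≠ 0)
    (hrel : UnitRel A N f (gb ^ p)) (hf : ∀ v : Place Kb (FN N), (p : ℤ) ∣ v.ord f) :
    ∃ y : FN N, f = y ^ p := by
  have hR : Transcendental Kb (lamR A : RatFunc Kb) := lamR_transcendental A two_ne_zero
  have hRb := redV_lamR_transcendental A h2
  obtain ⟨f1, f1', g1, g1', hf1, hg1, hfg, hemb⟩ :=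
    exists_f1 A N (lamR A) (indK A N hN) hR hRb p f gb hgb hrel
  have hspec : (lamR A : RatFunc Kb) * (RatFunc.X * (1 - RatFunc.X)) ^ 2 =
      256 * (RatFunc.X ^ 2 - RatFunc.X + 1) ^ 3 := by
    rw [lamR_eq_lineR]; exact lineR_lambda_spec A _
  have hf0 : f ≠ 0 := hrel.ne_zero.1
  have hΦ : (PhiT A N (lamR A)).Monic := PhiTau_monic A _ (PhiA_monic A N)
  have hψ : (PhiT A N (lamR A)).natDegree = Nat.card (Cos N) := by
    rw [PhiT, PhiTau, (PhiA_monic A N).natDegree_map, PhiA_natDegree]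
  have hψ0 : Nat.card (Cos N) ≠ 0 := (card_cos_pos N).ne'
  obtain ⟨G3, G3'⟩ := Fam.g3_lambda hp (lamR A) hspec f1 (embFF A N (lamR A) hR)
    (embFF_algebraMap A N (lamR A) hR) (embFF_jBar A N (lamR A) hR) f hf0 hf hemb
    (model2 A _ hΦ _ hψ hψ0 p hp.ne_zero f1).b (Fam.card_model_index _ _)
    (zA A lamPZ) (zA A lamPZ') (by rw [zA_map_subtype, lamPZ_map])
    (by rw [zA_map_subtype, lamPZ'_map])
  obtain ⟨m, hm, z, hz⟩ := core_step2 A hA (PhiT A N (lamR A)) hΦ _ hψ hψ0 p hp f1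
    (sep_gen A N _ hR) (sep_bar A N hN _ hRb) (by exact_mod_cast hp.ne_zero) hpk f1' hf1
    (incb1 A _ g1) hfg _ _ (lamP_sqfree A) (lamP'_sqfree A) N (NeZero.pos N) G3 G3'
  exact end_lambda _ _ hspec (embFF A N (lamR A) hR) (embFF_algebraMap A N (lamR A) hR)
    (embFF_jBar A N (lamR A) hR) (jdS N ⟨N, dvd_rfl⟩) (embFF_jN A N (lamR A) hR) hp hp3 hf0 hf
    m hm z (by rw [hz, hemb])

theorem core_mu (A : ValuationSubring Kb) (N : ℕ) [NeZero N] (hA : IsRankOne A)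
    (h3 : (3 : Kres A) ≠ 0) (hN : (N : Kres A) ≠ 0) (p : ℕ) (hp : p.Prime) (hp2 : p ≠ 2)
    (hpk : (p : Kres A) ≠ 0) (f : FN N) (gb : FbN A N) (hgb : gb ≠ 0)
    (hrel : UnitRel A N f (gb ^ p)) (hf : ∀ v : Place Kb (FN N), (p : ℤ) ∣ v.ord f) :
    ∃ y : FN N, f = y ^ p := by
  have hR : Transcendental Kb (muR A : RatFunc Kb) := muR_transcendental A three_ne_zero
  have hRb := redV_muR_transcendental A h3
  obtain ⟨f1, f1', g1, g1', hf1, hg1, hfg, hemb⟩ :=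
    exists_f1 A N (muR A) (indK A N hN) hR hRb p f gb hgb hrel
  have hspec : (muR A : RatFunc Kb) * (RatFunc.X ^ 3 - 1) ^ 3 =
      27 * (RatFunc.X * (RatFunc.X ^ 3 + 8)) ^ 3 := by
    rw [muR_eq_lineR]; exact lineR_mu_spec A _
  have hf0 : f ≠ 0 := hrel.ne_zero.1
  have hΦ : (PhiT A N (muR A)).Monic := PhiTau_monic A _ (PhiA_monic A N)
  have hψ : (PhiT A N (muR A)).natDegree = Nat.card (Cos N) := by
    rw [PhiT, PhiTau, (PhiA_monic A N).natDegree_map, PhiA_natDegree]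
  have hψ0 : Nat.card (Cos N) ≠ 0 := (card_cos_pos N).ne'
  obtain ⟨G3, G3'⟩ := Fam.g3_mu hp (muR A) hspec f1 (embFF A N (muR A) hR)
    (embFF_algebraMap A N (muR A) hR) (embFF_jBar A N (muR A) hR) f hf0 hf hemb
    (model2 A _ hΦ _ hψ hψ0 p hp.ne_zero f1).b (Fam.card_model_index _ _)
    (zA A muPZ) (zA A muPZ') (by rw [zA_map_subtype, muPZ_map])
    (by rw [zA_map_subtype, muPZ'_map])
  obtain ⟨m, hm, z, hz⟩ := core_step2 A hA (PhiT A N (muR A)) hΦ _ hψ hψ0 p hp f1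
    (sep_gen A N _ hR) (sep_bar A N hN _ hRb) (by exact_mod_cast hp.ne_zero) hpk f1' hf1
    (incb1 A _ g1) hfg _ _ (muP_sqfree A h3) (muP'_sqfree A h3) N (NeZero.pos N) G3 G3'
  exact end_mu _ _ hspec (embFF A N (muR A) hR) (embFF_algebraMap A N (muR A) hR)
    (embFF_jBar A N (muR A) hR) (jdS N ⟨N, dvd_rfl⟩) (embFF_jN A N (muR A) hR) hp hp2 hf0 hf
    m hm z (by rw [hz, hemb])

end Fermat.Agent.S18
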