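import Mathlib

/-!
# S18 (b): echelon bases over a valuation ring, unit balls
-/

set_option autoImplicit false

namespace Fermat.Agent.S18

open scoped BigOperators

section core

variable {L : Type*} [Field L] (A : ValuationSubring L)

/-- (EB0) echelon bases -/
theorem eb_core (m : ℕ) (W : Submodule L (Fin m → L)) :
    ∃ (d : ℕ) (w : Fin d → Fin m → L), (∀ i, w i ∈ W) ∧ (∀ i j, w i j ∈ A) ∧
      Submodule.span L (Set.range w) = W ∧
      ∀ (B : Submodule A L) (c : Fin d → L), (∀ j, (∑ i, c i • w i) j ∈ B) → ∀ i, c i ∈ B := by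
  induction h : Module.finrank L W using Nat.strong_induction_on generalizing W with
  | _ n ih =>
    by_cases hW : W = ⊥
    · subst hW
      refine ⟨0, Fin.elim0, fun i => i.elim0, fun i => i.elim0, ?_, fun _ _ _ i => i.elim0⟩
      simp
    · obtain ⟨x, hxW, hx0⟩ := Submodule.exists_mem_ne_zero_of_ne_bot hW
      have hne : ∃ j, x j ≠ 0 := by
        by_contra hcon
        push Not at hcon
        exact hx0 (funext hcon)
      obtain ⟨j1, hj1⟩ := hne
      obtain ⟨j0, -, hj0⟩ := Finset.exists_max_image Finset.univ (fun j => A.valuation (x j))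
        ⟨j1, Finset.mem_univ _⟩
      have hxj0 : x j0 ≠ 0 := by
        intro h0
        have := hj0 j1 (Finset.mem_univ _)
        rw [h0, map_zero] at this
        exact hj1 ((map_eq_zero _).1 (le_antisymm this zero_le))
      set w1 : Fin m → L := (x j0)⁻¹ • x with hw1
      have hw1W : w1 ∈ W := W.smul_mem _ hxW
      have hw1A : ∀ j, w1 j ∈ A := by
        intro j
        rw [← ValuationSubring.valuation_le_one_iff, hw1, Pi.smul_apply, smul_eq_mul, map_mul,
          map_inv₀]
        have h1 := hj0 j (Finset.mem_univ _)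
        have h2 : A.valuation (x j0) ≠ 0 := (map_ne_zero _).2 hxj0
        rw [inv_mul_le_iff₀ (zero_lt_iff.2 h2), mul_one]
        exact h1
      have hw1j0 : w1 j0 = 1 := by
        rw [hw1, Pi.smul_apply, smul_eq_mul, inv_mul_cancel₀ hxj0]
      set W' : Submodule L (Fin m → L) := W ⊓ LinearMap.ker (LinearMap.proj (R := L) j0) with hW'
      have hlt : W' < W := by
        refine lt_of_le_of_ne inf_le_left ?_
        intro heq
        have : w1 ∈ W' := heq ▸ hw1W
        have h3 : w1 j0 = 0 := this.2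
        rw [hw1j0] at h3
        exact one_ne_zero h3
      have hfr : Module.finrank L W' < n := h ▸ Submodule.finrank_lt_finrank_of_lt hlt
      obtain ⟨d, w', hw'W, hw'A, hspan, hB⟩ := ih _ hfr W' rfl
      have hw'0 : ∀ i, w' i j0 = 0 := fun i => (hw'W i).2
      refine ⟨d + 1, Fin.cons w1 w', ?_, ?_, ?_, ?_⟩
      · intro i
        refine Fin.cases ?_ (fun i => ?_) i
        · simpa using hw1W
        · simpa using (hw'W i).1
      · intro i
        refine Fin.cases ?_ (fun i => ?_) i
        · simpa using hw1A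
        · simpa using hw'A i
      · apply le_antisymm
        · rw [Submodule.span_le]
          rintro _ ⟨i, rfl⟩
          refine Fin.cases ?_ (fun i => ?_) i
          · simpa using hw1W
          · simpa using (hw'W i).1
        · intro y hy
          have hy' : y - y j0 • w1 ∈ W' := by
            refine ⟨W.sub_mem hy (W.smul_mem _ hw1W), ?_⟩
            show (y - y j0 • w1) j0 = 0
            simp [hw1j0]
          rw [← hspan] at hy'
          have h4 : Submodule.span L (Set.range w') ≤
              Submodule.span L (Set.range (Fin.cons w1 w' : Fin (d + 1) → Fin m → L)) := by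
            apply Submodule.span_mono
            rintro _ ⟨i, rfl⟩
            exact ⟨i.succ, by simp⟩
          have h5 : w1 ∈ Submodule.span L (Set.range (Fin.cons w1 w' : Fin (d + 1) → Fin m → L)) :=
            Submodule.subset_span ⟨0, by simp⟩
          have := Submodule.add_mem _ (h4 hy') (Submodule.smul_mem _ (y j0) h5)
          rwa [sub_add_cancel] at this
      · intro B c hc
        have hsum : ∀ j, (∑ i, c i • (Fin.cons w1 w' : Fin (d + 1) → Fin m → L) i) j =
            c 0 * w1 j + (∑ i : Fin d, c i.succ • w' i) j := by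
          intro j
          rw [Fin.sum_univ_succ]
          simp
        have hc0 : c 0 ∈ B := by
          have := hc j0
          rw [hsum, hw1j0, mul_one] at this
          have h6 : (∑ i : Fin d, c i.succ • w' i) j0 = 0 := by
            simp [Finset.sum_apply, hw'0]
          rwa [h6, add_zero] at this
        have hrest : ∀ i : Fin d, c i.succ ∈ B := by
          apply hB B (fun i => c i.succ)
          intro j
          have h7 := hc j
          rw [hsum] at h7
          have h8 : c 0 * w1 j ∈ B := by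
            have := B.smul_mem (⟨w1 j, hw1A j⟩ : A) hc0
            rwa [Subring.smul_def, smul_eq_mul, mul_comm] at this
          have := B.sub_mem h7 h8
          rwa [add_sub_cancel_left] at this
        intro i
        refine Fin.cases hc0 hrest i

/-- `A` as an `A`-submodule of `L` -/
def ebOne : Submodule A L where
  carrier := {x | x ∈ A}
  add_mem' := fun ha hb => A.add_mem _ _ ha hb
  zero_mem' := A.zero_mem
  smul_mem' := fun c x hx => by
    show c • x ∈ A
    rw [Subring.smul_def, smul_eq_mul]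
    exact A.mul_mem _ _ c.2 hx

/-- the maximal ideal of `A` as an `A`-submodule of `L` -/
def ebMax : Submodule A L where
  carrier := {x | x ∈ A.nonunits}
  add_mem' := fun {a b} ha hb => by
    rw [Set.mem_ofPred_eq, ValuationSubring.mem_nonunits_iff] at *
    exact lt_of_le_of_lt (A.valuation.map_add a b) (max_lt ha hb)
  zero_mem' := by
    rw [Set.mem_ofPred_eq, ValuationSubring.mem_nonunits_iff, map_zero]
    exact zero_lt_one
  smul_mem' := fun c x hx => by
    rw [Set.mem_ofPred_eq, ValuationSubring.mem_nonunits_iff] at *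
    rw [Subring.smul_def, smul_eq_mul, map_mul]
    exact mul_lt_one_of_nonneg_of_lt_one_right ((A.valuation_le_one_iff _).2 c.2) zero_le hx

theorem mem_ebOne {x : L} : x ∈ ebOne A ↔ x ∈ A := Iff.rfl

theorem mem_ebMax {x : L} : x ∈ ebMax A ↔ x ∈ A.nonunits := Iff.rfl

theorem eb_nonunits_mem {x : L} (hx : x ∈ A.nonunits) : x ∈ A :=
  (A.valuation_le_one_iff _).1 (le_of_lt (A.mem_nonunits_iff.1 hx))

theorem eb_residue_eq_zero_iff (a : A) : IsLocalRing.residue A a = 0 ↔ (a : L) ∈ A.nonunits := by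
  rw [IsLocalRing.residue_eq_zero_iff, ValuationSubring.mem_nonunits_iff,
    ← ValuationSubring.valuation_lt_one_iff]

/-- of two elements of the maximal ideal one divides the other -/
theorem eb_exists_common {a b : L} (ha : a ∈ A.nonunits) (hb : b ∈ A.nonunits) :
    ∃ c ∈ A.nonunits, (∃ x ∈ A, a = c * x) ∧ (∃ y ∈ A, b = c * y) ∧ (c = a ∨ c = b) := by
  rcases le_total (A.valuation a) (A.valuation b) with h | h
  · refine ⟨b, hb, ?_, ⟨1, A.one_mem, (mul_one b).symm⟩, Or.inr rfl⟩
    by_cases hb0 : b = 0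
    · subst hb0
      rw [map_zero] at h
      have : a = 0 := (map_eq_zero _).1 (le_antisymm h zero_le)
      exact ⟨0, A.zero_mem, by simp [this]⟩
    · refine ⟨b⁻¹ * a, ?_, by field_simp⟩
      rw [← ValuationSubring.valuation_le_one_iff, map_mul, map_inv₀,
        inv_mul_le_iff₀ (zero_lt_iff.2 ((map_ne_zero _).2 hb0)), mul_one]
      exact h
  · refine ⟨a, ha, ⟨1, A.one_mem, (mul_one a).symm⟩, ?_, Or.inl rfl⟩
    by_cases ha0 : a = 0
    · subst ha0
      rw [map_zero] at h
      have : b = 0 := (map_eq_zero _).1 (le_antisymm h zero_le)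
      exact ⟨0, A.zero_mem, by simp [this]⟩
    · refine ⟨a⁻¹ * b, ?_, by field_simp⟩
      rw [← ValuationSubring.valuation_le_one_iff, map_mul, map_inv₀,
        inv_mul_le_iff₀ (zero_lt_iff.2 ((map_ne_zero _).2 ha0)), mul_one]
      exact h

end core

section ball

variable {L : Type*} [Field L] (A : ValuationSubring L)
  {V : Type*} [AddCommGroup V] [Module L V]
  {Vb : Type*} [AddCommGroup Vb] [Module (IsLocalRing.ResidueField A) Vb]

/-- the abstract unit ball: `O` is the unit ball of the `L`-space `V`, `red` its reduction -/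
structure Ball (O : AddSubgroup V) (red : O →+ Vb) : Prop where
  smul_mem : ∀ a ∈ A, ∀ x ∈ O, a • x ∈ O
  red_smul : ∀ (a : A) (x : O), red ⟨(a : L) • (x : V), smul_mem a a.2 x x.2⟩ =
    IsLocalRing.residue A a • red x
  chart : ∀ W : Submodule L V, FiniteDimensional L W →
    ∃ (m : ℕ) (φ : W →ₗ[L] (Fin m → L)), Function.Injective φ ∧
      (∀ w : W, (w : V) ∈ O ↔ ∀ j, φ w j ∈ A) ∧
      (∀ (w : W) (hw : (w : V) ∈ O), red ⟨w, hw⟩ = 0 ↔ ∀ j, φ w j ∈ A.nonunits)

variable {A} {O : AddSubgroup V} {red : O →+ Vb}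

/-- (EB1) orthonormal bases of finite dimensional subspaces -/
theorem Ball.exists_basis (hB : Ball A O red) (W : Submodule L V) [FiniteDimensional L W] :
    ∃ w : Fin (Module.finrank L W) → V, (∀ i, w i ∈ W) ∧ (∀ i, w i ∈ O) ∧
      LinearIndependent L w ∧ Submodule.span L (Set.range w) = W ∧
      (∀ c : Fin (Module.finrank L W) → L, ∑ i, c i • w i ∈ O ↔ ∀ i, c i ∈ A) ∧
      (∀ (c : Fin (Module.finrank L W) → L) (h : ∑ i, c i • w i ∈ O),
        red ⟨_, h⟩ = 0 ↔ ∀ i, c i ∈ A.nonunits) := by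
  obtain ⟨m, φ, hφ, hO, hred⟩ := hB.chart W inferInstance
  obtain ⟨d, u, huW, huA, hspan, hu⟩ := eb_core A m (LinearMap.range φ)
  choose w' hw' using huW
  have hsumφ : ∀ c : Fin d → L, φ (∑ i, c i • w' i) = ∑ i, c i • u i := by
    intro c
    rw [map_sum]
    exact Finset.sum_congr rfl fun i _ => by rw [map_smul, hw']
  have hli : LinearIndependent L (fun i => (w' i : V)) := by
    rw [Fintype.linearIndependent_iff]
    intro c hc i
    have h1 : (∑ i, c i • w' i : W) = 0 := by
      apply Subtype.ext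
      rw [Submodule.coe_sum]
      simpa using hc
    have h2 : ∑ i, c i • u i = 0 := by rw [← hsumφ, h1, map_zero]
    have := hu ⊥ c (fun j => by rw [h2]; exact Submodule.zero_mem _) i
    simpa using this
  have hsp : Submodule.span L (Set.range fun i => (w' i : V)) = W := by
    apply le_antisymm
    · rw [Submodule.span_le]
      rintro _ ⟨i, rfl⟩
      exact (w' i).2
    · intro y hy
      have h1 : φ ⟨y, hy⟩ ∈ Submodule.span L (Set.range u) := by
        rw [hspan]; exact LinearMap.mem_range_self _ _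
      obtain ⟨c, hc⟩ := (Submodule.mem_span_range_iff_exists_fun L).1 h1
      have h2 : (⟨y, hy⟩ : W) = ∑ i, c i • w' i := hφ (by rw [hsumφ, hc])
      have h3 : y = ∑ i, c i • (w' i : V) := by
        have := congrArg (Subtype.val) h2
        rw [Submodule.coe_sum] at this
        simpa using this
      rw [h3]
      exact Submodule.sum_mem _ fun i _ => Submodule.smul_mem _ _ (Submodule.subset_span ⟨i, rfl⟩)
  have hd : Module.finrank L W = d := by
    have := finrank_span_eq_card hli
    rw [hsp, Fintype.card_fin] at this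
    exact this
  have hcoe : ∀ c : Fin d → L, ∑ i, c i • (w' i : V) = ((∑ i, c i • w' i : W) : V) := by
    intro c
    rw [Submodule.coe_sum]
    simp
  have key1 : ∀ c : Fin d → L, ∑ i, c i • (w' i : V) ∈ O ↔ ∀ i, c i ∈ A := by
    intro c
    rw [hcoe, hO, hsumφ]
    constructor
    · intro h
      exact hu (ebOne A) c h
    · intro h j
      rw [Finset.sum_apply]
      exact A.sum_mem fun i _ => A.mul_mem _ _ (h i) (huA i j)
  have key2 : ∀ (c : Fin d → L) (h : ∑ i, c i • (w' i : V) ∈ O),
      red ⟨_, h⟩ = 0 ↔ ∀ i, c i ∈ A.nonunits := by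
    intro c h
    have h' : ((∑ i, c i • w' i : W) : V) ∈ O := hcoe c ▸ h
    have e : (⟨_, h⟩ : O) = ⟨_, h'⟩ := Subtype.ext (hcoe c)
    rw [e, hred _ h', hsumφ]
    constructor
    · intro h
      exact hu (ebMax A) c h
    · intro h j
      rw [Finset.sum_apply]
      refine (ebMax A).sum_mem fun i _ => ?_
      have := (ebMax A).smul_mem (⟨u i j, huA i j⟩ : A) (h i)
      rwa [Subring.smul_def, smul_eq_mul, mul_comm] at this
  subst hd
  refine ⟨fun i => (w' i : V), fun i => (w' i).2, ?_, hli, hsp, key1, key2⟩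
  intro i
  have := (key1 (Pi.single i 1)).2 (fun k => by
    by_cases hk : k = i
    · subst hk; simp
    · simp [Pi.single_eq_of_ne hk])
  simpa [Pi.single_apply, ite_smul] using this

theorem Ball.red_sum (hB : Ball A O red) {ι : Type*} (s : Finset ι) (c : ι → A) (x : ι → O)
    (h : ∑ i ∈ s, (c i : L) • (x i : V) ∈ O) :
    red ⟨_, h⟩ = ∑ i ∈ s, IsLocalRing.residue A (c i) • red (x i) := by
  have e : (⟨_, h⟩ : O) =
      ∑ i ∈ s, ⟨(c i : L) • (x i : V), hB.smul_mem _ (c i).2 _ (x i).2⟩ := by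
    apply Subtype.ext
    rw [AddSubgroup.val_finsetSum]
  rw [e, map_sum]
  exact Finset.sum_congr rfl fun i _ => hB.red_smul _ _

/-- the reductions of an orthonormal basis are linearly independent over the residue field -/
theorem Ball.exists_basis' (hB : Ball A O red) (W : Submodule L V) [FiniteDimensional L W] :
    ∃ w : Fin (Module.finrank L W) → O, (∀ i, (w i : V) ∈ W) ∧
      LinearIndependent L (fun i => (w i : V)) ∧
      Submodule.span L (Set.range fun i => (w i : V)) = W ∧
      (∀ c : Fin (Module.finrank L W) → L, ∑ i, c i • (w i : V) ∈ O ↔ ∀ i, c i ∈ A) ∧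
      (∀ (c : Fin (Module.finrank L W) → L) (h : ∑ i, c i • (w i : V) ∈ O),
        red ⟨_, h⟩ = 0 ↔ ∀ i, c i ∈ A.nonunits) ∧
      LinearIndependent (IsLocalRing.ResidueField A) (fun i => red (w i)) := by
  obtain ⟨w, hwW, hwO, hli, hsp, h1, h2⟩ := hB.exists_basis W
  refine ⟨fun i => ⟨w i, hwO i⟩, hwW, hli, hsp, h1, h2, ?_⟩
  rw [Fintype.linearIndependent_iff]
  intro c hc i
  choose c' hc' using fun i => IsLocalRing.residue_surjective (R := A) (c i)
  have hmem : ∑ i, ((c' i : A) : L) • w i ∈ O := (h1 _).2 fun i => (c' i).2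
  have h3 := hB.red_sum Finset.univ c' (fun i => (⟨w i, hwO i⟩ : O)) hmem
  simp only [hc'] at h3
  rw [hc] at h3
  have h4 := (h2 _ hmem).1 h3 i
  rw [← hc', eb_residue_eq_zero_iff]
  exact h4

theorem Ball.finrank_le (hB : Ball A O red) (W : Submodule L V) [FiniteDimensional L W]
    (Wt : Submodule (IsLocalRing.ResidueField A) Vb)
    [FiniteDimensional (IsLocalRing.ResidueField A) Wt]
    (h : ∀ x : O, (x : V) ∈ W → red x ∈ Wt) :
    Module.finrank L W ≤ Module.finrank (IsLocalRing.ResidueField A) Wt := by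
  obtain ⟨w, hwW, -, -, -, -, hli⟩ := hB.exists_basis' W
  have hli' : LinearIndependent (IsLocalRing.ResidueField A)
      (fun i => (⟨red (w i), h _ (hwW i)⟩ : Wt)) := by
    apply LinearIndependent.of_comp Wt.subtype
    exact hli
  simpa using hli'.fintype_card_le_finrank

theorem Ball.surj_of_finrank_le (hB : Ball A O red) (W : Submodule L V) [FiniteDimensional L W]
    (Wt : Submodule (IsLocalRing.ResidueField A) Vb)
    [FiniteDimensional (IsLocalRing.ResidueField A) Wt]
    (h : ∀ x : O, (x : V) ∈ W → red x ∈ Wt)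
    (hle : Module.finrank (IsLocalRing.ResidueField A) Wt ≤ Module.finrank L W) :
    ∀ y ∈ Wt, ∃ x : O, (x : V) ∈ W ∧ red x = y := by
  obtain ⟨w, hwW, -, -, h1, -, hli⟩ := hB.exists_basis' W
  have hli' : LinearIndependent (IsLocalRing.ResidueField A)
      (fun i => (⟨red (w i), h _ (hwW i)⟩ : Wt)) := by
    apply LinearIndependent.of_comp Wt.subtype
    exact hli
  have hcard : Fintype.card (Fin (Module.finrank L W)) =
      Module.finrank (IsLocalRing.ResidueField A) Wt := by
    rw [Fintype.card_fin]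
    exact le_antisymm (hB.finrank_le W Wt h) hle
  have hspan := hli'.span_eq_top_of_card_eq_finrank' hcard
  intro y hy
  have hy' : (⟨y, hy⟩ : Wt) ∈ Submodule.span (IsLocalRing.ResidueField A)
      (Set.range fun i => (⟨red (w i), h _ (hwW i)⟩ : Wt)) := hspan ▸ Submodule.mem_top
  obtain ⟨c, hc⟩ := (Submodule.mem_span_range_iff_exists_fun _).1 hy'
  choose c' hc' using fun i => IsLocalRing.residue_surjective (R := A) (c i)
  have hmem : ∑ i, ((c' i : A) : L) • (w i : V) ∈ O := (h1 _).2 fun i => (c' i).2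
  refine ⟨⟨_, hmem⟩, ?_, ?_⟩
  · show ∑ i, ((c' i : A) : L) • (w i : V) ∈ W
    exact W.sum_mem fun i _ => W.smul_mem _ (hwW i)
  rw [hB.red_sum Finset.univ c' w hmem]
  simp only [hc']
  have := congrArg Subtype.val hc
  rw [Submodule.coe_sum] at this
  simpa using this

/-- `red x = 0` implies `x ∈ a O` for some `a` in the maximal ideal -/
theorem Ball.exists_smul_of_red_eq_zero (hB : Ball A O red) (x : O) (hx : red x = 0) :
    ∃ a ∈ A.nonunits, ∃ x' : O, (x : V) = a • (x' : V) := by
  obtain ⟨w, -, -, hsp, h1, h2, -⟩ := hB.exists_basis' (Submodule.span L {(x : V)})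
  have hxm : (x : V) ∈ Submodule.span L (Set.range fun i => (w i : V)) := by
    rw [hsp]; exact Submodule.mem_span_singleton_self _
  obtain ⟨c, hc⟩ := (Submodule.mem_span_range_iff_exists_fun L).1 hxm
  have hmem : ∑ i, c i • (w i : V) ∈ O := by rw [hc]; exact x.2
  have h3 : ∀ i, c i ∈ A.nonunits := (h2 c hmem).1 (by
    have : (⟨_, hmem⟩ : O) = x := Subtype.ext hc
    rw [this, hx])
  -- a common divisor
  have hcommon : ∀ s : Finset (Fin (Module.finrank L (Submodule.span L {(x : V)}))),
      ∃ a ∈ A.nonunits, ∀ i ∈ s, ∃ y ∈ A, c i = a * y := by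
    intro s
    induction s using Finset.induction_on with
    | empty => exact ⟨0, (ebMax A).zero_mem, by simp⟩
    | insert i s _ ih =>
      obtain ⟨a, ha, hs⟩ := ih
      obtain ⟨b, hb, ⟨x1, hx1, e1⟩, ⟨y1, hy1, e2⟩, -⟩ := eb_exists_common A ha (h3 i)
      refine ⟨b, hb, ?_⟩
      intro k hk
      rcases Finset.mem_insert.1 hk with rfl | hk
      · exact ⟨y1, hy1, e2⟩
      · obtain ⟨y, hy, e⟩ := hs k hk
        exact ⟨x1 * y, A.mul_mem _ _ hx1 hy, by rw [e, e1, mul_assoc]⟩
  obtain ⟨a, ha, hs⟩ := hcommon Finset.univ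
  choose y hy e using fun i => hs i (Finset.mem_univ i)
  refine ⟨a, ha, ⟨∑ i, y i • (w i : V), (h1 y).2 hy⟩, ?_⟩
  show (x : V) = a • ∑ i, y i • (w i : V)
  rw [Finset.smul_sum]
  refine hc.symm.trans ?_
  exact Finset.sum_congr rfl fun i _ => by rw [smul_smul, ← e]

/-- Nakayama for unit balls -/
theorem Ball.nakayama (hB : Ball A O red) (W : Submodule L V) [FiniteDimensional L W]
    (N : AddSubgroup V) (hN : ∀ a ∈ A, ∀ x ∈ N, a • x ∈ N)
    (h : ∀ x : O, (x : V) ∈ W → ∃ y : O, (y : V) ∈ N ∧ (y : V) ∈ W ∧ red x = red y) :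
    ∀ x : O, (x : V) ∈ W → (x : V) ∈ N := by
  obtain ⟨w, hwW, -, hsp, h1, h2, -⟩ := hB.exists_basis' W
  classical
  let _ : Module A V := Module.compHom V (A.subtype : A →+* L)
  have hsmul : ∀ (a : A) (x : V), a • x = (a : L) • x := fun _ _ => rfl
  let M : Submodule A V :=
    { carrier := {x | x ∈ W ∧ x ∈ O}
      add_mem' := fun ha hb => ⟨W.add_mem ha.1 hb.1, O.add_mem ha.2 hb.2⟩
      zero_mem' := ⟨W.zero_mem, O.zero_mem⟩
      smul_mem' := fun c x hx => ⟨W.smul_mem _ hx.1, hB.smul_mem _ c.2 _ hx.2⟩ }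
  let N' : Submodule A V :=
    { carrier := {x | x ∈ N}
      add_mem' := fun ha hb => N.add_mem ha hb
      zero_mem' := N.zero_mem
      smul_mem' := fun c x hx => hN _ c.2 _ hx }
  have hwM : ∀ i, (w i : V) ∈ M := fun i => ⟨hwW i, (w i).2⟩
  have hrep : ∀ x ∈ M, ∃ c : Fin (Module.finrank L W) → L, ∑ i, c i • (w i : V) = x := by
    intro x hx
    have hxm : x ∈ Submodule.span L (Set.range fun i => (w i : V)) := by
      rw [hsp]; exact hx.1
    exact (Submodule.mem_span_range_iff_exists_fun L).1 hxm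
  have hfg : M.FG := by
    refine ⟨Finset.univ.image fun i => (w i : V), ?_⟩
    apply le_antisymm
    · rw [Submodule.span_le]
      intro y hy
      simp only [Finset.coe_image, Finset.coe_univ, Set.image_univ, Set.mem_range] at hy
      obtain ⟨i, rfl⟩ := hy
      exact hwM i
    · intro x hx
      obtain ⟨c, hc⟩ := hrep x hx
      have hcA : ∀ i, c i ∈ A := (h1 c).1 (hc ▸ hx.2)
      rw [← hc]
      refine Submodule.sum_mem _ fun i _ => ?_
      have : c i • (w i : V) = (⟨c i, hcA i⟩ : A) • (w i : V) := rfl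
      rw [this]
      exact Submodule.smul_mem _ _ (Submodule.subset_span (by simp))
  have hle : M ≤ N' ⊔ IsLocalRing.maximalIdeal A • M := by
    intro x hx
    obtain ⟨y, hyN, hyW, hy⟩ := h ⟨x, hx.2⟩ hx.1
    have hd : x - (y : V) ∈ M := ⟨W.sub_mem hx.1 hyW, O.sub_mem hx.2 y.2⟩
    obtain ⟨c, hc⟩ := hrep _ hd
    have hmem : ∑ i, c i • (w i : V) ∈ O := by rw [hc]; exact hd.2
    have hred : red ⟨_, hmem⟩ = 0 := by
      have e : (⟨_, hmem⟩ : O) = ⟨x, hx.2⟩ - y := Subtype.ext hc
      rw [e, map_sub, hy, sub_self]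
    have hcm := (h2 c hmem).1 hred
    have h3 : x - (y : V) ∈ IsLocalRing.maximalIdeal A • M := by
      rw [← hc]
      refine Submodule.sum_mem _ fun i _ => ?_
      have : c i • (w i : V) = (⟨c i, eb_nonunits_mem A (hcm i)⟩ : A) • (w i : V) := rfl
      rw [this]
      refine Submodule.smul_mem_smul ?_ (hwM i)
      rw [← IsLocalRing.residue_eq_zero_iff, eb_residue_eq_zero_iff]
      exact hcm i
    have h4 : x = (y : V) + (x - (y : V)) := by abel
    rw [h4]
    exact Submodule.add_mem_sup hyN h3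
  have hfin := Submodule.le_of_le_smul_of_le_jacobson_bot hfg
    (le_of_eq (IsLocalRing.jacobson_eq_maximalIdeal ⊥ bot_ne_top).symm) hle
  intro x hx
  exact hfin ⟨hx, x.2⟩

/-- Nakayama for sums of two subspaces -/
theorem Ball.nakayama_add (hB : Ball A O red) (W W1 W2 : Submodule L V) [FiniteDimensional L W]
    (hW1 : W1 ≤ W) (hW2 : W2 ≤ W)
    (h : ∀ x : O, (x : V) ∈ W → ∃ x1 x2 : O, (x1 : V) ∈ W1 ∧ (x2 : V) ∈ W2 ∧
      red x = red x1 + red x2) :
    ∀ x : O, (x : V) ∈ W → ∃ x1 x2 : O, (x1 : V) ∈ W1 ∧ (x2 : V) ∈ W2 ∧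
      (x : V) = (x1 : V) + (x2 : V) := by
  let N : AddSubgroup V :=
    { carrier := {x | ∃ x1 x2 : O, (x1 : V) ∈ W1 ∧ (x2 : V) ∈ W2 ∧ x = (x1 : V) + (x2 : V)}
      add_mem' := by
        rintro _ _ ⟨x1, x2, h1, h2, rfl⟩ ⟨y1, y2, h3, h4, rfl⟩
        exact ⟨x1 + y1, x2 + y2, W1.add_mem h1 h3, W2.add_mem h2 h4, by
          simp only [AddSubgroup.coe_add]; abel⟩
      zero_mem' := ⟨0, 0, W1.zero_mem, W2.zero_mem, by simp⟩
      neg_mem' := by
        rintro _ ⟨x1, x2, h1, h2, rfl⟩
        exact ⟨-x1, -x2, W1.neg_mem h1, W2.neg_mem h2, by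
          simp only [AddSubgroup.coe_neg]; abel⟩ }
  refine hB.nakayama W N ?_ ?_
  · rintro a ha _ ⟨x1, x2, h1, h2, rfl⟩
    exact ⟨⟨a • (x1 : V), hB.smul_mem a ha _ x1.2⟩, ⟨a • (x2 : V), hB.smul_mem a ha _ x2.2⟩,
      W1.smul_mem _ h1, W2.smul_mem _ h2, by simp [smul_add]⟩
  · intro x hx
    obtain ⟨x1, x2, h1, h2, e⟩ := h x hx
    exact ⟨x1 + x2, ⟨x1, x2, h1, h2, rfl⟩, W.add_mem (hW1 h1) (hW2 h2), by rw [e, map_add]⟩

end ball

end Fermat.Agent.S18
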