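import Mathlib

/-!
# S18 (b): valuation rings of algebraic extensions of `ℚ` have rank one; residue fields
-/

set_option autoImplicit false
set_option linter.unusedSectionVars false

namespace Fermat.Agent.S18

open Polynomial

section closed

variable {L : Type*} [Field L] (A : ValuationSubring L)

theorem rk_mem_of_isIntegral {x : L} (hx : IsIntegral A x) : x ∈ A := by
  obtain ⟨y, rfl⟩ := IsIntegrallyClosed.isIntegral_iff.1 hx
  exact y.2

/-- the residue field of a valuation ring of an algebraically closed field is algebraically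
closed -/
theorem rk_isAlgClosed [IsAlgClosed L] : IsAlgClosed (IsLocalRing.ResidueField A) := by
  apply IsAlgClosed.of_exists_root
  intro p hmonic hirr
  have hl : p ∈ Polynomial.lifts (IsLocalRing.residue A) := by
    rw [Polynomial.mem_lifts]
    exact Polynomial.map_surjective _ IsLocalRing.residue_surjective p
  obtain ⟨q, hq, hdeg, hqm⟩ := Polynomial.lifts_and_natDegree_eq_and_monic hl hmonic
  have hd : (q.map (algebraMap A L)).degree ≠ 0 := by
    rw [Polynomial.degree_map_eq_of_injective (FaithfulSMul.algebraMap_injective A L)]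
    intro h0
    have h1 : q.natDegree = 0 := Polynomial.natDegree_eq_of_degree_eq_some h0
    rw [hdeg] at h1
    exact hirr.natDegree_pos.ne' h1
  obtain ⟨x, hx⟩ := IsAlgClosed.exists_root _ hd
  have hxi : IsIntegral A x := ⟨q, hqm, by
    rwa [Polynomial.IsRoot.def, Polynomial.eval_map] at hx⟩
  have hxA := rk_mem_of_isIntegral A hxi
  refine ⟨IsLocalRing.residue A ⟨x, hxA⟩, ?_⟩
  rw [← hq, Polynomial.eval_map, Polynomial.eval₂_at_apply]
  have h0 : Polynomial.eval (⟨x, hxA⟩ : A) q = 0 := by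
    apply Subtype.ext
    rw [Polynomial.IsRoot.def, Polynomial.eval_map] at hx
    have h3 : (algebraMap A L) (⟨x, hxA⟩ : A) = x := rfl
    rw [← h3, Polynomial.eval₂_at_apply] at hx
    exact hx
  rw [h0, map_zero]

end closed

section rank

variable {L : Type*} [Field L] [CharZero L] [Algebra.IsAlgebraic ℚ L] (A : ValuationSubring L)
  {ℓ : ℕ} (hℓ : ℓ.Prime) (hA : (ℓ : L) ∈ A.nonunits)

theorem rk_int_mem (n : ℤ) : (n : L) ∈ A := by
  have := (algebraMap ℤ A n).2
  simp

include hℓ hA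

/-- integers prime to `ℓ` are units of `A` -/
theorem rk_val_int {n : ℤ} (hn : ¬ (ℓ : ℤ) ∣ n) : A.valuation (n : L) = 1 := by
  have hcop : IsCoprime n (ℓ : ℤ) := by
    have := (Nat.prime_iff_prime_int.1 hℓ).coprime_iff_not_dvd.2 hn
    exact this.symm
  obtain ⟨u, v, huv⟩ := hcop
  have h1 : (u : L) * n = 1 - v * ℓ := by
    have := congrArg (Int.cast : ℤ → L) huv
    push_cast at this
    linear_combination this
  have h2 : A.valuation ((v : L) * ℓ) < 1 := by
    rw [map_mul]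
    exact mul_lt_one_of_nonneg_of_lt_one_right ((A.valuation_le_one_iff _).2 (rk_int_mem A v))
      zero_le (A.mem_nonunits_iff.1 hA)
  have h3 : A.valuation ((u : L) * n) = 1 := by
    rw [h1]
    exact Valuation.map_one_sub_of_lt _ h2
  rw [map_mul] at h3
  have hu : A.valuation (u : L) ≤ 1 := (A.valuation_le_one_iff _).2 (rk_int_mem A u)
  have hn' : A.valuation (n : L) ≤ 1 := (A.valuation_le_one_iff _).2 (rk_int_mem A n)
  apply le_antisymm hn'
  calc (1 : A.ValueGroup) = A.valuation (u : L) * A.valuation (n : L) := h3.symm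
    _ ≤ 1 * A.valuation (n : L) := mul_le_mul_left hu _
    _ = A.valuation (n : L) := one_mul _

/-- every nonzero element of `A` divides a power of `ℓ` -/
theorem rk_dvd_pow {c : L} (hc0 : c ≠ 0) : ∃ t : ℕ, ∃ y ∈ A, (ℓ : L) ^ t = c * y := by
  have halg : IsAlgebraic ℤ c⁻¹ :=
    (IsFractionRing.isAlgebraic_iff ℤ ℚ L).2 (Algebra.IsAlgebraic.isAlgebraic c⁻¹)
  obtain ⟨d, hd0, hd⟩ := halg.exists_integral_multiple
  have hmem : d • c⁻¹ ∈ A := rk_mem_of_isIntegral A hd.tower_top
  rw [zsmul_eq_mul] at hmem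
  -- `d = ℓ ^ t * d'`
  obtain ⟨t, d', hd', rfl⟩ : ∃ (t : ℕ) (d' : ℤ), ¬ (ℓ : ℤ) ∣ d' ∧ d = (ℓ : ℤ) ^ t * d' := by
    have hfin : FiniteMultiplicity (ℓ : ℤ) d :=
      Int.finiteMultiplicity_iff.2 ⟨by
        rw [Int.natAbs_natCast]; exact hℓ.one_lt.ne', hd0⟩
    obtain ⟨d', hd'⟩ := pow_multiplicity_dvd (ℓ : ℤ) d
    refine ⟨multiplicity (ℓ : ℤ) d, d', ?_, hd'⟩
    intro hdvd
    obtain ⟨e, rfl⟩ := hdvd
    have : (ℓ : ℤ) ^ (multiplicity (ℓ : ℤ) d + 1) ∣ d := ⟨e, by
      rw [pow_succ, mul_assoc]; exact hd'⟩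
    exact hfin.not_pow_dvd_of_multiplicity_lt (Nat.lt_succ_self _) this
  have hv := rk_val_int A hℓ hA hd'
  have hd'0 : (d' : L) ≠ 0 := by
    intro h0
    rw [h0, map_zero] at hv
    exact zero_ne_one hv
  refine ⟨t, (((ℓ : ℤ) ^ t * d' : ℤ) : L) * c⁻¹ * (d' : L)⁻¹, ?_, ?_⟩
  · refine A.mul_mem _ _ hmem ?_
    rw [← ValuationSubring.valuation_le_one_iff, map_inv₀, hv, inv_one]
  · push_cast
    field_simp

/-- a power of every element of the maximal ideal is divisible by `ℓ` -/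
theorem rk_pow_dvd {a : L} (ha : a ∈ A.nonunits) : ∃ K : ℕ, ∃ y ∈ A, a ^ K = (ℓ : L) * y := by
  by_cases ha0 : a = 0
  · exact ⟨1, 0, A.zero_mem, by simp [ha0]⟩
  have hℓ0 : (ℓ : L) ≠ 0 := Nat.cast_ne_zero.2 hℓ.ne_zero
  have hva : A.valuation a < 1 := A.mem_nonunits_iff.1 ha
  have hva0 : A.valuation a ≠ 0 := (_root_.map_ne_zero _).2 ha0
  have halg : IsAlgebraic ℤ a :=
    (IsFractionRing.isAlgebraic_iff ℤ ℚ L).2 (Algebra.IsAlgebraic.isAlgebraic a)
  obtain ⟨p0, hp0, hp0a⟩ := halg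
  set p := p0.primPart with hp
  have hpa : aeval a p = 0 := by
    rw [Polynomial.aeval_def] at hp0a ⊢
    exact Polynomial.eval₂_primPart_eq_zero (FaithfulSMul.algebraMap_injective ℤ L) hp0 hp0a
  have hprim : p.IsPrimitive := p0.isPrimitive_primPart
  have hex : ∃ i, ¬ (ℓ : ℤ) ∣ p.coeff i := by
    by_contra hcon
    push Not at hcon
    have h1 : Polynomial.C (ℓ : ℤ) ∣ p := (Polynomial.C_dvd_iff_dvd_coeff _ _).2 hcon
    have h2 := hprim _ h1
    rw [Int.isUnit_iff] at h2
    have := hℓ.one_lt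
    omega
  classical
  set i0 := Nat.find hex with hi0
  have hi0' : ¬ (ℓ : ℤ) ∣ p.coeff i0 := Nat.find_spec hex
  have hlt : ∀ i < i0, (ℓ : ℤ) ∣ p.coeff i := fun i hi => by
    by_contra hcon
    exact Nat.find_min hex hi hcon
  set f : ℕ → L := fun i => (p.coeff i : L) * a ^ i with hf
  have hsum : ∑ i ∈ Finset.range (p.natDegree + 1), f i = 0 := by
    rw [← hpa, Polynomial.aeval_eq_sum_range]
    exact Finset.sum_congr rfl fun i _ => by simp [hf]
  have hi0mem : i0 ∈ (Finset.range (p.natDegree + 1)).filter (fun i => ¬ i < i0) := by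
    rw [Finset.mem_filter, Finset.mem_range]
    refine ⟨Nat.lt_succ_of_le (Polynomial.le_natDegree_of_ne_zero ?_), lt_irrefl _⟩
    intro h0
    exact hi0' (h0 ▸ dvd_zero _)
  rw [← Finset.sum_filter_add_sum_filter_not _ (fun i => i < i0),
    ← Finset.add_sum_erase _ _ hi0mem] at hsum
  set T1 := ∑ i ∈ (Finset.range (p.natDegree + 1)).filter (fun i => i < i0), f i with hT1
  set T3 := ∑ i ∈ ((Finset.range (p.natDegree + 1)).filter (fun i => ¬ i < i0)).erase i0, f i
    with hT3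
  have hv1 : A.valuation T1 ≤ A.valuation (ℓ : L) := by
    apply Valuation.map_sum_le
    intro i hi
    obtain ⟨e, he⟩ := hlt i (Finset.mem_filter.1 hi).2
    rw [hf]
    simp only
    rw [he]
    push_cast
    rw [map_mul, map_mul, mul_assoc]
    refine mul_le_of_le_one_right zero_le ?_
    rw [← map_mul, ValuationSubring.valuation_le_one_iff]
    exact A.mul_mem _ _ (rk_int_mem A e) (A.pow_mem ((A.valuation_le_one_iff _).1 hva.le) _)
  have hv2 : A.valuation (f i0) = A.valuation a ^ i0 := by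
    rw [hf]
    simp only
    rw [map_mul, rk_val_int A hℓ hA hi0', one_mul, map_pow]
  have hv3 : A.valuation T3 < A.valuation a ^ i0 := by
    apply Valuation.map_sum_lt _ (pow_ne_zero _ hva0)
    intro i hi
    have hi1 : i0 < i := by
      have h1 := Finset.ne_of_mem_erase hi
      have h2 := (Finset.mem_filter.1 (Finset.mem_of_mem_erase hi)).2
      omega
    rw [hf]
    simp only
    rw [map_mul, map_pow]
    calc A.valuation (p.coeff i : L) * A.valuation a ^ i ≤ 1 * A.valuation a ^ i :=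
          mul_le_mul_left ((A.valuation_le_one_iff _).2 (rk_int_mem A _)) _
      _ = A.valuation a ^ i := one_mul _
      _ < A.valuation a ^ i0 := pow_lt_pow_right_of_lt_one₀ (zero_lt_iff.2 hva0) hva hi1
  have hv23 : A.valuation (f i0 + T3) = A.valuation a ^ i0 := by
    rw [← hv2]
    exact Valuation.map_add_eq_of_lt_left _ (hv2 ▸ hv3)
  have hT : f i0 + T3 = -T1 := by linear_combination hsum
  rw [hT, Valuation.map_neg] at hv23
  refine ⟨i0, (ℓ : L)⁻¹ * a ^ i0, ?_, by field_simp⟩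
  rw [← ValuationSubring.valuation_le_one_iff, map_mul, map_inv₀, map_pow, ← hv23,
    inv_mul_le_iff₀ (zero_lt_iff.2 ((_root_.map_ne_zero _).2 hℓ0)), mul_one]
  exact hv1

/-- (rank one) for `a` in the maximal ideal and `c ≠ 0` a power of `a` lies in `c 𝔪` -/
theorem rk_rank_one {a c : L} (ha : a ∈ A.nonunits) (hc0 : c ≠ 0) :
    ∃ K : ℕ, ∃ x ∈ A.nonunits, a ^ K = c * x := by
  obtain ⟨t, y, hy, e1⟩ := rk_dvd_pow A hℓ hA hc0
  obtain ⟨K, z, hz, e2⟩ := rk_pow_dvd A hℓ hA ha
  refine ⟨K * t + 1, y * z ^ t * a, ?_, ?_⟩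
  · rw [ValuationSubring.mem_nonunits_iff, map_mul]
    exact mul_lt_one_of_nonneg_of_lt_one_right
      ((A.valuation_le_one_iff _).2 (A.mul_mem _ _ hy (A.pow_mem hz _))) zero_le
      (A.mem_nonunits_iff.1 ha)
  · rw [pow_succ, pow_mul, e2, mul_pow, e1]
    ring

end rank

end Fermat.Agent.S18
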