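import Fermat.Agent.S18.Base
import Fermat.Agent.S18.EB
import Fermat.Agent.S18.Rank

/-!
# S18 (b): the unit ball `O = ⊕ O_V b_i` of `E = ⊕ K0 b_i` is a `Ball`
-/

set_option autoImplicit false

namespace Fermat.Agent.S18

open Polynomial Module

section K0

variable {L : Type*} [Field L] (A : ValuationSubring L)

theorem ebi_mem_iff {q : (↥A)[X]} (hq : gRed A q ≠ 0) {N : L[X]} {f : RatFunc L}
    (h : f * gIncl A q = algebraMap L[X] (RatFunc L) N) : f ∈ OV A ↔ ∀ n, N.coeff n ∈ A := by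
  constructor
  · intro hf
    rw [← poly_mem_iff, ← h]
    exact (OV A).mul_mem hf (gIncl_mem A q)
  · intro hN
    obtain ⟨p, rfl⟩ := exists_lift A hN
    exact ⟨p, q, hq, h⟩

theorem ebi_red_iff {q : (↥A)[X]} (hq : gRed A q ≠ 0) {N : L[X]} {f : RatFunc L}
    (h : f * gIncl A q = algebraMap L[X] (RatFunc L) N) (hf : f ∈ OV A) :
    redV A ⟨f, hf⟩ = 0 ↔ ∀ n, N.coeff n ∈ A.nonunits := by
  obtain ⟨p, rfl⟩ := exists_lift A ((ebi_mem_iff A hq h).1 hf)
  rw [redV_eq A ⟨f, hf⟩ hq h, div_eq_zero_iff, or_iff_left hq, gRed_eq_zero_iff,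
    Polynomial.ext_iff]
  refine forall_congr' fun n => ?_
  rw [Polynomial.coeff_map, Polynomial.coeff_zero, eb_residue_eq_zero_iff, Polynomial.coeff_map]
  rfl

/-- a common primitive denominator -/
theorem ebi_common_denom {α : Type*} (s : Finset α) (f : α → RatFunc L) :
    ∃ q : (↥A)[X], gRed A q ≠ 0 ∧
      ∀ x ∈ s, ∃ N : L[X], f x * gIncl A q = algebraMap L[X] (RatFunc L) N := by
  classical
  set Q0 : L[X] := ∏ x ∈ s, (f x).denom with hQ0
  have hQ0ne : Q0 ≠ 0 := Finset.prod_ne_zero_iff.2 fun x _ => RatFunc.denom_ne_zero _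
  obtain ⟨c, q, hc, hq, e⟩ := exists_primitive A hQ0ne
  refine ⟨q, hq, fun x hx => ?_⟩
  obtain ⟨R, hR⟩ : (f x).denom ∣ Q0 := Finset.dvd_prod_of_mem _ hx
  refine ⟨Polynomial.C c⁻¹ * ((f x).num * R), ?_⟩
  have h1 : q.map A.subtype = Polynomial.C c⁻¹ * Q0 := by
    rw [e, ← mul_assoc, ← Polynomial.C_mul, inv_mul_cancel₀ hc, Polynomial.C_1, one_mul]
  have hd : algebraMap L[X] (RatFunc L) (f x).denom ≠ 0 :=
    RatFunc.algebraMap_ne_zero (RatFunc.denom_ne_zero _)
  have hf : f x * algebraMap L[X] (RatFunc L) (f x).denom =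
      algebraMap L[X] (RatFunc L) (f x).num := by
    have h2 := RatFunc.num_div_denom (f x)
    rw [div_eq_iff hd] at h2
    exact h2.symm
  rw [gIncl_eq, h1, hR]
  simp only [map_mul]
  rw [← hf]
  ring

end K0

section ball

variable {L : Type*} [Field L] (A : ValuationSubring L)
  {ι : Type*} [Fintype ι] [DecidableEq ι]
  {E : Type*} [CommRing E] [Algebra (RatFunc L) E] [Module L E] [IsScalarTower L (RatFunc L) E]
  {Eb : Type*} [CommRing Eb] [Algebra (RatFunc (Kres A)) Eb] [Module (Kres A) Eb]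
  [IsScalarTower (Kres A) (RatFunc (Kres A)) Eb]

omit [Fintype ι] [DecidableEq ι] in
theorem ebi_repr_smul (b : Basis ι (RatFunc L) E) (c : L) (x : E) (i : ι) :
    b.repr (c • x) i = RatFunc.C c * b.repr x i := by
  rw [← RatFunc.algebraMap_eq_C, ← IsScalarTower.algebraMap_smul (RatFunc L) c x, map_smul,
    Finsupp.smul_apply, smul_eq_mul]

omit [DecidableEq ι] in
/-- (EB2) the unit ball `O = ⊕ O_V b_i` of `E = ⊕ K0 b_i` is a `Ball` -/
theorem ebi_ball (b : Basis ι (RatFunc L) E) (bb : Basis ι (RatFunc (Kres A)) Eb)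
    (O : Subring E) (red : O →+* Eb)
    (mem_O : ∀ y : E, y ∈ O ↔ ∀ i, b.repr y i ∈ OV A)
    (repr_red : ∀ (y : O) (i : ι) (h : b.repr (y : E) i ∈ OV A),
      bb.repr (red y) i = redV A ⟨b.repr (y : E) i, h⟩) :
    Ball A O.toAddSubgroup red.toAddMonoidHom := by
  classical
  have smul_mem : ∀ a ∈ A, ∀ x ∈ O, a • x ∈ O := by
    intro a ha x hx
    rw [mem_O] at hx ⊢
    intro i
    rw [ebi_repr_smul]
    exact (OV A).mul_mem (C_mem A ha) (hx i)
  refine ⟨smul_mem, ?_, ?_⟩
  · intro a x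
    apply bb.repr.injective
    ext i
    have hx : ∀ i, b.repr (x : E) i ∈ OV A := (mem_O _).1 x.2
    have h1 : b.repr ((a : L) • (x : E)) i ∈ OV A := (mem_O _).1 (smul_mem a a.2 x x.2) i
    have h2 := repr_red ⟨(a : L) • (x : E), smul_mem a a.2 x x.2⟩ i h1
    have h3 := repr_red x i (hx i)
    have h4 : bb.repr (IsLocalRing.residue A a • red x) i =
        RatFunc.C (IsLocalRing.residue A a) * bb.repr (red x) i := by
      rw [← RatFunc.algebraMap_eq_C,
        ← IsScalarTower.algebraMap_smul (RatFunc (Kres A)) (IsLocalRing.residue A a) (red x),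
        map_smul, Finsupp.smul_apply, smul_eq_mul]
    have h5 : (⟨b.repr ((a : L) • (x : E)) i, h1⟩ : OV A) =
        ⟨RatFunc.C (a : L), C_mem A a.2⟩ * ⟨b.repr (x : E) i, hx i⟩ :=
      Subtype.ext (ebi_repr_smul b _ _ _)
    show bb.repr (red ⟨(a : L) • (x : E), smul_mem a a.2 x x.2⟩) i =
      bb.repr (IsLocalRing.residue A a • red x) i
    rw [h2, h4, h3, h5, map_mul, redV_C]
  · intro W hW
    set r := Module.finrank L W with hr
    set β : Basis (Fin r) L W := Module.finBasis L W with hβ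
    obtain ⟨q, hq, hN⟩ := ebi_common_denom A Finset.univ
      (fun p : Fin r × ι => b.repr (β p.1 : E) p.2)
    replace hN := fun p => hN p (Finset.mem_univ p)
    choose N hN using hN
    let ψ : ι → W →ₗ[L] L[X] := fun i =>
      (Fintype.linearCombination L (fun t => N (t, i))).comp β.equivFun.toLinearMap
    have hψ_apply : ∀ i w, ψ i w = ∑ t, β.repr w t • N (t, i) := by
      intro i w
      simp only [ψ, LinearMap.comp_apply, Fintype.linearCombination_apply]
      rfl
    have hψ : ∀ (w : W) i,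
        b.repr (w : E) i * gIncl A q = algebraMap L[X] (RatFunc L) (ψ i w) := by
      intro w i
      have hw : (w : E) = ∑ t, β.repr w t • (β t : E) := by
        conv_lhs => rw [← β.sum_repr w]
        rw [Submodule.coe_sum]
        rfl
      rw [hw, map_sum, Finsupp.finsetSum_apply, Finset.sum_mul, hψ_apply, map_sum]
      refine Finset.sum_congr rfl fun t _ => ?_
      rw [ebi_repr_smul, mul_assoc, hN (t, i), Polynomial.smul_eq_C_mul, map_mul,
        RatFunc.algebraMap_C]
    set D : ℕ := Finset.univ.sup (fun p => (N p).natDegree) with hD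
    have hcoeff0 : ∀ i w n, D < n → (ψ i w).coeff n = 0 := by
      intro i w n hn
      rw [hψ_apply, Polynomial.finsetSum_coeff]
      refine Finset.sum_eq_zero fun t _ => ?_
      rw [Polynomial.coeff_smul, Polynomial.coeff_eq_zero_of_natDegree_lt, smul_zero]
      exact lt_of_le_of_lt (Finset.le_sup (f := fun p => (N p).natDegree) (Finset.mem_univ (t, i))) hn
    let e := Fintype.equivFin (ι × Fin (D + 1))
    let φ : W →ₗ[L] (Fin (Fintype.card (ι × Fin (D + 1))) → L) :=
      LinearMap.pi fun j => (Polynomial.lcoeff L ((e.symm j).2 : ℕ)).comp (ψ (e.symm j).1)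
    have hφ_apply : ∀ w j, φ w j = (ψ (e.symm j).1 w).coeff ((e.symm j).2 : ℕ) := fun _ _ => rfl
    have key : ∀ (Pr : L → Prop), Pr 0 → ∀ w,
        (∀ j, Pr (φ w j)) ↔ ∀ i n, Pr ((ψ i w).coeff n) := by
      intro Pr h0 w
      constructor
      · intro h i n
        by_cases hn : n ≤ D
        · have := h (e (i, ⟨n, Nat.lt_succ_of_le hn⟩))
          rwa [hφ_apply, Equiv.symm_apply_apply] at this
        · rw [hcoeff0 i w n (not_le.1 hn)]
          exact h0
      · intro h j
        exact h _ _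
    refine ⟨_, φ, ?_, ?_, ?_⟩
    · rw [injective_iff_map_eq_zero]
      intro w hw
      have h1 : ∀ i n, (ψ i w).coeff n = 0 :=
        (key (fun x => x = 0) rfl w).1 fun j => by rw [hw]; rfl
      have h2 : ∀ i, b.repr (w : E) i = 0 := by
        intro i
        have h3 : ψ i w = 0 := Polynomial.ext fun n => by rw [h1, Polynomial.coeff_zero]
        have h4 := hψ w i
        rw [h3, map_zero] at h4
        exact (mul_eq_zero.1 h4).resolve_right (gIncl_ne_zero A hq)
      have h5 : b.repr (w : E) = 0 := Finsupp.ext h2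
      have h6 : (w : E) = 0 := by
        rwa [map_eq_zero_iff _ b.repr.injective] at h5
      exact Subtype.ext h6
    · intro w
      rw [key (fun x => x ∈ A) A.zero_mem w]
      show (w : E) ∈ O ↔ _
      rw [mem_O]
      exact forall_congr' fun i => ebi_mem_iff A hq (hψ w i)
    · intro w hw
      have hw' : ∀ i, b.repr (w : E) i ∈ OV A := (mem_O _).1 hw
      rw [key (fun x => x ∈ A.nonunits) (ebMax A).zero_mem w]
      show red ⟨(w : E), hw⟩ = 0 ↔ _
      rw [← map_eq_zero_iff _ bb.repr.injective, Finsupp.ext_iff]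
      refine forall_congr' fun i => ?_
      rw [repr_red ⟨(w : E), hw⟩ i (hw' i), Finsupp.zero_apply]
      exact ebi_red_iff A hq (hψ w i) (hw' i)

/-- (EB2) for a `GoodPair` -/
theorem GoodPair.ball (G : GoodPair A ι E Eb) :
    Ball A G.O.toAddSubgroup G.red.toAddMonoidHom :=
  ebi_ball A G.b G.bb G.O G.red G.mem_O G.repr_red

omit [DecidableEq ι] in
/-- helper3's shape: a finite dimensional `W ⊆ E` has `finrank W` elements of `W ∩ O` with
`k`-linearly independent reductions. -/
theorem ebi_exists_indep (b : Basis ι (RatFunc L) E) (bb : Basis ι (RatFunc (Kres A)) Eb)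
    (O : Subring E) (red : O →+* Eb)
    (mem_O : ∀ y : E, y ∈ O ↔ ∀ i, b.repr y i ∈ OV A)
    (repr_red : ∀ (y : O) (i : ι) (h : b.repr (y : E) i ∈ OV A),
      bb.repr (red y) i = redV A ⟨b.repr (y : E) i, h⟩)
    (W : Submodule L E) [FiniteDimensional L W] :
    ∃ y : Fin (Module.finrank L W) → O, (∀ i, (y i : E) ∈ W) ∧
      LinearIndependent (Kres A) (fun i => red (y i)) := by
  obtain ⟨w, hW, -, -, -, -, hli⟩ := (ebi_ball A b bb O red mem_O repr_red).exists_basis' W
  exact ⟨w, hW, hli⟩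

end ball

section rankone

/-- (EB3) a valuation ring of an algebraic extension of `ℚ` lying over a prime `ℓ` has rank one -/
theorem isRankOne_of_isAlgebraic {L : Type*} [Field L] [CharZero L] [Algebra.IsAlgebraic ℚ L]
    (A : ValuationSubring L) {ℓ : ℕ} (hℓ : ℓ.Prime) (hA : (ℓ : L) ∈ A.nonunits) : IsRankOne A :=
  fun _ ha _ _ hc0 => rk_rank_one A hℓ hA ha hc0

/-- existence of a valuation ring of `L` over `ℓ` -/
theorem exists_valuationSubring_over {L : Type*} [Field L] [CharZero L] {ℓ : ℕ} (hℓ : ℓ.Prime) :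
    ∃ A : ValuationSubring L, (ℓ : L) ∈ A.nonunits := by
  have hp : (Ideal.span {(ℓ : ℤ)}).IsPrime := by
    rw [Ideal.span_singleton_prime (by exact_mod_cast hℓ.ne_zero)]
    exact Nat.prime_iff_prime_int.1 hℓ
  let R := Localization.AtPrime (Ideal.span {(ℓ : ℤ)})
  have hu : ∀ y : (Ideal.span {(ℓ : ℤ)}).primeCompl, IsUnit (Int.castRingHom L y) := by
    intro y
    rw [isUnit_iff_ne_zero]
    intro h
    have h0 : (y : ℤ) = 0 := by
      rw [eq_intCast] at h
      exact_mod_cast h
    exact y.2 (by rw [h0]; exact Ideal.zero_mem _)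
  let f : R →+* L := IsLocalization.lift (M := (Ideal.span {(ℓ : ℤ)}).primeCompl) hu
  obtain ⟨A, h, hloc⟩ := IsLocalRing.exists_factor_valuationRing f
  refine ⟨A, ?_⟩
  have hfl : f (algebraMap ℤ R ℓ) = (ℓ : L) := by
    simp [f]
  have hmem : (ℓ : L) ∈ A := by rw [← hfl]; exact h _
  rw [ValuationSubring.mem_nonunits_iff_exists_mem_maximalIdeal]
  refine ⟨hmem, ?_⟩
  rw [IsLocalRing.mem_maximalIdeal, mem_nonunits_iff]
  intro hunit
  have h1 : IsUnit (f.codRestrict A.toSubring h (algebraMap ℤ R ℓ)) := by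
    have e : f.codRestrict A.toSubring h (algebraMap ℤ R ℓ) = (⟨(ℓ : L), hmem⟩ : A) :=
      Subtype.ext hfl
    rw [e]
    exact hunit
  have h2 : IsUnit (algebraMap ℤ R ℓ) := hloc.map_nonunit _ h1
  have h3 := (IsLocalization.AtPrime.isUnit_to_map_iff R (Ideal.span {(ℓ : ℤ)}) (ℓ : ℤ)).1 h2
  exact h3 (Ideal.mem_span_singleton_self _)

end rankone

end Fermat.Agent.S18
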