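import Fermat.Agent.S18.Trans
import Fermat.Agent.S18.EBInst
import Fermat.Prelude.Def_FLTPrelim_Ramification

/-!
# S18: residue characteristic facts and the final wrapper
-/

set_option autoImplicit false

namespace Fermat.Agent.S18

open ModularCurve AlgebraicCurve Fermat.Agent.S24

section ResChar

variable (A : ValuationSubring Kb) {ℓ : ℕ}

theorem rc_mem_nonunits (hA : A.LiesOverPrime ℓ) : (ℓ : Kb) ∈ A.nonunits := hA

theorem rc_isRankOne (hℓ : ℓ.Prime) (hA : A.LiesOverPrime ℓ) : IsRankOne A := by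
  have : Algebra.IsAlgebraic ℚ Kb := AlgebraicClosure.isAlgebraic ℚ
  exact isRankOne_of_isAlgebraic A hℓ hA

theorem rc_isAlgClosed : IsAlgClosed (Kres A) := rk_isAlgClosed A

theorem rc_natCast_self (hA : A.LiesOverPrime ℓ) : (ℓ : Kres A) = 0 := by
  obtain ⟨ha, hm⟩ := ValuationSubring.mem_nonunits_iff_exists_mem_maximalIdeal.1 hA
  have e : (⟨(ℓ : Kb), ha⟩ : A) = ((ℓ : ℕ) : A) := Subtype.ext (by simp)
  rw [e] at hm
  have := (IsLocalRing.residue_eq_zero_iff _).2 hm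
  rwa [map_natCast] at this

theorem rc_natCast_ne_zero (hℓ : ℓ.Prime) (hA : A.LiesOverPrime ℓ) (n : ℕ) (hn : ¬ ℓ ∣ n) :
    (n : Kres A) ≠ 0 := by
  intro h0
  have hc : IsCoprime (ℓ : ℤ) (n : ℤ) :=
    Nat.isCoprime_iff_coprime.2 ((Nat.Prime.coprime_iff_not_dvd hℓ).2 hn)
  obtain ⟨a, b, hab⟩ := hc
  have h1 := congrArg (Int.cast : ℤ → Kres A) hab
  push_cast at h1
  rw [rc_natCast_self A hA, h0, mul_zero, mul_zero, add_zero] at h1
  exact zero_ne_one h1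

end ResChar

/-- the final wrapper: S18 from the two `core` statements (λ-line and μ-line) -/
theorem s18_wrap (N : ℕ) [NeZero N] {ℓ : ℕ} [Fact ℓ.Prime] (hℓN : ¬ ℓ ∣ N)
    (A : ValuationSubring Kb) (hA : A.LiesOverPrime ℓ)
    (core_lam : IsRankOne A → (2 : Kres A) ≠ 0 → (N : Kres A) ≠ 0 → ∀ p : ℕ, p.Prime → p ≠ 3 →
      (p : Kres A) ≠ 0 → ∀ (f : FN N) (gb : FbN A N), gb ≠ 0 → UnitRel A N f (gb ^ p) →
      (∀ v : Place Kb (FN N), (p : ℤ) ∣ v.ord f) → ∃ y : FN N, f = y ^ p)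
    (core_m : IsRankOne A → (3 : Kres A) ≠ 0 → (N : Kres A) ≠ 0 → ∀ p : ℕ, p.Prime → p ≠ 2 →
      (p : Kres A) ≠ 0 → ∀ (f : FN N) (gb : FbN A N), gb ≠ 0 → UnitRel A N f (gb ^ p) →
      (∀ v : Place Kb (FN N), (p : ℤ) ∣ v.ord f) → ∃ y : FN N, f = y ^ p)
    (h : ReductionInputsModL A N) (m : ℕ) (hm : ¬ ℓ ∣ m) (z : JZero N)
    (hmz : m • z = 0) (hz : reductionModL A N z = 0) : z = 0 := by
  have hℓ : ℓ.Prime := Fact.out
  have : IsAlgClosed (kA A) := rk_isAlgClosed A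
  have hR := rc_isRankOne A hℓ hA
  have hNk : (N : Kres A) ≠ 0 := rc_natCast_ne_zero A hℓ hA N hℓN
  refine s18_of_core ℓ h (fun p hp hpl f gb hgb hrel hf => ?_) m hm z hmz hz
  have hpk : (p : Kres A) ≠ 0 := rc_natCast_ne_zero A hℓ hA p
    (fun hd => hpl ((Nat.prime_dvd_prime_iff_eq hℓ hp).1 hd).symm)
  by_cases hc : p = 3 ∨ ℓ = 2
  · have hl3 : ¬ ℓ ∣ 3 := by
      intro hd
      have h3 : ℓ = 3 := (Nat.prime_dvd_prime_iff_eq hℓ Nat.prime_three).1 hd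
      rcases hc with hc | hc
      · exact hpl (hc.trans h3.symm)
      · omega
    have h3 : (3 : Kres A) ≠ 0 := by
      have := rc_natCast_ne_zero A hℓ hA 3 hl3
      exact_mod_cast this
    have hp2 : p ≠ 2 := by
      rcases hc with hc | hc
      · omega
      · exact fun h2 => hpl (h2.trans hc.symm)
    exact core_m hR h3 hNk p hp hp2 hpk f gb hgb hrel hf
  · push Not at hc
    have hl2 : ¬ ℓ ∣ 2 := fun hd => hc.2 ((Nat.prime_dvd_prime_iff_eq hℓ Nat.prime_two).1 hd)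
    have h2 : (2 : Kres A) ≠ 0 := by
      have := rc_natCast_ne_zero A hℓ hA 2 hl2
      exact_mod_cast this
    exact core_lam hR h2 hNk p hp hc.1 hpk f gb hgb hrel hf

end Fermat.Agent.S18
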