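import Fermat.Agent.S18.GaussRanges

set_option autoImplicit false

/-! # S18 plan Z: the general interface (`GoodPair`, statement of H0)

`K0 = RatFunc L`, `τ = RatFunc.X`, `s = τ⁻¹`.  For a `K0`-algebra `E`:
* `S` = elements integral over `Rtau L`, `T` = elements integral over `Rs L`;
* `box a n` = `s^a S ∩ τ^n T`;
* trace duals are written out as predicates (`InDual`).
-/

namespace Fermat.Agent.S18

open Polynomial Module

/-- `h ∈ M^#` for `M` = the integral closure of `R` in `E` (trace dual). -/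
def InDual (R K E : Type*) [CommRing R] [Field K] [Algebra R K] [CommRing E] [Algebra K E]
    [Algebra R E] (h : E) : Prop :=
  ∀ y : E, IsIntegral R y → Algebra.trace K E (h * y) ∈ (algebraMap R K).range

section box

variable (κ : Type*) [Field κ] {E : Type*} [CommRing E] [Algebra (RatFunc κ) E]

/-- `y ∈ s^a S ∩ τ^n T` -/
def InBox (a n : ℕ) (y : E) : Prop :=
  IsIntegral (Rtau κ) ((RatFunc.X : RatFunc κ) ^ a • y) ∧
    IsIntegral (Rs κ) ((RatFunc.X⁻¹ : RatFunc κ) ^ n • y)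

/-- `y ∈ s^a S^# ∩ τ^n T^#` -/
def InDualBox (a n : ℕ) (y : E) : Prop :=
  InDual (Rtau κ) (RatFunc κ) E ((RatFunc.X : RatFunc κ) ^ a • y) ∧
    InDual (Rs κ) (RatFunc κ) E ((RatFunc.X⁻¹ : RatFunc κ) ^ n • y)

end box

variable {L : Type*} [Field L] (A : ValuationSubring L)

/-- `P(τ)` for `P ∈ A[X]` -/
noncomputable def polTau (P : (↥A)[X]) : Rtau L :=
  ⟨Polynomial.aeval (RatFunc.X : RatFunc L) (P.map A.subtype), ⟨_, rfl⟩⟩

/-- `P(s)` for `P ∈ A[X]` -/
noncomputable def polS (P : (↥A)[X]) : Rs L :=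
  ⟨Polynomial.aeval (RatFunc.X⁻¹ : RatFunc L) (P.map A.subtype), ⟨_, rfl⟩⟩

/-- `A` has rank one (archimedean value group). -/
def IsRankOne : Prop :=
  ∀ a ∈ A.nonunits, ∀ c ∈ A, c ≠ 0 → ∃ K : ℕ, ∃ d ∈ A.nonunits, a ^ K = c * d

/-- The data of plan Z, step (3). -/
structure GoodPair (ι : Type*) [Fintype ι] [DecidableEq ι]
    (E : Type*) [CommRing E] [Algebra (RatFunc L) E]
    (Eb : Type*) [CommRing Eb] [Algebra (RatFunc (Kres A)) Eb] where
  b : Basis ι (RatFunc L) E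
  bb : Basis ι (RatFunc (Kres A)) Eb
  O : Subring E
  red : O →+* Eb
  mem_O : ∀ y : E, y ∈ O ↔ ∀ i, b.repr y i ∈ OV A
  repr_red : ∀ (y : O) (i : ι) (h : b.repr (y : E) i ∈ OV A),
    bb.repr (red y) i = redV A ⟨b.repr (y : E) i, h⟩
  nondeg : (Algebra.traceForm (RatFunc L) E).Nondegenerate
  nondegb : (Algebra.traceForm (RatFunc (Kres A)) Eb).Nondegenerate
  P : (↥A)[X]
  P' : (↥A)[X]
  sqfree : Squarefree (P.map (IsLocalRing.residue A))
  sqfree' : Squarefree (P'.map (IsLocalRing.residue A))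
  M : ℕ
  M_pos : 0 < M
  G3 : ∀ h : E, InDual (Rtau L) (RatFunc L) E h →
    ∃ u : E, IsIntegral (Rtau L) u ∧ (polTau A P • h) ^ M = polTau A P • u
  G3' : ∀ h : E, InDual (Rs L) (RatFunc L) E h →
    ∃ u : E, IsIntegral (Rs L) u ∧ (polS A P' • h) ^ M = polS A P' • u

/-- The statement of H0 (proved in `H0.lean`): every idempotent of `Eb` lifts to `S ∩ T ∩ O`. -/
def GoodPair.H0 {ι : Type*} [Fintype ι] [DecidableEq ι]
    {E : Type*} [CommRing E] [Algebra (RatFunc L) E]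
    {Eb : Type*} [CommRing Eb] [Algebra (RatFunc (Kres A)) Eb] (G : GoodPair A ι E Eb) : Prop :=
  ∀ e : Eb, e * e = e →
    ∃ y : G.O, IsIntegral (Rtau L) (y : E) ∧ IsIntegral (Rs L) (y : E) ∧ G.red y = e

end Fermat.Agent.S18
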