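import Fermat.Agent.S18.IntRat

/-!
# S18, plan Z, step (4)

* an element integral over `κ[τ]` and over `κ[s]` is integral over `κ`;
* the abstract end game: from a non-constant "constant" of `FF[γ]/(γ^p - f)` to a `p`-th root of `f`
  in a residue field of `FF`.
-/

set_option autoImplicit false

namespace Fermat.Agent.S18

open Polynomial

section Const

variable {κ : Type*} [Field κ]

/-- `κ[τ] ∩ κ[s] = κ`. -/
theorem exists_const_of_mem_Rtau_Rs {c : RatFunc κ} (h1 : c ∈ Rtau κ) (h2 : c ∈ Rs κ) :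
    c ∈ (algebraMap κ (RatFunc κ)).range := by
  obtain ⟨P, rfl⟩ := mem_Rtau_iff.1 h1
  obtain ⟨Q, hQ⟩ := mem_Rs_iff.1 h2
  rw [aeval_X_inv_eq] at hQ
  have hX : (RatFunc.X : RatFunc κ) ≠ 0 := RatFunc.X_ne_zero
  have h3 : algebraMap κ[X] (RatFunc κ) Q.reverse
      = algebraMap κ[X] (RatFunc κ) (X ^ Q.natDegree * P) := by
    rw [map_mul, map_pow, RatFunc.algebraMap_X, ← hQ, ← mul_assoc, ← mul_pow,
      mul_inv_cancel₀ hX, one_pow, one_mul]
  have h4 : Q.reverse = X ^ Q.natDegree * P := RatFunc.algebraMap_injective κ h3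
  by_cases hP : P = 0
  · subst hP
    exact ⟨0, by simp⟩
  have h5 : (X ^ Q.natDegree * P).natDegree = Q.natDegree + P.natDegree := by
    rw [natDegree_mul (pow_ne_zero _ X_ne_zero) hP, natDegree_X_pow]
  have h6 : Q.reverse.natDegree ≤ Q.natDegree := reverse_natDegree_le Q
  rw [h4, h5] at h6
  have h7 : P.natDegree = 0 := by omega
  rw [eq_C_of_natDegree_eq_zero h7]
  exact ⟨P.coeff 0, by rw [IsScalarTower.algebraMap_apply κ κ[X] (RatFunc κ)]; rfl⟩

variable {E : Type*} [CommRing E] [Algebra (RatFunc κ) E] [Module.Finite (RatFunc κ) E]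
  [Algebra κ E] [IsScalarTower κ (RatFunc κ) E]

/-- an element integral over `κ[τ]` and over `κ[s]` is integral over `κ`. -/
theorem isIntegral_of_Rtau_Rs {y : E} (h1 : IsIntegral (Rtau κ) y) (h2 : IsIntegral (Rs κ) y) :
    IsIntegral κ y := by
  have i1 := Int.isPrincipalIdealRing_Rtau κ
  have i2 := Int.isPrincipalIdealRing_Rs κ
  have i3 := Int.isFractionRing_Rtau (κ := κ)
  have i4 := Int.isFractionRing_Rs (κ := κ)
  refine (Int.isIntegral_iff_exists_poly (R := κ) (K := RatFunc κ) y).2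
    ⟨(Algebra.lmul (RatFunc κ) E y).charpoly, LinearMap.charpoly_monic _, fun i => ?_, ?_⟩
  · have c1 := Int.charpoly_lmul_coeff_mem (R := Rtau κ) (K := RatFunc κ) h1 i
    have c2 := Int.charpoly_lmul_coeff_mem (R := Rs κ) (K := RatFunc κ) h2 i
    rw [Int.mem_range_algebraMap_sub] at c1 c2
    exact exists_const_of_mem_Rtau_Rs c1 c2
  · have h := LinearMap.aeval_self_charpoly (Algebra.lmul (RatFunc κ) E y)
    rw [aeval_algHom_apply] at h
    have h' := congrArg (fun φ : E →ₗ[RatFunc κ] E => φ 1) h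
    simpa using h'

end Const

section EndGame

variable {L FF : Type*} [Field L] [IsAlgClosed L] [CommRing FF] [Algebra L FF]

theorem exists_maximal_not_mem [IsArtinianRing FF] [IsReduced FF] {x : FF} (hx : x ≠ 0) :
    ∃ m : Ideal FF, m.IsMaximal ∧ x ∉ m := by
  have h1 : x ∉ nilradical FF := fun h => hx (mem_nilradical.1 h).eq_zero
  rw [nilradical_eq_sInf, Ideal.mem_sInf] at h1
  push Not at h1
  obtain ⟨J, hJ, hxJ⟩ := h1
  have : J.IsPrime := hJ
  exact ⟨J, IsArtinianRing.isMaximal_of_isPrime J, hxJ⟩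

/-- the end game at one maximal ideal -/
theorem step4_at {p : ℕ} (hp : p.Prime) (f' : FF) (Y : FF[X]) (hY : Y.natDegree < p)
    (l : ℕ) (hl : l ≠ 0) (g : L[X]) (hg : g.Monic)
    (hdvd : (X ^ p - C f') ∣ (g.map (algebraMap L FF)).comp Y)
    (m : Ideal FF) [hm : m.IsMaximal] (hYl : Y.coeff l ∉ m) :
    ∃ z : FF ⧸ m, z ^ p = Ideal.Quotient.mk m f' := by
  classical
  letI : Field (FF ⧸ m) := Ideal.Quotient.field m
  set π := Ideal.Quotient.mk m with hπ
  by_contra hcon
  push Not at hcon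
  set q : (FF ⧸ m)[X] := X ^ p - C (π f') with hq
  have hirr : Irreducible q := X_pow_sub_C_irreducible_of_prime hp hcon
  haveI : Fact (Irreducible q) := ⟨hirr⟩
  set φ : L →+* (FF ⧸ m) := π.comp (algebraMap L FF) with hφ
  set Yb : (FF ⧸ m)[X] := Y.map π with hYb
  have hdvd' : q ∣ (g.map φ).comp Yb := by
    have := Polynomial.map_dvd π hdvd
    rw [Polynomial.map_comp, Polynomial.map_map] at this
    simpa [hq, hYb, hφ] using this
  set ρ : L →+* AdjoinRoot q := (AdjoinRoot.of q).comp φ with hρ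
  set y' : AdjoinRoot q := AdjoinRoot.mk q Yb with hy'
  have hroot : eval₂ ρ y' g = 0 := by
    have h0 : AdjoinRoot.mk q ((g.map φ).comp Yb) = 0 := AdjoinRoot.mk_eq_zero.2 hdvd'
    rw [comp, hom_eval₂, eval₂_map] at h0
    exact h0
  letI : Algebra L (AdjoinRoot q) := ρ.toAlgebra
  have hint : IsIntegral L y' := ⟨g, hg, hroot⟩
  have hdeg : (minpoly L y').degree = 1 :=
    IsAlgClosed.degree_eq_one_of_irreducible L (minpoly.irreducible hint)
  obtain ⟨a, ha⟩ := minpoly.mem_range_of_degree_eq_one L y' hdeg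
  have ha' : AdjoinRoot.mk q (C (φ a)) = AdjoinRoot.mk q Yb := ha
  have hz : q ∣ Yb - C (φ a) := by
    rw [← AdjoinRoot.mk_eq_zero, map_sub, ha', sub_self]
  have hqdeg : q.natDegree = p := natDegree_X_pow_sub_C
  have hlt : (Yb - C (φ a)).natDegree < q.natDegree := by
    rw [hqdeg]
    refine lt_of_le_of_lt (natDegree_sub_le _ _) ?_
    rw [natDegree_C, max_eq_left (Nat.zero_le _)]
    exact lt_of_le_of_lt natDegree_map_le hY
  have h0 : Yb - C (φ a) = 0 := eq_zero_of_dvd_of_natDegree_lt hz hlt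
  have h1 := congrArg (fun r => coeff r l) h0
  simp only [coeff_sub, coeff_C, if_neg hl, sub_zero, coeff_zero, hYb, coeff_map] at h1
  exact hYl (Ideal.Quotient.eq_zero_iff_mem.1 h1)

theorem step4 [IsArtinianRing FF] [IsReduced FF] {p : ℕ} (hp : p.Prime) (f' : FF) (Y : FF[X])
    (hY : Y.natDegree < p) (l : ℕ) (hl : l ≠ 0) (hYl : Y.coeff l ≠ 0) (g : L[X]) (hg : g.Monic)
    (hdvd : (X ^ p - C f') ∣ (g.map (algebraMap L FF)).comp Y) :
    ∃ m : Ideal FF, m.IsMaximal ∧ ∃ z : FF ⧸ m, z ^ p = Ideal.Quotient.mk m f' := by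
  obtain ⟨m, hm, hx⟩ := exists_maximal_not_mem hYl
  exact ⟨m, hm, step4_at hp f' Y hY l hl g hg hdvd m hx⟩

end EndGame

end Fermat.Agent.S18
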