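import Fermat.Agent.S18.H0
import Fermat.Agent.S18.Step4
import Fermat.Agent.S18.Defs2

/-!
# S18 plan Z: the abstract core (steps (2)-(4) glued)
-/

set_option autoImplicit false

namespace Fermat.Agent.S18

open Polynomial Module

section generic

/-- `K[X]/(g)` is reduced for separable `g` -/
theorem core_isReduced {K : Type*} [Field K] {g : K[X]} (hg : g.Separable) :
    IsReduced (AdjoinRoot g) :=
  (Ideal.isRadical_iff_quotient_reduced _).1
    ((isRadical_iff_span_singleton).1 hg.squarefree.isRadical)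

/-- a polynomial relation for `y = mk Y` as a divisibility -/
theorem core_dvd {L F' : Type*} [CommRing L] [CommRing F'] [Algebra L F'] (q : F'[X]) (Y : F'[X])
    (g : L[X]) (h : eval₂ (algebraMap L (AdjoinRoot q)) (AdjoinRoot.mk q Y) g = 0) :
    q ∣ (g.map (algebraMap L F')).comp Y := by
  rw [← AdjoinRoot.mk_eq_zero, comp, hom_eval₂, eval₂_map]
  exact h

theorem Model.adjoin_b_repr {K Kb : Type*} [Field K] [Field Kb] {OV : Subring K}
    {redV : OV →+* Kb} {ι : Type*} {B E Eb : Type*} [CommRing B] [Algebra OV B] [CommRing E]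
    [Algebra K E] [CommRing Eb] [Algebra Kb Eb] (M : Model OV redV ι B E Eb)
    (g : B[X]) (hg : g.Monic) (d : ℕ) (hd : g.natDegree = d) [Nontrivial E] [Nontrivial Eb]
    (y : AdjoinRoot (g.map M.inc)) (i : ι) (j : Fin d) :
    (M.adjoin g hg d hd).b.repr y (i, j) =
      M.b.repr ((AdjoinRoot.modByMonicHom (hg.map M.inc) y).coeff j) i := by
  change (M.b.smulTower _).repr y (i, j) = _
  rw [Basis.smulTower_repr_mk, Basis.repr_reindex_apply,
    AdjoinRoot.powerBasisAux'_repr_apply_to_fun]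
  rfl

theorem Model.adjoin_bb_repr {K Kb : Type*} [Field K] [Field Kb] {OV : Subring K}
    {redV : OV →+* Kb} {ι : Type*} {B E Eb : Type*} [CommRing B] [Algebra OV B] [CommRing E]
    [Algebra K E] [CommRing Eb] [Algebra Kb Eb] (M : Model OV redV ι B E Eb)
    (g : B[X]) (hg : g.Monic) (d : ℕ) (hd : g.natDegree = d) [Nontrivial E] [Nontrivial Eb]
    (y : AdjoinRoot (g.map M.incb)) (i : ι) (j : Fin d) :
    (M.adjoin g hg d hd).bb.repr y (i, j) =
      M.bb.repr ((AdjoinRoot.modByMonicHom (hg.map M.incb) y).coeff j) i := by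
  change (M.bb.smulTower _).repr y (i, j) = _
  rw [Basis.smulTower_repr_mk, Basis.repr_reindex_apply,
    AdjoinRoot.powerBasisAux'_repr_apply_to_fun]
  rfl

end generic

variable {L : Type*} [Field L] (A : ValuationSubring L)

/-- the good pair attached to the two-layer model -/
noncomputable def goodPair2 (Φτ : (OV A)[X]) (hΦ : Φτ.Monic) (ψ : ℕ) (hψ : Φτ.natDegree = ψ)
    (hψ0 : ψ ≠ 0) (p : ℕ) (hp : p ≠ 0) (f1 : B1 A Φτ)
    (nondeg : (Algebra.traceForm (RatFunc L) (EE A Φτ p f1)).Nondegenerate)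
    (nondegb : (Algebra.traceForm (RatFunc (Kres A)) (EEb A Φτ p f1)).Nondegenerate)
    (P P' : (↥A)[X])
    (sqfree : Squarefree (P.map (IsLocalRing.residue A)))
    (sqfree' : Squarefree (P'.map (IsLocalRing.residue A)))
    (M : ℕ) (M_pos : 0 < M)
    (G3 : ∀ h : EE A Φτ p f1, InDual (Rtau L) (RatFunc L) (EE A Φτ p f1) h →
      ∃ u : EE A Φτ p f1, IsIntegral (Rtau L) u ∧ (polTau A P • h) ^ M = polTau A P • u)
    (G3' : ∀ h : EE A Φτ p f1, InDual (Rs L) (RatFunc L) (EE A Φτ p f1) h →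
      ∃ u : EE A Φτ p f1, IsIntegral (Rs L) u ∧ (polS A P' • h) ^ M = polS A P' • u) :
    GoodPair A ((Unit × Fin ψ) × Fin p) (EE A Φτ p f1) (EEb A Φτ p f1) where
  b := (model2 A Φτ hΦ ψ hψ hψ0 p hp f1).b
  bb := (model2 A Φτ hΦ ψ hψ hψ0 p hp f1).bb
  O := (model2 A Φτ hΦ ψ hψ hψ0 p hp f1).O
  red := (model2 A Φτ hΦ ψ hψ hψ0 p hp f1).red
  mem_O := (model2 A Φτ hΦ ψ hψ hψ0 p hp f1).mem_O
  repr_red := (model2 A Φτ hΦ ψ hψ hψ0 p hp f1).repr_red
  nondeg := nondeg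
  nondegb := nondegb
  P := P
  P' := P'
  sqfree := sqfree
  sqfree' := sqfree'
  M := M
  M_pos := M_pos
  G3 := G3
  G3' := G3'

/-- steps (2)-(4): an idempotent of `EEb` with a nonzero coordinate at a positive power of the
Kummer generator produces a `p`-th root of `f1` in a residue field of `FF`. -/
theorem core_step [IsAlgClosed L] (hA : IsRankOne A)
    (Φτ : (OV A)[X]) (hΦ : Φτ.Monic) (ψ : ℕ) (hψ : Φτ.natDegree = ψ)
    (hψ0 : ψ ≠ 0) (p : ℕ) (hp : p.Prime) (f1 : B1 A Φτ)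
    (hsep : (Φτ.map (OV A).subtype).Separable)
    (nondeg : (Algebra.traceForm (RatFunc L) (EE A Φτ p f1)).Nondegenerate)
    (nondegb : (Algebra.traceForm (RatFunc (Kres A)) (EEb A Φτ p f1)).Nondegenerate)
    (P P' : (↥A)[X])
    (sqfree : Squarefree (P.map (IsLocalRing.residue A)))
    (sqfree' : Squarefree (P'.map (IsLocalRing.residue A)))
    (M : ℕ) (M_pos : 0 < M)
    (G3 : ∀ h : EE A Φτ p f1, InDual (Rtau L) (RatFunc L) (EE A Φτ p f1) h →
      ∃ u : EE A Φτ p f1, IsIntegral (Rtau L) u ∧ (polTau A P • h) ^ M = polTau A P • u)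
    (G3' : ∀ h : EE A Φτ p f1, InDual (Rs L) (RatFunc L) (EE A Φτ p f1) h →
      ∃ u : EE A Φτ p f1, IsIntegral (Rs L) u ∧ (polS A P' • h) ^ M = polS A P' • u)
    (e : EEb A Φτ p f1) (he : e * e = e)
    (hcoord : ∃ (i : Unit × Fin ψ) (l : Fin p), (l : ℕ) ≠ 0 ∧
      (model2 A Φτ hΦ ψ hψ hψ0 p hp.ne_zero f1).bb.repr e (i, l) ≠ 0) :
    ∃ m : Ideal (FF A Φτ), m.IsMaximal ∧
      ∃ z : FF A Φτ ⧸ m, z ^ p = Ideal.Quotient.mk m (inc1 A Φτ f1) := by
  classical
  obtain ⟨y, hy1, hy2, hy3⟩ := h0_main hA (goodPair2 A Φτ hΦ ψ hψ hψ0 p hp.ne_zero f1 nondeg nondegb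
    P P' sqfree sqfree' M M_pos G3 G3') e he
  obtain ⟨i, l, hl, hil⟩ := hcoord
  set M2 := model2 A Φτ hΦ ψ hψ hψ0 p hp.ne_zero f1 with hM2
  haveI : Module.Finite (RatFunc L) (EE A Φτ p f1) := Module.Finite.of_basis M2.b
  haveI : Module.Finite (RatFunc L) (FF A Φτ) :=
    Module.Finite.of_basis (model1 A Φτ hΦ ψ hψ).b
  haveI : IsArtinianRing (FF A Φτ) := IsArtinianRing.of_finite (RatFunc L) _
  haveI : IsReduced (FF A Φτ) := core_isReduced hsep
  have hint : IsIntegral L (y : EE A Φτ p f1) := isIntegral_of_Rtau_Rs hy1 hy2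
  obtain ⟨g, hg, hgy⟩ := hint
  have hq : ((kumPoly A Φτ p f1).map (inc1 A Φτ)).Monic :=
    (kumPoly_monic A Φτ hp.ne_zero f1).map _
  haveI : Nontrivial (FF A Φτ) := AdjoinRoot.nontrivial _ (by
    rw [Polynomial.degree_eq_natDegree (hΦ.map _).ne_zero, hΦ.natDegree_map, hψ]
    exact_mod_cast hψ0)
  haveI : Nontrivial (FFb A Φτ) := AdjoinRoot.nontrivial _ (by
    rw [Polynomial.degree_eq_natDegree (hΦ.map _).ne_zero, hΦ.natDegree_map, hψ]
    exact_mod_cast hψ0)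
  have hqdeg : ((kumPoly A Φτ p f1).map (inc1 A Φτ)).natDegree = p := by
    rw [kumPoly_map_inc1, natDegree_X_pow_sub_C]
  set Y : (FF A Φτ)[X] := AdjoinRoot.modByMonicHom hq (y : EE A Φτ p f1) with hY
  have hmk : AdjoinRoot.mk _ Y = (y : EE A Φτ p f1) := AdjoinRoot.mk_leftInverse hq _
  have hdvd := core_dvd _ Y g (by rw [hmk]; exact hgy)
  rw [kumPoly_map_inc1] at hdvd
  have hYdeg : Y.natDegree < p := by
    obtain ⟨f, hf⟩ := AdjoinRoot.mk_surjective (y : EE A Φτ p f1)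
    rw [hY, ← hf, AdjoinRoot.modByMonicHom_mk]
    have := natDegree_modByMonic_lt f hq (fun h1 => by
      rw [h1, natDegree_one] at hqdeg; exact hp.ne_zero hqdeg.symm)
    rwa [hqdeg] at this
  have hrepr : M2.b.repr (y : EE A Φτ p f1) (i, l) =
      (model1 A Φτ hΦ ψ hψ).b.repr (Y.coeff l) i :=
    Model.adjoin_b_repr _ _ _ _ _ _ _ _
  have hmem : M2.b.repr (y : EE A Φτ p f1) (i, l) ∈ OV A := (M2.mem_O _).1 y.2 _
  have hred : M2.bb.repr (M2.red y) (i, l) = redV A ⟨_, hmem⟩ := M2.repr_red y (i, l) hmem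
  have hy3' : M2.red y = e := hy3
  have hYl : Y.coeff l ≠ 0 := by
    intro h0
    apply hil
    rw [← hy3', hred]
    have : (⟨M2.b.repr (y : EE A Φτ p f1) (i, l), hmem⟩ : OV A) = 0 := by
      apply Subtype.ext
      change M2.b.repr (y : EE A Φτ p f1) (i, l) = 0
      rw [hrepr, h0]
      simp
    rw [this, map_zero]
  exact step4 hp (inc1 A Φτ f1) Y hYdeg l hl hYl g hg hdvd

end Fermat.Agent.S18
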