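import Mathlib

/-!
# S18, plan Z, step (2): the Kummer layer `C[γ]/(γ^p - c)`

* (N2) nondegeneracy of the trace form;
* the idempotent `(1/p) Σ (γ/g₁)^i` when `c = g₁^p`.
-/

set_option autoImplicit false
set_option linter.unusedSectionVars false
set_option linter.unusedVariables false

namespace Fermat.Agent.S18

open Polynomial Module

section trace

variable {C D : Type*} [CommRing C] [CommRing D] [Algebra C D] (pb : PowerBasis C D)
  {p : ℕ} (hdim : pb.dim = p) {c : C} (hγ : pb.gen ^ p = algebraMap C D c)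

include hdim in
/-- coordinates of the powers of `γ` -/
theorem kum_repr_gen_pow (k : ℕ) (hk : k < p) (j : Fin pb.dim) :
    pb.basis.repr (pb.gen ^ k) j = if k = j then 1 else 0 := by
  have h1 : pb.gen ^ k = pb.basis ⟨k, by omega⟩ := by
    rw [pb.basis_eq_pow]
  rw [h1, Basis.repr_self, Finsupp.single_apply]
  refine if_congr ?_ rfl rfl
  constructor
  · intro h; rw [← h]
  · intro h; exact Fin.ext h

include hdim hγ in
/-- `Tr(γ^m) = 0` for `0 < m < p` -/
theorem kum_trace_gen_pow (m : ℕ) (hm0 : 0 < m) (hm : m < p) :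
    Algebra.trace C D (pb.gen ^ m) = 0 := by
  rw [Algebra.trace_eq_matrix_trace pb.basis, Matrix.trace]
  refine Finset.sum_eq_zero fun j _ => ?_
  have hj : (j : ℕ) < p := by have := j.2; omega
  rw [Matrix.diag_apply, Algebra.leftMulMatrix_eq_repr_mul, pb.basis_eq_pow, ← pow_add]
  by_cases h : m + j < p
  · rw [kum_repr_gen_pow pb hdim _ h, if_neg (by omega)]
  · have e : m + (j : ℕ) = p + (m + j - p) := by omega
    rw [e, pow_add, hγ, ← Algebra.smul_def, map_smul,
      Finsupp.smul_apply, kum_repr_gen_pow pb hdim _ (by omega), if_neg (by omega), smul_zero]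

include hdim hγ in
/-- `Tr(γ^(i + (p - l))) = 0` unless `i = l` -/
theorem kum_trace_gen_pow' (i l : ℕ) (hi : i < p) (hl : l < p) :
    Algebra.trace C D (pb.gen ^ (i + (p - l))) = if i = l then (p : C) * c else 0 := by
  split_ifs with h
  · subst h
    have e : i + (p - i) = p := by omega
    rw [e, hγ, Algebra.trace_algebraMap_of_basis pb.basis, Fintype.card_fin, hdim, nsmul_eq_mul]
  · rcases lt_or_gt_of_ne h with h | h
    · exact kum_trace_gen_pow pb hdim hγ _ (by omega) (by omega)
    · have e : i + (p - l) = p + (i - l) := by omega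
      rw [e, pow_add, hγ, ← Algebra.smul_def, map_smul,
        kum_trace_gen_pow pb hdim hγ _ (by omega) (by omega), smul_zero]

include hdim hγ in
/-- `Tr(x γ^(p-l)) = p c x_l` -/
theorem kum_trace_mul (x : D) (l : Fin pb.dim) :
    Algebra.trace C D (x * pb.gen ^ (p - l)) = (p : C) * c * pb.basis.repr x l := by
  have hlt : ∀ i : Fin pb.dim, (i : ℕ) < p := fun i => by have := i.2; omega
  conv_lhs => rw [← pb.basis.sum_repr x]
  rw [Finset.sum_mul, map_sum, Finset.sum_eq_single l]
  · rw [pb.basis_eq_pow, smul_mul_assoc, map_smul, ← pow_add,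
      kum_trace_gen_pow' pb hdim hγ _ _ (hlt l) (hlt l), if_pos rfl, smul_eq_mul]
    ring
  · intro i _ hi
    rw [pb.basis_eq_pow, smul_mul_assoc, map_smul, ← pow_add,
      kum_trace_gen_pow' pb hdim hγ _ _ (hlt i) (hlt l),
      if_neg (fun h => hi (Fin.ext h)), smul_zero]
  · intro h; exact absurd (Finset.mem_univ l) h

variable {K : Type*} [Field K] [Algebra K C] [Algebra K D] [IsScalarTower K C D]
  [Module.Finite K C]

include hdim hγ in
/-- **(N2)**, abstract form -/
theorem kum_nondegenerate_aux (hnd : (Algebra.traceForm K C).Nondegenerate) (hc : IsUnit c)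
    (hp : (p : K) ≠ 0) : (Algebra.traceForm K D).Nondegenerate := by
  suffices sl : ∀ x : D, (∀ y : D, Algebra.traceForm K D x y = 0) → x = 0 from
    ⟨sl, fun y hy => sl y (fun x => by
      rw [Algebra.traceForm_apply, mul_comm, ← Algebra.traceForm_apply]; exact hy x)⟩
  intro x hx
  apply pb.basis.repr.injective
  ext l
  rw [map_zero, Finsupp.zero_apply]
  have hpu : IsUnit ((p : C) * c) := by
    refine IsUnit.mul ?_ hc
    have : (p : C) = algebraMap K C (p : K) := by rw [map_natCast]
    rw [this]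
    exact (IsUnit.mk0 _ hp).map _
  have key : (p : C) * c * pb.basis.repr x l = 0 := by
    apply hnd.1
    intro a
    have h1 := hx (algebraMap C D a * pb.gen ^ (p - l))
    rw [Algebra.traceForm_apply] at h1 ⊢
    rw [← Algebra.trace_trace_of_basis (Module.Free.chooseBasis K C) pb.basis] at h1
    have e : x * (algebraMap C D a * pb.gen ^ (p - l)) = a • (x * pb.gen ^ (p - l)) := by
      rw [Algebra.smul_def]; ring
    rw [e, map_smul, kum_trace_mul pb hdim hγ, smul_eq_mul, mul_comm] at h1
    exact h1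
  exact (hpu.mul_right_eq_zero).1 key

end trace

theorem kum_root_pow {C : Type*} [CommRing C] {p : ℕ} (c : C) :
    (AdjoinRoot.root (X ^ p - Polynomial.C c : C[X])) ^ p =
      algebraMap C (AdjoinRoot (X ^ p - Polynomial.C c : C[X])) c := by
  have := AdjoinRoot.eval₂_root (X ^ p - Polynomial.C c : C[X])
  simpa [sub_eq_zero] using this

/-- **(N2)**: the trace form of the Kummer layer is nondegenerate -/
theorem kum_nondegenerate {K C : Type*} [Field K] [CommRing C] [Nontrivial C] [Algebra K C]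
    [Module.Finite K C] (hnd : (Algebra.traceForm K C).Nondegenerate) {c : C} (hc : IsUnit c)
    {p : ℕ} (hp : (p : K) ≠ 0) (g : C[X]) (hg : g = X ^ p - Polynomial.C c) :
    (Algebra.traceForm K (AdjoinRoot g)).Nondegenerate := by
  subst hg
  have hp0 : p ≠ 0 := by rintro rfl; simp at hp
  exact kum_nondegenerate_aux (AdjoinRoot.powerBasis' (monic_X_pow_sub_C c hp0))
    (by rw [AdjoinRoot.powerBasis'_dim, natDegree_X_pow_sub_C]) (kum_root_pow c) hnd hc hp

/-! ### the idempotent -/

section idem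

/-- `e = (1/p) Σ_{i<p} u^i` is idempotent if `u^p = 1` -/
theorem kum_idem_of_pow_eq_one {D : Type*} [CommRing D] {p : ℕ} (u pinv : D) (hu : u ^ p = 1)
    (hpinv : pinv * p = 1) :
    (pinv * ∑ i ∈ Finset.range p, u ^ i) * (pinv * ∑ i ∈ Finset.range p, u ^ i) =
      pinv * ∑ i ∈ Finset.range p, u ^ i := by
  set S := ∑ i ∈ Finset.range p, u ^ i with hS
  have h1 : u * S = S := by
    have := mul_geom_sum u p
    rw [hu, sub_self, ← hS] at this
    linear_combination this
  have h2 : ∀ k : ℕ, u ^ k * S = S := by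
    intro k
    induction k with
    | zero => rw [pow_zero, one_mul]
    | succ k ih => rw [pow_succ, mul_assoc, h1, ih]
  have h3 : S * S = p * S := by
    conv_lhs => rw [hS, Finset.sum_mul]
    rw [Finset.sum_congr rfl (fun k _ => h2 k), Finset.sum_const, Finset.card_range, nsmul_eq_mul]
  linear_combination pinv ^ 2 * h3 + pinv * S * hpinv

variable {C : Type*} [CommRing C]

/-- the polynomial `(1/p) Σ_{i<p} (X/g₁)^i` -/
noncomputable def kumIdemPoly (p : ℕ) (ginv pinv : C) : C[X] :=
  Polynomial.C pinv * ∑ i ∈ Finset.range p, (Polynomial.C ginv * X) ^ i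

theorem kumIdemPoly_coeff (p : ℕ) (ginv pinv : C) (k : ℕ) :
    (kumIdemPoly p ginv pinv).coeff k = if k < p then pinv * ginv ^ k else 0 := by
  rw [kumIdemPoly, coeff_C_mul, finsetSum_coeff]
  simp only [mul_pow, ← C_pow, coeff_C_mul, coeff_X_pow]
  split_ifs with h
  · rw [Finset.sum_eq_single k]
    · simp
    · intro b _ hb
      rw [if_neg (fun h => hb h.symm), mul_zero]
    · intro h'
      exact absurd (Finset.mem_range.2 h) h'
  · rw [Finset.sum_eq_zero, mul_zero]
    intro b hb
    rw [if_neg (by have := Finset.mem_range.1 hb; omega), mul_zero]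

theorem kumIdemPoly_natDegree_lt {p : ℕ} (hp : p ≠ 0) (ginv pinv : C) :
    (kumIdemPoly p ginv pinv).natDegree < p := by
  have : (kumIdemPoly p ginv pinv).natDegree ≤ p - 1 := by
    rw [natDegree_le_iff_coeff_eq_zero]
    intro k hk
    rw [kumIdemPoly_coeff, if_neg (by omega)]
  omega

/-- the idempotent of `C[γ]/(γ^p - g₁^p)` -/
theorem kumIdem_mul_self {p : ℕ} (g1 ginv pinv : C) (h1 : g1 * ginv = 1) (hpinv : pinv * p = 1)
    (q : C[X]) (hq : q = X ^ p - Polynomial.C (g1 ^ p)) :
    AdjoinRoot.mk q (kumIdemPoly p ginv pinv) * AdjoinRoot.mk q (kumIdemPoly p ginv pinv) =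
      AdjoinRoot.mk q (kumIdemPoly p ginv pinv) := by
  subst hq
  set q := (X ^ p - Polynomial.C (g1 ^ p) : C[X]) with hq
  have e : AdjoinRoot.mk q (kumIdemPoly p ginv pinv) =
      AdjoinRoot.mk q (Polynomial.C pinv) *
        ∑ i ∈ Finset.range p, (AdjoinRoot.mk q (Polynomial.C ginv * X)) ^ i := by
    rw [kumIdemPoly, map_mul, map_sum]
    simp only [map_pow]
  rw [e]
  apply kum_idem_of_pow_eq_one
  · have h2 : AdjoinRoot.mk q (X ^ p) = AdjoinRoot.mk q (Polynomial.C (g1 ^ p)) := by
      rw [AdjoinRoot.mk_eq_mk]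
    rw [← map_pow, mul_pow, map_mul, h2, ← map_mul, ← C_pow, ← C_mul, ← mul_pow, mul_comm ginv, h1,
      one_pow, map_one, map_one]
  · rw [← map_natCast (AdjoinRoot.mk q), ← map_mul, ← map_natCast (Polynomial.C), ← C_mul, hpinv,
      map_one, map_one]

theorem kum_map_mk {B C : Type*} [CommRing B] [CommRing C] (φ : B →+* C) (g f : B[X]) :
    AdjoinRoot.map φ g (g.map φ) dvd_rfl (AdjoinRoot.mk g f) =
      AdjoinRoot.mk (g.map φ) (f.map φ) := by
  rw [AdjoinRoot.map, AdjoinRoot.lift_mk, ← AdjoinRoot.aeval_eq, Polynomial.aeval_def,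
    Polynomial.eval₂_map, AdjoinRoot.algebraMap_eq]

/-- a lift of the idempotent has a nonzero coefficient at `γ^1` -/
theorem kum_coeff_one_ne_zero {B C Cb : Type*} [CommRing B] [CommRing C] [CommRing Cb]
    [Nontrivial Cb] (inc : B →+* C) (incb : B →+* Cb) (hinc : Function.Injective inc)
    {p : ℕ} (hp : 2 ≤ p) (f1 : B) (g1 ginv pinv : Cb)
    (h1 : g1 * ginv = 1) (hpinv : pinv * p = 1) (g : B[X]) (hg : g = X ^ p - Polynomial.C f1)
    (y2 : AdjoinRoot g)
    (hy2 : AdjoinRoot.map incb g (g.map incb) dvd_rfl y2 =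
      AdjoinRoot.mk (g.map incb) (kumIdemPoly p ginv pinv)) :
    ∃ Y : C[X], Y.natDegree < p ∧ Y.coeff 1 ≠ 0 ∧
      AdjoinRoot.map inc g (g.map inc) dvd_rfl y2 = AdjoinRoot.mk (g.map inc) Y := by
  have hB : Nontrivial B := incb.domain_nontrivial
  have hp0 : p ≠ 0 := by omega
  have hgm : g.Monic := by rw [hg]; exact monic_X_pow_sub_C f1 hp0
  have hgd : g.natDegree = p := by rw [hg]; exact natDegree_X_pow_sub_C
  set Y2 : B[X] := AdjoinRoot.modByMonicHom hgm y2 with hY2
  have hy : y2 = AdjoinRoot.mk g Y2 := (AdjoinRoot.mk_leftInverse hgm y2).symm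
  have hY2d : Y2.natDegree < p := by
    obtain ⟨f, rfl⟩ := AdjoinRoot.mk_surjective y2
    rw [hY2, AdjoinRoot.modByMonicHom_mk, ← hgd]
    apply natDegree_modByMonic_lt f hgm
    intro h
    rw [h, natDegree_one] at hgd
    omega
  refine ⟨Y2.map inc, lt_of_le_of_lt natDegree_map_le hY2d, ?_, ?_⟩
  · rw [coeff_map]
    intro h0
    have h2 : Y2.coeff 1 = 0 := hinc (by rw [h0, map_zero])
    rw [hy, kum_map_mk, AdjoinRoot.mk_eq_mk] at hy2
    have h3 : Y2.map incb - kumIdemPoly p ginv pinv = 0 := by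
      by_contra hne
      refine (hgm.map incb).not_dvd_of_natDegree_lt hne ?_ hy2
      rw [hgm.natDegree_map, hgd]
      exact lt_of_le_of_lt (natDegree_sub_le _ _)
        (max_lt (lt_of_le_of_lt natDegree_map_le hY2d) (kumIdemPoly_natDegree_lt hp0 _ _))
    have h4 := congrArg (fun P => P.coeff 1) h3
    simp only [coeff_sub, coeff_map, h2, map_zero, kumIdemPoly_coeff, coeff_zero] at h4
    rw [if_pos (by omega), pow_one, zero_sub, neg_eq_zero] at h4
    have h5 : (1 : Cb) = 0 := by
      calc (1 : Cb) = (pinv * p) * (g1 * ginv) := by rw [hpinv, h1, one_mul]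
        _ = (pinv * ginv) * (p * g1) := by ring
        _ = 0 := by rw [h4, zero_mul]
    exact one_ne_zero h5
  · rw [hy, kum_map_mk]

end idem

end Fermat.Agent.S18
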