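import Fermat.Agent.S18.Tame

/-!
# S18, plan Z: nondegeneracy of trace forms of towers of `AdjoinRoot`s (N1), (N2)
-/

set_option autoImplicit false

namespace Fermat.Agent.S18

open Polynomial Module

section N0

variable {K0 E Om ι : Type*} [Field K0] [CommRing E] [Algebra K0 E] [Field Om] [Fintype ι]
  [DecidableEq ι]

/-- (N0) as many distinct homs into a field as the rank ⇒ the trace form is nondegenerate. -/
theorem nondeg_of_emb (b : Basis ι K0 E) {φ : K0 →+* Om} {σ : ι → E →+* Om}
    (hσ : Function.Injective σ) (hφ : ∀ i c, σ i (algebraMap K0 E c) = φ c) :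
    (Algebra.traceForm K0 E).Nondegenerate := by
  apply LinearMap.BilinForm.nondegenerate_of_det_ne_zero (b := b)
  have key : φ.mapMatrix (LinearMap.BilinForm.toMatrix b (Algebra.traceForm K0 E))
      = (Tame.Vm b σ).transpose * Tame.Vm b σ := by
    ext i j
    rw [RingHom.mapMatrix_apply, Matrix.map_apply, LinearMap.BilinForm.toMatrix_apply,
      Algebra.traceForm_apply, Tame.trace_map_eq b hσ hφ, Matrix.mul_apply]
    refine Finset.sum_congr rfl fun k _ => ?_
    rw [map_mul]
    rfl
  intro h0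
  have h1 := congrArg Matrix.det key
  rw [← RingHom.map_det, h0, map_zero, Matrix.det_mul, Matrix.det_transpose] at h1
  have hu : IsUnit (Tame.Vm b σ).det :=
    (Matrix.isUnit_iff_isUnit_det _).1 (Tame.isUnit_Vm b hσ hφ)
  exact (mul_ne_zero hu.ne_zero hu.ne_zero) h1.symm

end N0

/-- a full family of homs into `Om` -/
def FullEmb {K0 E Om : Type*} [Field K0] [CommRing E] [Algebra K0 E] [Field Om]
    (φ : K0 →+* Om) (ι : Type*) : Prop :=
  Nonempty (Basis ι K0 E) ∧
    ∃ σ : ι → E →+* Om, Function.Injective σ ∧ ∀ i c, σ i (algebraMap K0 E c) = φ c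

theorem FullEmb.nondeg {K0 E Om ι : Type*} [Field K0] [CommRing E] [Algebra K0 E] [Field Om]
    [Finite ι] {φ : K0 →+* Om} (h : FullEmb (E := E) φ ι) :
    (Algebra.traceForm K0 E).Nondegenerate := by
  classical
  cases nonempty_fintype ι
  obtain ⟨⟨b⟩, σ, hσ, hφ⟩ := h
  exact nondeg_of_emb b hσ hφ

theorem fullEmb_self {K0 Om : Type*} [Field K0] [Field Om] (φ : K0 →+* Om) :
    FullEmb (E := K0) φ Unit :=
  ⟨⟨Basis.singleton Unit K0⟩, fun _ => φ, fun _ _ _ => rfl, fun _ _ => rfl⟩

/-- enumeration of the roots of a separable polynomial over an algebraically closed field -/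
theorem exists_roots_enum {Om : Type*} [Field Om] [IsAlgClosed Om] (q : Om[X]) (hs : q.Separable) :
    ∃ α : Fin q.natDegree → Om, Function.Injective α ∧ ∀ i, q.eval (α i) = 0 := by
  classical
  have hq0 : q ≠ 0 := hs.ne_zero
  have hcard : q.roots.toFinset.card = q.natDegree := by
    rw [Multiset.toFinset_card_of_nodup (nodup_roots hs)]
    exact (splits_iff_card_roots.1 (IsAlgClosed.splits q))
  let e := Finset.equivFinOfCardEq hcard
  refine ⟨fun i => (e.symm i : Om), fun i j hij => ?_, fun i => ?_⟩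
  · exact e.symm.injective (Subtype.ext hij)
  · have := (e.symm i).2
    rw [Multiset.mem_toFinset, mem_roots hq0] at this
    exact this

/-- the layer lemma -/
theorem FullEmb.layer {K0 C Om ι : Type*} [Field K0] [CommRing C] [Algebra K0 C] [Field Om]
    [IsAlgClosed Om] {φ : K0 →+* Om} (h : FullEmb (E := C) φ ι) (q : C[X]) (hq : q.Monic)
    (hsep : ∀ σ : C →+* Om, (q.map σ).Separable) :
    FullEmb (E := AdjoinRoot q) φ (ι × Fin q.natDegree) := by
  classical
  obtain ⟨⟨b⟩, σ, hσ, hφ⟩ := h
  refine ⟨⟨b.smulTower (AdjoinRoot.powerBasis' hq).basis⟩, ?_⟩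
  have hdeg : ∀ i, (q.map (σ i)).natDegree = q.natDegree := fun i => hq.natDegree_map (σ i)
  choose α hαinj hαroot using fun i => exists_roots_enum (q.map (σ i)) (hsep (σ i))
  have hroot : ∀ (i : ι) (k : Fin q.natDegree),
      q.eval₂ (σ i) (α i (Fin.cast (hdeg i).symm k)) = 0 := by
    intro i k
    rw [← eval_map]
    exact hαroot i _
  refine ⟨fun ik => AdjoinRoot.lift (σ ik.1) _ (hroot ik.1 ik.2), ?_, ?_⟩
  · rintro ⟨i, k⟩ ⟨i', k'⟩ hEq
    have h1 : σ i = σ i' := by
      ext c
      have := congrArg (fun f : AdjoinRoot q →+* Om => f (AdjoinRoot.of q c)) hEq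
      simpa using this
    have hi : i = i' := hσ h1
    subst hi
    have h2 := congrArg (fun f : AdjoinRoot q →+* Om => f (AdjoinRoot.root q)) hEq
    simp only [AdjoinRoot.lift_root] at h2
    have h3 := hαinj i h2
    have : k = k' := by
      have := congrArg (Fin.cast (hdeg i)) h3
      simpa using this
    rw [this]
  · rintro ⟨i, k⟩ c
    have : algebraMap K0 (AdjoinRoot q) c = AdjoinRoot.of q (algebraMap K0 C c) := rfl
    rw [this, AdjoinRoot.lift_of, hφ]

/-- Kummer layer -/
theorem FullEmb.kummer {K0 D Om ι : Type*} [Field K0] [CommRing D] [Algebra K0 D] [Field Om]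
    [IsAlgClosed Om] {φ : K0 →+* Om} (h : FullEmb (E := D) φ ι) (q : D[X]) (p : ℕ)
    (hp : (p : K0) ≠ 0) (c : D) (hc : IsUnit c) (hq : q = X ^ p - C c) :
    FullEmb (E := AdjoinRoot q) φ (ι × Fin q.natDegree) := by
  have hp0 : p ≠ 0 := by
    rintro rfl
    simp at hp
  subst hq
  refine h.layer _ (monic_X_pow_sub_C c hp0) fun σ => ?_
  have e : (X ^ p - C c : D[X]).map σ = X ^ p - C (σ c) := by simp
  rw [e]
  refine separable_X_pow_sub_C _ ?_ (hc.map σ).ne_zero
  have hu : IsUnit ((p : K0)) := isUnit_iff_ne_zero.2 hp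
  have h2 : IsUnit (σ (algebraMap K0 D (p : K0))) := (hu.map (algebraMap K0 D)).map σ
  rw [map_natCast, map_natCast] at h2
  exact h2.ne_zero

/-- (N1) -/
theorem nondeg_adjoinRoot {K : Type*} [Field K] (g : K[X]) (hg : g.Monic) (hs : g.Separable) :
    (Algebra.traceForm K (AdjoinRoot g)).Nondegenerate :=
  ((fullEmb_self (algebraMap K (AlgebraicClosure K))).layer g hg fun _ => hs.map).nondeg

/-- (N2) for the two-layer tower `K ⊆ K[x]/(g) ⊆ K[x]/(g)[γ]/(γ^p - c)`. -/
theorem nondeg_adjoinRoot_kummer {K : Type*} [Field K] (g : K[X]) (hg : g.Monic)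
    (hs : g.Separable) (q : (AdjoinRoot g)[X]) (p : ℕ) (hp : (p : K) ≠ 0) (c : AdjoinRoot g)
    (hc : IsUnit c) (hq : q = X ^ p - C c) :
    (Algebra.traceForm K (AdjoinRoot q)).Nondegenerate :=
  (((fullEmb_self (algebraMap K (AlgebraicClosure K))).layer g hg fun _ => hs.map).kummer
    q p hp c hc hq).nondeg

/-- a ring with nondegenerate trace form over a field is reduced -/
theorem isReduced_of_nondeg {K E : Type*} [Field K] [CommRing E] [Algebra K E]
    (h : (Algebra.traceForm K E).Nondegenerate) : IsReduced E := by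
  constructor
  intro x hx
  apply h.1 x
  intro y
  rw [Algebra.traceForm_apply]
  have hn : IsNilpotent (x * y) := (Commute.all x y).isNilpotent_mul_right hx
  have h2 : IsNilpotent (Algebra.lmul K E (x * y)) := hn.map (Algebra.lmul K E)
  exact (LinearMap.isNilpotent_trace_of_isNilpotent h2).eq_zero

end Fermat.Agent.S18
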