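import Fermat.Agent.S18.Core
import Fermat.Agent.S18.Nondeg
import Fermat.Agent.S18.Kummer

/-!
# S18 plan Z: the abstract core, second form
-/

set_option autoImplicit false

namespace Fermat.Agent.S18

open Polynomial Module

theorem core2_idem {F' : Type*} [CommRing F'] [Nontrivial F'] (p : ℕ) (hp : 2 ≤ p) (u : F')
    (hu : (p : F') * u = 1) (f g g' : F') (hg : f = g ^ p) (hgg' : g * g' = 1)
    (q : F'[X]) (hq : q = X ^ p - C f) (hqm : q.Monic) :
    ∃ e : AdjoinRoot q, e * e = e ∧ (AdjoinRoot.modByMonicHom hqm e).coeff 1 ≠ 0 := by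
  refine ⟨AdjoinRoot.mk q (kumIdemPoly p g' u),
    kumIdem_mul_self g g' u hgg' (by rw [mul_comm]; exact hu) q (by rw [hq, hg]), ?_⟩
  have hdeg : q.natDegree = p := by rw [hq, natDegree_X_pow_sub_C]
  rw [AdjoinRoot.modByMonicHom_mk, (modByMonic_eq_self_iff hqm).2 (by
    apply degree_lt_degree
    rw [hdeg]
    exact kumIdemPoly_natDegree_lt (by omega) g' u), kumIdemPoly_coeff, if_pos (by omega), pow_one]
  intro h0
  have : (1 : F') = 0 := by
    calc (1 : F') = ((p : F') * u) * (g * g') := by rw [hu, hgg', one_mul]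
      _ = (p : F') * g * (u * g') := by ring
      _ = 0 := by rw [h0, mul_zero]
  exact one_ne_zero this

variable {L : Type*} [Field L] (A : ValuationSubring L)

theorem core_step2 [IsAlgClosed L] (hA : IsRankOne A)
    (Φτ : (OV A)[X]) (hΦ : Φτ.Monic) (ψ : ℕ) (hψ : Φτ.natDegree = ψ)
    (hψ0 : ψ ≠ 0) (p : ℕ) (hp : p.Prime) (f1 : B1 A Φτ)
    (hsep : (Φτ.map (OV A).subtype).Separable) (hsepb : (Φτ.map (redV A)).Separable)
    (hpL : (p : L) ≠ 0) (hpk : (p : Kres A) ≠ 0)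
    (f1' : B1 A Φτ) (hf1 : f1 * f1' = 1) (g1 : FFb A Φτ) (hg1 : incb1 A Φτ f1 = g1 ^ p)
    (P P' : (↥A)[X])
    (sqfree : Squarefree (P.map (IsLocalRing.residue A)))
    (sqfree' : Squarefree (P'.map (IsLocalRing.residue A)))
    (M : ℕ) (M_pos : 0 < M)
    (G3 : ∀ h : EE A Φτ p f1, InDual (Rtau L) (RatFunc L) (EE A Φτ p f1) h →
      ∃ u : EE A Φτ p f1, IsIntegral (Rtau L) u ∧ (polTau A P • h) ^ M = polTau A P • u)
    (G3' : ∀ h : EE A Φτ p f1, InDual (Rs L) (RatFunc L) (EE A Φτ p f1) h →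
      ∃ u : EE A Φτ p f1, IsIntegral (Rs L) u ∧ (polS A P' • h) ^ M = polS A P' • u) :
    ∃ m : Ideal (FF A Φτ), m.IsMaximal ∧
      ∃ z : FF A Φτ ⧸ m, z ^ p = Ideal.Quotient.mk m (inc1 A Φτ f1) := by
  classical
  have : Nontrivial (FF A Φτ) := AdjoinRoot.nontrivial _ (by
    rw [Polynomial.degree_eq_natDegree (hΦ.map _).ne_zero, hΦ.natDegree_map, hψ]
    exact_mod_cast hψ0)
  have : Nontrivial (FFb A Φτ) := AdjoinRoot.nontrivial _ (by
    rw [Polynomial.degree_eq_natDegree (hΦ.map _).ne_zero, hΦ.natDegree_map, hψ]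
    exact_mod_cast hψ0)
  have : Module.Finite (RatFunc L) (FF A Φτ) :=
    Module.Finite.of_basis (model1 A Φτ hΦ ψ hψ).b
  have : Module.Finite (RatFunc (Kres A)) (FFb A Φτ) :=
    Module.Finite.of_basis (model1 A Φτ hΦ ψ hψ).bb
  have hpL' : ((p : ℕ) : RatFunc L) ≠ 0 := by
    rw [← map_natCast (RatFunc.C : L →+* RatFunc L)]
    exact (_root_.map_ne_zero _).2 hpL
  have hpk' : ((p : ℕ) : RatFunc (Kres A)) ≠ 0 := by
    rw [← map_natCast (RatFunc.C : Kres A →+* RatFunc (Kres A))]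
    exact (_root_.map_ne_zero _).2 hpk
  have nondeg : (Algebra.traceForm (RatFunc L) (EE A Φτ p f1)).Nondegenerate :=
    nondeg_adjoinRoot_kummer _ (hΦ.map _) hsep _ p hpL' (inc1 A Φτ f1)
      (IsUnit.of_mul_eq_one (inc1 A Φτ f1') (by rw [← map_mul, hf1, map_one]))
      (kumPoly_map_inc1 A Φτ p f1)
  have nondegb : (Algebra.traceForm (RatFunc (Kres A)) (EEb A Φτ p f1)).Nondegenerate :=
    nondeg_adjoinRoot_kummer _ (hΦ.map _) hsepb _ p hpk' (incb1 A Φτ f1)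
      (IsUnit.of_mul_eq_one (incb1 A Φτ f1') (by rw [← map_mul, hf1, map_one]))
      (kumPoly_map_incb1 A Φτ p f1)
  have hqm : ((kumPoly A Φτ p f1).map (incb1 A Φτ)).Monic :=
    (kumPoly_monic A Φτ hp.ne_zero f1).map _
  obtain ⟨e, he, hec⟩ := core2_idem p hp.two_le
    (algebraMap (RatFunc (Kres A)) (FFb A Φτ) ((p : RatFunc (Kres A)))⁻¹)
    (by rw [← map_natCast (algebraMap (RatFunc (Kres A)) (FFb A Φτ)), ← map_mul,
      mul_inv_cancel₀ hpk', map_one])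
    (incb1 A Φτ f1) g1 (g1 ^ (p - 1) * incb1 A Φτ f1') hg1
    (by rw [← mul_assoc, ← pow_succ', Nat.sub_add_cancel hp.one_le, ← hg1, ← map_mul, hf1,
      map_one]) _ (kumPoly_map_incb1 A Φτ p f1) hqm
  refine core_step A hA Φτ hΦ ψ hψ hψ0 p hp f1 hsep nondeg nondegb P P' sqfree sqfree' M M_pos
    G3 G3' e he ?_
  by_contra hcon
  push Not at hcon
  apply hec
  apply (model1 A Φτ hΦ ψ hψ).bb.repr.injective
  ext i
  have h1 := hcon i ⟨1, hp.one_lt⟩ one_ne_zero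
  have h2 : (model2 A Φτ hΦ ψ hψ hψ0 p hp.ne_zero f1).bb.repr e (i, ⟨1, hp.one_lt⟩) =
      (model1 A Φτ hΦ ψ hψ).bb.repr ((AdjoinRoot.modByMonicHom hqm e).coeff 1) i :=
    Model.adjoin_bb_repr _ _ _ _ _ _ _ _
  rw [← h2, h1]
  simp

end Fermat.Agent.S18
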