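import Fermat.Agent.S18.Core
import Fermat.Agent.S18.Nondeg
import Fermat.Agent.S18.Kummer

/-!
# S18 plan Z: the hypotheses `nondeg`, `nondegb`, `e`, `he`, `hcoord` of `core_step`
-/

set_option autoImplicit false

namespace Fermat.Agent.S18

open Polynomial Module

variable {L : Type*} [Field L] (A : ValuationSubring L)

theorem core_nondeg [CharZero L] (Φτ : (OV A)[X]) (hΦ : Φτ.Monic)
    (hsep : (Φτ.map (OV A).subtype).Separable) (p : ℕ) (hp : p ≠ 0) (f1 f1' : B1 A Φτ)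
    (hff : f1 * f1' = 1) :
    (Algebra.traceForm (RatFunc L) (EE A Φτ p f1)).Nondegenerate := by
  have hchar : CharZero (RatFunc L) :=
    charZero_of_injective_algebraMap (algebraMap L (RatFunc L)).injective
  refine nondeg_adjoinRoot_kummer _ (hΦ.map _) hsep _ p (by exact_mod_cast hp) (inc1 A Φτ f1)
    ?_ (kumPoly_map_inc1 A Φτ p f1)
  exact IsUnit.of_mul_eq_one (inc1 A Φτ f1') (by rw [← map_mul, hff, map_one])

theorem core_nondegb (Φτ : (OV A)[X]) (hΦ : Φτ.Monic)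
    (hsepb : (Φτ.map (redV A)).Separable) (p : ℕ) (hpk : (p : Kres A) ≠ 0) (f1 f1' : B1 A Φτ)
    (hff : f1 * f1' = 1) :
    (Algebra.traceForm (RatFunc (Kres A)) (EEb A Φτ p f1)).Nondegenerate := by
  have hp' : (p : RatFunc (Kres A)) ≠ 0 := by
    intro h
    apply hpk
    apply (algebraMap (Kres A) (RatFunc (Kres A))).injective
    rw [map_natCast, h, map_zero]
  refine nondeg_adjoinRoot_kummer _ (hΦ.map _) hsepb _ p hp' (incb1 A Φτ f1)
    ?_ (kumPoly_map_incb1 A Φτ p f1)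
  exact IsUnit.of_mul_eq_one (incb1 A Φτ f1') (by rw [← map_mul, hff, map_one])

theorem core_idem (Φτ : (OV A)[X]) (hΦ : Φτ.Monic) (ψ : ℕ) (hψ : Φτ.natDegree = ψ)
    (hψ0 : ψ ≠ 0) (p : ℕ) (hp : p.Prime) (f1 : B1 A Φτ) (hpk : (p : Kres A) ≠ 0)
    (g1 ginv : FFb A Φτ) (hg1 : incb1 A Φτ f1 = g1 ^ p) (h1 : g1 * ginv = 1) :
    ∃ e : EEb A Φτ p f1, e * e = e ∧ ∃ (i : Unit × Fin ψ) (l : Fin p), (l : ℕ) ≠ 0 ∧
      (model2 A Φτ hΦ ψ hψ hψ0 p hp.ne_zero f1).bb.repr e (i, l) ≠ 0 := by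
  classical
  have hp' : (p : RatFunc (Kres A)) ≠ 0 := by
    intro h
    apply hpk
    apply (algebraMap (Kres A) (RatFunc (Kres A))).injective
    rw [map_natCast, h, map_zero]
  have : Nontrivial (FF A Φτ) := AdjoinRoot.nontrivial _ (by
    rw [Polynomial.degree_eq_natDegree (hΦ.map _).ne_zero, hΦ.natDegree_map, hψ]
    exact_mod_cast hψ0)
  have : Nontrivial (FFb A Φτ) := AdjoinRoot.nontrivial _ (by
    rw [Polynomial.degree_eq_natDegree (hΦ.map _).ne_zero, hΦ.natDegree_map, hψ]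
    exact_mod_cast hψ0)
  set pinv : FFb A Φτ := AdjoinRoot.of _ ((p : RatFunc (Kres A))⁻¹) with hpinv_def
  have hpinv : pinv * p = 1 := by
    rw [hpinv_def, ← map_natCast (AdjoinRoot.of (Φτ.map (redV A))) p, ← map_mul,
      inv_mul_cancel₀ hp', map_one]
  have hq : ((kumPoly A Φτ p f1).map (incb1 A Φτ)).Monic :=
    (kumPoly_monic A Φτ hp.ne_zero f1).map _
  have hqdeg : ((kumPoly A Φτ p f1).map (incb1 A Φτ)).natDegree = p := by
    rw [kumPoly_map_incb1, natDegree_X_pow_sub_C]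
  refine ⟨AdjoinRoot.mk _ (kumIdemPoly p ginv pinv),
    kumIdem_mul_self g1 ginv pinv h1 hpinv _ (by rw [kumPoly_map_incb1, hg1]), ?_⟩
  have hmod : AdjoinRoot.modByMonicHom hq (AdjoinRoot.mk _ (kumIdemPoly p ginv pinv)) =
      kumIdemPoly p ginv pinv := by
    rw [AdjoinRoot.modByMonicHom_mk, Polynomial.modByMonic_eq_self_iff hq]
    rw [Polynomial.degree_eq_natDegree hq.ne_zero, hqdeg]
    exact lt_of_le_of_lt Polynomial.degree_le_natDegree
      (by exact_mod_cast kumIdemPoly_natDegree_lt hp.ne_zero ginv pinv)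
  have hc : (kumIdemPoly p ginv pinv).coeff 1 ≠ 0 := by
    rw [kumIdemPoly_coeff, if_pos hp.one_lt, pow_one]
    have hu : IsUnit (pinv * ginv) :=
      (IsUnit.of_mul_eq_one _ hpinv).mul (IsUnit.of_mul_eq_one g1 (by rw [mul_comm]; exact h1))
    exact hu.ne_zero
  have hex : ∃ i, (model1 A Φτ hΦ ψ hψ).bb.repr ((kumIdemPoly p ginv pinv).coeff 1) i ≠ 0 := by
    by_contra hcon
    push Not at hcon
    apply hc
    apply (model1 A Φτ hΦ ψ hψ).bb.repr.injective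
    rw [map_zero]
    exact Finsupp.ext hcon
  obtain ⟨i, hi⟩ := hex
  refine ⟨i, ⟨1, hp.one_lt⟩, one_ne_zero, ?_⟩
  have hrepr : (model2 A Φτ hΦ ψ hψ hψ0 p hp.ne_zero f1).bb.repr
      (AdjoinRoot.mk _ (kumIdemPoly p ginv pinv)) (i, ⟨1, hp.one_lt⟩) =
      (model1 A Φτ hΦ ψ hψ).bb.repr ((AdjoinRoot.modByMonicHom hq
        (AdjoinRoot.mk _ (kumIdemPoly p ginv pinv))).coeff 1) i :=
    Model.adjoin_bb_repr _ _ _ _ _ _ _ _
  rw [hrepr, hmod]
  exact hi

end Fermat.Agent.S18
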