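import Mathlib

/-!
# S18, plan Z, step (5): descent of `p`-th powers along the base lines

Standalone field theory.
-/

set_option autoImplicit false

namespace Fermat.Agent.S18

open Polynomial IntermediateField

section General

variable {K K' : Type*} [Field K] [Field K'] [Algebra K K']

/-- Norm descent: if `[K' : K]` is prime to `p` and `f ∈ K` is a `p`-th power in `K'`, then it is
a `p`-th power in `K`. -/
theorem exists_pow_eq_of_coprime_finrank [FiniteDimensional K K'] {p : ℕ} (hp : p ≠ 0)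
    (hcop : (Module.finrank K K').Coprime p) {f : K} {y : K'}
    (hy : y ^ p = algebraMap K K' f) : ∃ y0 : K, y0 ^ p = f := by
  classical
  by_cases hf : f = 0
  · subst hf
    exact ⟨0, zero_pow hp⟩
  set d := Module.finrank K K' with hd
  have hN : (Algebra.norm K y) ^ p = f ^ d := by
    rw [← map_pow, hy, Algebra.norm_algebraMap]
  have hbez : (d : ℤ) * Nat.gcdA d p + (p : ℤ) * Nat.gcdB d p = 1 := by
    have := Nat.gcd_eq_gcd_ab d p
    rw [hcop.gcd_eq_one] at this
    exact_mod_cast this.symm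
  refine ⟨(Algebra.norm K y) ^ (Nat.gcdA d p) * f ^ (Nat.gcdB d p), ?_⟩
  calc ((Algebra.norm K y) ^ (Nat.gcdA d p) * f ^ (Nat.gcdB d p)) ^ p
      = ((Algebra.norm K y) ^ p) ^ (Nat.gcdA d p) * f ^ ((p : ℤ) * Nat.gcdB d p) := by
        rw [mul_pow, ← zpow_natCast, ← zpow_mul, ← zpow_natCast (f ^ _), ← zpow_mul,
          ← zpow_natCast (Algebra.norm K y), ← zpow_mul, mul_comm (Nat.gcdA d p) (p : ℤ),
          mul_comm (Nat.gcdB d p) (p : ℤ)]
    _ = f ^ ((d : ℤ) * Nat.gcdA d p + (p : ℤ) * Nat.gcdB d p) := by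
        rw [hN, zpow_add₀ hf, zpow_mul f (d : ℤ), zpow_natCast]
    _ = f := by rw [hbez, zpow_one]

/-- Norm descent along a simple extension. -/
theorem exists_pow_eq_of_mem_adjoin {θ : K'} (hθ : IsIntegral K θ) {p : ℕ} (hp : p ≠ 0)
    (hcop : (minpoly K θ).natDegree.Coprime p) {f : K} {y : K'} (hyθ : y ∈ K⟮θ⟯)
    (hy : y ^ p = algebraMap K K' f) : ∃ y0 : K, y0 ^ p = f := by
  have : FiniteDimensional K K⟮θ⟯ := adjoin.finiteDimensional hθ
  refine exists_pow_eq_of_coprime_finrank (K' := K⟮θ⟯) hp ?_ (y := ⟨y, hyθ⟩) ?_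
  · rwa [adjoin.finrank hθ]
  · apply Subtype.ext
    simpa using hy

/-- A root of a monic polynomial of degree `< p` generates an extension of degree prime to `p`. -/
theorem minpoly_natDegree_coprime_of_lt {θ : K'} {q : K[X]} (hq : q.Monic)
    (hroot : aeval θ q = 0) {p : ℕ} (hp : p.Prime) (hlt : q.natDegree < p) :
    IsIntegral K θ ∧ (minpoly K θ).natDegree.Coprime p := by
  have hint : IsIntegral K θ := ⟨q, hq, by simpa [aeval_def] using hroot⟩
  refine ⟨hint, ?_⟩
  have h1 : 0 < (minpoly K θ).natDegree := minpoly.natDegree_pos hint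
  have h2 : (minpoly K θ).natDegree ≤ q.natDegree :=
    natDegree_le_natDegree (minpoly.min K θ hq hroot)
  exact (Nat.coprime_of_lt_prime h1.ne' (lt_of_le_of_lt h2 hlt) hp).symm

/-- every element of `K(θ)`, `θ` a root of a monic polynomial `q`, is `r(θ)` with `deg r < deg q`. -/
theorem exists_aeval_eq_of_mem_adjoin {θ : K'} {q : K[X]} (hq : q.Monic) (hq1 : q ≠ 1)
    (hroot : aeval θ q = 0) {y : K'} (hy : y ∈ K⟮θ⟯) :
    ∃ r : K[X], r.natDegree < q.natDegree ∧ aeval θ r = y := by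
  have hint : IsIntegral K θ := ⟨q, hq, by simpa [aeval_def] using hroot⟩
  have hy' : y ∈ (K⟮θ⟯).toSubalgebra := hy
  rw [adjoin_simple_toSubalgebra_of_isAlgebraic hint.isAlgebraic,
    Algebra.adjoin_singleton_eq_range_aeval] at hy'
  obtain ⟨g, rfl⟩ := hy'
  refine ⟨g %ₘ q, natDegree_modByMonic_lt g hq hq1, ?_⟩
  conv_rhs => rw [← modByMonic_add_div g q]
  simp [hroot]

theorem exists_eq_add_mul_of_mem_adjoin_sq {δ : K'} {c : K} (hδ : δ ^ 2 = algebraMap K K' c)
    {y : K'} (hy : y ∈ K⟮δ⟯) :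
    ∃ a b : K, y = algebraMap K K' a + algebraMap K K' b * δ := by
  have hmon : (X ^ 2 - C c : K[X]).Monic := monic_X_pow_sub_C c two_ne_zero
  have hdeg : (X ^ 2 - C c : K[X]).natDegree = 2 := natDegree_X_pow_sub_C
  obtain ⟨r, hr, rfl⟩ := exists_aeval_eq_of_mem_adjoin hmon
    (fun h => by rw [h] at hdeg; simp at hdeg) (by simp [hδ]) hy
  rw [hdeg] at hr
  refine ⟨r.coeff 0, r.coeff 1, ?_⟩
  rw [aeval_eq_sum_range' hr]
  simp [Finset.sum_range_succ, Algebra.smul_def]

theorem exists_eq_add_mul_of_mem_adjoin_cube {γ : K'} {c : K} (hγ : γ ^ 3 = algebraMap K K' c)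
    {y : K'} (hy : y ∈ K⟮γ⟯) :
    ∃ a b e : K, y = algebraMap K K' a + algebraMap K K' b * γ + algebraMap K K' e * γ ^ 2 := by
  have hmon : (X ^ 3 - C c : K[X]).Monic := monic_X_pow_sub_C c three_ne_zero
  have hdeg : (X ^ 3 - C c : K[X]).natDegree = 3 := natDegree_X_pow_sub_C
  obtain ⟨r, hr, rfl⟩ := exists_aeval_eq_of_mem_adjoin hmon
    (fun h => by rw [h] at hdeg; simp at hdeg) (by simp [hγ]) hy
  rw [hdeg] at hr
  refine ⟨r.coeff 0, r.coeff 1, r.coeff 2, ?_⟩
  rw [aeval_eq_sum_range' hr]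
  simp [Finset.sum_range_succ, Algebra.smul_def]

/-- Kummer descent, `p = 2`. -/
theorem sq_descent (h2 : (2 : K) ≠ 0) {δ : K'} {c : K} (hδ : δ ^ 2 = algebraMap K K' c)
    {f : K} {y : K'} (hyδ : y ∈ K⟮δ⟯) (hy : y ^ 2 = algebraMap K K' f) :
    (∃ a : K, a ^ 2 = f) ∨ (∃ b : K, b ^ 2 * c = f) := by
  obtain ⟨a, b, rfl⟩ := exists_eq_add_mul_of_mem_adjoin_sq hδ hyδ
  have hinj := (algebraMap K K').injective
  have key : algebraMap K K' (2 * a * b) * δ = algebraMap K K' (f - a ^ 2 - b ^ 2 * c) := by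
    simp only [map_mul, map_sub, map_pow, map_ofNat]
    linear_combination hy - (algebraMap K K' b) ^ 2 * hδ
  by_cases hab : a * b = 0
  · rcases mul_eq_zero.1 hab with rfl | rfl
    · right
      refine ⟨b, hinj ?_⟩
      rw [map_zero, zero_add] at hy
      simp only [map_mul, map_pow]
      linear_combination (algebraMap K K' b) ^ 2 * (-hδ) + hy
    · left
      refine ⟨a, hinj ?_⟩
      simpa using hy
  · left
    have h2ab : (2 * a * b : K) ≠ 0 := by
      rw [mul_assoc]; exact mul_ne_zero h2 hab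
    have hδK : δ = algebraMap K K' ((f - a ^ 2 - b ^ 2 * c) / (2 * a * b)) := by
      rw [map_div₀, ← key, mul_div_cancel_left₀]
      exact fun h => h2ab (hinj (by simpa using h))
    refine ⟨a + b * ((f - a ^ 2 - b ^ 2 * c) / (2 * a * b)), hinj ?_⟩
    rw [← hy, hδK]
    simp only [map_pow, map_add, map_mul]

/-- Kummer descent, `p = 3`. -/
theorem cube_descent (h3 : (3 : K) ≠ 0) (hω : ∃ ω : K, ω ^ 2 + ω + 1 = 0) {γ : K'} {c : K}
    (hγ : γ ^ 3 = algebraMap K K' c) {f : K} {y : K'} (hyγ : y ∈ K⟮γ⟯)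
    (hy : y ^ 3 = algebraMap K K' f) :
    (∃ a : K, a ^ 3 = f) ∨ (∃ b : K, b ^ 3 * c = f) ∨ (∃ b : K, b ^ 3 * c ^ 2 = f) := by
  obtain ⟨a, b, e, rfl⟩ := exists_eq_add_mul_of_mem_adjoin_cube hγ hyγ
  have hinj := (algebraMap K K').injective
  set φ := algebraMap K K' with hφ
  by_cases hcube : ∃ g : K, g ^ 3 = c
  · -- then `γ ∈ K`
    obtain ⟨g, rfl⟩ := hcube
    obtain ⟨ω, hω⟩ := hω
    have hprod : (γ - φ g) * (γ - φ (ω * g)) * (γ - φ (ω ^ 2 * g)) = 0 := by
      have hω' : φ ω ^ 2 + φ ω + 1 = 0 := by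
        rw [← map_pow, ← map_add, ← map_one φ, ← map_add, hω, map_zero]
      simp only [map_mul, map_pow] at hγ ⊢
      linear_combination hγ + (-γ ^ 2 * φ g + γ * φ g ^ 2 * φ ω  - φ g ^ 3 * (φ ω - 1)) * hω'
    have hγK : ∃ g' : K, γ = φ g' := by
      rcases mul_eq_zero.1 hprod with h | h
      · rcases mul_eq_zero.1 h with h | h
        · exact ⟨_, sub_eq_zero.1 h⟩
        · exact ⟨_, sub_eq_zero.1 h⟩
      · exact ⟨_, sub_eq_zero.1 h⟩
    obtain ⟨g', rfl⟩ := hγK
    left
    refine ⟨a + b * g' + e * g' ^ 2, hinj ?_⟩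
    rw [← hy]
    simp only [map_pow, map_add, map_mul]
  · push Not at hcube
    have hirr : Irreducible (X ^ 3 - C c : K[X]) :=
      X_pow_sub_C_irreducible_of_prime Nat.prime_three hcube
    have hmon : (X ^ 3 - C c : K[X]).Monic := monic_X_pow_sub_C c three_ne_zero
    have hmin : minpoly K γ = X ^ 3 - C c :=
      (minpoly.eq_of_irreducible_of_monic hirr (by simp [hγ, hφ]) hmon).symm
    -- expansion
    set A0 : K := a ^ 3 + b ^ 3 * c + e ^ 3 * c ^ 2 + 6 * a * b * e * c with hA0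
    set A1 : K := 3 * (a ^ 2 * b + c * b ^ 2 * e + c * a * e ^ 2) with hA1
    set A2 : K := 3 * (a ^ 2 * e + a * b ^ 2 + c * b * e ^ 2) with hA2
    have hexp : φ (A0 - f) + φ A1 * γ + φ A2 * γ ^ 2 = 0 := by
      simp only [hA0, hA1, hA2, map_sub, map_add, map_mul, map_pow, map_ofNat]
      linear_combination hy - (φ b ^ 3 + 6 * φ a * φ b * φ e
        + (3 * φ b ^ 2 * φ e + 3 * φ a * φ e ^ 2) * γ + 3 * φ b * φ e ^ 2 * γ ^ 2
        + φ e ^ 3 * (γ ^ 3 + φ c)) * hγ
    set Q : K[X] := C A2 * X ^ 2 + C A1 * X + C (A0 - f) with hQ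
    have hQroot : aeval γ Q = 0 := by
      simp only [hQ, map_add, map_mul, aeval_C, map_pow, aeval_X]
      linear_combination hexp
    have hQ0 : Q = 0 := by
      by_contra hne
      have hdvd := minpoly.dvd K γ hQroot
      have h1 := natDegree_le_of_dvd hdvd hne
      rw [hmin, natDegree_X_pow_sub_C] at h1
      have h2 : Q.natDegree ≤ 2 := natDegree_quadratic_le
      omega
    have hc2 : A2 = 0 := by
      have := congrArg (fun q => coeff q 2) hQ0
      simpa [hQ, coeff_X, coeff_C] using this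
    have hc1 : A1 = 0 := by
      have := congrArg (fun q => coeff q 1) hQ0
      simpa [hQ, coeff_X, coeff_C] using this
    have hc0 : A0 = f := by
      have := congrArg (fun q => coeff q 0) hQ0
      simpa [hQ, coeff_X, coeff_C, sub_eq_zero] using this
    have e1 : a ^ 2 * b + c * b ^ 2 * e + c * a * e ^ 2 = 0 :=
      (mul_eq_zero.1 hc1).resolve_left h3
    have e2 : a ^ 2 * e + a * b ^ 2 + c * b * e ^ 2 = 0 :=
      (mul_eq_zero.1 hc2).resolve_left h3
    have e3 : e * (c * b ^ 3 - a ^ 3) = 0 := by linear_combination b * e1 - a * e2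
    rcases mul_eq_zero.1 e3 with he | he
    · subst he
      have : a ^ 2 * b = 0 := by linear_combination e1
      rcases mul_eq_zero.1 this with ha | hb
      · have ha : a = 0 := by simpa using ha
        subst ha
        right; left
        exact ⟨b, by rw [← hc0, hA0]; ring⟩
      · subst hb
        left
        exact ⟨a, by rw [← hc0, hA0]; ring⟩
    · by_cases hb : b = 0
      · subst hb
        have ha : a = 0 := by
          have : a ^ 3 = 0 := by linear_combination -he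
          simpa using this
        subst ha
        right; right
        exact ⟨e, by rw [← hc0, hA0]; ring⟩
      · exfalso
        apply hcube (a / b)
        field_simp
        linear_combination -he

end General

section Lines

variable {K K' : Type*} [Field K] [Field K'] [Algebra K K']

/-- the cubic over `K(δ)` of the `λ`-line: its roots are Moebius images of each other, so the degree
of `τ` is not `2`. -/
theorem lambda_minpoly_natDegree [CharZero K] {τ : K'} {d : K}
    (hτ : 8 * (τ + 1) * (τ - 2) * (2 * τ - 1) = algebraMap K K' d * (τ * (1 - τ))) :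
    IsIntegral K τ ∧ ((minpoly K τ).natDegree = 1 ∨ (minpoly K τ).natDegree = 3) := by
  set φ := algebraMap K K' with hφ
  have hinj := (algebraMap K K').injective
  set cp : K[X] := C 16 * X ^ 3 + C (d - 24) * X ^ 2 + C (-(d + 24)) * X + C 16 with hcp
  have h16 : (16 : K) ≠ 0 := by norm_num
  have hdeg : cp.natDegree = 3 := natDegree_cubic h16
  have hcp0 : cp ≠ 0 := fun h => by rw [h] at hdeg; simp at hdeg
  have hroot : aeval τ cp = 0 := by
    simp only [hcp, map_add, map_mul, aeval_C, map_pow, aeval_X, map_sub, map_neg, map_ofNat]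
    linear_combination hτ
  have hint : IsIntegral K τ := (isAlgebraic_iff_isIntegral).1 ⟨cp, hcp0, hroot⟩
  refine ⟨hint, ?_⟩
  have hpos := minpoly.natDegree_pos hint
  obtain ⟨l, hl⟩ := minpoly.dvd K τ hroot
  have hm0 : minpoly K τ ≠ 0 := minpoly.ne_zero hint
  have hl0 : l ≠ 0 := fun h => hcp0 (by rw [hl, h, mul_zero])
  have hadd : 3 = (minpoly K τ).natDegree + l.natDegree := by
    rw [← hdeg, hl, natDegree_mul hm0 hl0]
  by_contra hcon
  push Not at hcon
  have h2 : (minpoly K τ).natDegree = 2 := by omega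
  have hl1 : l.degree = 1 := by
    rw [degree_eq_natDegree hl0]
    have : l.natDegree = 1 := by omega
    rw [this]; rfl
  obtain ⟨r, hr⟩ := exists_root_of_degree_eq_one hl1
  have hr' : eval r cp = 0 := by rw [hl, eval_mul, hr.eq_zero, mul_zero]
  have hr2 : 8 * (φ r + 1) * (φ r - 2) * (2 * φ r - 1) = φ d * (φ r * (1 - φ r)) := by
    have hK : 16 * r ^ 3 + (d - 24) * r ^ 2 + (-(d + 24)) * r + 16 = 0 := by
      have := hr'
      simp only [hcp, eval_add, eval_mul, eval_C, eval_pow, eval_X] at this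
      exact this
    have : φ (16 * r ^ 3 + (d - 24) * r ^ 2 + (-(d + 24)) * r + 16) = 0 := by rw [hK, map_zero]
    simp only [map_add, map_mul, map_pow, map_sub, map_neg, map_ofNat] at this
    linear_combination this
  have hfac : 16 * ((φ r - τ) * (φ r * (1 - τ) - 1) * (φ r * τ - τ + 1)) = 0 := by
    linear_combination (τ * (1 - τ)) * hr2 - (φ r * (1 - φ r)) * hτ
  have hchar : CharZero K' := charZero_of_injective_algebraMap hinj
  have h16' : (16 : K') ≠ 0 := by norm_num
  have hτK : τ ∈ (algebraMap K K').range := by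
    rcases mul_eq_zero.1 ((mul_eq_zero.1 hfac).resolve_left h16') with h | h
    · rcases mul_eq_zero.1 h with h | h
      · exact ⟨r, by linear_combination h⟩
      · have hr0' : φ r ≠ 0 := by
          intro h0
          rw [h0] at h
          simp at h
        have hτe : τ = 1 - (φ r)⁻¹ := by
          apply mul_left_cancel₀ hr0'
          rw [mul_sub, mul_one, mul_inv_cancel₀ hr0']
          linear_combination -h
        exact ⟨1 - r⁻¹, by rw [hτe, map_sub, map_one, map_inv₀]⟩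
    · have hτe : τ = (1 - φ r)⁻¹ := eq_inv_of_mul_eq_one_left (by linear_combination -h)
      exact ⟨(1 - r)⁻¹, by rw [hτe, map_inv₀, map_sub, map_one]⟩
  have := (minpoly.natDegree_eq_one_iff).2 hτK
  omega

end Lines

section Main

variable {F F' : Type*} [Field F] [Field F'] [Algebra F F']

/-- enlarging the base field -/
theorem mem_adjoin_of_mem_adjoin (E : IntermediateField F F') {τ y : F'} (hy : y ∈ F⟮τ⟯) :
    y ∈ (E : Type _)⟮τ⟯ := by
  have hle : F⟮τ⟯ ≤ ((E : Type _)⟮τ⟯).restrictScalars F := by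
    rw [adjoin_simple_le_iff]
    exact mem_adjoin_simple_self _ τ
  exact hle hy

theorem descent_lambda [CharZero F] {j : F} {τ : F'}
    (hτ : 256 * (τ ^ 2 - τ + 1) ^ 3 = algebraMap F F' j * (τ ^ 2 * (1 - τ) ^ 2))
    {p : ℕ} (hp : p.Prime) (hp3 : p ≠ 3) {f : F} {y : F'} (hyτ : y ∈ IntermediateField.adjoin F {τ})
    (hy : y ^ p = algebraMap F F' f) (h2 : p = 2 → ∀ b : F, b ^ 2 * (j - 1728) ≠ f) :
    ∃ y0 : F, y0 ^ p = f := by
  have hchar : CharZero F' := charZero_of_injective_algebraMap (algebraMap F F').injective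
  have hτ0 : τ ≠ 0 := by
    rintro rfl
    norm_num at hτ
  have hτ1 : 1 - τ ≠ 0 := by
    intro h
    have : τ = 1 := by linear_combination -h
    subst this
    norm_num at hτ
  set δ : F' := 8 * (τ + 1) * (τ - 2) * (2 * τ - 1) / (τ * (1 - τ)) with hδ
  have hδ2 : δ ^ 2 = algebraMap F F' (j - 1728) := by
    rw [hδ, map_sub, map_ofNat]
    field_simp
    linear_combination hτ
  set F1 : IntermediateField F F' := F⟮δ⟯ with hF1
  have hδmem : δ ∈ F1 := mem_adjoin_simple_self F δ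
  have hcub : 8 * (τ + 1) * (τ - 2) * (2 * τ - 1)
      = algebraMap F1 F' ⟨δ, hδmem⟩ * (τ * (1 - τ)) := by
    show _ = δ * _
    rw [hδ]
    field_simp
  obtain ⟨hint, hdeg⟩ := lambda_minpoly_natDegree (K := F1) hcub
  have hcop : (minpoly F1 τ).natDegree.Coprime p := by
    rcases hdeg with h | h
    · rw [h]; exact Nat.coprime_one_left p
    · rw [h]; exact (Nat.coprime_primes Nat.prime_three hp).2 (Ne.symm hp3)
  obtain ⟨y1, hy1⟩ := exists_pow_eq_of_mem_adjoin (K := F1) hint hp.ne_zero hcop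
    (f := algebraMap F F1 f) (mem_adjoin_of_mem_adjoin F1 hyτ) (by rw [hy]; rfl)
  have hy1' : (y1 : F') ^ p = algebraMap F F' f := by
    have := congrArg (fun z : F1 => (z : F')) hy1
    simpa using this
  by_cases hp2 : p = 2
  · subst hp2
    rcases sq_descent (by norm_num) hδ2 y1.2 hy1' with h | ⟨b, hb⟩
    · exact h
    · exact absurd hb (h2 rfl b)
  · have hlt : 2 < p := lt_of_le_of_ne hp.two_le (Ne.symm hp2)
    obtain ⟨hint2, hcop2⟩ := minpoly_natDegree_coprime_of_lt (K := F) (θ := δ)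
      (q := X ^ 2 - C (j - 1728)) (monic_X_pow_sub_C _ two_ne_zero) (by simp [hδ2]) hp
      (by rw [natDegree_X_pow_sub_C]; exact hlt)
    exact exists_pow_eq_of_mem_adjoin hint2 hp.ne_zero hcop2 y1.2 hy1'

theorem descent_mu [CharZero F] {j : F} {τ : F'}
    (hτ : 27 * τ ^ 3 * (τ ^ 3 + 8) ^ 3 = algebraMap F F' j * (τ ^ 3 - 1) ^ 3)
    (hω : ∃ ω : F, ω ^ 2 + ω + 1 = 0)
    {p : ℕ} (hp : p.Prime) (hp2 : p ≠ 2) {f : F} {y : F'} (hyτ : y ∈ IntermediateField.adjoin F {τ})
    (hy : y ^ p = algebraMap F F' f)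
    (h3 : p = 3 → ∀ b : F, b ^ 3 * j ≠ f ∧ b ^ 3 * j ^ 2 ≠ f) :
    ∃ y0 : F, y0 ^ p = f := by
  have hchar : CharZero F' := charZero_of_injective_algebraMap (algebraMap F F').injective
  have hlt2 : 2 < p := lt_of_le_of_ne hp.two_le (Ne.symm hp2)
  have hτ3 : τ ^ 3 - 1 ≠ 0 := by
    intro h
    have h1 : τ ^ 3 = 1 := by linear_combination h
    rw [h, h1] at hτ
    norm_num at hτ
  have hτ1 : τ - 1 ≠ 0 := by
    intro h
    apply hτ3
    have : τ = 1 := by linear_combination h
    rw [this]; norm_num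
  set γ : F' := 3 * τ * (τ ^ 3 + 8) / (τ ^ 3 - 1) with hγ
  set w : F' := (τ ^ 2 + 2) / (τ - 1) with hw
  have hγ3 : γ ^ 3 = algebraMap F F' j := by
    rw [hγ]
    field_simp
    linear_combination hτ
  have hτw : τ ^ 2 - w * τ + (w + 2) = 0 := by
    rw [hw]
    field_simp
    ring
  have hwγ : w ^ 2 - (γ / 3) * w - (4 + γ / 3) = 0 := by
    rw [hw, hγ]
    field_simp
    ring
  set F1 : IntermediateField F F' := F⟮γ⟯ with hF1
  have hγmem : γ ∈ F1 := mem_adjoin_simple_self F γ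
  set γ1 : F1 := ⟨γ, hγmem⟩ with hγ1
  set F2 : IntermediateField F1 F' := (F1 : Type _)⟮w⟯ with hF2
  have hwmem : w ∈ F2 := mem_adjoin_simple_self F1 w
  set w2 : F2 := ⟨w, hwmem⟩ with hw2
  -- step A
  obtain ⟨hintA, hcopA⟩ := minpoly_natDegree_coprime_of_lt (K := F2) (θ := τ)
    (q := X ^ 2 - C w2 * X + C (w2 + 2)) (by monicity!) (by
      simp only [map_add, map_sub, map_mul, map_pow, aeval_X, aeval_C]
      exact hτw) hp (lt_of_le_of_lt (by compute_degree) hlt2)
  obtain ⟨y2, hy2⟩ := exists_pow_eq_of_mem_adjoin (K := F2) hintA hp.ne_zero hcopA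
    (f := algebraMap F1 F2 (algebraMap F F1 f))
    (mem_adjoin_of_mem_adjoin F2 (mem_adjoin_of_mem_adjoin F1 hyτ)) (by rw [hy]; rfl)
  have hy2' : (y2 : F') ^ p = algebraMap F1 F' (algebraMap F F1 f) := by
    have := congrArg (fun z : F2 => (z : F')) hy2
    simpa using this
  -- step B
  obtain ⟨hintB, hcopB⟩ := minpoly_natDegree_coprime_of_lt (K := F1) (θ := w)
    (q := X ^ 2 - C (γ1 / 3) * X - C (4 + γ1 / 3)) (by monicity!) (by
      simp only [map_add, map_sub, map_mul, map_pow, aeval_X, aeval_C]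
      have e1 : algebraMap F1 F' (γ1 / 3) = γ / 3 := by
        rw [map_div₀, map_ofNat]; rfl
      rw [e1, map_ofNat]
      exact hwγ) hp (lt_of_le_of_lt (by compute_degree) hlt2)
  obtain ⟨y1, hy1⟩ := exists_pow_eq_of_mem_adjoin (K := F1) hintB hp.ne_zero hcopB
    (f := algebraMap F F1 f) y2.2 hy2'
  have hy1' : (y1 : F') ^ p = algebraMap F F' f := by
    have := congrArg (fun z : F1 => (z : F')) hy1
    simpa using this
  -- step C
  by_cases hp3 : p = 3
  · subst hp3
    rcases cube_descent (by norm_num) hω hγ3 y1.2 hy1' with h | ⟨b, hb⟩ | ⟨b, hb⟩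
    · exact h
    · exact absurd hb (h3 rfl b).1
    · exact absurd hb (h3 rfl b).2
  · have hlt : 3 < p := by
      rcases Nat.lt_or_ge 3 p with h | h
      · exact h
      · omega
    obtain ⟨hint3, hcop3⟩ := minpoly_natDegree_coprime_of_lt (K := F) (θ := γ)
      (q := X ^ 3 - C j) (monic_X_pow_sub_C _ three_ne_zero) (by simp [hγ3]) hp
      (by rw [natDegree_X_pow_sub_C]; exact hlt)
    exact exists_pow_eq_of_mem_adjoin hint3 hp.ne_zero hcop3 y1.2 hy1'

/-- The two descents with the side conditions discharged by an order function at `∞`. -/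
theorem descent_lambda_ord [CharZero F] {j : F} {τ : F'}
    (hτ : 256 * (τ ^ 2 - τ + 1) ^ 3 = algebraMap F F' j * (τ ^ 2 * (1 - τ) ^ 2))
    {p : ℕ} (hp : p.Prime) (hp3 : p ≠ 3) {f : F} {y : F'} (hyτ : y ∈ IntermediateField.adjoin F {τ})
    (hy : y ^ p = algebraMap F F' f)
    (ord : F → ℤ) (hmul : ∀ a b : F, a ≠ 0 → b ≠ 0 → ord (a * b) = ord a + ord b)
    (hj' : ord (j - 1728) = -1) (hf0 : f ≠ 0) (hf : (p : ℤ) ∣ ord f) :
    ∃ y0 : F, y0 ^ p = f := by
  refine descent_lambda hτ hp hp3 hyτ hy ?_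
  rintro rfl b hb
  have hb0 : b ≠ 0 := by
    rintro rfl
    apply hf0
    rw [← hb]; ring
  have hj0 : j - 1728 ≠ 0 := by
    intro h
    apply hf0
    rw [← hb, h, mul_zero]
  rw [← hb, hmul _ _ (pow_ne_zero 2 hb0) hj0, pow_two, hmul _ _ hb0 hb0, hj'] at hf
  omega

theorem descent_mu_ord [CharZero F] {j : F} {τ : F'}
    (hτ : 27 * τ ^ 3 * (τ ^ 3 + 8) ^ 3 = algebraMap F F' j * (τ ^ 3 - 1) ^ 3)
    (hω : ∃ ω : F, ω ^ 2 + ω + 1 = 0)
    {p : ℕ} (hp : p.Prime) (hp2 : p ≠ 2) {f : F} {y : F'} (hyτ : y ∈ IntermediateField.adjoin F {τ})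
    (hy : y ^ p = algebraMap F F' f)
    (ord : F → ℤ) (hmul : ∀ a b : F, a ≠ 0 → b ≠ 0 → ord (a * b) = ord a + ord b)
    (hj0 : j ≠ 0) (hj : ord j = -1) (hf0 : f ≠ 0) (hf : (p : ℤ) ∣ ord f) :
    ∃ y0 : F, y0 ^ p = f := by
  refine descent_mu hτ hω hp hp2 hyτ hy ?_
  rintro rfl b
  constructor
  · intro hb
    have hb0 : b ≠ 0 := by
      rintro rfl
      apply hf0
      rw [← hb]; ring
    rw [← hb, hmul _ _ (pow_ne_zero 3 hb0) hj0, pow_succ, pow_two, hmul _ _ (mul_ne_zero hb0 hb0) hb0,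
      hmul _ _ hb0 hb0, hj] at hf
    omega
  · intro hb
    have hb0 : b ≠ 0 := by
      rintro rfl
      apply hf0
      rw [← hb]; ring
    rw [← hb, hmul _ _ (pow_ne_zero 3 hb0) (pow_ne_zero 2 hj0), pow_succ, pow_two,
      hmul _ _ (mul_ne_zero hb0 hb0) hb0, hmul _ _ hb0 hb0, pow_two, hmul _ _ hj0 hj0, hj] at hf
    omega

end Main

end Fermat.Agent.S18
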