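import Fermat.Agent.S18.Descent

/-!
# S18, plan Z: glue between step (4) and the descent (5)
-/

set_option autoImplicit false
set_option linter.unusedSectionVars false
set_option linter.unusedVariables false
set_option linter.style.haveILetI false

namespace Fermat.Agent.S18

open Polynomial

section E1

variable {Kb F F' : Type*} [Field Kb] [Field F] [Algebra Kb F] [Field F'] [Algebra F F']

/-- a ring hom `ρ : Kb(τ) → F'` which is compatible with the constants has image in `F(ρ τ)` -/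
theorem eg_ratFunc_mem (ρ : RatFunc Kb →+* F')
    (hρ : ∀ c : Kb, ρ (RatFunc.C c) = algebraMap F F' (algebraMap Kb F c)) (c : RatFunc Kb) :
    ρ c ∈ IntermediateField.adjoin F {ρ RatFunc.X} := by
  have hpoly : ∀ P : Kb[X], ρ (algebraMap Kb[X] (RatFunc Kb) P) ∈
      IntermediateField.adjoin F {ρ RatFunc.X} := by
    intro P
    induction P using Polynomial.induction_on' with
    | add p q hp hq => rw [map_add, map_add]; exact add_mem hp hq
    | monomial n a =>
      rw [← Polynomial.C_mul_X_pow_eq_monomial, map_mul, map_pow, RatFunc.algebraMap_C,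
        RatFunc.algebraMap_X, map_mul, map_pow, hρ]
      exact mul_mem (IntermediateField.algebraMap_mem _ _)
        (pow_mem (IntermediateField.mem_adjoin_simple_self F _) n)
  induction c using RatFunc.induction_on with
  | f p q hq =>
    rw [map_div₀]
    exact div_mem (hpoly p) (hpoly q)

end E1

section E2

variable {Kb F FF : Type*} [Field Kb] [Field F] [Algebra Kb F] [CommRing FF]
  [Algebra (RatFunc Kb) FF]

/-- every element of `FF / m` lies in `F(τ₀)` -/
theorem eg_mem_adjoin (emb : F →+* FF)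
    (hembC : ∀ c : Kb, emb (algebraMap Kb F c) = algebraMap (RatFunc Kb) FF (RatFunc.C c))
    (x0 : F) (hgen : ∀ y : FF, ∃ P : (RatFunc Kb)[X], y = Polynomial.aeval (emb x0) P)
    (m : Ideal FF) [hm : m.IsMaximal] :
    letI : Field (FF ⧸ m) := Ideal.Quotient.field m
    letI : Algebra F (FF ⧸ m) := ((Ideal.Quotient.mk m).comp emb).toAlgebra
    ∀ y : FF ⧸ m, y ∈ IntermediateField.adjoin F
      {Ideal.Quotient.mk m (algebraMap (RatFunc Kb) FF RatFunc.X)} := by
  letI : Field (FF ⧸ m) := Ideal.Quotient.field m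
  letI : Algebra F (FF ⧸ m) := ((Ideal.Quotient.mk m).comp emb).toAlgebra
  intro y
  obtain ⟨y, rfl⟩ := Ideal.Quotient.mk_surjective y
  obtain ⟨P, rfl⟩ := hgen y
  set ρ : RatFunc Kb →+* FF ⧸ m := (Ideal.Quotient.mk m).comp (algebraMap (RatFunc Kb) FF) with hρ
  have h1 : ∀ c, ρ c ∈ IntermediateField.adjoin F {ρ RatFunc.X} :=
    eg_ratFunc_mem ρ (fun c => by
      rw [hρ, RingHom.comp_apply, ← hembC]
      rfl)
  rw [Polynomial.aeval_eq_sum_range, map_sum]
  refine sum_mem fun i _ => ?_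
  rw [Algebra.smul_def, map_mul, map_pow]
  refine mul_mem (h1 _) (pow_mem ?_ i)
  exact IntermediateField.algebraMap_mem _ x0

variable [CharZero F]

/-- the end of the proof on the `λ`-line -/
theorem eg_lambda (emb : F →+* FF)
    (hembC : ∀ c : Kb, emb (algebraMap Kb F c) = algebraMap (RatFunc Kb) FF (RatFunc.C c))
    (x0 : F) (hgen : ∀ y : FF, ∃ P : (RatFunc Kb)[X], y = Polynomial.aeval (emb x0) P)
    (j : F) (τ : FF) (hτ0 : τ = algebraMap (RatFunc Kb) FF RatFunc.X)
    (hτ : 256 * (τ ^ 2 - τ + 1) ^ 3 = emb j * (τ ^ 2 * (1 - τ) ^ 2))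
    {p : ℕ} (hp : p.Prime) (hp3 : p ≠ 3) {f : F}
    (ord : F → ℤ) (hmul : ∀ a b : F, a ≠ 0 → b ≠ 0 → ord (a * b) = ord a + ord b)
    (hj' : ord (j - 1728) = -1) (hf0 : f ≠ 0) (hf : (p : ℤ) ∣ ord f)
    (m : Ideal FF) [hm : m.IsMaximal] (z : FF ⧸ m) (hz : z ^ p = Ideal.Quotient.mk m (emb f)) :
    ∃ y0 : F, y0 ^ p = f := by
  letI : Field (FF ⧸ m) := Ideal.Quotient.field m
  letI : Algebra F (FF ⧸ m) := ((Ideal.Quotient.mk m).comp emb).toAlgebra
  have h1 := eg_mem_adjoin emb hembC x0 hgen m z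
  rw [← hτ0] at h1
  refine descent_lambda_ord (F' := FF ⧸ m) (τ := Ideal.Quotient.mk m τ) (j := j) ?_ hp hp3 h1 hz
    ord hmul hj' hf0 hf
  have := congrArg (Ideal.Quotient.mk m) hτ
  simp only [map_mul, map_pow, map_add, map_sub, map_one, map_ofNat] at this
  exact this

/-- the end of the proof on the `μ`-line -/
theorem eg_mu (emb : F →+* FF)
    (hembC : ∀ c : Kb, emb (algebraMap Kb F c) = algebraMap (RatFunc Kb) FF (RatFunc.C c))
    (x0 : F) (hgen : ∀ y : FF, ∃ P : (RatFunc Kb)[X], y = Polynomial.aeval (emb x0) P)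
    (j : F) (τ : FF) (hτ0 : τ = algebraMap (RatFunc Kb) FF RatFunc.X)
    (hτ : 27 * τ ^ 3 * (τ ^ 3 + 8) ^ 3 = emb j * (τ ^ 3 - 1) ^ 3)
    (hω : ∃ ω : F, ω ^ 2 + ω + 1 = 0)
    {p : ℕ} (hp : p.Prime) (hp2 : p ≠ 2) {f : F}
    (ord : F → ℤ) (hmul : ∀ a b : F, a ≠ 0 → b ≠ 0 → ord (a * b) = ord a + ord b)
    (hj0 : j ≠ 0) (hj : ord j = -1) (hf0 : f ≠ 0) (hf : (p : ℤ) ∣ ord f)
    (m : Ideal FF) [hm : m.IsMaximal] (z : FF ⧸ m) (hz : z ^ p = Ideal.Quotient.mk m (emb f)) :
    ∃ y0 : F, y0 ^ p = f := by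
  letI : Field (FF ⧸ m) := Ideal.Quotient.field m
  letI : Algebra F (FF ⧸ m) := ((Ideal.Quotient.mk m).comp emb).toAlgebra
  have h1 := eg_mem_adjoin emb hembC x0 hgen m z
  rw [← hτ0] at h1
  refine descent_mu_ord (F' := FF ⧸ m) (τ := Ideal.Quotient.mk m τ) (j := j) ?_ hω hp hp2 h1 hz
    ord hmul hj0 hj hf0 hf
  have := congrArg (Ideal.Quotient.mk m) hτ
  simp only [map_mul, map_pow, map_add, map_sub, map_one, map_ofNat] at this
  exact this

end E2

end Fermat.Agent.S18
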