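import Fermat.Agent.S18.Transfer
import Fermat.Agent.S18.PhiSpan

/-!
# S18: the generators `j(q^d)`, `d ∣ N`, of the full function field mod `ℓ` lie in `k(j)[j_N]`
-/

set_option autoImplicit false
set_option linter.unusedSectionVars false
set_option linter.unusedVariables false

namespace Fermat.Agent.S18

open ModularCurve Polynomial Fermat.Agent.S28 Fermat.Agent.S24 Fermat.Agent.X0

theorem sbar_coe_jd (N : ℕ) [NeZero N] (d : ℕ) [NeZero d] (hd : d ∣ N) :
    ((jd N d hd : FN N) : LaurentSeries Kb) = qExpand Kb d (jqModC Kb) := by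
  change coeffEmb Kb (qExpand ℚ d jq) = _
  rw [coeffEmb, ← jqModC_rat, coeffMap_qExpand, coeffMap_jqModC]

/-- the independence over the residue field -/
theorem sbar_indk (A : ValuationSubring Kb) (N : ℕ) [NeZero N] (hN : (N : Kres A) ≠ 0)
    (P : (Kres A)[X][X]) (hP : P ≠ 0) (hdeg : P.natDegree < Nat.card (Cos N)) :
    ev2 (Kres A) N P ≠ 0 :=
  indep_of_hom N (Kres A) ((IsLocalRing.residue A).comp (zbA A)) hN P hP hdeg

theorem span_bar (A : ValuationSubring Kb) (N : ℕ) [NeZero N] (hN : (N : Kres A) ≠ 0)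
    (d : ℕ) [NeZero d] (hd : d ∣ N) :
    ∃ (Q : (Kres A)[X]) (G : (Kres A)[X][X]), Q ≠ 0 ∧ G.natDegree < Nat.card (Cos N) ∧
      qExpand (Kres A) d (jqModC (Kres A)) * aeval (jqModC (Kres A)) Q = ev2 (Kres A) N G := by
  obtain ⟨Q0, G0, hQ0, hG0, h0⟩ := span_FN N (jd N d hd)
  rw [sbar_coe_jd] at h0
  obtain ⟨Q, G, hQ, hG, -, h2⟩ := tf_ow (A := A) N (Nat.card (Cos N)) (sbar_indk A N hN)
    (qExpand Kb d (jqModC Kb)) (qExpand (Kres A) d (jqModC (Kres A)))
    (qExpand A d (jqModC A)) 1 (by rw [map_one]; exact one_ne_zero)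
    (by rw [map_one, mul_one, coeffMap_qExpand, coeffMap_jqModC])
    (by rw [map_one, mul_one, coeffMap_qExpand, coeffMap_jqModC]) Q0 hQ0 G0 hG0 h0
  refine ⟨Q.map (IsLocalRing.residue A), G.map (mapRingHom (IsLocalRing.residue A)), hQ,
    lt_of_le_of_lt natDegree_map_le hG, ?_⟩
  rw [coeffMap_aeval_jqModC, coeffMap_ev2] at h2
  exact h2

end Fermat.Agent.S18
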