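import Mathlib
import Fermat.Agent.S18.Emb
import Fermat.Agent.S18.Core2
import Fermat.Agent.S18.G3Lines
import Fermat.Agent.S18.EndInst
import Fermat.Agent.S18.LineData
import Fermat.Agent.S18.SpanBar

/-!
# S18: final assembly of `core` for the lambda and the mu line
-/

set_option autoImplicit false
set_option linter.unusedSectionVars false

namespace Fermat.Agent.S18

open ModularCurve AlgebraicCurve Polynomial Fermat.Agent.S28 Fermat.Agent.S24 Fermat.Agent.X0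

variable (A : ValuationSubring Kb) (N : ℕ) [NeZero N]

theorem h4_PhiT_monic (Rτ : OV A) : (PhiT A N Rτ).Monic := PhiTau_monic A Rτ (PhiA_monic A N)

theorem h4_PhiT_natDegree (Rτ : OV A) : (PhiT A N Rτ).natDegree = Nat.card (Cos N) := by
  rw [PhiT, PhiTau, (PhiA_monic A N).natDegree_map, PhiA_natDegree]

theorem h4_core_lambda (hA : IsRankOne A) (h2 : (2 : Kres A) ≠ 0) (hN : (N : Kres A) ≠ 0)
    (p : ℕ) (hp : p.Prime) (hp3 : p ≠ 3) (hpk : (p : Kres A) ≠ 0) (f : FN N) (gb : FbN A N)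
    (hgb : gb ≠ 0) (hrel : UnitRel A N f (gb ^ p))
    (hf : ∀ v : Place Kb (FN N), (p : ℤ) ∣ v.ord f) : ∃ y : FN N, f = y ^ p := by
  have hR : Transcendental Kb (lamR A : RatFunc Kb) := lamR_transcendental A two_ne_zero
  have hRb := redV_lamR_transcendental A h2
  obtain ⟨f1, f1', g1, g1', hff, hgg, hg1, hemb⟩ :=
    exists_f1 A N (lamR A) (sbar_indk A N hN) hR hRb p f gb hgb hrel
  have hspec : ((lamR A : OV A) : RatFunc Kb) * (RatFunc.X * (1 - RatFunc.X)) ^ 2 =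
      256 * (RatFunc.X ^ 2 - RatFunc.X + 1) ^ 3 := by
    rw [lamR_eq_lineR]
    exact lineR_lambda_spec A _
  have hψ0 : Nat.card (Cos N) ≠ 0 := (card_cos_pos N).ne'
  obtain ⟨G3, G3'⟩ := Fam.g3_lambda hp (lamR A) hspec f1 (embFF A N (lamR A) hR)
    (embFF_algebraMap A N (lamR A) hR) (embFF_jBar A N (lamR A) hR) f hrel.ne_zero.1 hf hemb
    (model2 A (PhiT A N (lamR A)) (h4_PhiT_monic A N _) _ (h4_PhiT_natDegree A N _) hψ0 p
      hp.ne_zero f1).b (Fam.card_model_index _ _) (zA A lamPZ) (zA A lamPZ')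
    (by rw [zA_map_subtype, lamPZ_map]) (by rw [zA_map_subtype, lamPZ'_map])
  obtain ⟨m, hm, z, hz⟩ := core_step2 A hA (PhiT A N (lamR A)) (h4_PhiT_monic A N _) _
    (h4_PhiT_natDegree A N _) hψ0 p hp f1 (sep_gen A N _ hR) (sep_bar A N hN _ hRb)
    (Nat.cast_ne_zero.2 hp.ne_zero) hpk f1' hff (incb1 A _ g1) hg1 (zA A lamPZ) (zA A lamPZ')
    (lamP_sqfree A) (lamP'_sqfree A) N (Nat.pos_of_ne_zero (NeZero.ne N)) G3 G3'
  exact end_lambda _ (lamR A : RatFunc Kb) hspec (embFF A N (lamR A) hR)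
    (embFF_algebraMap A N (lamR A) hR) (embFF_jBar A N (lamR A) hR) (jdS N ⟨N, dvd_rfl⟩)
    (embFF_jN A N (lamR A) hR) hp hp3 hrel.ne_zero.1 hf m hm z (by rw [hemb]; exact hz)

theorem h4_core_mu (hA : IsRankOne A) (h3 : (3 : Kres A) ≠ 0) (hN : (N : Kres A) ≠ 0)
    (p : ℕ) (hp : p.Prime) (hp2 : p ≠ 2) (hpk : (p : Kres A) ≠ 0) (f : FN N) (gb : FbN A N)
    (hgb : gb ≠ 0) (hrel : UnitRel A N f (gb ^ p))
    (hf : ∀ v : Place Kb (FN N), (p : ℤ) ∣ v.ord f) : ∃ y : FN N, f = y ^ p := by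
  have hR : Transcendental Kb (muR A : RatFunc Kb) := muR_transcendental A three_ne_zero
  have hRb := redV_muR_transcendental A h3
  obtain ⟨f1, f1', g1, g1', hff, hgg, hg1, hemb⟩ :=
    exists_f1 A N (muR A) (sbar_indk A N hN) hR hRb p f gb hgb hrel
  have hspec : ((muR A : OV A) : RatFunc Kb) * (RatFunc.X ^ 3 - 1) ^ 3 =
      27 * (RatFunc.X * (RatFunc.X ^ 3 + 8)) ^ 3 := by
    rw [muR_eq_lineR]
    exact lineR_mu_spec A _
  have hψ0 : Nat.card (Cos N) ≠ 0 := (card_cos_pos N).ne'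
  obtain ⟨G3, G3'⟩ := Fam.g3_mu hp (muR A) hspec f1 (embFF A N (muR A) hR)
    (embFF_algebraMap A N (muR A) hR) (embFF_jBar A N (muR A) hR) f hrel.ne_zero.1 hf hemb
    (model2 A (PhiT A N (muR A)) (h4_PhiT_monic A N _) _ (h4_PhiT_natDegree A N _) hψ0 p
      hp.ne_zero f1).b (Fam.card_model_index _ _) (zA A muPZ) (zA A muPZ')
    (by rw [zA_map_subtype, muPZ_map]) (by rw [zA_map_subtype, muPZ'_map])
  obtain ⟨m, hm, z, hz⟩ := core_step2 A hA (PhiT A N (muR A)) (h4_PhiT_monic A N _) _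
    (h4_PhiT_natDegree A N _) hψ0 p hp f1 (sep_gen A N _ hR) (sep_bar A N hN _ hRb)
    (Nat.cast_ne_zero.2 hp.ne_zero) hpk f1' hff (incb1 A _ g1) hg1 (zA A muPZ) (zA A muPZ')
    (muP_sqfree A h3) (muP'_sqfree A h3) N (Nat.pos_of_ne_zero (NeZero.ne N)) G3 G3'
  exact end_mu _ (muR A : RatFunc Kb) hspec (embFF A N (muR A) hR)
    (embFF_algebraMap A N (muR A) hR) (embFF_jBar A N (muR A) hR) (jdS N ⟨N, dvd_rfl⟩)
    (embFF_jN A N (muR A) hR) hp hp2 hrel.ne_zero.1 hf m hm z (by rw [hemb]; exact hz)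

end Fermat.Agent.S18
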