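import Fermat.Agent.S18.Gauss

set_option autoImplicit false

/-! # S18 plan Z, module (a), part 2: the coefficient rings `κ[τ]`, `κ[s]`, `κ[τ,s]` and `redV` -/

namespace Fermat.Agent.S18

open Polynomial

section generic

variable (κ : Type*) [Field κ]

/-- `κ[τ] ⊆ κ(τ)` -/
noncomputable def Rtau : Subalgebra κ (RatFunc κ) :=
  (Polynomial.aeval (RatFunc.X : RatFunc κ)).range

/-- `κ[s] ⊆ κ(τ)`, `s = τ⁻¹` -/
noncomputable def Rs : Subalgebra κ (RatFunc κ) :=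
  (Polynomial.aeval (RatFunc.X⁻¹ : RatFunc κ)).range

/-- `κ[τ, s] ⊆ κ(τ)` -/
noncomputable def Rts : Subalgebra κ (RatFunc κ) :=
  Algebra.adjoin κ {RatFunc.X, RatFunc.X⁻¹}

variable {κ}

theorem aeval_X_eq (P : κ[X]) :
    Polynomial.aeval (RatFunc.X : RatFunc κ) P = algebraMap κ[X] (RatFunc κ) P := by
  rw [← RatFunc.algebraMap_X, Polynomial.aeval_algebraMap_apply, Polynomial.aeval_X_left_apply]

theorem mem_Rtau_iff {f : RatFunc κ} : f ∈ Rtau κ ↔ ∃ P : κ[X], algebraMap κ[X] (RatFunc κ) P = f := by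
  unfold Rtau
  rw [AlgHom.mem_range]
  simp only [aeval_X_eq]

theorem mem_Rtau_iff_range {f : RatFunc κ} :
    f ∈ Rtau κ ↔ f ∈ (algebraMap κ[X] (RatFunc κ)).range := by
  rw [mem_Rtau_iff, RingHom.mem_range]

theorem mem_Rs_iff {f : RatFunc κ} :
    f ∈ Rs κ ↔ ∃ P : κ[X], Polynomial.aeval (RatFunc.X⁻¹ : RatFunc κ) P = f := by
  unfold Rs
  rw [AlgHom.mem_range]

theorem X_mem_Rts : (RatFunc.X : RatFunc κ) ∈ Rts κ := Algebra.subset_adjoin (by simp)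

theorem X_inv_mem_Rts : (RatFunc.X⁻¹ : RatFunc κ) ∈ Rts κ := Algebra.subset_adjoin (by simp)

theorem Rtau_le_Rts : Rtau κ ≤ Rts κ := by
  rintro f ⟨P, rfl⟩
  exact Algebra.adjoin_mono (by simp) (Polynomial.aeval_mem_adjoin_singleton κ (RatFunc.X : RatFunc κ) (p := P))

theorem Rs_le_Rts : Rs κ ≤ Rts κ := by
  rintro f ⟨P, rfl⟩
  exact Algebra.adjoin_mono (by simp) (Polynomial.aeval_mem_adjoin_singleton κ (RatFunc.X⁻¹ : RatFunc κ) (p := P))

theorem mem_Rts_iff {f : RatFunc κ} :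
    f ∈ Rts κ ↔ ∃ (n : ℕ) (P : κ[X]), f = (RatFunc.X⁻¹) ^ n * algebraMap κ[X] (RatFunc κ) P := by
  have hX : (RatFunc.X : RatFunc κ) ≠ 0 := RatFunc.X_ne_zero
  constructor
  · intro h
    induction h using Algebra.adjoin_induction with
    | mem x hx =>
      rcases hx with rfl | rfl
      · exact ⟨0, X, by simp [RatFunc.algebraMap_X]⟩
      · exact ⟨1, 1, by simp⟩
    | algebraMap c => exact ⟨0, C c, by simp [RatFunc.algebraMap_C, RatFunc.algebraMap_eq_C]⟩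
    | add x y _ _ hx hy =>
      obtain ⟨n, P, rfl⟩ := hx
      obtain ⟨m, Q, rfl⟩ := hy
      refine ⟨n + m, X ^ m * P + X ^ n * Q, ?_⟩
      rw [map_add, map_mul, map_mul, map_pow, map_pow, RatFunc.algebraMap_X, pow_add]
      have h1 : ((RatFunc.X : RatFunc κ)⁻¹) ^ m * RatFunc.X ^ m = 1 := by
        rw [← mul_pow, inv_mul_cancel₀ hX, one_pow]
      have h2 : ((RatFunc.X : RatFunc κ)⁻¹) ^ n * RatFunc.X ^ n = 1 := by
        rw [← mul_pow, inv_mul_cancel₀ hX, one_pow]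
      linear_combination
        (-(RatFunc.X⁻¹ : RatFunc κ) ^ n * algebraMap κ[X] (RatFunc κ) P) * h1 +
          (-(RatFunc.X⁻¹ : RatFunc κ) ^ m * algebraMap κ[X] (RatFunc κ) Q) * h2
    | mul x y _ _ hx hy =>
      obtain ⟨n, P, rfl⟩ := hx
      obtain ⟨m, Q, rfl⟩ := hy
      exact ⟨n + m, P * Q, by rw [map_mul, pow_add]; ring⟩
  · rintro ⟨n, P, rfl⟩
    exact (Rts κ).mul_mem ((Rts κ).pow_mem X_inv_mem_Rts n)
      (Rtau_le_Rts (mem_Rtau_iff.2 ⟨P, rfl⟩))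

end generic

variable {L : Type*} [Field L] (A : ValuationSubring L)

/-- (a) for `τ`: `O_V ∩ L[τ]` reduces into `k[τ]` -/
theorem redV_mem_Rtau (c : OV A) (h : (c : RatFunc L) ∈ Rtau L) : redV A c ∈ Rtau (Kres A) := by
  obtain ⟨P, hP⟩ := mem_Rtau_iff.1 h
  have hc : algebraMap L[X] (RatFunc L) P ∈ OV A := by rw [hP]; exact c.2
  obtain ⟨p, hp⟩ := exists_lift A ((poly_mem_iff A P).1 hc)
  have h1 : c = ⟨algebraMap L[X] (RatFunc L) (p.map A.subtype), poly_map_mem A p⟩ :=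
    Subtype.ext (by subst hp; exact hP.symm)
  rw [h1, redV_poly_map]
  exact mem_Rtau_iff.2 ⟨_, rfl⟩

theorem redV_mem_range_poly (c : OV A) (h : (c : RatFunc L) ∈ (algebraMap L[X] (RatFunc L)).range) :
    redV A c ∈ (algebraMap (Kres A)[X] (RatFunc (Kres A))).range :=
  mem_Rtau_iff_range.1 (redV_mem_Rtau A c (mem_Rtau_iff_range.2 h))

/-- (a) for `s` -/
theorem redV_mem_Rs (c : OV A) (h : (c : RatFunc L) ∈ Rs L) : redV A c ∈ Rs (Kres A) := by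
  obtain ⟨P, hP⟩ := mem_Rs_iff.1 h
  have hc : Polynomial.aeval (RatFunc.X⁻¹ : RatFunc L) P ∈ OV A := by rw [hP]; exact c.2
  obtain ⟨p, hp⟩ := exists_lift A ((polyInv_mem_iff A P).1 hc)
  have h1 : c = ⟨Polynomial.aeval (RatFunc.X⁻¹ : RatFunc L) (p.map A.subtype),
      polyInv_map_mem A p⟩ := Subtype.ext (by subst hp; exact hP.symm)
  rw [h1, redV_polyInv_map]
  exact mem_Rs_iff.2 ⟨_, rfl⟩

/-- (a) for `τ, s` -/
theorem redV_mem_Rts (c : OV A) (h : (c : RatFunc L) ∈ Rts L) : redV A c ∈ Rts (Kres A) := by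
  obtain ⟨n, P, hP⟩ := mem_Rts_iff.1 h
  have hc : algebraMap L[X] (RatFunc L) P ∈ OV A := by
    rw [← X_inv_pow_mul_mem_iff A n, ← hP]; exact c.2
  obtain ⟨p, hp⟩ := exists_lift A ((poly_mem_iff A P).1 hc)
  have h1 : c = (⟨RatFunc.X⁻¹, X_inv_mem A⟩ : OV A) ^ n *
      ⟨algebraMap L[X] (RatFunc L) (p.map A.subtype), poly_map_mem A p⟩ :=
    Subtype.ext (by subst hp; exact hP)
  rw [h1, map_mul, map_pow, redV_X_inv, redV_poly_map]
  exact mem_Rts_iff.2 ⟨n, _, rfl⟩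

/-- lifting: every element of `k[τ]` is the reduction of an element of `O_V ∩ L[τ]` -/
theorem exists_lift_Rtau {φ : RatFunc (Kres A)} (h : φ ∈ Rtau (Kres A)) :
    ∃ c : OV A, (c : RatFunc L) ∈ Rtau L ∧ redV A c = φ := by
  obtain ⟨P, rfl⟩ := mem_Rtau_iff.1 h
  obtain ⟨p, rfl⟩ := Polynomial.map_surjective _ (IsLocalRing.residue_surjective (R := A)) P
  exact ⟨⟨_, poly_map_mem A p⟩, mem_Rtau_iff.2 ⟨_, rfl⟩, redV_poly_map A p⟩

theorem exists_lift_Rs {φ : RatFunc (Kres A)} (h : φ ∈ Rs (Kres A)) :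
    ∃ c : OV A, (c : RatFunc L) ∈ Rs L ∧ redV A c = φ := by
  obtain ⟨P, rfl⟩ := mem_Rs_iff.1 h
  obtain ⟨p, rfl⟩ := Polynomial.map_surjective _ (IsLocalRing.residue_surjective (R := A)) P
  exact ⟨⟨_, polyInv_map_mem A p⟩, mem_Rs_iff.2 ⟨_, rfl⟩, redV_polyInv_map A p⟩

end Fermat.Agent.S18
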