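import Fermat.Agent.S18.Int
import Fermat.Agent.S18.GaussRanges

/-!
# S18, step (c) INT, part 2: scaling lemmas and the specialisation to `K = RatFunc κ`,
`κ[τ] = Rtau κ`, `κ[s] = Rs κ`, `κ[τ,s] = Rts κ`.
-/

set_option autoImplicit false

namespace Fermat.Agent.S18.Int

open Polynomial Module

section Scale

variable {R K E : Type*} [CommRing R] [Field K] [Algebra R K]
  [CommRing E] [Algebra K E] [Algebra R E] [IsScalarTower R K E]

theorem isIntegral_iff_exists_poly (y : E) : IsIntegral R y ↔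
    ∃ p : K[X], p.Monic ∧ (∀ i, p.coeff i ∈ (algebraMap R K).range) ∧ aeval y p = 0 := by
  constructor
  · rintro ⟨q, hq, h⟩
    refine ⟨q.map (algebraMap R K), hq.map _, fun i => ⟨q.coeff i, by rw [coeff_map]⟩, ?_⟩
    rw [aeval_map_algebraMap, aeval_def, h]
  · rintro ⟨p, hp, hc, h⟩
    have hl : p ∈ lifts (algebraMap R K) := (lifts_iff_coeff_lifts p).2 (fun i => hc i)
    obtain ⟨q, hq, -, hqm⟩ := lifts_and_natDegree_eq_and_monic hl hp
    refine ⟨q, hqm, ?_⟩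
    rw [← aeval_def, ← aeval_map_algebraMap K, hq, h]

variable {R' : Type*} [CommRing R'] [Algebra R' K] [Algebra R' E] [IsScalarTower R' K E]

theorem isIntegral_mono (H : ∀ c ∈ (algebraMap R K).range, c ∈ (algebraMap R' K).range) {y : E}
    (hy : IsIntegral R y) : IsIntegral R' y := by
  obtain ⟨p, hp, hc, h⟩ := (isIntegral_iff_exists_poly (K := K) y).1 hy
  exact (isIntegral_iff_exists_poly (K := K) y).2 ⟨p, hp, fun i => H _ (hc i), h⟩

theorem isIntegral_scale (t : K) (ht : t ∈ (algebraMap R' K).range)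
    (H : ∀ c ∈ (algebraMap R K).range, ∃ m : ℕ, t ^ m * c ∈ (algebraMap R' K).range) {y : E}
    (hy : IsIntegral R y) : ∃ m : ℕ, IsIntegral R' (t ^ m • y) := by
  obtain ⟨p, hp, hc, h⟩ := (isIntegral_iff_exists_poly (K := K) y).1 hy
  choose m hm using fun i => H (p.coeff i) (hc i)
  set M := (Finset.range (p.natDegree + 1)).sup m with hM
  have hM' : ∀ i, i ≤ p.natDegree → t ^ M * p.coeff i ∈ (algebraMap R' K).range := by
    intro i hi
    have hle : m i ≤ M := Finset.le_sup (f := m) (Finset.mem_range.2 (Nat.lt_succ_of_le hi))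
    have : t ^ M * p.coeff i = t ^ (M - m i) * (t ^ m i * p.coeff i) := by
      rw [← mul_assoc, ← pow_add, Nat.sub_add_cancel hle]
    rw [this]
    exact mul_mem (pow_mem ht _) (hm i)
  refine ⟨M, (isIntegral_iff_exists_poly (K := K) _).2
    ⟨scaleRoots p (t ^ M), (monic_scaleRoots_iff _).2 hp, fun i => ?_, ?_⟩⟩
  · rw [coeff_scaleRoots]
    rcases lt_trichotomy i p.natDegree with hi | hi | hi
    · obtain ⟨k, hk⟩ : ∃ k, p.natDegree - i = k + 1 := ⟨p.natDegree - i - 1, by omega⟩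
      rw [hk, pow_succ', ← mul_assoc, mul_comm (p.coeff i)]
      exact mul_mem (hM' i hi.le) (pow_mem (pow_mem ht _) _)
    · rw [hi, Nat.sub_self, pow_zero, mul_one, hp.coeff_natDegree]
      exact one_mem _
    · rw [coeff_eq_zero_of_natDegree_lt hi, zero_mul]
      exact zero_mem _
  · rw [Algebra.smul_def]
    exact scaleRoots_aeval_eq_zero h

end Scale

section RatFuncRings

variable (κ : Type*) [Field κ]

theorem mem_range_algebraMap_sub (R0 : Subalgebra κ (RatFunc κ)) (c : RatFunc κ) :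
    c ∈ (algebraMap ↥R0 (RatFunc κ)).range ↔ c ∈ R0 :=
  ⟨by rintro ⟨r, rfl⟩; exact r.2, fun h => ⟨⟨c, h⟩, rfl⟩⟩

theorem adjoin_X_eq_Rtau : Algebra.adjoin κ {(RatFunc.X : RatFunc κ)} = Rtau κ :=
  Algebra.adjoin_singleton_eq_range_aeval κ _

theorem adjoin_X_inv_eq_Rs : Algebra.adjoin κ {(RatFunc.X : RatFunc κ)⁻¹} = Rs κ :=
  Algebra.adjoin_singleton_eq_range_aeval κ _

theorem isPrincipalIdealRing_Rtau : IsPrincipalIdealRing ↥(Rtau κ) :=
  IsPrincipalIdealRing.of_surjective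
    (Polynomial.aeval (RatFunc.X : RatFunc κ)).rangeRestrict.toRingHom
    (AlgHom.rangeRestrict_surjective _)

theorem isPrincipalIdealRing_Rs : IsPrincipalIdealRing ↥(Rs κ) :=
  IsPrincipalIdealRing.of_surjective
    (Polynomial.aeval (RatFunc.X⁻¹ : RatFunc κ)).rangeRestrict.toRingHom
    (AlgHom.rangeRestrict_surjective _)

variable {κ}

theorem algebraMap_eq_X_pow_mul (P : κ[X]) : algebraMap κ[X] (RatFunc κ) P =
    RatFunc.X ^ P.natDegree * Polynomial.aeval (RatFunc.X⁻¹ : RatFunc κ) P.reverse := by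
  let _ : Invertible (RatFunc.X : RatFunc κ) := invertibleOfNonzero RatFunc.X_ne_zero
  have h := Polynomial.eval₂_reverse_mul_pow (algebraMap κ (RatFunc κ)) (RatFunc.X : RatFunc κ) P
  rw [invOf_eq_inv] at h
  rw [← aeval_X_eq, Polynomial.aeval_def, ← h, mul_comm, Polynomial.aeval_def]

theorem X_mem_Rtau : (RatFunc.X : RatFunc κ) ∈ Rtau κ := ⟨X, by simp⟩

theorem X_inv_mem_Rs : (RatFunc.X : RatFunc κ)⁻¹ ∈ Rs κ := ⟨X, by simp⟩

theorem exists_X_inv_pow_mul_mem_Rs {c : RatFunc κ} (hc : c ∈ Rtau κ) :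
    ∃ m : ℕ, (RatFunc.X⁻¹ : RatFunc κ) ^ m * c ∈ Rs κ := by
  obtain ⟨P, rfl⟩ := mem_Rtau_iff.1 hc
  refine ⟨P.natDegree, mem_Rs_iff.2 ⟨P.reverse, ?_⟩⟩
  rw [algebraMap_eq_X_pow_mul, ← mul_assoc, ← mul_pow, inv_mul_cancel₀ RatFunc.X_ne_zero,
    one_pow, one_mul]

theorem exists_X_pow_mul_mem_Rtau {c : RatFunc κ} (hc : c ∈ Rs κ) :
    ∃ m : ℕ, (RatFunc.X : RatFunc κ) ^ m * c ∈ Rtau κ := by
  obtain ⟨P, rfl⟩ := mem_Rs_iff.1 hc
  refine ⟨P.natDegree, mem_Rtau_iff.2 ⟨P.reverse, ?_⟩⟩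
  rw [aeval_X_inv_eq, ← mul_assoc, ← mul_pow, mul_inv_cancel₀ RatFunc.X_ne_zero,
    one_pow, one_mul]

theorem exists_X_pow_mul_mem_Rtau_of_Rts {c : RatFunc κ} (hc : c ∈ Rts κ) :
    ∃ m : ℕ, (RatFunc.X : RatFunc κ) ^ m * c ∈ Rtau κ := by
  obtain ⟨n, P, rfl⟩ := mem_Rts_iff.1 hc
  refine ⟨n, mem_Rtau_iff.2 ⟨P, ?_⟩⟩
  rw [← mul_assoc, ← mul_pow, mul_inv_cancel₀ RatFunc.X_ne_zero, one_pow, one_mul]

theorem exists_X_inv_pow_mul_mem_Rs_of_Rts {c : RatFunc κ} (hc : c ∈ Rts κ) :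
    ∃ m : ℕ, (RatFunc.X⁻¹ : RatFunc κ) ^ m * c ∈ Rs κ := by
  obtain ⟨n, P, rfl⟩ := mem_Rts_iff.1 hc
  obtain ⟨m, hm⟩ := exists_X_inv_pow_mul_mem_Rs (mem_Rtau_iff.2 ⟨P, rfl⟩)
  refine ⟨m, ?_⟩
  rw [mul_left_comm]
  exact mul_mem (pow_mem X_inv_mem_Rs _) hm

variable (κ)

theorem isFractionRing_Rtau : IsFractionRing ↥(Rtau κ) (RatFunc κ) := by
  apply IsFractionRing.of_field
  intro z
  obtain ⟨x, y, -, rfl⟩ := IsFractionRing.div_surjective (A := κ[X]) z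
  exact ⟨⟨algebraMap _ _ x, mem_Rtau_iff.2 ⟨x, rfl⟩⟩, ⟨algebraMap _ _ y, mem_Rtau_iff.2 ⟨y, rfl⟩⟩, rfl⟩

theorem isFractionRing_Rs : IsFractionRing ↥(Rs κ) (RatFunc κ) := by
  apply IsFractionRing.of_field
  intro z
  obtain ⟨x, y, -, rfl⟩ := IsFractionRing.div_surjective (A := κ[X]) z
  refine ⟨⟨(RatFunc.X⁻¹ : RatFunc κ) ^ y.natDegree * Polynomial.aeval (RatFunc.X⁻¹ : RatFunc κ) x.reverse,
      mul_mem (pow_mem X_inv_mem_Rs _) (mem_Rs_iff.2 ⟨_, rfl⟩)⟩,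
    ⟨(RatFunc.X⁻¹ : RatFunc κ) ^ x.natDegree * Polynomial.aeval (RatFunc.X⁻¹ : RatFunc κ) y.reverse,
      mul_mem (pow_mem X_inv_mem_Rs _) (mem_Rs_iff.2 ⟨_, rfl⟩)⟩, ?_⟩
  show _ = ((RatFunc.X⁻¹ : RatFunc κ) ^ y.natDegree * Polynomial.aeval (RatFunc.X⁻¹ : RatFunc κ) x.reverse) /
    ((RatFunc.X⁻¹ : RatFunc κ) ^ x.natDegree * Polynomial.aeval (RatFunc.X⁻¹ : RatFunc κ) y.reverse)
  rw [algebraMap_eq_X_pow_mul x, algebraMap_eq_X_pow_mul y]
  have hX : (RatFunc.X : RatFunc κ) ≠ 0 := RatFunc.X_ne_zero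
  generalize Polynomial.aeval (RatFunc.X⁻¹ : RatFunc κ) y.reverse = β
  generalize Polynomial.aeval (RatFunc.X⁻¹ : RatFunc κ) x.reverse = α
  rw [inv_pow, inv_pow]
  rcases eq_or_ne β 0 with h0 | h0
  · rw [h0]; simp
  · field_simp

end RatFuncRings

section Main

variable {κ : Type*} [Field κ] {E : Type*} [CommRing E] [Algebra (RatFunc κ) E]
  [Module.Finite (RatFunc κ) E]

/-- lattice basis of `S` -/
theorem exists_basis_Rtau {ι : Type*} [Finite ι]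
    (hnd : (Algebra.traceForm (RatFunc κ) E).Nondegenerate) (b : Basis ι (RatFunc κ) E) :
    ∃ v : Basis ι (RatFunc κ) E, ∀ y, IsIntegral ↥(Rtau κ) y ↔ ∀ i, v.repr y i ∈ Rtau κ := by
  have := isPrincipalIdealRing_Rtau κ
  have := isFractionRing_Rtau κ
  obtain ⟨v, hv⟩ := exists_lattice_basis (R := ↥(Rtau κ)) hnd b
  exact ⟨v, fun y => by simp only [hv, mem_range_algebraMap_sub]⟩

/-- lattice basis of `T` -/
theorem exists_basis_Rs {ι : Type*} [Finite ι]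
    (hnd : (Algebra.traceForm (RatFunc κ) E).Nondegenerate) (b : Basis ι (RatFunc κ) E) :
    ∃ v : Basis ι (RatFunc κ) E, ∀ y, IsIntegral ↥(Rs κ) y ↔ ∀ i, v.repr y i ∈ Rs κ := by
  have := isPrincipalIdealRing_Rs κ
  have := isFractionRing_Rs κ
  obtain ⟨v, hv⟩ := exists_lattice_basis (R := ↥(Rs κ)) hnd b
  exact ⟨v, fun y => by simp only [hv, mem_range_algebraMap_sub]⟩

omit [Module.Finite (RatFunc κ) E] in
theorem exists_smul_isIntegral_Rs {y : E} (hy : IsIntegral ↥(Rtau κ) y) :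
    ∃ m : ℕ, IsIntegral ↥(Rs κ) ((RatFunc.X⁻¹ : RatFunc κ) ^ m • y) :=
  isIntegral_scale (K := RatFunc κ) _ ((mem_range_algebraMap_sub κ _ _).2 X_inv_mem_Rs)
    (fun c hc => by
      obtain ⟨m, hm⟩ := exists_X_inv_pow_mul_mem_Rs ((mem_range_algebraMap_sub κ _ _).1 hc)
      exact ⟨m, (mem_range_algebraMap_sub κ _ _).2 hm⟩) hy

omit [Module.Finite (RatFunc κ) E] in
theorem exists_smul_isIntegral_Rtau {y : E} (hy : IsIntegral ↥(Rs κ) y) :
    ∃ m : ℕ, IsIntegral ↥(Rtau κ) ((RatFunc.X : RatFunc κ) ^ m • y) :=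
  isIntegral_scale (K := RatFunc κ) _ ((mem_range_algebraMap_sub κ _ _).2 X_mem_Rtau)
    (fun c hc => by
      obtain ⟨m, hm⟩ := exists_X_pow_mul_mem_Rtau ((mem_range_algebraMap_sub κ _ _).1 hc)
      exact ⟨m, (mem_range_algebraMap_sub κ _ _).2 hm⟩) hy

omit [Module.Finite (RatFunc κ) E] in
theorem isIntegral_Rts_of_Rtau {y : E} (hy : IsIntegral ↥(Rtau κ) y) : IsIntegral ↥(Rts κ) y :=
  isIntegral_mono (K := RatFunc κ) (fun c hc => (mem_range_algebraMap_sub κ _ _).2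
    (Rtau_le_Rts ((mem_range_algebraMap_sub κ _ _).1 hc))) hy

omit [Module.Finite (RatFunc κ) E] in
theorem isIntegral_Rts_of_Rs {y : E} (hy : IsIntegral ↥(Rs κ) y) : IsIntegral ↥(Rts κ) y :=
  isIntegral_mono (K := RatFunc κ) (fun c hc => (mem_range_algebraMap_sub κ _ _).2
    (Rs_le_Rts ((mem_range_algebraMap_sub κ _ _).1 hc))) hy

omit [Module.Finite (RatFunc κ) E] in
theorem isIntegral_smul_of_mem {R0 : Subalgebra κ (RatFunc κ)} {c : RatFunc κ} (hc : c ∈ R0) {y : E}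
    (hy : IsIntegral ↥R0 y) : IsIntegral ↥R0 (c • y) := by
  have : c • y = (⟨c, hc⟩ : ↥R0) • y := rfl
  rw [this]
  exact hy.smul _

omit [Module.Finite (RatFunc κ) E] in
/-- `U = S[s]` -/
theorem isIntegral_Rts_iff_Rtau (y : E) : IsIntegral ↥(Rts κ) y ↔
    ∃ m : ℕ, IsIntegral ↥(Rtau κ) ((RatFunc.X : RatFunc κ) ^ m • y) := by
  constructor
  · intro hy
    exact isIntegral_scale (K := RatFunc κ) _ ((mem_range_algebraMap_sub κ _ _).2 X_mem_Rtau)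
      (fun c hc => by
        obtain ⟨m, hm⟩ := exists_X_pow_mul_mem_Rtau_of_Rts ((mem_range_algebraMap_sub κ _ _).1 hc)
        exact ⟨m, (mem_range_algebraMap_sub κ _ _).2 hm⟩) hy
  · rintro ⟨m, hm⟩
    have h1 := isIntegral_smul_of_mem (pow_mem X_inv_mem_Rts m) (isIntegral_Rts_of_Rtau hm)
    rwa [smul_smul, ← mul_pow, inv_mul_cancel₀ RatFunc.X_ne_zero, one_pow, one_smul] at h1

omit [Module.Finite (RatFunc κ) E] in
/-- `U = T[τ]` -/
theorem isIntegral_Rts_iff_Rs (y : E) : IsIntegral ↥(Rts κ) y ↔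
    ∃ m : ℕ, IsIntegral ↥(Rs κ) ((RatFunc.X⁻¹ : RatFunc κ) ^ m • y) := by
  constructor
  · intro hy
    exact isIntegral_scale (K := RatFunc κ) _ ((mem_range_algebraMap_sub κ _ _).2 X_inv_mem_Rs)
      (fun c hc => by
        obtain ⟨m, hm⟩ := exists_X_inv_pow_mul_mem_Rs_of_Rts ((mem_range_algebraMap_sub κ _ _).1 hc)
        exact ⟨m, (mem_range_algebraMap_sub κ _ _).2 hm⟩) hy
  · rintro ⟨m, hm⟩
    have h1 := isIntegral_smul_of_mem (pow_mem X_mem_Rts m) (isIntegral_Rts_of_Rs hm)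
    rwa [smul_smul, ← mul_pow, mul_inv_cancel₀ RatFunc.X_ne_zero, one_pow, one_smul] at h1

/-! ### the exact shapes used by `sb_exists` (helper5) -/

theorem hS_shape {ι : Type*} [Finite ι]
    (hnd : (Algebra.traceForm (RatFunc κ) E).Nondegenerate) (b : Basis ι (RatFunc κ) E) :
    ∃ v : Basis ι (RatFunc κ) E, ∀ y, y ∈ {y : E | IsIntegral ↥(Rtau κ) y} ↔
      ∀ i, v.repr y i ∈ Algebra.adjoin κ {(RatFunc.X : RatFunc κ)} := by
  rw [adjoin_X_eq_Rtau]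
  exact exists_basis_Rtau hnd b

theorem hT_shape {ι : Type*} [Finite ι]
    (hnd : (Algebra.traceForm (RatFunc κ) E).Nondegenerate) (b : Basis ι (RatFunc κ) E) :
    ∃ v : Basis ι (RatFunc κ) E, ∀ y, y ∈ {y : E | IsIntegral ↥(Rs κ) y} ↔
      ∀ i, v.repr y i ∈ Algebra.adjoin κ {(RatFunc.X : RatFunc κ)⁻¹} := by
  rw [adjoin_X_inv_eq_Rs]
  exact exists_basis_Rs hnd b

omit [Module.Finite (RatFunc κ) E] in
theorem hST_shape : ∀ y ∈ {y : E | IsIntegral ↥(Rtau κ) y},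
    ∃ m : ℕ, ((RatFunc.X : RatFunc κ)⁻¹) ^ m • y ∈ {y : E | IsIntegral ↥(Rs κ) y} :=
  fun _ hy => exists_smul_isIntegral_Rs hy

omit [Module.Finite (RatFunc κ) E] in
theorem hTS_shape : ∀ y ∈ {y : E | IsIntegral ↥(Rs κ) y},
    ∃ m : ℕ, (RatFunc.X : RatFunc κ) ^ m • y ∈ {y : E | IsIntegral ↥(Rtau κ) y} :=
  fun _ hy => exists_smul_isIntegral_Rtau hy

end Main

end Fermat.Agent.S18.Int
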