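import Fermat.Agent.S18.Base
import Fermat.Agent.S18.Tame
import Fermat.Agent.S18.IntRat

set_option autoImplicit false

/-! # S18 (G3): from per-point families of embeddings to the fields `G3`, `G3'` of `GoodPair` -/

namespace Fermat.Agent.S18

open Polynomial Module Tame

variable {L : Type*} [Field L]

/-- good local data at one point of the `τ`-line (`z` = a local parameter of the line there) -/
def PtOK (E ι Om : Type*) [CommRing E] [Algebra (RatFunc L) E] [Field Om]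
    (v : AddValuation Om (WithTop ℤ)) (M : ℕ) (tame : Prop) (z : RatFunc L) : Prop :=
  ∃ (eps : ℕ) (phi : RatFunc L →+* Om) (sig : ι → E →+* Om), 1 ≤ eps ∧ eps ≤ M ∧
    (tame → eps = 1) ∧ Function.Injective sig ∧
    (∀ i c, sig i (algebraMap (RatFunc L) E c) = phi c) ∧
    (∀ c : L, Ge v 0 (phi (RatFunc.C c))) ∧ v (phi z) = ((eps : ℤ) : WithTop ℤ)

theorem ratFunc_frac_X (c : RatFunc L) : ∃ p q : L[X], aeval (RatFunc.X : RatFunc L) q ≠ 0 ∧
    c * aeval (RatFunc.X : RatFunc L) q = aeval (RatFunc.X : RatFunc L) p := by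
  refine ⟨c.num, c.denom, ?_, ?_⟩
  · rw [aeval_X_eq]
    exact RatFunc.algebraMap_ne_zero c.denom_ne_zero
  · rw [aeval_X_eq, aeval_X_eq]
    have h := RatFunc.num_div_denom c
    rw [div_eq_iff (RatFunc.algebraMap_ne_zero c.denom_ne_zero)] at h
    exact h.symm

theorem aeval_X_inv_reverse (p : L[X]) : RatFunc.X ^ p.natDegree * aeval (RatFunc.X⁻¹ : RatFunc L) p.reverse
    = aeval (RatFunc.X : RatFunc L) p := by
  rw [aeval_X_eq, Int.algebraMap_eq_X_pow_mul]

theorem ratFunc_frac_X_inv (c : RatFunc L) : ∃ p q : L[X], aeval (RatFunc.X⁻¹ : RatFunc L) q ≠ 0 ∧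
    c * aeval (RatFunc.X⁻¹ : RatFunc L) q = aeval (RatFunc.X⁻¹ : RatFunc L) p := by
  obtain ⟨p, q, hq, h⟩ := ratFunc_frac_X c
  have hX : (RatFunc.X : RatFunc L) ≠ 0 := RatFunc.X_ne_zero
  have hXi : aeval (RatFunc.X⁻¹ : RatFunc L) (X : L[X]) = RatFunc.X⁻¹ := aeval_X _
  refine ⟨p.reverse * X ^ q.natDegree, q.reverse * X ^ p.natDegree, ?_, ?_⟩
  · rw [map_mul, map_pow, hXi]
    refine mul_ne_zero ?_ (pow_ne_zero _ (inv_ne_zero hX))
    intro h0
    rw [← aeval_X_inv_reverse, h0, mul_zero] at hq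
    exact hq rfl
  · rw [map_mul, map_mul, map_pow, map_pow, hXi]
    rw [← aeval_X_inv_reverse p, ← aeval_X_inv_reverse q] at h
    generalize aeval (RatFunc.X⁻¹ : RatFunc L) q.reverse = a at h ⊢
    generalize aeval (RatFunc.X⁻¹ : RatFunc L) p.reverse = b at h ⊢
    rw [inv_pow, inv_pow]
    field_simp
    linear_combination h

section val

variable {Om : Type*} [Field Om] {v : AddValuation Om (WithTop ℤ)}

theorem val_eq_zero_of_ge {x y : Om} (hx : Ge v 0 x) (hy : Ge v 0 y) (h : x * y = 1) : v x = 0 := by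
  have h1 : v x + v y = 0 := by rw [← v.map_mul, h, v.map_one]
  have hx' : (0 : WithTop ℤ) ≤ v x := hx
  have hy' : (0 : WithTop ℤ) ≤ v y := hy
  exact le_antisymm (h1 ▸ le_add_of_nonneg_right hy') hx'

theorem val_const {phi : RatFunc L →+* Om} (hc : ∀ c : L, Ge v 0 (phi (RatFunc.C c))) {c : L}
    (h : c ≠ 0) : v (phi (RatFunc.C c)) = 0 :=
  val_eq_zero_of_ge (hc c) (hc c⁻¹) (by rw [← map_mul, ← map_mul, mul_inv_cancel₀ h, map_one, map_one])

/-- the `s`-chart parameter at `a ≠ 0` from the `τ`-chart parameter at `a⁻¹` -/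
theorem val_s_chart {phi : RatFunc L →+* Om} (hc : ∀ c : L, Ge v 0 (phi (RatFunc.C c))) {a : L}
    (ha : a ≠ 0) {eps : ℕ} (heps : 1 ≤ eps)
    (h : v (phi (RatFunc.X - RatFunc.C a⁻¹)) = ((eps : ℤ) : WithTop ℤ)) :
    v (phi (RatFunc.X⁻¹ - RatFunc.C a)) = ((eps : ℤ) : WithTop ℤ) := by
  have hX0 : (RatFunc.X : RatFunc L) ≠ 0 := RatFunc.X_ne_zero
  have h1 : v (phi (RatFunc.C a⁻¹)) = 0 := val_const hc (inv_ne_zero ha)
  have h2 : v (phi RatFunc.X) = 0 := by
    have e : phi RatFunc.X = phi (RatFunc.C a⁻¹) + phi (RatFunc.X - RatFunc.C a⁻¹) := by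
      rw [← map_add]; congr 1; ring
    rw [e, v.map_add_eq_of_lt_left, h1]
    rw [h1, h]
    change ((0 : ℤ) : WithTop ℤ) < _
    rw [WithTop.coe_lt_coe]
    exact_mod_cast heps
  have h3 : v (phi RatFunc.X⁻¹) = 0 := by
    have e : v (phi RatFunc.X) + v (phi RatFunc.X⁻¹) = 0 := by
      rw [← v.map_mul, ← map_mul, mul_inv_cancel₀ hX0, map_one, v.map_one]
    rwa [h2, zero_add] at e
  have e : (RatFunc.X⁻¹ - RatFunc.C a : RatFunc L)
      = -(RatFunc.C a * RatFunc.X⁻¹ * (RatFunc.X - RatFunc.C a⁻¹)) := by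
    have : (RatFunc.C a * RatFunc.C a⁻¹ : RatFunc L) = 1 := by
      rw [← map_mul, mul_inv_cancel₀ ha, map_one]
    have hXX : (RatFunc.X⁻¹ * RatFunc.X : RatFunc L) = 1 := inv_mul_cancel₀ hX0
    linear_combination (-(RatFunc.X⁻¹ : RatFunc L)) * this + RatFunc.C a * hXX
  rw [e, map_neg phi, v.map_neg, map_mul phi, map_mul phi, v.map_mul, v.map_mul,
    val_const hc ha, h3, h, zero_add, zero_add]

end val

variable [IsAlgClosed L] (A : ValuationSubring L)
  {E : Type*} [CommRing E] [Algebra (RatFunc L) E] {ι : Type*} [Fintype ι] [DecidableEq ι]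
  {Om : Type*} [Field Om] {v : AddValuation Om (WithTop ℤ)}

theorem polTau_smul (P : (↥A)[X]) (h : E) : polTau A P • h =
    algebraMap (RatFunc L) E (aeval (RatFunc.X : RatFunc L) (P.map A.subtype)) * h := by
  rw [← Algebra.smul_def]; rfl

theorem polS_smul (P : (↥A)[X]) (h : E) : polS A P • h =
    algebraMap (RatFunc L) E (aeval (RatFunc.X⁻¹ : RatFunc L) (P.map A.subtype)) * h := by
  rw [← Algebra.smul_def]; rfl

/-- the field `G3` -/
theorem g3_tau (b : Basis ι (RatFunc L) E) (hv : ∀ k : ℕ, k ≠ 0 → v (k : Om) = 0)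
    (P : (↥A)[X]) (M : ℕ)
    (hfin : ∀ a : L, PtOK E ι Om v M ((P.map A.subtype).eval a ≠ 0) (RatFunc.X - RatFunc.C a)) :
    ∀ h : E, InDual (Rtau L) (RatFunc L) E h →
      ∃ u : E, IsIntegral (Rtau L) u ∧ (polTau A P • h) ^ M = polTau A P • u := by
  choose eps phi sig h1 h2 h3 h4 h5 h6 h7 using hfin
  have D : IsLocData (RatFunc.X : RatFunc L) v eps phi sig :=
    { ht := ratFunc_frac_X
      hv := hv
      heps := h1
      hinj := h4
      halg := h5
      hconst := h6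
      hpt := h7 }
  intro h hh
  have hd : IsLocData.IsDual L (RatFunc.X : RatFunc L) h := fun y hy =>
    (Int.mem_range_algebraMap_sub L (Rtau L) _).1 (hh y hy)
  obtain ⟨y, hy, e⟩ := D.g3 b (P.map A.subtype) M h2 h3 hd
  exact ⟨y, hy, by rw [polTau_smul, polTau_smul]; exact e⟩

/-- the field `G3'` -/
theorem g3_s (b : Basis ι (RatFunc L) E) (hv : ∀ k : ℕ, k ≠ 0 → v (k : Om) = 0)
    (P P' : (↥A)[X]) (M : ℕ)
    (hfin : ∀ a : L, PtOK E ι Om v M ((P.map A.subtype).eval a ≠ 0) (RatFunc.X - RatFunc.C a))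
    (hinf : PtOK E ι Om v M False (RatFunc.X⁻¹ : RatFunc L))
    (hPP' : ∀ a : L, a ≠ 0 → (P'.map A.subtype).eval a ≠ 0 → (P.map A.subtype).eval a⁻¹ ≠ 0)
    (hP'0 : (P'.map A.subtype).eval 0 = 0) :
    ∀ h : E, InDual (Rs L) (RatFunc L) E h →
      ∃ u : E, IsIntegral (Rs L) u ∧ (polS A P' • h) ^ M = polS A P' • u := by
  have hpt : ∀ a : L, PtOK E ι Om v M ((P'.map A.subtype).eval a ≠ 0)
      (RatFunc.X⁻¹ - RatFunc.C a) := by
    intro a
    by_cases ha : a = 0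
    · obtain ⟨eps, phi, sig, h1, h2, -, h4, h5, h6, h7⟩ := hinf
      refine ⟨eps, phi, sig, h1, h2, fun h => absurd (ha ▸ hP'0) h, h4, h5, h6, ?_⟩
      rw [ha, map_zero, sub_zero]; exact h7
    · obtain ⟨eps, phi, sig, h1, h2, h3, h4, h5, h6, h7⟩ := hfin a⁻¹
      exact ⟨eps, phi, sig, h1, h2, fun h => h3 (hPP' a ha h), h4, h5, h6, val_s_chart h6 ha h1 h7⟩
  choose eps phi sig h1 h2 h3 h4 h5 h6 h7 using hpt
  have D : IsLocData (RatFunc.X⁻¹ : RatFunc L) v eps phi sig :=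
    { ht := ratFunc_frac_X_inv
      hv := hv
      heps := h1
      hinj := h4
      halg := h5
      hconst := h6
      hpt := h7 }
  intro h hh
  have hd : IsLocData.IsDual L (RatFunc.X⁻¹ : RatFunc L) h := fun y hy =>
    (Int.mem_range_algebraMap_sub L (Rs L) _).1 (hh y hy)
  obtain ⟨y, hy, e⟩ := D.g3 b (P'.map A.subtype) M h2 h3 hd
  exact ⟨y, hy, by rw [polS_smul, polS_smul]; exact e⟩

end Fermat.Agent.S18
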