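import Fermat.Agent.S18.RRLift
import Fermat.Agent.S18.Base
import Fermat.Agent.S18.IntRat

/-!
# S18, plan Z, steps (e), (f), (g) for a `GoodPair`
-/

set_option autoImplicit false
set_option linter.unusedSectionVars false
set_option linter.unusedVariables false

namespace Fermat.Agent.S18

open Polynomial Module

section bridge

variable {κ : Type*} [Field κ] {E : Type*} [CommRing E] [Algebra (RatFunc κ) E]

theorem isDualS_iff {h : E} : IsDualS κ E h ↔ InDual (Rtau κ) (RatFunc κ) E h :=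
  forall_congr' fun _ => imp_congr_right fun _ => rr_mem_range_Rtau.symm

theorem isDualT_iff {h : E} : IsDualT κ E h ↔ InDual (Rs κ) (RatFunc κ) E h :=
  forall_congr' fun _ => imp_congr_right fun _ => rr_mem_range_Rs.symm

variable [Algebra κ E] [IsScalarTower κ (RatFunc κ) E]

theorem mem_box_iff_inBox {a n : ℕ} {y : E} : y ∈ box κ E a n ↔ InBox κ a n y := Iff.rfl

theorem mem_boxD_iff_inDualBox {a n : ℕ} {y : E} : y ∈ boxD κ E a n ↔ InDualBox κ a n y := by
  rw [mem_boxD, isDualS_iff, isDualT_iff]; rfl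

/-- glue with the shape of `sb_sum` -/
theorem box_sum_of {ι : Type*} [Fintype ι]
    (hsb : ∃ n0 : ℕ, ∀ n : ℕ, n0 ≤ n → ∀ W W' : Submodule κ E,
      (∀ y, y ∈ W ↔ y ∈ {y : E | IsIntegral ↥(Rtau κ) y} ∧
        (RatFunc.X : RatFunc κ) ^ (-(n : ℤ)) • y ∈ {y : E | IsIntegral ↥(Rs κ) y}) →
      (∀ y, y ∈ W' ↔
        y ∈ {x : E | ∀ y ∈ {y : E | IsIntegral ↥(Rtau κ) y},
          Algebra.traceForm (RatFunc κ) E x y ∈ Algebra.adjoin κ {(RatFunc.X : RatFunc κ)}} ∧
        (RatFunc.X : RatFunc κ) ^ (-(n : ℤ)) • y ∈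
          {x : E | ∀ y ∈ {y : E | IsIntegral ↥(Rs κ) y},
            Algebra.traceForm (RatFunc κ) E x y ∈ Algebra.adjoin κ {(RatFunc.X : RatFunc κ)⁻¹}}) →
      FiniteDimensional κ W ∧ FiniteDimensional κ W' ∧
        finrank κ W + finrank κ W' = 2 * Fintype.card ι * (n + 1)) :
    ∃ n0 : ℕ, ∀ n, n0 ≤ n → FiniteDimensional κ (box κ E 0 n) ∧
      FiniteDimensional κ (boxD κ E 0 n) ∧
      finrank κ (box κ E 0 n) + finrank κ (boxD κ E 0 n) = 2 * Fintype.card ι * (n + 1) := by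
  obtain ⟨n0, h⟩ := hsb
  refine ⟨n0, fun n hn => h n hn _ _ (fun y => ?_) (fun y => ?_)⟩
  · rw [mem_box, pow_zero, one_smul, zpow_neg, zpow_natCast, ← inv_pow]
    rfl
  · rw [mem_boxD, pow_zero, one_smul, zpow_neg, zpow_natCast, ← inv_pow, Int.adjoin_X_eq_Rtau,
      Int.adjoin_X_inv_eq_Rs]
    rfl

end bridge

section gp

variable {L : Type*} [Field L] {A : ValuationSubring L}
variable {ι : Type*} [Fintype ι] [DecidableEq ι]
variable {E Eb : Type*} [CommRing E] [Algebra (RatFunc L) E] [CommRing Eb]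
  [Algebra (RatFunc (Kres A)) Eb]

/-- **(e)** for `S` -/
theorem GoodPair.red_isIntegral_tau (G : GoodPair A ι E Eb) (y : G.O)
    (hy : IsIntegral (Rtau L) (y : E)) : IsIntegral (Rtau (Kres A)) (G.red y) := by
  have := Int.isPrincipalIdealRing_Rtau L
  have := Int.isFractionRing_Rtau L
  have := Module.Finite.of_basis G.b
  exact qep_tau G.mem_O G.repr_red
    (fun y hy n => Int.leftMulMatrix_charpoly_coeff_mem G.b hy n) y hy

/-- **(e)** for `T` -/
theorem GoodPair.red_isIntegral_s (G : GoodPair A ι E Eb) (y : G.O)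
    (hy : IsIntegral (Rs L) (y : E)) : IsIntegral (Rs (Kres A)) (G.red y) := by
  have := Int.isPrincipalIdealRing_Rs L
  have := Int.isFractionRing_Rs L
  have := Module.Finite.of_basis G.b
  exact qep_s G.mem_O G.repr_red
    (fun y hy n => Int.leftMulMatrix_charpoly_coeff_mem G.b hy n) y hy

/-- **(e)** for `U` -/
theorem GoodPair.red_isIntegral_ts (G : GoodPair A ι E Eb) (y : G.O)
    (hy : IsIntegral (Rts L) (y : E)) : IsIntegral (Rts (Kres A)) (G.red y) := by
  obtain ⟨m, hm⟩ := (Int.isIntegral_Rts_iff_Rtau _).1 hy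
  obtain ⟨h, hh⟩ := red_X_pow_smul G.mem_O G.repr_red m y
  exact (Int.isIntegral_Rts_iff_Rtau _).2 ⟨m, hh ▸ G.red_isIntegral_tau ⟨_, h⟩ hm⟩

/-- **(f)** for `S` -/
theorem GoodPair.red_inDual_tau (G : GoodPair A ι E Eb) (h : G.O)
    (hh : InDual (Rtau L) (RatFunc L) E (h : E)) :
    InDual (Rtau (Kres A)) (RatFunc (Kres A)) Eb (G.red h) := by
  have := Module.Finite.of_basis G.bb
  have := Int.isPrincipalIdealRing_Rtau (Kres A)
  have := Int.isFractionRing_Rtau (Kres A)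
  rw [← isDualS_iff] at hh ⊢
  exact tt_tau G.mem_O G.repr_red G.red_isIntegral_tau
    (Int.exists_lattice_basis G.nondegb G.bb) G.P G.sqfree G.M G.M_pos
    (fun h hh => G.G3 h (isDualS_iff.1 hh)) h hh

/-- **(f)** for `T` -/
theorem GoodPair.red_inDual_s (G : GoodPair A ι E Eb) (h : G.O)
    (hh : InDual (Rs L) (RatFunc L) E (h : E)) :
    InDual (Rs (Kres A)) (RatFunc (Kres A)) Eb (G.red h) := by
  have := Module.Finite.of_basis G.bb
  have := Int.isPrincipalIdealRing_Rs (Kres A)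
  have := Int.isFractionRing_Rs (Kres A)
  rw [← isDualT_iff] at hh ⊢
  exact tt_s G.mem_O G.repr_red G.red_isIntegral_s
    (Int.exists_lattice_basis G.nondegb G.bb) G.P' G.sqfree' G.M G.M_pos
    (fun h hh => G.G3' h (isDualT_iff.1 hh)) h hh

variable [Algebra L E] [IsScalarTower L (RatFunc L) E]
  [Algebra (Kres A) Eb] [IsScalarTower (Kres A) (RatFunc (Kres A)) Eb]

/-- **(g)** RR-lifting, modulo the dimension formula (d) and the unit ball property (b) -/
theorem GoodPair.rr_lift_of (G : GoodPair A ι E Eb)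
    (hB : Ball A G.O.toAddSubgroup G.red.toAddMonoidHom)
    (hsumL : ∃ n0 : ℕ, ∀ n, n0 ≤ n → FiniteDimensional L (box L E 0 n) ∧
      FiniteDimensional L (boxD L E 0 n) ∧
      finrank L (box L E 0 n) + finrank L (boxD L E 0 n) = 2 * Fintype.card ι * (n + 1))
    (hsumk : ∃ n0 : ℕ, ∀ n, n0 ≤ n → FiniteDimensional (Kres A) (box (Kres A) Eb 0 n) ∧
      FiniteDimensional (Kres A) (boxD (Kres A) Eb 0 n) ∧
      finrank (Kres A) (box (Kres A) Eb 0 n) + finrank (Kres A) (boxD (Kres A) Eb 0 n) =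
        2 * Fintype.card ι * (n + 1)) :
    ∃ n0 : ℕ, ∀ a n : ℕ, n0 ≤ a + n → ∀ w : Eb, InBox (Kres A) a n w →
      ∃ y : G.O, InBox L a n (y : E) ∧ G.red y = w :=
  rr_lift G.mem_O G.repr_red hB G.red_isIntegral_tau G.red_isIntegral_s
    (fun y hy => isDualS_iff.2 (G.red_inDual_tau y (isDualS_iff.1 hy)))
    (fun y hy => isDualT_iff.2 (G.red_inDual_s y (isDualT_iff.1 hy))) hsumL hsumk

end gp

end Fermat.Agent.S18
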