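import Fermat.Agent.S18.SB

namespace Fermat.Agent.S18

open Module

universe uE

variable {κ K ι : Type*} {E : Type uE} [Field κ] [Field K] [Algebra κ K] [AddCommGroup E] [Module K E]
  [Module κ E] [IsScalarTower κ K E]

theorem SBForm.mem_box_iff {τ : K} (hτ : Transcendental κ τ) {S T : Set E} {v : Basis ι K E}
    {d : ι → ℤ} (h : SBForm κ τ S T v d) (a n : ℤ) (y : E) :
    (τ ^ a • y ∈ S ∧ τ ^ (-n) • y ∈ T) ↔ ∀ i, v.repr y i ∈ Lau κ τ (-a) (n - d i) := by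
  have h0 := transc_ne_zero hτ
  rw [h.memS, h.memT, ← forall_and]
  refine forall_congr' fun i => ?_
  rw [mem_Lau_iff hτ, map_smul, map_smul, Finsupp.smul_apply, Finsupp.smul_apply, smul_eq_mul,
    smul_eq_mul, neg_neg, ← mul_assoc, ← zpow_add₀ h0]
  have : d i + -n = -(n - d i) := by ring
  rw [this]

theorem SBForm.finrank_box [Fintype ι] {τ : K} (hτ : Transcendental κ τ) {S T : Set E}
    {v : Basis ι K E} {d : ι → ℤ} (h : SBForm κ τ S T v d) (a n : ℤ) (W : Submodule κ E)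
    (hW : ∀ y, y ∈ W ↔ (τ ^ a • y ∈ S ∧ τ ^ (-n) • y ∈ T)) :
    FiniteDimensional κ W ∧ finrank κ W = ∑ i, (n - d i + a + 1).toNat := by
  classical
  have hmem : ∀ y, y ∈ W ↔ ∀ i, v.repr y i ∈ Lau κ τ (-a) (n - d i) := fun y =>
    (hW y).trans (h.mem_box_iff hτ a n y)
  let f : W →ₗ[κ] (∀ i, Lau κ τ (-a) (n - d i)) :=
    { toFun := fun y i => ⟨v.repr y i, (hmem y).1 y.2 i⟩
      map_add' := by
        intro x y
        ext i
        simp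
      map_smul' := by
        intro c y
        ext i
        simp only [Submodule.coe_smul, RingHom.id_apply, Pi.smul_apply]
        rw [← algebraMap_smul K c (y : E), map_smul, Finsupp.smul_apply, smul_eq_mul,
          Algebra.smul_def] }
  have hinj : Function.Injective f := by
    intro x y hxy
    apply Subtype.ext
    apply v.repr.injective
    ext i
    exact congrArg Subtype.val (congrFun hxy i)
  have hsurj : Function.Surjective f := by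
    intro c
    have hy : ∀ i, v.repr (∑ i, (c i : K) • v i) i = c i := fun i => by
      rw [Basis.repr_sum_self]
    refine ⟨⟨∑ i, (c i : K) • v i, (hmem _).2 fun i => by rw [hy i]; exact (c i).2⟩, ?_⟩
    ext i
    exact hy i
  let e : W ≃ₗ[κ] (∀ i, Lau κ τ (-a) (n - d i)) := LinearEquiv.ofBijective f ⟨hinj, hsurj⟩
  refine ⟨e.symm.finiteDimensional, ?_⟩
  rw [e.finrank_eq, Module.finrank_pi_fintype]
  refine Finset.sum_congr rfl fun i _ => ?_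
  rw [finrank_Lau hτ]
  congr 1
  ring

theorem SBForm.basis_mem {τ : K} {S T : Set E} {v : Basis ι K E} {d : ι → ℤ}
    (h : SBForm κ τ S T v d) (i : ι) : v i ∈ S := by
  classical
  rw [h.memS]
  intro j
  rw [Basis.repr_self, Finsupp.single_apply]
  split_ifs
  · exact Subalgebra.one_mem _
  · exact Subalgebra.zero_mem _

theorem SBForm.basis_mem' {τ : K} (h0 : τ ≠ 0) {S T : Set E} {v : Basis ι K E} {d : ι → ℤ}
    (h : SBForm κ τ S T v d) (i : ι) : τ ^ (-d i) • v i ∈ T := by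
  classical
  rw [h.memT]
  intro j
  rw [map_smul, Basis.repr_self, Finsupp.smul_apply, Finsupp.single_apply, smul_eq_mul]
  split_ifs with hij
  · subst hij
    rw [mul_one, ← zpow_add₀ h0, add_neg_cancel, zpow_zero]
    exact Subalgebra.one_mem _
  · rw [mul_zero, mul_zero]
    exact Subalgebra.zero_mem _

theorem SBForm.dual [Fintype ι] [DecidableEq ι] {τ : K} (h0 : τ ≠ 0) {S T : Set E}
    {v : Basis ι K E} {d : ι → ℤ}
    (h : SBForm κ τ S T v d) (B : LinearMap.BilinForm K E) (hB : B.Nondegenerate) :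
    SBForm κ τ {x | ∀ y ∈ S, B x y ∈ Algebra.adjoin κ {τ}}
      {x | ∀ y ∈ T, B x y ∈ Algebra.adjoin κ {τ⁻¹}} (B.dualBasis hB v) (fun i => - d i) := by
  have hexp : ∀ x y, B x y = ∑ i, v.repr y i * B x (v i) := by
    intro x y
    conv_lhs => rw [← v.sum_repr y]
    rw [map_sum]
    refine Finset.sum_congr rfl fun i _ => ?_
    rw [map_smul, smul_eq_mul]
  constructor
  · intro x
    simp only [Set.mem_ofPred_eq, LinearMap.BilinForm.dualBasis_repr_apply]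
    constructor
    · intro hx i
      exact hx _ (h.basis_mem i)
    · intro hx y hy
      rw [hexp]
      exact Subalgebra.sum_mem _ fun i _ => Subalgebra.mul_mem _ ((h.memS y).1 hy i) (hx i)
  · intro x
    simp only [Set.mem_ofPred_eq, LinearMap.BilinForm.dualBasis_repr_apply]
    constructor
    · intro hx i
      have := hx _ (h.basis_mem' h0 i)
      rwa [map_smul, smul_eq_mul] at this
    · intro hx y hy
      rw [hexp]
      refine Subalgebra.sum_mem _ fun i _ => ?_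
      have h1 := Subalgebra.mul_mem _ ((h.memT y).1 hy i) (hx i)
      have h2 : τ ^ d i * v.repr y i * (τ ^ (-d i) * B x (v i)) = v.repr y i * B x (v i) := by
        rw [zpow_neg]
        field_simp
      rwa [h2] at h1

theorem sb_sum [Fintype ι] [DecidableEq ι] {τ : K} (hτ : Transcendental κ τ) (S T : Set E)
    (hS : ∃ v : Basis ι K E, ∀ y, y ∈ S ↔ ∀ i, v.repr y i ∈ Algebra.adjoin κ {τ})
    (hT : ∃ v : Basis ι K E, ∀ y, y ∈ T ↔ ∀ i, v.repr y i ∈ Algebra.adjoin κ {τ⁻¹})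
    (hST : ∀ y ∈ S, ∃ m : ℕ, (τ⁻¹) ^ m • y ∈ T) (hTS : ∀ y ∈ T, ∃ m : ℕ, τ ^ m • y ∈ S)
    (B : LinearMap.BilinForm K E) (hB : B.Nondegenerate) :
    ∃ n0 : ℕ, ∀ n : ℕ, n0 ≤ n → ∀ W W' : Submodule κ E,
      (∀ y, y ∈ W ↔ y ∈ S ∧ τ ^ (-(n : ℤ)) • y ∈ T) →
      (∀ y, y ∈ W' ↔ (∀ z ∈ S, B y z ∈ Algebra.adjoin κ {τ}) ∧
        (∀ z ∈ T, B (τ ^ (-(n : ℤ)) • y) z ∈ Algebra.adjoin κ {τ⁻¹})) →
      FiniteDimensional κ W ∧ FiniteDimensional κ W' ∧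
        finrank κ W + finrank κ W' = 2 * Fintype.card ι * (n + 1) := by
  have h0 := transc_ne_zero hτ
  obtain ⟨v, d, h⟩ := sb_exists hτ S T hS hT hST hTS
  have hd := h.dual h0 B hB
  obtain ⟨n0, hn0⟩ := Finite.exists_le fun i => (d i).natAbs
  refine ⟨n0, fun n hn W W' hW hW' => ?_⟩
  obtain ⟨f1, r1⟩ := h.finrank_box hτ 0 n W (fun y => by rw [hW y, zpow_zero, one_smul])
  obtain ⟨f2, r2⟩ := hd.finrank_box hτ 0 n W' (fun y => by
    rw [hW' y, zpow_zero, one_smul]; rfl)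
  refine ⟨f1, f2, ?_⟩
  rw [r1, r2, ← Finset.sum_add_distrib]
  have : ∀ i ∈ (Finset.univ : Finset ι),
      ((n : ℤ) - d i + 0 + 1).toNat + ((n : ℤ) - -d i + 0 + 1).toNat = 2 * (n + 1) := by
    intro i _
    have := hn0 i
    omega
  rw [Finset.sum_congr rfl this, Finset.sum_const, Finset.card_univ, smul_eq_mul]
  ring

theorem Lau_cover3 (τ : K) {a b a1 b1 a2 b2 a3 b3 : ℤ}
    (hcov : ∀ j, a ≤ j → j ≤ b → (a1 ≤ j ∧ j ≤ b1) ∨ (a2 ≤ j ∧ j ≤ b2) ∨ (a3 ≤ j ∧ j ≤ b3))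
    {c : K} (hc : c ∈ Lau κ τ a b) :
    ∃ c1 ∈ Lau κ τ a1 b1, ∃ c2 ∈ Lau κ τ a2 b2, ∃ c3 ∈ Lau κ τ a3 b3, c = c1 + c2 + c3 := by
  have hsub : Set.Icc a b ⊆ (Set.Icc a1 b1 ∪ Set.Icc a2 b2) ∪ Set.Icc a3 b3 := by
    intro j hj
    rcases hcov j hj.1 hj.2 with h | h | h
    · exact Or.inl (Or.inl h)
    · exact Or.inl (Or.inr h)
    · exact Or.inr h
  have h1 : c ∈ (Lau κ τ a1 b1 ⊔ Lau κ τ a2 b2) ⊔ Lau κ τ a3 b3 := by
    have := Submodule.span_mono (R := κ) (Set.image_mono (f := fun j : ℤ => τ ^ j) hsub) hc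
    rwa [Set.image_union, Set.image_union, Submodule.span_union, Submodule.span_union] at this
  obtain ⟨x, hx, c3, hc3, rfl⟩ := Submodule.mem_sup.1 h1
  obtain ⟨c1, hc1, c2, hc2, rfl⟩ := Submodule.mem_sup.1 hx
  exact ⟨c1, hc1, c2, hc2, c3, hc3, rfl⟩

theorem SBForm.box_cover3 [Fintype ι] {τ : K} (hτ : Transcendental κ τ) {S T : Set E}
    {v : Basis ι K E} {d : ι → ℤ} (h : SBForm κ τ S T v d) (a n a1 n1 a2 n2 a3 n3 : ℤ)
    (hcov : ∀ i j, -a ≤ j → j ≤ n - d i →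
      (-a1 ≤ j ∧ j ≤ n1 - d i) ∨ (-a2 ≤ j ∧ j ≤ n2 - d i) ∨ (-a3 ≤ j ∧ j ≤ n3 - d i))
    (y : E) (hy : τ ^ a • y ∈ S ∧ τ ^ (-n) • y ∈ T) :
    ∃ y1 y2 y3, y = y1 + y2 + y3 ∧ (τ ^ a1 • y1 ∈ S ∧ τ ^ (-n1) • y1 ∈ T) ∧
      (τ ^ a2 • y2 ∈ S ∧ τ ^ (-n2) • y2 ∈ T) ∧ (τ ^ a3 • y3 ∈ S ∧ τ ^ (-n3) • y3 ∈ T) := by
  classical
  rw [h.mem_box_iff hτ] at hy
  choose c1 h1 c2 h2 c3 h3 hc using fun i => Lau_cover3 (κ := κ) τ (hcov i) (hy i)
  refine ⟨∑ i, c1 i • v i, ∑ i, c2 i • v i, ∑ i, c3 i • v i, ?_, ?_, ?_, ?_⟩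
  · conv_lhs => rw [← v.sum_repr y]
    rw [← Finset.sum_add_distrib, ← Finset.sum_add_distrib]
    refine Finset.sum_congr rfl fun i _ => ?_
    rw [hc i, add_smul, add_smul]
  · rw [h.mem_box_iff hτ]; intro i; rw [Basis.repr_sum_self]; exact h1 i
  · rw [h.mem_box_iff hτ]; intro i; rw [Basis.repr_sum_self]; exact h2 i
  · rw [h.mem_box_iff hτ]; intro i; rw [Basis.repr_sum_self]; exact h3 i

theorem sb_decomp [Fintype ι] {τ : K} (hτ : Transcendental κ τ) (S T : Set E)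
    (hS : ∃ v : Basis ι K E, ∀ y, y ∈ S ↔ ∀ i, v.repr y i ∈ Algebra.adjoin κ {τ})
    (hT : ∃ v : Basis ι K E, ∀ y, y ∈ T ↔ ∀ i, v.repr y i ∈ Algebra.adjoin κ {τ⁻¹})
    (hST : ∀ y ∈ S, ∃ m : ℕ, (τ⁻¹) ^ m • y ∈ T) (hTS : ∀ y ∈ T, ∃ m : ℕ, τ ^ m • y ∈ S) :
    ∃ n1 : ℕ, ∀ (a n : ℕ) (y : E), (τ ^ (a : ℤ) • y ∈ S ∧ τ ^ (-(n : ℤ)) • y ∈ T) →
      ∃ y1 y2 y3, y = y1 + y2 + y3 ∧ (y1 ∈ S ∧ τ ^ (-(n : ℤ)) • y1 ∈ T) ∧
        (τ ^ (a : ℤ) • y2 ∈ S ∧ y2 ∈ T) ∧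
        (τ ^ (n1 : ℤ) • y3 ∈ S ∧ τ ^ (-(n1 : ℤ)) • y3 ∈ T) := by
  obtain ⟨v, d, h⟩ := sb_exists hτ S T hS hT hST hTS
  obtain ⟨n1, hn1⟩ := Finite.exists_le fun i => (d i).natAbs
  refine ⟨n1, fun a n y hy => ?_⟩
  obtain ⟨y1, y2, y3, e, b1, b2, b3⟩ := h.box_cover3 hτ a n 0 n a 0 n1 n1 (by
    intro i j hj1 hj2
    have := hn1 i
    omega) y hy
  refine ⟨y1, y2, y3, e, ?_, ?_, b3⟩
  · simpa using b1
  · simpa using b2

theorem sb_box_finite [Fintype ι] {τ : K} (hτ : Transcendental κ τ) (S T : Set E)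
    (hS : ∃ v : Basis ι K E, ∀ y, y ∈ S ↔ ∀ i, v.repr y i ∈ Algebra.adjoin κ {τ})
    (hT : ∃ v : Basis ι K E, ∀ y, y ∈ T ↔ ∀ i, v.repr y i ∈ Algebra.adjoin κ {τ⁻¹})
    (hST : ∀ y ∈ S, ∃ m : ℕ, (τ⁻¹) ^ m • y ∈ T) (hTS : ∀ y ∈ T, ∃ m : ℕ, τ ^ m • y ∈ S)
    (a n : ℤ) (W : Submodule κ E) (hW : ∀ y, y ∈ W ↔ (τ ^ a • y ∈ S ∧ τ ^ (-n) • y ∈ T)) :
    FiniteDimensional κ W := by
  obtain ⟨v, d, h⟩ := sb_exists hτ S T hS hT hST hTS
  exact (h.finrank_box hτ a n W hW).1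

end Fermat.Agent.S18
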