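import Fermat.Agent.S18.GPLift
import Fermat.Agent.S18.SBCor

/-!
# S18, plan Z, step (g) for a `GoodPair`: final form
-/

set_option autoImplicit false
set_option linter.unusedSectionVars false
set_option linter.unusedVariables false

namespace Fermat.Agent.S18

open Polynomial Module

/-- the dimension formula (d) for the boxes -/
theorem box_sum {κ : Type*} [Field κ] {E : Type*} [CommRing E] [Algebra (RatFunc κ) E]
    [Algebra κ E] [IsScalarTower κ (RatFunc κ) E] {ι : Type*} [Fintype ι] [DecidableEq ι]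
    (b : Basis ι (RatFunc κ) E) (hnd : (Algebra.traceForm (RatFunc κ) E).Nondegenerate) :
    ∃ n0 : ℕ, ∀ n, n0 ≤ n → FiniteDimensional κ (box κ E 0 n) ∧
      FiniteDimensional κ (boxD κ E 0 n) ∧
      finrank κ (box κ E 0 n) + finrank κ (boxD κ E 0 n) = 2 * Fintype.card ι * (n + 1) := by
  have := Module.Finite.of_basis b
  obtain ⟨n0, h⟩ := sb_sum (κ := κ) (ι := ι) (RatFunc.transcendental_X (K := κ))
    {y : E | IsIntegral ↥(Rtau κ) y} {y : E | IsIntegral ↥(Rs κ) y}
    (Int.hS_shape hnd b) (Int.hT_shape hnd b) Int.hST_shape Int.hTS_shape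
    (Algebra.traceForm (RatFunc κ) E) hnd
  refine ⟨n0, fun n hn => h n hn _ _ (fun y => ?_) (fun y => ?_)⟩
  · rw [mem_box, pow_zero, one_smul, zpow_neg, zpow_natCast, ← inv_pow]
    rfl
  · rw [mem_boxD, pow_zero, one_smul, zpow_neg, zpow_natCast, ← inv_pow, Int.adjoin_X_eq_Rtau,
      Int.adjoin_X_inv_eq_Rs]
    rfl

variable {L : Type*} [Field L] {A : ValuationSubring L}
variable {ι : Type*} [Fintype ι] [DecidableEq ι]
variable {E Eb : Type*} [CommRing E] [Algebra (RatFunc L) E] [CommRing Eb]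
  [Algebra (RatFunc (Kres A)) Eb]
variable [Algebra L E] [IsScalarTower L (RatFunc L) E]
  [Algebra (Kres A) Eb] [IsScalarTower (Kres A) (RatFunc (Kres A)) Eb]

/-- **(g)** RR-lifting -/
theorem GoodPair.rr_lift (G : GoodPair A ι E Eb)
    (hB : Ball A G.O.toAddSubgroup G.red.toAddMonoidHom) :
    ∃ n0 : ℕ, ∀ a n : ℕ, n0 ≤ a + n → ∀ w : Eb, InBox (Kres A) a n w →
      ∃ y : G.O, InBox L a n (y : E) ∧ G.red y = w :=
  G.rr_lift_of hB (box_sum G.b G.nondeg) (box_sum G.bb G.nondegb)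

end Fermat.Agent.S18
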