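import Fermat.Agent.S18.H0Parts
import Fermat.Agent.S18.GPLift2
import Fermat.Agent.S18.EBInst

set_option autoImplicit false

/-! # S18 plan Z: the theorem H0 -/

namespace Fermat.Agent.S18

open Polynomial Module

section generic

variable {κ : Type*} [Field κ] {E : Type*} [CommRing E] [Algebra (RatFunc κ) E]
  [Algebra κ E] [IsScalarTower κ (RatFunc κ) E] {ι : Type*} [Fintype ι] [DecidableEq ι]

theorem box_finite (b : Basis ι (RatFunc κ) E)
    (hnd : (Algebra.traceForm (RatFunc κ) E).Nondegenerate) (a n : ℕ) :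
    FiniteDimensional κ (box κ E a n) := by
  have := Module.Finite.of_basis b
  refine sb_box_finite (κ := κ) (ι := ι) (RatFunc.transcendental_X (K := κ))
    {y : E | IsIntegral ↥(Rtau κ) y} {y : E | IsIntegral ↥(Rs κ) y}
    (Int.hS_shape hnd b) (Int.hT_shape hnd b) Int.hST_shape Int.hTS_shape (a : ℤ) (n : ℤ)
    (box κ E a n) (fun y => ?_)
  rw [mem_box, zpow_natCast, zpow_neg, zpow_natCast, inv_pow]
  rfl

theorem box_decomp (b : Basis ι (RatFunc κ) E)
    (hnd : (Algebra.traceForm (RatFunc κ) E).Nondegenerate) :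
    ∃ n1 : ℕ, ∀ a n : ℕ, ∀ w ∈ box κ E a n, ∃ w1 w2 w3, w = w1 + w2 + w3 ∧
      w1 ∈ box κ E 0 n ∧ w2 ∈ box κ E a 0 ∧ w3 ∈ box κ E n1 n1 := by
  have := Module.Finite.of_basis b
  obtain ⟨n1, h⟩ := sb_decomp (κ := κ) (ι := ι) (RatFunc.transcendental_X (K := κ))
    {y : E | IsIntegral ↥(Rtau κ) y} {y : E | IsIntegral ↥(Rs κ) y}
    (Int.hS_shape hnd b) (Int.hT_shape hnd b) Int.hST_shape Int.hTS_shape
  refine ⟨n1, fun a n w hw => ?_⟩
  have hconv : ∀ (a n : ℕ) (y : E), y ∈ box κ E a n ↔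
      ((RatFunc.X : RatFunc κ) ^ (a : ℤ) • y ∈ {y : E | IsIntegral ↥(Rtau κ) y} ∧
        (RatFunc.X : RatFunc κ) ^ (-(n : ℤ)) • y ∈ {y : E | IsIntegral ↥(Rs κ) y}) := by
    intro a n y
    rw [mem_box, zpow_natCast, zpow_neg, zpow_natCast, inv_pow]
    rfl
  obtain ⟨y1, y2, y3, e, h1, h2, h3⟩ := h a n w ((hconv a n w).1 hw)
  refine ⟨y1, y2, y3, e, ?_, ?_, (hconv _ _ _).2 h3⟩
  · rw [hconv]
    refine ⟨?_, h1.2⟩
    rw [Nat.cast_zero, zpow_zero, one_smul]; exact h1.1
  · rw [hconv]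
    refine ⟨h2.1, ?_⟩
    rw [Nat.cast_zero, neg_zero, zpow_zero, one_smul]; exact h2.2

end generic

variable {L : Type*} [Field L] {A : ValuationSubring L}
variable {ι : Type*} [Fintype ι] [DecidableEq ι]
variable {E Eb : Type*} [CommRing E] [Algebra (RatFunc L) E] [CommRing Eb]
  [Algebra (RatFunc (Kres A)) Eb]

/-- H0 with compatible `L`- and `k`-algebra structures given. -/
theorem h0_main' [Algebra L E] [IsScalarTower L (RatFunc L) E]
    [Algebra (Kres A) Eb] [IsScalarTower (Kres A) (RatFunc (Kres A)) Eb]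
    (hA : IsRankOne A) (G : GoodPair A ι E Eb) : G.H0 := by
  have := Module.Finite.of_basis G.b
  exact h0_of_parts hA G G.ball G.red_isIntegral_tau G.red_isIntegral_s (G.rr_lift G.ball)
    (box_finite G.b G.nondeg) (box_decomp G.bb G.nondegb)
    (fun y hy => Int.exists_smul_isIntegral_Rs hy) (fun y hy => Int.exists_smul_isIntegral_Rtau hy)

/-- **H0**: every idempotent of `Eb` lifts to `S ∩ T ∩ O`. -/
theorem h0_main (hA : IsRankOne A) (G : GoodPair A ι E Eb) : G.H0 := by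
  letI : Algebra L E := Algebra.compHom E (algebraMap L (RatFunc L))
  haveI : IsScalarTower L (RatFunc L) E := IsScalarTower.of_algebraMap_eq fun _ => rfl
  letI : Algebra (Kres A) Eb := Algebra.compHom Eb (algebraMap (Kres A) (RatFunc (Kres A)))
  haveI : IsScalarTower (Kres A) (RatFunc (Kres A)) Eb :=
    IsScalarTower.of_algebraMap_eq fun _ => rfl
  exact h0_main' hA G

end Fermat.Agent.S18
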