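import Fermat.Agent.S18.Qep
import Fermat.Agent.S18.GaussRanges
import Fermat.Agent.S18.EB

/-!
# S18, plan Z, steps (e), (f), (g) in concrete form (over the Gauss valuation ring)
-/

set_option autoImplicit false
set_option linter.unusedSectionVars false
set_option linter.unusedVariables false

namespace Fermat.Agent.S18

open Polynomial Module

/-! ### `κ`-generic definitions -/

section generic

variable (κ : Type*) [Field κ] (E : Type*) [CommRing E] [Algebra (RatFunc κ) E]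

/-- `h ∈ S^#` -/
def IsDualS (h : E) : Prop :=
  ∀ y : E, IsIntegral (Rtau κ) y → Algebra.trace (RatFunc κ) E (h * y) ∈ Rtau κ

/-- `h ∈ T^#` -/
def IsDualT (h : E) : Prop :=
  ∀ y : E, IsIntegral (Rs κ) y → Algebra.trace (RatFunc κ) E (h * y) ∈ Rs κ

variable [Algebra κ E] [IsScalarTower κ (RatFunc κ) E]

/-- `s^a S ∩ τ^n T` -/
def box (a n : ℕ) : Submodule κ E where
  carrier := {y | IsIntegral (Rtau κ) ((RatFunc.X : RatFunc κ) ^ a • y) ∧
    IsIntegral (Rs κ) ((RatFunc.X⁻¹ : RatFunc κ) ^ n • y)}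
  add_mem' := by
    rintro x y ⟨h1, h2⟩ ⟨h3, h4⟩
    refine ⟨?_, ?_⟩
    · rw [smul_add]; exact h1.add h3
    · rw [smul_add]; exact h2.add h4
  zero_mem' := by
    refine ⟨?_, ?_⟩
    · rw [smul_zero]; exact isIntegral_zero
    · rw [smul_zero]; exact isIntegral_zero
  smul_mem' := by
    rintro c y ⟨h1, h2⟩
    refine ⟨?_, ?_⟩
    · rw [smul_comm]; exact h1.smul c
    · rw [smul_comm]; exact h2.smul c

/-- `s^a S^# ∩ τ^n T^#` -/
def boxD (a n : ℕ) : Submodule κ E where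
  carrier := {y | IsDualS κ E ((RatFunc.X : RatFunc κ) ^ a • y) ∧
    IsDualT κ E ((RatFunc.X⁻¹ : RatFunc κ) ^ n • y)}
  add_mem' := by
    rintro x y ⟨h1, h2⟩ ⟨h3, h4⟩
    refine ⟨fun z hz => ?_, fun z hz => ?_⟩
    · rw [smul_add, add_mul, map_add]; exact (Rtau κ).add_mem (h1 z hz) (h3 z hz)
    · rw [smul_add, add_mul, map_add]; exact (Rs κ).add_mem (h2 z hz) (h4 z hz)
  zero_mem' := by
    refine ⟨fun z hz => ?_, fun z hz => ?_⟩
    · rw [smul_zero, zero_mul, map_zero]; exact (Rtau κ).zero_mem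
    · rw [smul_zero, zero_mul, map_zero]; exact (Rs κ).zero_mem
  smul_mem' := by
    rintro c y ⟨h1, h2⟩
    refine ⟨fun z hz => ?_, fun z hz => ?_⟩
    · rw [smul_comm, smul_mul_assoc, algebra_compatible_smul (RatFunc κ) c, map_smul,
        ← algebra_compatible_smul]
      exact (Rtau κ).smul_mem (h1 z hz) c
    · rw [smul_comm, smul_mul_assoc, algebra_compatible_smul (RatFunc κ) c, map_smul,
        ← algebra_compatible_smul]
      exact (Rs κ).smul_mem (h2 z hz) c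

variable {κ E}

theorem mem_box {a n : ℕ} {y : E} : y ∈ box κ E a n ↔
    IsIntegral (Rtau κ) ((RatFunc.X : RatFunc κ) ^ a • y) ∧
      IsIntegral (Rs κ) ((RatFunc.X⁻¹ : RatFunc κ) ^ n • y) := Iff.rfl

theorem mem_boxD {a n : ℕ} {y : E} : y ∈ boxD κ E a n ↔
    IsDualS κ E ((RatFunc.X : RatFunc κ) ^ a • y) ∧
      IsDualT κ E ((RatFunc.X⁻¹ : RatFunc κ) ^ n • y) := Iff.rfl

theorem X_pow_smul_mem_box {a n : ℕ} {y : E} :
    (RatFunc.X : RatFunc κ) ^ a • y ∈ box κ E 0 (a + n) ↔ y ∈ box κ E a n := by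
  rw [mem_box, mem_box, pow_zero, one_smul, smul_smul, pow_add, mul_assoc, mul_comm _ (_ ^ a),
    ← mul_assoc, ← mul_pow, inv_mul_cancel₀ RatFunc.X_ne_zero, one_pow, one_mul]

theorem rr_mem_range_Rtau {c : RatFunc κ} :
    c ∈ (algebraMap (Rtau κ) (RatFunc κ)).range ↔ c ∈ Rtau κ :=
  ⟨by rintro ⟨x, rfl⟩; exact x.2, fun h => ⟨⟨c, h⟩, rfl⟩⟩

theorem rr_mem_range_Rs {c : RatFunc κ} :
    c ∈ (algebraMap (Rs κ) (RatFunc κ)).range ↔ c ∈ Rs κ :=
  ⟨by rintro ⟨x, rfl⟩; exact x.2, fun h => ⟨⟨c, h⟩, rfl⟩⟩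

theorem rr_mem_range_Rts {c : RatFunc κ} :
    c ∈ (algebraMap (Rts κ) (RatFunc κ)).range ↔ c ∈ Rts κ :=
  ⟨by rintro ⟨x, rfl⟩; exact x.2, fun h => ⟨⟨c, h⟩, rfl⟩⟩

theorem aeval_X_injective :
    Function.Injective (Polynomial.aeval (RatFunc.X : RatFunc κ) : κ[X] →ₐ[κ] RatFunc κ) :=
  transcendental_iff_injective.1 RatFunc.transcendental_X

theorem aeval_X_inv_injective :
    Function.Injective (Polynomial.aeval (RatFunc.X⁻¹ : RatFunc κ) : κ[X] →ₐ[κ] RatFunc κ) := by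
  rw [injective_iff_map_eq_zero]
  intro P hP
  rw [aeval_X_inv_eq, mul_eq_zero] at hP
  rcases hP with hP | hP
  · exact absurd hP (pow_ne_zero _ (inv_ne_zero RatFunc.X_ne_zero))
  · have := (map_eq_zero_iff _ (IsFractionRing.injective κ[X] (RatFunc κ))).1 hP
    exact Polynomial.reverse_eq_zero.1 this

/-- a squarefree polynomial generates a radical ideal of `κ[t]` -/
theorem span_isRadical_of_squarefree {K : Type*} [Field K] [Algebra κ K] (t : K)
    (ht : Function.Injective (Polynomial.aeval t : κ[X] →ₐ[κ] K)) (P : κ[X]) (hP : Squarefree P) :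
    (Ideal.span {(⟨Polynomial.aeval t P, ⟨P, rfl⟩⟩ :
      (Polynomial.aeval t : κ[X] →ₐ[κ] K).range)}).IsRadical := by
  rintro ⟨_, Q, rfl⟩ ⟨n, hn⟩
  rw [Ideal.mem_span_singleton] at hn ⊢
  obtain ⟨⟨_, C', rfl⟩, hC⟩ := hn
  have h1 : Q ^ n = P * C' := by
    apply ht
    have := congrArg Subtype.val hC
    rw [map_pow, map_mul]
    exact this
  obtain ⟨D, rfl⟩ := hP.isRadical n Q ⟨C', h1⟩
  exact ⟨⟨_, D, rfl⟩, Subtype.ext (map_mul _ _ _)⟩

end generic

/-! ### the concrete context -/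

section concrete

variable {L : Type*} [Field L] {A : ValuationSubring L}
variable {ι : Type*} [Fintype ι] [DecidableEq ι]
variable {E Eb : Type*} [CommRing E] [Algebra (RatFunc L) E] [CommRing Eb]
  [Algebra (RatFunc (Kres A)) Eb]
variable {b : Basis ι (RatFunc L) E} {bb : Basis ι (RatFunc (Kres A)) Eb} {O : Subring E}
  {red : O →+* Eb}
variable (mem_O : ∀ y : E, y ∈ O ↔ ∀ i, b.repr y i ∈ OV A)
variable (repr_red : ∀ (y : O) (i : ι) (h : b.repr (y : E) i ∈ OV A),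
  bb.repr (red y) i = redV A ⟨b.repr (y : E) i, h⟩)

include mem_O repr_red in
/-- **(e)** for `S` -/
theorem qep_tau
    (hc : ∀ y : E, IsIntegral (Rtau L) y → ∀ n,
      (Algebra.leftMulMatrix b y).charpoly.coeff n ∈ (algebraMap (Rtau L) (RatFunc L)).range)
    (y : O) (hy : IsIntegral (Rtau L) (y : E)) : IsIntegral (Rtau (Kres A)) (red y) :=
  qep_isIntegral mem_O repr_red
    (fun c h => rr_mem_range_Rtau.2 (redV_mem_Rtau A c (rr_mem_range_Rtau.1 h))) y (hc y hy)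

include mem_O repr_red in
/-- **(e)** for `T` -/
theorem qep_s
    (hc : ∀ y : E, IsIntegral (Rs L) y → ∀ n,
      (Algebra.leftMulMatrix b y).charpoly.coeff n ∈ (algebraMap (Rs L) (RatFunc L)).range)
    (y : O) (hy : IsIntegral (Rs L) (y : E)) : IsIntegral (Rs (Kres A)) (red y) :=
  qep_isIntegral mem_O repr_red
    (fun c h => rr_mem_range_Rs.2 (redV_mem_Rs A c (rr_mem_range_Rs.1 h))) y (hc y hy)

include mem_O repr_red in
/-- **(e)** for `U` -/
theorem qep_ts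
    (hc : ∀ y : E, IsIntegral (Rts L) y → ∀ n,
      (Algebra.leftMulMatrix b y).charpoly.coeff n ∈ (algebraMap (Rts L) (RatFunc L)).range)
    (y : O) (hy : IsIntegral (Rts L) (y : E)) : IsIntegral (Rts (Kres A)) (red y) :=
  qep_isIntegral mem_O repr_red
    (fun c h => rr_mem_range_Rts.2 (redV_mem_Rts A c (rr_mem_range_Rts.1 h))) y (hc y hy)

include mem_O repr_red in
/-- **(f)** for `S` -/
theorem tt_tau
    (hqS : ∀ y : O, IsIntegral (Rtau L) (y : E) → IsIntegral (Rtau (Kres A)) (red y))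
    (hlat : ∃ v : Basis ι (RatFunc (Kres A)) Eb, ∀ y, IsIntegral (Rtau (Kres A)) y ↔
      ∀ i, v.repr y i ∈ (algebraMap (Rtau (Kres A)) (RatFunc (Kres A))).range)
    (p : (↥A)[X]) (hp : Squarefree (p.map (IsLocalRing.residue A))) (M : ℕ) (hM : 0 < M)
    (hG3 : ∀ h : E, IsDualS L E h → ∃ u : E, IsIntegral (Rtau L) u ∧
      (Polynomial.aeval (RatFunc.X : RatFunc L) (p.map A.subtype) • h) ^ M =
        Polynomial.aeval (RatFunc.X : RatFunc L) (p.map A.subtype) • u)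
    (h : O) (hh : IsDualS L E (h : E)) : IsDualS (Kres A) Eb (red h) := by
  obtain ⟨v, hv⟩ := hlat
  intro w hw
  have hmem : Polynomial.aeval (RatFunc.X : RatFunc L) (p.map A.subtype) ∈ OV A := by
    rw [aeval_X_eq]; exact poly_map_mem A p
  have hred : redV A ⟨_, hmem⟩ =
      Polynomial.aeval (RatFunc.X : RatFunc (Kres A)) (p.map (IsLocalRing.residue A)) := by
    rw [aeval_X_eq (p.map (IsLocalRing.residue A)), ← redV_poly_map]
    congr 1
    exact Subtype.ext (aeval_X_eq _)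
  have hne : redV A ⟨_, hmem⟩ ≠ 0 := by
    rw [hred]
    intro h0
    exact hp.ne_zero (aeval_X_injective (by rw [h0, map_zero]))
  have hne0 : Polynomial.aeval (RatFunc.X : RatFunc L) (p.map A.subtype) ≠ 0 := by
    intro h0
    apply hne
    have : (⟨_, hmem⟩ : OV A) = 0 := Subtype.ext h0
    rw [this, map_zero]
  have := tt_main (R := Rtau L) (Rt := Rtau (Kres A)) mem_O repr_red hqS v hv
    ⟨Polynomial.aeval (RatFunc.X : RatFunc L) (p.map A.subtype), ⟨_, rfl⟩⟩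
    ⟨Polynomial.aeval (RatFunc.X : RatFunc (Kres A)) (p.map (IsLocalRing.residue A)), ⟨_, rfl⟩⟩
    hmem (inv_mem A hne) hne0 hred
    (span_isRadical_of_squarefree _ aeval_X_injective _ hp) M hM h (hG3 h hh) w hw
  exact rr_mem_range_Rtau.1 this

include mem_O repr_red in
/-- **(f)** for `T` -/
theorem tt_s
    (hqT : ∀ y : O, IsIntegral (Rs L) (y : E) → IsIntegral (Rs (Kres A)) (red y))
    (hlat : ∃ v : Basis ι (RatFunc (Kres A)) Eb, ∀ y, IsIntegral (Rs (Kres A)) y ↔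
      ∀ i, v.repr y i ∈ (algebraMap (Rs (Kres A)) (RatFunc (Kres A))).range)
    (p : (↥A)[X]) (hp : Squarefree (p.map (IsLocalRing.residue A))) (M : ℕ) (hM : 0 < M)
    (hG3 : ∀ h : E, IsDualT L E h → ∃ u : E, IsIntegral (Rs L) u ∧
      (Polynomial.aeval (RatFunc.X⁻¹ : RatFunc L) (p.map A.subtype) • h) ^ M =
        Polynomial.aeval (RatFunc.X⁻¹ : RatFunc L) (p.map A.subtype) • u)
    (h : O) (hh : IsDualT L E (h : E)) : IsDualT (Kres A) Eb (red h) := by
  obtain ⟨v, hv⟩ := hlat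
  intro w hw
  have hmem : Polynomial.aeval (RatFunc.X⁻¹ : RatFunc L) (p.map A.subtype) ∈ OV A :=
    polyInv_map_mem A p
  have hred : redV A ⟨_, hmem⟩ =
      Polynomial.aeval (RatFunc.X⁻¹ : RatFunc (Kres A)) (p.map (IsLocalRing.residue A)) :=
    redV_polyInv_map A p
  have hne : redV A ⟨_, hmem⟩ ≠ 0 := by
    rw [hred]
    intro h0
    exact hp.ne_zero (aeval_X_inv_injective (by rw [h0, map_zero]))
  have hne0 : Polynomial.aeval (RatFunc.X⁻¹ : RatFunc L) (p.map A.subtype) ≠ 0 := by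
    intro h0
    apply hne
    have : (⟨_, hmem⟩ : OV A) = 0 := Subtype.ext h0
    rw [this, map_zero]
  have := tt_main (R := Rs L) (Rt := Rs (Kres A)) mem_O repr_red hqT v hv
    ⟨Polynomial.aeval (RatFunc.X⁻¹ : RatFunc L) (p.map A.subtype), ⟨_, rfl⟩⟩
    ⟨Polynomial.aeval (RatFunc.X⁻¹ : RatFunc (Kres A)) (p.map (IsLocalRing.residue A)), ⟨_, rfl⟩⟩
    hmem (inv_mem A hne) hne0 hred
    (span_isRadical_of_squarefree _ aeval_X_inv_injective _ hp) M hM h (hG3 h hh) w hw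
  exact rr_mem_range_Rs.1 this

include mem_O repr_red in
theorem red_X_pow_smul (a : ℕ) (y : O) : ∃ h : (RatFunc.X : RatFunc L) ^ a • (y : E) ∈ O,
    red ⟨_, h⟩ = (RatFunc.X : RatFunc (Kres A)) ^ a • red y := by
  have h1 := qep_smul_mem mem_O ((⟨RatFunc.X, X_mem A⟩ : OV A) ^ a) y.2
  have h2 := qep_red_smul mem_O repr_red ((⟨RatFunc.X, X_mem A⟩ : OV A) ^ a) y
  rw [map_pow, redV_X] at h2
  exact ⟨h1, h2⟩

include mem_O repr_red in
theorem red_X_inv_pow_smul (a : ℕ) (y : O) : ∃ h : (RatFunc.X⁻¹ : RatFunc L) ^ a • (y : E) ∈ O,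
    red ⟨_, h⟩ = (RatFunc.X⁻¹ : RatFunc (Kres A)) ^ a • red y := by
  have h1 := qep_smul_mem mem_O ((⟨RatFunc.X⁻¹, X_inv_mem A⟩ : OV A) ^ a) y.2
  have h2 := qep_red_smul mem_O repr_red ((⟨RatFunc.X⁻¹, X_inv_mem A⟩ : OV A) ^ a) y
  rw [map_pow, redV_X_inv] at h2
  exact ⟨h1, h2⟩

variable [Algebra L E] [IsScalarTower L (RatFunc L) E]
  [Algebra (Kres A) Eb] [IsScalarTower (Kres A) (RatFunc (Kres A)) Eb]

include mem_O repr_red in
/-- **(g)** RR-lifting -/
theorem rr_lift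
    (hB : Ball A O.toAddSubgroup red.toAddMonoidHom)
    (hqS : ∀ y : O, IsIntegral (Rtau L) (y : E) → IsIntegral (Rtau (Kres A)) (red y))
    (hqT : ∀ y : O, IsIntegral (Rs L) (y : E) → IsIntegral (Rs (Kres A)) (red y))
    (hdS : ∀ y : O, IsDualS L E (y : E) → IsDualS (Kres A) Eb (red y))
    (hdT : ∀ y : O, IsDualT L E (y : E) → IsDualT (Kres A) Eb (red y))
    (hsumL : ∃ n0 : ℕ, ∀ n, n0 ≤ n → FiniteDimensional L (box L E 0 n) ∧
      FiniteDimensional L (boxD L E 0 n) ∧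
      finrank L (box L E 0 n) + finrank L (boxD L E 0 n) = 2 * Fintype.card ι * (n + 1))
    (hsumk : ∃ n0 : ℕ, ∀ n, n0 ≤ n → FiniteDimensional (Kres A) (box (Kres A) Eb 0 n) ∧
      FiniteDimensional (Kres A) (boxD (Kres A) Eb 0 n) ∧
      finrank (Kres A) (box (Kres A) Eb 0 n) + finrank (Kres A) (boxD (Kres A) Eb 0 n) =
        2 * Fintype.card ι * (n + 1)) :
    ∃ n0 : ℕ, ∀ a n : ℕ, n0 ≤ a + n → ∀ w ∈ box (Kres A) Eb a n,
      ∃ y : O, (y : E) ∈ box L E a n ∧ red y = w := by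
  obtain ⟨n1, h1⟩ := hsumL
  obtain ⟨n2, h2⟩ := hsumk
  refine ⟨max n1 n2, fun a n han w hw => ?_⟩
  obtain ⟨f1, f2, e1⟩ := h1 (a + n) (le_trans (le_max_left _ _) han)
  obtain ⟨f3, f4, e2⟩ := h2 (a + n) (le_trans (le_max_right _ _) han)
  -- reductions of the boxes
  have hbox : ∀ x : O.toAddSubgroup, (x : E) ∈ box L E 0 (a + n) →
      red.toAddMonoidHom x ∈ box (Kres A) Eb 0 (a + n) := by
    intro x hx
    rw [mem_box, pow_zero, one_smul] at hx
    change red x ∈ _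
    rw [mem_box, pow_zero, one_smul]
    obtain ⟨h, hh⟩ := red_X_inv_pow_smul mem_O repr_red (a + n) x
    exact ⟨hqS x hx.1, hh ▸ hqT ⟨_, h⟩ hx.2⟩
  have hboxD : ∀ x : O.toAddSubgroup, (x : E) ∈ boxD L E 0 (a + n) →
      red.toAddMonoidHom x ∈ boxD (Kres A) Eb 0 (a + n) := by
    intro x hx
    rw [mem_boxD, pow_zero, one_smul] at hx
    change red x ∈ _
    rw [mem_boxD, pow_zero, one_smul]
    obtain ⟨h, hh⟩ := red_X_inv_pow_smul mem_O repr_red (a + n) x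
    exact ⟨hdS x hx.1, hh ▸ hdT ⟨_, h⟩ hx.2⟩
  have hle' : finrank L (boxD L E 0 (a + n)) ≤ finrank (Kres A) (boxD (Kres A) Eb 0 (a + n)) :=
    hB.finrank_le (boxD L E 0 (a + n)) (boxD (Kres A) Eb 0 (a + n)) hboxD
  have hle : finrank (Kres A) (box (Kres A) Eb 0 (a + n)) ≤ finrank L (box L E 0 (a + n)) := by
    rw [← e1] at e2
    omega
  obtain ⟨y', hy', hyw⟩ := hB.surj_of_finrank_le (box L E 0 (a + n)) (box (Kres A) Eb 0 (a + n))
    hbox hle _ (X_pow_smul_mem_box.2 hw)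
  obtain ⟨h, hh⟩ := red_X_inv_pow_smul mem_O repr_red a y'
  have hX : ∀ (κ : Type _) [Field κ], (RatFunc.X : RatFunc κ) ^ a * (RatFunc.X⁻¹) ^ a = 1 := by
    intro κ _
    rw [← mul_pow, mul_inv_cancel₀ RatFunc.X_ne_zero, one_pow]
  refine ⟨⟨_, h⟩, ?_, ?_⟩
  · rw [← X_pow_smul_mem_box]
    change (RatFunc.X : RatFunc L) ^ a • (RatFunc.X⁻¹ : RatFunc L) ^ a • (y' : E) ∈ _
    rw [smul_smul, hX, one_smul]
    exact hy'
  · rw [hh]
    change _ • red.toAddMonoidHom y' = w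
    rw [hyw, smul_smul, mul_comm, hX, one_smul]

end concrete

end Fermat.Agent.S18
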