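import Fermat.Agent.S18.EB

set_option autoImplicit false

/-! # S18 plan Z, step (h), second half: bounded torsion of `U_A / (S_A + T_A)` (abstract) -/

namespace Fermat.Agent.S18

open Module

section scale

variable {L : Type*} [Field L] (A : ValuationSubring L)

/-- finitely many elements of `L` have a common nonzero denominator in `A` -/
theorem exists_common_scale {ι : Type*} (s : Finset ι) (x : ι → L) :
    ∃ c ∈ A, c ≠ 0 ∧ ∀ i ∈ s, c * x i ∈ A := by
  classical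
  induction s using Finset.induction_on with
  | empty => exact ⟨1, A.one_mem, one_ne_zero, by simp⟩
  | insert i s hi ih =>
    obtain ⟨c, hc, hc0, h⟩ := ih
    rcases A.mem_or_inv_mem (x i) with hx | hx
    · refine ⟨c, hc, hc0, fun j hj => ?_⟩
      rcases Finset.mem_insert.1 hj with rfl | hj
      · exact A.mul_mem _ _ hc hx
      · exact h j hj
    · by_cases hx0 : x i = 0
      · refine ⟨c, hc, hc0, fun j hj => ?_⟩
        rcases Finset.mem_insert.1 hj with rfl | hj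
        · rw [hx0, mul_zero]; exact A.zero_mem
        · exact h j hj
      refine ⟨c * (x i)⁻¹, A.mul_mem _ _ hc hx, mul_ne_zero hc0 (inv_ne_zero hx0), fun j hj => ?_⟩
      rcases Finset.mem_insert.1 hj with rfl | hj
      · rw [mul_assoc, inv_mul_cancel₀ hx0, mul_one]; exact hc
      · have : c * (x i)⁻¹ * x j = (x i)⁻¹ * (c * x j) := by ring
        rw [this]; exact A.mul_mem _ _ hx (h j hj)

end scale

variable {L : Type*} [Field L] {A : ValuationSubring L}
  {V : Type*} [AddCommGroup V] [Module L V]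
  {Vb : Type*} [AddCommGroup Vb] [Module (IsLocalRing.ResidueField A) Vb]
  {O : AddSubgroup V} {red : O →+ Vb}

/-- every vector can be scaled into the unit ball -/
theorem Ball.exists_scale (hB : Ball A O red) (y : V) : ∃ c ∈ A, c ≠ 0 ∧ c • y ∈ O := by
  obtain ⟨w, -, -, hsp, h1, -, -⟩ := hB.exists_basis' (Submodule.span L {y})
  have hy : y ∈ Submodule.span L (Set.range fun i => (w i : V)) := by
    rw [hsp]; exact Submodule.mem_span_singleton_self _
  obtain ⟨x, hx⟩ := (Submodule.mem_span_range_iff_exists_fun L).1 hy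
  obtain ⟨c, hc, hc0, h⟩ := exists_common_scale A Finset.univ x
  refine ⟨c, hc, hc0, ?_⟩
  rw [← hx, Finset.smul_sum]
  have := (h1 fun i => c * x i).2 fun i => h i (Finset.mem_univ _)
  simpa only [mul_smul] using this

/-- finitely many vectors can be scaled into the unit ball simultaneously -/
theorem Ball.exists_scale_finset (hB : Ball A O red) {ι : Type*} (s : Finset ι) (y : ι → V) :
    ∃ c ∈ A, c ≠ 0 ∧ ∀ i ∈ s, c • y i ∈ O := by
  classical
  induction s using Finset.induction_on with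
  | empty => exact ⟨1, A.one_mem, one_ne_zero, by simp⟩
  | insert i s hi ih =>
    obtain ⟨c, hc, hc0, h⟩ := ih
    obtain ⟨c', hc', hc0', h'⟩ := hB.exists_scale (y i)
    refine ⟨c * c', A.mul_mem _ _ hc hc', mul_ne_zero hc0 hc0', fun j hj => ?_⟩
    rcases Finset.mem_insert.1 hj with rfl | hj
    · rw [mul_smul]; exact hB.smul_mem _ hc _ h'
    · rw [mul_comm, mul_smul]; exact hB.smul_mem _ hc' _ (h j hj)

/-- **bounded torsion** (abstract form). -/
theorem tors_core (hB : Ball A O red) (S T : Submodule L V) (Box : ℕ → ℕ → Submodule L V)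
    (Boxt : ℕ → ℕ → Set Vb)
    (hfin : ∀ a n, FiniteDimensional L (Box a n))
    (hmono : ∀ a a' n n', a ≤ a' → n ≤ n' → Box a n ≤ Box a' n')
    (hmonot : ∀ a a' n n', a ≤ a' → n ≤ n' → Boxt a n ⊆ Boxt a' n')
    (hS : ∀ n, Box 0 n ≤ S) (hT : ∀ a, Box a 0 ≤ T)
    (hqep : ∀ a n (x : O), (x : V) ∈ Box a n → red x ∈ Boxt a n)
    (hlift : ∃ n0, ∀ a n, n0 ≤ a + n → ∀ w ∈ Boxt a n, ∃ y : O, (y : V) ∈ Box a n ∧ red y = w)
    (hdec : ∃ n1, ∀ a n, ∀ w ∈ Boxt a n, ∃ w1 w2 w3, w = w1 + w2 + w3 ∧ w1 ∈ Boxt 0 n ∧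
      w2 ∈ Boxt a 0 ∧ w3 ∈ Boxt n1 n1) :
    ∃ c ∈ A, c ≠ 0 ∧ ∀ v ∈ O, (∃ a n, v ∈ Box a n) → (∃ s ∈ S, ∃ t ∈ T, v = s + t) →
      ∃ s' ∈ S, ∃ t' ∈ T, s' ∈ O ∧ t' ∈ O ∧ c • v = s' + t' := by
  classical
  obtain ⟨n0, hlift⟩ := hlift
  obtain ⟨n1, hdec⟩ := hdec
  set N1 := max n0 n1 with hN1
  -- the integral decomposition
  have ID : ∀ a n, ∀ v ∈ O, v ∈ Box a n → ∃ v1 v2 v3 : V, v1 ∈ O ∧ v2 ∈ O ∧ v3 ∈ O ∧
      v1 ∈ S ∧ v2 ∈ T ∧ v3 ∈ Box N1 N1 ∧ v = v1 + v2 + v3 := by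
    intro a n v hvO hv
    set a' := max a N1 with ha'
    set n' := max n N1 with hn'
    have hv' : v ∈ Box a' n' := hmono a a' n n' (le_max_left _ _) (le_max_left _ _) hv
    let N : AddSubgroup V :=
      { carrier := {x | ∃ v1 v2 v3 : V, v1 ∈ O ∧ v2 ∈ O ∧ v3 ∈ O ∧
          v1 ∈ S ∧ v2 ∈ T ∧ v3 ∈ Box N1 N1 ∧ x = v1 + v2 + v3}
        add_mem' := by
          rintro x y ⟨v1, v2, v3, h1, h2, h3, g1, g2, g3, rfl⟩
            ⟨w1, w2, w3, h1', h2', h3', g1', g2', g3', rfl⟩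
          exact ⟨v1 + w1, v2 + w2, v3 + w3, O.add_mem h1 h1', O.add_mem h2 h2', O.add_mem h3 h3',
            S.add_mem g1 g1', T.add_mem g2 g2', (Box N1 N1).add_mem g3 g3', by abel⟩
        zero_mem' := ⟨0, 0, 0, O.zero_mem, O.zero_mem, O.zero_mem, S.zero_mem, T.zero_mem,
          (Box N1 N1).zero_mem, by simp⟩
        neg_mem' := by
          rintro x ⟨v1, v2, v3, h1, h2, h3, g1, g2, g3, rfl⟩
          exact ⟨-v1, -v2, -v3, O.neg_mem h1, O.neg_mem h2, O.neg_mem h3, S.neg_mem g1,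
            T.neg_mem g2, (Box N1 N1).neg_mem g3, by abel⟩ }
    haveI := hfin a' n'
    have key := hB.nakayama (Box a' n') N
      (by
        rintro c hc x ⟨v1, v2, v3, h1, h2, h3, g1, g2, g3, rfl⟩
        exact ⟨c • v1, c • v2, c • v3, hB.smul_mem c hc _ h1, hB.smul_mem c hc _ h2,
          hB.smul_mem c hc _ h3, S.smul_mem c g1, T.smul_mem c g2, (Box N1 N1).smul_mem c g3,
          by rw [smul_add, smul_add]⟩)
      (by
        intro x hx
        obtain ⟨w1, w2, w3, hw, hw1, hw2, hw3⟩ := hdec a' n' _ (hqep a' n' x hx)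
        have hn0n : n0 ≤ 0 + n' := by
          rw [zero_add]; exact (le_max_left _ _).trans (le_max_right _ _)
        have hn0a : n0 ≤ a' + 0 := by
          rw [add_zero]; exact (le_max_left _ _).trans (le_max_right _ _)
        have hn0N : n0 ≤ N1 + N1 := (le_max_left _ _).trans (Nat.le_add_right _ _)
        obtain ⟨y1, hy1, hr1⟩ := hlift 0 n' hn0n w1 hw1
        obtain ⟨y2, hy2, hr2⟩ := hlift a' 0 hn0a w2 hw2
        obtain ⟨y3, hy3, hr3⟩ := hlift N1 N1 hn0N w3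
          (hmonot n1 N1 n1 N1 (le_max_right _ _) (le_max_right _ _) hw3)
        refine ⟨y1 + y2 + y3, ⟨y1, y2, y3, y1.2, y2.2, y3.2, hS _ hy1, hT _ hy2, hy3, rfl⟩, ?_, ?_⟩
        · refine (Box a' n').add_mem ((Box a' n').add_mem ?_ ?_) ?_
          · exact hmono 0 a' n' n' (Nat.zero_le _) le_rfl hy1
          · exact hmono a' a' 0 n' le_rfl (Nat.zero_le _) hy2
          · exact hmono N1 a' N1 n' (le_max_right _ _) (le_max_right _ _) hy3
        · rw [map_add, map_add, hr1, hr2, hr3, hw])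
    exact key ⟨v, hvO⟩ hv'
  -- the finite dimensional space `Λ₀ ∩ (S + T)`
  set W0 : Submodule L V := Box N1 N1 ⊓ (S ⊔ T) with hW0
  haveI := hfin N1 N1
  haveI : FiniteDimensional L W0 := Submodule.finiteDimensional_of_le inf_le_left
  obtain ⟨β, hβW, -, hsp, h1, -, -⟩ := hB.exists_basis' W0
  have hst : ∀ i, ∃ s ∈ S, ∃ t ∈ T, s + t = (β i : V) := fun i =>
    Submodule.mem_sup.1 (hβW i).2
  choose sβ hsβ tβ htβ hβ using hst
  obtain ⟨c1, hc1, hc10, hs1⟩ := hB.exists_scale_finset Finset.univ sβ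
  obtain ⟨c2, hc2, hc20, hs2⟩ := hB.exists_scale_finset Finset.univ tβ
  refine ⟨c1 * c2, A.mul_mem _ _ hc1 hc2, mul_ne_zero hc10 hc20, ?_⟩
  rintro v hvO ⟨a, n, hv⟩ ⟨s, hs, t, ht, hvst⟩
  obtain ⟨v1, v2, v3, h1O, h2O, h3O, g1, g2, g3, hsum⟩ := ID a n v hvO hv
  have hv3 : v3 ∈ W0 := by
    refine ⟨g3, ?_⟩
    have : v3 = (s - v1) + (t - v2) := by
      have : v3 = v - v1 - v2 := by rw [hsum]; abel
      rw [this, hvst]; abel
    rw [this]
    exact Submodule.add_mem_sup (S.sub_mem hs g1) (T.sub_mem ht g2)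
  have hv3' : v3 ∈ Submodule.span L (Set.range fun i => (β i : V)) := by rw [hsp]; exact hv3
  obtain ⟨x, hx⟩ := (Submodule.mem_span_range_iff_exists_fun L).1 hv3'
  have hxA : ∀ i, x i ∈ A := (h1 x).1 (by rw [hx]; exact h3O)
  set c := c1 * c2 with hc
  have hcA : c ∈ A := A.mul_mem _ _ hc1 hc2
  have hcs : ∀ i, c • sβ i ∈ O := fun i => by
    rw [hc, mul_comm, mul_smul]; exact hB.smul_mem _ hc2 _ (hs1 i (Finset.mem_univ _))
  have hct : ∀ i, c • tβ i ∈ O := fun i => by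
    rw [hc, mul_smul]; exact hB.smul_mem _ hc1 _ (hs2 i (Finset.mem_univ _))
  refine ⟨c • v1 + ∑ i, x i • (c • sβ i), ?_, c • v2 + ∑ i, x i • (c • tβ i), ?_, ?_, ?_, ?_⟩
  · exact S.add_mem (S.smul_mem _ g1)
      (S.sum_mem fun i _ => S.smul_mem _ (S.smul_mem _ (hsβ i)))
  · exact T.add_mem (T.smul_mem _ g2)
      (T.sum_mem fun i _ => T.smul_mem _ (T.smul_mem _ (htβ i)))
  · exact O.add_mem (hB.smul_mem _ hcA _ h1O)
      (O.sum_mem fun i _ => hB.smul_mem _ (hxA i) _ (hcs i))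
  · exact O.add_mem (hB.smul_mem _ hcA _ h2O)
      (O.sum_mem fun i _ => hB.smul_mem _ (hxA i) _ (hct i))
  · have e3 : c • v3 = ∑ i, x i • (c • sβ i) + ∑ i, x i • (c • tβ i) := by
      rw [← hx, Finset.smul_sum, ← Finset.sum_add_distrib]
      refine Finset.sum_congr rfl fun i _ => ?_
      rw [← hβ i, smul_add, smul_add, smul_comm c (x i), smul_comm c (x i)]
    rw [hsum, smul_add, smul_add, e3]
    abel

end Fermat.Agent.S18
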