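import Fermat.Agent.S18.Lift
import Fermat.Agent.S18.Tors
import Fermat.Agent.S18.RRLift
import Fermat.Agent.S18.IntRat

set_option autoImplicit false

/-! # S18 plan Z: H0 from its parts -/

namespace Fermat.Agent.S18

open Polynomial Module

section generic

variable {κ : Type*} [Field κ] {E : Type*} [CommRing E] [Algebra (RatFunc κ) E]
  [Algebra κ E] [IsScalarTower κ (RatFunc κ) E]

theorem box_mono {a a' n n' : ℕ} (ha : a ≤ a') (hn : n ≤ n') : box κ E a n ≤ box κ E a' n' := by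
  rintro y ⟨h1, h2⟩
  refine ⟨?_, ?_⟩
  · obtain ⟨d, rfl⟩ := Nat.exists_eq_add_of_le ha
    rw [add_comm, pow_add, mul_smul]
    exact Int.isIntegral_smul_of_mem ((Rtau κ).pow_mem Int.X_mem_Rtau d) h1
  · obtain ⟨d, rfl⟩ := Nat.exists_eq_add_of_le hn
    rw [add_comm, pow_add, mul_smul]
    exact Int.isIntegral_smul_of_mem ((Rs κ).pow_mem Int.X_inv_mem_Rs d) h2

theorem box_mul {a a' n n' : ℕ} {y y' : E} (hy : y ∈ box κ E a n) (hy' : y' ∈ box κ E a' n') :
    y * y' ∈ box κ E (a + a') (n + n') := by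
  refine ⟨?_, ?_⟩
  · rw [pow_add, ← smul_mul_smul_comm]; exact hy.1.mul hy'.1
  · rw [pow_add, ← smul_mul_smul_comm]; exact hy.2.mul hy'.2

theorem mem_box_zero_left {n : ℕ} {y : E} (hy : y ∈ box κ E 0 n) : IsIntegral (Rtau κ) y := by
  have := hy.1
  rwa [pow_zero, one_smul] at this

theorem mem_box_zero_right {a : ℕ} {y : E} (hy : y ∈ box κ E a 0) : IsIntegral (Rs κ) y := by
  have := hy.2
  rwa [pow_zero, one_smul] at this

variable (κ E)

/-- `S` as a `κ`-subalgebra -/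
def subS : Subalgebra κ E where
  carrier := {y | IsIntegral (Rtau κ) y}
  mul_mem' := IsIntegral.mul
  add_mem' := IsIntegral.add
  algebraMap_mem' r := by
    have : algebraMap κ E r = algebraMap (Rtau κ) E (algebraMap κ (Rtau κ) r) := by
      rw [IsScalarTower.algebraMap_apply κ (RatFunc κ) E]; rfl
    rw [Set.mem_ofPred_eq, this]
    exact isIntegral_algebraMap

/-- `T` as a `κ`-subalgebra -/
def subT : Subalgebra κ E where
  carrier := {y | IsIntegral (Rs κ) y}
  mul_mem' := IsIntegral.mul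
  add_mem' := IsIntegral.add
  algebraMap_mem' r := by
    have : algebraMap κ E r = algebraMap (Rs κ) E (algebraMap κ (Rs κ) r) := by
      rw [IsScalarTower.algebraMap_apply κ (RatFunc κ) E]; rfl
    rw [Set.mem_ofPred_eq, this]
    exact isIntegral_algebraMap

/-- `U` = the union of the boxes, as a `κ`-subalgebra -/
def subU : Subalgebra κ E where
  carrier := {y | ∃ a n, y ∈ box κ E a n}
  mul_mem' := by
    rintro y y' ⟨a, n, h⟩ ⟨a', n', h'⟩
    exact ⟨_, _, box_mul h h'⟩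
  add_mem' := by
    rintro y y' ⟨a, n, h⟩ ⟨a', n', h'⟩
    exact ⟨max a a', max n n', (box κ E _ _).add_mem
      (box_mono (le_max_left _ _) (le_max_left _ _) h)
      (box_mono (le_max_right _ _) (le_max_right _ _) h')⟩
  algebraMap_mem' r := by
    refine ⟨0, 0, ?_, ?_⟩
    · rw [pow_zero, one_smul]; exact (subS κ E).algebraMap_mem r
    · rw [pow_zero, one_smul]; exact (subT κ E).algebraMap_mem r

end generic

variable {L : Type*} [Field L] {A : ValuationSubring L}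
variable {ι : Type*} [Fintype ι] [DecidableEq ι]
variable {E Eb : Type*} [CommRing E] [Algebra (RatFunc L) E] [CommRing Eb]
  [Algebra (RatFunc (Kres A)) Eb]
  [Algebra L E] [IsScalarTower L (RatFunc L) E]
  [Algebra (Kres A) Eb] [IsScalarTower (Kres A) (RatFunc (Kres A)) Eb]

theorem h0_of_parts (hA : IsRankOne A) (G : GoodPair A ι E Eb)
    (hB : Ball A G.O.toAddSubgroup G.red.toAddMonoidHom)
    (hqS : ∀ y : G.O, IsIntegral (Rtau L) (y : E) → IsIntegral (Rtau (Kres A)) (G.red y))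
    (hqT : ∀ y : G.O, IsIntegral (Rs L) (y : E) → IsIntegral (Rs (Kres A)) (G.red y))
    (hlift : ∃ n0 : ℕ, ∀ a n : ℕ, n0 ≤ a + n → ∀ w ∈ box (Kres A) Eb a n,
      ∃ y : G.O, (y : E) ∈ box L E a n ∧ G.red y = w)
    (hfin : ∀ a n, FiniteDimensional L (box L E a n))
    (hdec : ∃ n1 : ℕ, ∀ a n : ℕ, ∀ w ∈ box (Kres A) Eb a n, ∃ w1 w2 w3, w = w1 + w2 + w3 ∧
      w1 ∈ box (Kres A) Eb 0 n ∧ w2 ∈ box (Kres A) Eb a 0 ∧ w3 ∈ box (Kres A) Eb n1 n1)
    (hST : ∀ y : E, IsIntegral (Rtau L) y → ∃ m : ℕ, IsIntegral (Rs L) ((RatFunc.X⁻¹ : RatFunc L) ^ m • y))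
    (hTS : ∀ y : E, IsIntegral (Rs L) y → ∃ m : ℕ, IsIntegral (Rtau L) ((RatFunc.X : RatFunc L) ^ m • y)) :
    G.H0 := by
  intro e he
  have hqep : ∀ a n (x : G.O), (x : E) ∈ box L E a n → G.red x ∈ box (Kres A) Eb a n := by
    intro a n x hx
    obtain ⟨h1, e1⟩ := red_X_pow_smul G.mem_O G.repr_red a x
    obtain ⟨h2, e2⟩ := red_X_inv_pow_smul G.mem_O G.repr_red n x
    refine ⟨?_, ?_⟩
    · rw [← e1]; exact hqS ⟨_, h1⟩ hx.1
    · rw [← e2]; exact hqT ⟨_, h2⟩ hx.2
  have htors := tors_core hB (Subalgebra.toSubmodule (subS L E)) (Subalgebra.toSubmodule (subT L E))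
    (box L E) (fun a n => (box (Kres A) Eb a n : Set Eb)) hfin
    (fun a a' n n' ha hn => box_mono ha hn) (fun a a' n n' ha hn => box_mono ha hn)
    (fun n y hy => mem_box_zero_left hy) (fun a y hy => mem_box_zero_right hy)
    hqep hlift hdec
  obtain ⟨n0, hlift⟩ := hlift
  -- `e` is integral
  have heS : IsIntegral (Rtau (Kres A)) e :=
    ⟨X ^ 2 - X, monic_X_pow_sub (by rw [degree_X]; norm_num), by simp [sq, he]⟩
  have heT : IsIntegral (Rs (Kres A)) e :=
    ⟨X ^ 2 - X, monic_X_pow_sub (by rw [degree_X]; norm_num), by simp [sq, he]⟩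
  have he00 : e ∈ box (Kres A) Eb 0 0 := by
    refine ⟨?_, ?_⟩ <;> rw [pow_zero, one_smul]
    · exact heS
    · exact heT
  obtain ⟨e0, h0, hr0⟩ := hlift 0 n0 (by omega) e (box_mono le_rfl (Nat.zero_le _) he00)
  obtain ⟨e0', h0', hr0'⟩ := hlift n0 0 (by omega) e (box_mono (Nat.zero_le _) le_rfl he00)
  obtain ⟨y, hyS, hyT, hy⟩ := lift_core A hA G.O G.red (subS L E) (subT L E) (subU L E)
    (fun y hy => by
      obtain ⟨m, hm⟩ := hST y hy
      exact ⟨0, m, by rw [pow_zero, one_smul]; exact hy, hm⟩)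
    (fun y hy => by
      obtain ⟨m, hm⟩ := hTS y hy
      exact ⟨m, 0, hm, by rw [pow_zero, one_smul]; exact hy⟩)
    hB.smul_mem
    (fun y hy => hB.exists_smul_of_red_eq_zero y hy)
    (fun a ha y' h => by
      have := hB.red_smul ⟨a, eb_nonunits_mem A ha⟩ y'
      have h0 : IsLocalRing.residue A ⟨a, eb_nonunits_mem A ha⟩ = 0 :=
        (eb_residue_eq_zero_iff A _).2 ha
      rw [h0, zero_smul] at this
      exact this)
    htors e he e0 e0' (mem_box_zero_left h0) (mem_box_zero_right h0') hr0 hr0'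
  exact ⟨y, hyS, hyT, hy⟩

end Fermat.Agent.S18
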