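import Mathlib
import Fermat.Agent.S28.IrrCore
import Fermat.Agent.S28.Data

/-!
# S18: `1, j_N, …, j_N^(ψ(N)-1)` are independent over `k(j)` for EVERY field `k` of char `ℓ ∤ N`
-/

set_option autoImplicit false

namespace Fermat.Agent.S18

open ModularCurve HahnSeries CongruenceSubgroup Polynomial
open Fermat.Agent.X0 Fermat.Agent.S24 Fermat.Agent.S28
open scoped MatrixGroups TensorProduct

theorem indep_coeffMap_injective {R S : Type*} [CommRing R] [CommRing S] (f : R →+* S)
    (hf : Function.Injective f) : Function.Injective (coeffMap f) := by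
  intro a b hab
  ext n
  apply hf
  have := congrArg (fun s => HahnSeries.coeff s n) hab
  simpa [coeffMap_coeff] using this

theorem indep_order_coeffMap {R S : Type*} [CommRing R] [CommRing S] (f : R →+* S)
    (hf : Function.Injective f) (a : LaurentSeries R) : (coeffMap f a).order = a.order := by
  classical
  by_cases ha : a = 0
  · subst ha; simp
  have ha' : coeffMap f a ≠ 0 := fun h => ha (indep_coeffMap_injective f hf (by rw [h, map_zero]))
  apply le_antisymm
  · apply HahnSeries.order_le_of_coeff_ne_zero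
    rw [coeffMap_coeff]
    intro h
    exact ha (HahnSeries.coeff_order_eq_zero.1 (hf (by rw [h, map_zero])))
  · apply HahnSeries.order_le_of_coeff_ne_zero
    intro h
    apply ha'
    apply HahnSeries.coeff_order_eq_zero.1
    rw [coeffMap_coeff, h, map_zero]

/-- two fields of the same characteristic `ℓ` embed in a common field -/
theorem indep_common_ext (ℓ : ℕ) [Fact ℓ.Prime] (k k' : Type) [Field k] [Field k'] [CharP k ℓ]
    [CharP k' ℓ] : ∃ (Ω : Type) (_ : Field Ω), Nonempty (k →+* Ω) ∧ Nonempty (k' →+* Ω) := by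
  let _ : Algebra (ZMod ℓ) k := ZMod.algebra k ℓ
  let _ : Algebra (ZMod ℓ) k' := ZMod.algebra k' ℓ
  have : Nontrivial (k ⊗[ZMod ℓ] k') :=
    Algebra.TensorProduct.nontrivial_of_algebraMap_injective_of_flat_left (R := ZMod ℓ) k k'
      (algebraMap (ZMod ℓ) k').injective
  obtain ⟨m, hm⟩ := Ideal.exists_maximal (k ⊗[ZMod ℓ] k')
  let _ : Field ((k ⊗[ZMod ℓ] k') ⧸ m) := Ideal.Quotient.field m
  exact ⟨(k ⊗[ZMod ℓ] k') ⧸ m, inferInstance,
    ⟨(Ideal.Quotient.mk m).comp (Algebra.TensorProduct.includeLeft :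
      k →ₐ[ZMod ℓ] k ⊗[ZMod ℓ] k').toRingHom⟩,
    ⟨(Ideal.Quotient.mk m).comp (Algebra.TensorProduct.includeRight :
      k' →ₐ[ZMod ℓ] k ⊗[ZMod ℓ] k').toRingHom⟩⟩

/-- `Φ_N` stays irreducible over `k(j)` for every field `k` of characteristic `ℓ ∤ N`:
the powers `j_N^i`, `i < ψ(N)`, are independent over `k[j]`. -/
theorem indep_any_field (N ℓ : ℕ) [NeZero N] [Fact ℓ.Prime] (hℓN : ¬ ℓ ∣ N)
    (k : Type) [Field k] [CharP k ℓ]
    (P : Polynomial (Polynomial k)) (hP : P ≠ 0) (hdeg : P.natDegree < Nat.card (Cos N)) :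
    (P.map (Polynomial.aeval (jqModC k) :
      Polynomial k →ₐ[k] LaurentSeries k).toRingHom).eval (jqNModC k N) ≠ 0 := by
  obtain ⟨k', _, _, x, h, hx, hh0, hh, hx1, htr⟩ := exists_data N ℓ hℓN
  obtain ⟨Ω, _, ⟨φ⟩, ⟨g⟩⟩ := indep_common_ext ℓ k k'
  have hg : Function.Injective g := g.injective
  refine irrCore φ N (fun c => coeffMap g (x c)) (fun c => coeffMap g (h c)) ?_ ?_ ?_ ?_ ?_ P hP hdeg
  · intro c c' hcc
    exact hx (indep_coeffMap_injective g hg hcc)
  · intro c h0
    exact hh0 c (indep_coeffMap_injective g hg (by rw [h0, map_zero]))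
  · intro c hc
    rw [indep_order_coeffMap g hg]
    exact hh c hc
  · change coeffMap g (x _) = _
    rw [hx1, coeffMap_qExpand, coeffMap_JJ]
  · intro M m
    obtain ⟨p, hp⟩ := htr M m
    refine ⟨p.map g, ?_⟩
    rw [← coeffMap_JJ g, ← data_coeffMap_aeval, ← hp, map_sum]
    refine Finset.sum_congr rfl fun c _ => ?_
    rw [map_mul, map_pow, map_pow]

end Fermat.Agent.S18
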