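import Mathlib

/-!
# S18, step (c) INT: integral closures in finite algebras with nondegenerate trace form

Generic setting: `R` an integrally closed domain (a PID where needed), `K = Frac R`,
`E` a finite commutative `K`-algebra (not nec. a field).
-/

set_option autoImplicit false

namespace Fermat.Agent.S18.Int

open Polynomial Module Module.Free

section Matrix

variable {K : Type*} [CommRing K] {n : Type*} [Fintype n] [DecidableEq n]

theorem sub_dvd_aeval_sub {A : Type*} [Ring A] [Algebra K A] {a b : A} (h : Commute a b)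
    (p : K[X]) : a - b ∣ aeval a p - aeval b p := by
  induction p using Polynomial.induction_on' with
  | add p q hp hq =>
    rw [map_add, map_add, add_sub_add_comm]
    exact dvd_add hp hq
  | monomial i c =>
    rw [aeval_monomial, aeval_monomial, ← mul_sub]
    obtain ⟨q, hq⟩ := h.sub_dvd_pow_sub_pow i
    refine ⟨algebraMap K A c * q, ?_⟩
    rw [hq, ← mul_assoc, ← mul_assoc, Algebra.commutes]

theorem charpoly_dvd_pow_of_aeval_eq_zero (M : Matrix n n K) (p : K[X]) (hp : aeval M p = 0) :
    M.charpoly ∣ p ^ Fintype.card n := by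
  have hcomm : Commute (Matrix.scalar n (X : K[X])) ((C : K →+* K[X]).mapMatrix M) :=
    Matrix.scalar_commute _ (fun _ => Commute.all _ _) _
  have h1 : aeval (Matrix.scalar n (X : K[X])) p = Matrix.scalar n p := by
    have : (Matrix.scalar n (X : K[X])) = algebraMap K[X] (Matrix n n K[X]) X := rfl
    rw [this, aeval_algebraMap_apply, aeval_X_left_apply]
    rfl
  have h2 : aeval ((C : K →+* K[X]).mapMatrix M) p = 0 := by
    have : ((C : K →+* K[X]).mapMatrix M) = (Polynomial.CAlgHom (R := K) (A := K)).mapMatrix M := rfl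
    rw [this, aeval_algHom_apply, hp, map_zero]
  have key := sub_dvd_aeval_sub hcomm p
  rw [h1, h2, sub_zero] at key
  obtain ⟨Q, hQ⟩ := key
  refine ⟨Q.det, ?_⟩
  have := congrArg Matrix.det hQ
  rw [Matrix.det_mul] at this
  rw [Matrix.charpoly, Matrix.charmatrix, ← this]
  simp [Matrix.scalar_apply, Matrix.det_diagonal]

end Matrix

section Charpoly

variable {R K E : Type*} [CommRing R] [Field K] [Algebra R K] [IsFractionRing R K]
  [CommRing E] [Algebra K E] [Algebra R E] [IsScalarTower R K E] [Module.Finite K E]

theorem linearMap_charpoly_dvd_pow (f : E →ₗ[K] E) (p : K[X]) (hp : aeval f p = 0) :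
    f.charpoly ∣ p ^ finrank K E := by
  classical
  rw [LinearMap.charpoly_def, finrank_eq_card_chooseBasisIndex]
  apply charpoly_dvd_pow_of_aeval_eq_zero
  have : LinearMap.toMatrix (chooseBasis K E) (chooseBasis K E) f
      = LinearMap.toMatrixAlgEquiv (chooseBasis K E) f := rfl
  rw [this, ← AlgEquiv.coe_toAlgHom, aeval_algHom_apply, hp, map_zero]

/-- (c1) the characteristic polynomial of (multiplication by) an element integral over `R`
has coefficients in `R`. -/
theorem charpoly_lmul_mem_lifts [IsIntegrallyClosed R] {y : E} (hy : IsIntegral R y) :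
    (Algebra.lmul K E y).charpoly ∈ Polynomial.lifts (algebraMap R K) := by
  obtain ⟨p, hpm, hp⟩ := hy
  have h0 : aeval (Algebra.lmul K E y) (p.map (algebraMap R K)) = 0 := by
    rw [aeval_algHom_apply, aeval_map_algebraMap, aeval_def, hp, map_zero]
  have hd := linearMap_charpoly_dvd_pow (Algebra.lmul K E y) _ h0
  rw [← Polynomial.map_pow] at hd
  obtain ⟨g, hg⟩ := IsIntegrallyClosed.eq_map_mul_C_of_dvd K (hpm.pow (finrank K E)) hd
  rw [(LinearMap.charpoly_monic _).leadingCoeff, C_1, mul_one] at hg
  exact (Polynomial.mem_lifts _).2 ⟨g, hg⟩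

theorem charpoly_lmul_coeff_mem [IsIntegrallyClosed R] {y : E} (hy : IsIntegral R y) (i : ℕ) :
    (Algebra.lmul K E y).charpoly.coeff i ∈ (algebraMap R K).range := by
  obtain ⟨g, hg⟩ := (Polynomial.mem_lifts _).1 (charpoly_lmul_mem_lifts (K := K) hy)
  exact ⟨g.coeff i, by rw [← hg, coeff_map]⟩

/-- (c2) the trace of an integral element lies in `R`. -/
theorem trace_mem_range [IsIntegrallyClosed R] {y : E} (hy : IsIntegral R y) :
    Algebra.trace K E y ∈ (algebraMap R K).range := by
  classical
  rcases subsingleton_or_nontrivial E with h | h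
  · rw [Subsingleton.elim y 0, map_zero]; exact zero_mem _
  have hne : Nonempty (ChooseBasisIndex K E) := (chooseBasis K E).index_nonempty
  rw [Algebra.trace_apply, LinearMap.trace_eq_matrix_trace K (chooseBasis K E),
    Matrix.trace_eq_neg_charpoly_coeff, ← LinearMap.charpoly_def]
  exact neg_mem (charpoly_lmul_coeff_mem hy _)

theorem norm_mem_range [IsIntegrallyClosed R] {y : E} (hy : IsIntegral R y) :
    Algebra.norm K y ∈ (algebraMap R K).range := by
  classical
  rw [Algebra.norm_apply, ← LinearMap.det_toMatrix (chooseBasis K E),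
    Matrix.det_eq_sign_charpoly_coeff, ← LinearMap.charpoly_def]
  exact mul_mem (pow_mem (neg_mem (one_mem _)) _) (charpoly_lmul_coeff_mem hy _)

theorem leftMulMatrix_charpoly_coeff_mem [IsIntegrallyClosed R] {ι : Type*} [Fintype ι]
    [DecidableEq ι] (b : Basis ι K E) {y : E} (hy : IsIntegral R y) (i : ℕ) :
    (Algebra.leftMulMatrix b y).charpoly.coeff i ∈ (algebraMap R K).range := by
  have : Algebra.leftMulMatrix b y = LinearMap.toMatrix b b (Algebra.lmul K E y) := rfl
  rw [this, LinearMap.charpoly_toMatrix]
  exact charpoly_lmul_coeff_mem hy i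

end Charpoly

section Lattice

variable {R K E : Type*} [CommRing R] [IsDomain R] [Field K] [Algebra R K] [IsFractionRing R K]
  [CommRing E] [Algebra K E] [Algebra R E] [IsScalarTower R K E] [Module.Finite K E]

theorem exists_integral_basis {ι : Type*} (b : Basis ι K E) :
    ∃ b' : Basis ι K E, ∀ i, IsIntegral R (b' i) := by
  have h : ∀ i, ∃ m : nonZeroDivisors R, IsIntegral R (m • b i) := fun i =>
    IsIntegral.exists_multiple_integral_of_isLocalization (nonZeroDivisors R) (b i)
      (Algebra.IsIntegral.isIntegral (R := K) (b i))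
  choose m hm using h
  have hu : ∀ i, IsUnit (algebraMap R K (m i)) := fun i =>
    IsLocalization.map_units K (m i)
  refine ⟨b.isUnitSMul hu, fun i => ?_⟩
  rw [Basis.isUnitSMul_apply, algebraMap_smul]
  exact hm i

theorem integralClosure_le_span_dualBasis [IsIntegrallyClosed R] {ι : Type*} [Finite ι]
    [DecidableEq ι] (hnd : (Algebra.traceForm K E).Nondegenerate) (b : Basis ι K E)
    (hb : ∀ i, IsIntegral R (b i)) :
    Subalgebra.toSubmodule (integralClosure R E) ≤
      Submodule.span R (Set.range ((Algebra.traceForm K E).dualBasis hnd b)) := by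
  rw [← LinearMap.BilinForm.dualSubmodule_span_of_basis,
    ← LinearMap.BilinForm.le_flip_dualSubmodule, Submodule.span_le]
  rintro _ ⟨i, rfl⟩ y hy
  simp only [LinearMap.BilinForm.flip_apply, Algebra.traceForm_apply]
  have hy' : IsIntegral R y := hy
  obtain ⟨r, hr⟩ := trace_mem_range (K := K) (hy'.mul (hb i))
  exact Submodule.mem_one.mpr ⟨r, hr⟩

/-- (c3) `S = integralClosure R E` is a lattice: it has an `R`-basis which is a `K`-basis of `E`. -/
theorem exists_lattice_basis_span [IsPrincipalIdealRing R] {ι : Type*} [Finite ι]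
    (hnd : (Algebra.traceForm K E).Nondegenerate) (b : Basis ι K E) :
    ∃ v : Basis ι K E,
      Submodule.span R (Set.range v) = Subalgebra.toSubmodule (integralClosure R E) := by
  classical
  obtain ⟨b', hb'⟩ := exists_integral_basis (R := R) b
  set N : Submodule R E := Subalgebra.toSubmodule (integralClosure R E) with hN
  have hle := integralClosure_le_span_dualBasis hnd b' hb'
  have hnoeth : IsNoetherian R
      (Submodule.span R (Set.range ((Algebra.traceForm K E).dualBasis hnd b'))) :=
    isNoetherian_span_of_finite R (Set.finite_range _)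
  have hNn : IsNoetherian R N := isNoetherian_of_le hle
  have htf : IsTorsionFree R E := .trans_faithfulSMul R K E
  have hfree : Module.Free R N := inferInstance
  let w := Module.Free.chooseBasis R N
  let u : ChooseBasisIndex R N → E := fun i => (w i : E)
  have hspanR : Submodule.span R (Set.range u) = N := by
    have : Set.range u = N.subtype '' Set.range w := by
      rw [← Set.range_comp]; rfl
    rw [this, Submodule.span_image, w.span_eq, Submodule.map_top, Submodule.range_subtype]
  have hliR : LinearIndependent R u :=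
    w.linearIndependent.map' N.subtype (Submodule.ker_subtype N)
  have hliK : LinearIndependent K u := hliR.localization K (nonZeroDivisors R)
  have hspanK : ⊤ ≤ Submodule.span K (Set.range u) := by
    rw [← b'.span_eq, Submodule.span_le]
    rintro _ ⟨i, rfl⟩
    have h1 : b' i ∈ Submodule.span R (Set.range u) := by rw [hspanR]; exact hb' i
    exact Submodule.span_subset_span R K _ h1
  let v0 : Basis (ChooseBasisIndex R N) K E := Basis.mk hliK hspanK
  refine ⟨v0.reindex (v0.indexEquiv b), ?_⟩
  rw [Basis.range_reindex, Basis.coe_mk, hspanR]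

theorem exists_lattice_basis [IsPrincipalIdealRing R] {ι : Type*} [Finite ι]
    (hnd : (Algebra.traceForm K E).Nondegenerate) (b : Basis ι K E) :
    ∃ v : Basis ι K E, ∀ y, IsIntegral R y ↔ ∀ i, v.repr y i ∈ (algebraMap R K).range := by
  obtain ⟨v, hv⟩ := exists_lattice_basis_span (R := R) hnd b
  refine ⟨v, fun y => ?_⟩
  have h1 : IsIntegral R y ↔ y ∈ Submodule.span R (Set.range v) := by rw [hv]; rfl
  rw [h1, Basis.mem_span_iff_repr_mem]
  rfl

/-- (c4) the trace dual of `S` is the lattice spanned by the dual basis. -/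
theorem dual_lattice_basis {ι : Type*} [Finite ι] [DecidableEq ι]
    (hnd : (Algebra.traceForm K E).Nondegenerate) (v : Basis ι K E)
    (hv : ∀ y, IsIntegral R y ↔ ∀ i, v.repr y i ∈ (algebraMap R K).range) (h : E) :
    (∀ y, IsIntegral R y → Algebra.trace K E (h * y) ∈ (algebraMap R K).range) ↔
      ∀ i, ((Algebra.traceForm K E).dualBasis hnd v).repr h i ∈ (algebraMap R K).range := by
  have hspan : ∀ y, IsIntegral R y ↔ y ∈ Submodule.span R (Set.range v) := fun y => by
    rw [hv, Basis.mem_span_iff_repr_mem]; rfl
  have h2 := Basis.mem_span_iff_repr_mem R ((Algebra.traceForm K E).dualBasis hnd v) h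
  rw [← LinearMap.BilinForm.dualSubmodule_span_of_basis, LinearMap.BilinForm.mem_dualSubmodule]
    at h2
  constructor
  · intro H
    refine h2.1 fun y hy => ?_
    obtain ⟨r, hr⟩ := H y ((hspan y).2 hy)
    exact Submodule.mem_one.mpr ⟨r, hr⟩
  · intro H y hy
    obtain ⟨r, hr⟩ := Submodule.mem_one.mp (h2.2 H y ((hspan y).1 hy))
    exact ⟨r, hr⟩

end Lattice

end Fermat.Agent.S18.Int
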