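import Fermat.Agent.S18.Kummer
import Fermat.Agent.S18.Core

/-!
# S18, plan Z: the Kummer layer for the definitions of `Defs2` (inputs of `core_step`)
-/

set_option autoImplicit false
set_option linter.unusedSectionVars false
set_option linter.unusedVariables false

namespace Fermat.Agent.S18

open Polynomial Module

/-- (N2) in the shape asked by the lead -/
theorem kummer_nondeg {K F' : Type*} [Field K] [CommRing F'] [Algebra K F'] [Module.Finite K F']
    (h : (Algebra.traceForm K F').Nondegenerate) (p : ℕ) (hp0 : p ≠ 0) (hpK : (p : K) ≠ 0)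
    (f f' : F') (hff' : f * f' = 1) :
    (Algebra.traceForm K (AdjoinRoot (X ^ p - C f : F'[X]))).Nondegenerate := by
  rcases subsingleton_or_nontrivial F' with hs | hn
  · have : Subsingleton (AdjoinRoot (X ^ p - C f : F'[X])) := by
      refine subsingleton_of_zero_eq_one ?_
      rw [← map_one (AdjoinRoot.of (X ^ p - C f : F'[X])), Subsingleton.elim (1 : F') 0, map_zero]
    exact ⟨fun x _ => Subsingleton.elim _ _, fun x _ => Subsingleton.elim _ _⟩
  · exact kum_nondegenerate h (IsUnit.of_mul_eq_one _ hff') hpK _ rfl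

theorem kum_modByMonicHom_idem {C : Type*} [CommRing C] [Nontrivial C] {p : ℕ} (hp : p ≠ 0)
    (ginv pinv : C) (q : C[X]) (hq : q.Monic) (hqd : q.natDegree = p) :
    AdjoinRoot.modByMonicHom hq (AdjoinRoot.mk q (kumIdemPoly p ginv pinv)) =
      kumIdemPoly p ginv pinv := by
  rw [AdjoinRoot.modByMonicHom_mk, modByMonic_eq_self_iff hq]
  apply degree_lt_degree
  rw [hqd]
  exact kumIdemPoly_natDegree_lt hp _ _

theorem kum_unit_ne_zero {C : Type*} [CommRing C] [Nontrivial C] {p : ℕ} (g1 ginv pinv : C)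
    (h1 : g1 * ginv = 1) (hpinv : pinv * p = 1) : pinv * ginv ≠ 0 := by
  intro h4
  have h5 : (1 : C) = 0 := by
    calc (1 : C) = (pinv * p) * (g1 * ginv) := by rw [hpinv, h1, one_mul]
      _ = (pinv * ginv) * (p * g1) := by ring
      _ = 0 := by rw [h4, zero_mul]
  exact one_ne_zero h5

/-- the idempotent in the shape asked by the lead -/
theorem kummer_idem {F' : Type*} [CommRing F'] [Nontrivial F'] (p : ℕ) (hp : 2 ≤ p) (u : F')
    (hu : (p : F') * u = 1) (f g g' : F') (hg : f = g ^ p) (hgg' : g * g' = 1) :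
    ∃ e : AdjoinRoot (X ^ p - C f : F'[X]), e * e = e ∧
      (AdjoinRoot.modByMonicHom (monic_X_pow_sub_C f (by omega)) e).coeff 1 ≠ 0 := by
  refine ⟨AdjoinRoot.mk _ (kumIdemPoly p g' u),
    kumIdem_mul_self g g' u hgg' (by rw [mul_comm]; exact hu) _ (by rw [hg]), ?_⟩
  rw [kum_modByMonicHom_idem (by omega) g' u _ _ natDegree_X_pow_sub_C, kumIdemPoly_coeff,
    if_pos (by omega), pow_one]
  exact kum_unit_ne_zero g g' u hgg' (by rw [mul_comm]; exact hu)

variable {L : Type*} [Field L] (A : ValuationSubring L)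

theorem ki_nontrivial_FF (Φτ : (OV A)[X]) (hΦ : Φτ.Monic) (hψ0 : Φτ.natDegree ≠ 0) :
    Nontrivial (FF A Φτ) := AdjoinRoot.nontrivial _ (by
  rw [Polynomial.degree_eq_natDegree (hΦ.map _).ne_zero, hΦ.natDegree_map]
  exact_mod_cast hψ0)

theorem ki_nontrivial_FFb (Φτ : (OV A)[X]) (hΦ : Φτ.Monic) (hψ0 : Φτ.natDegree ≠ 0) :
    Nontrivial (FFb A Φτ) := AdjoinRoot.nontrivial _ (by
  rw [Polynomial.degree_eq_natDegree (hΦ.map _).ne_zero, hΦ.natDegree_map]
  exact_mod_cast hψ0)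

/-- `nondeg` of `core_step` -/
theorem ki_nondeg (Φτ : (OV A)[X]) (hΦ : Φτ.Monic) (p : ℕ) (f1 f1' : B1 A Φτ) (hf : f1 * f1' = 1)
    (hnd1 : (Algebra.traceForm (RatFunc L) (FF A Φτ)).Nondegenerate)
    (hpL : (p : RatFunc L) ≠ 0) :
    (Algebra.traceForm (RatFunc L) (EE A Φτ p f1)).Nondegenerate := by
  have : Module.Finite (RatFunc L) (FF A Φτ) :=
    Module.Finite.of_basis (AdjoinRoot.powerBasis' (hΦ.map (OV A).subtype)).basis
  have hp0 : p ≠ 0 := by rintro rfl; simp at hpL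
  have h := kummer_nondeg hnd1 p hp0 hpL (inc1 A Φτ f1) (inc1 A Φτ f1')
    (by rw [← map_mul, hf, map_one])
  have e := kumPoly_map_inc1 A Φτ p f1
  unfold EE
  rw [e]
  exact h

/-- `nondegb` of `core_step` -/
theorem ki_nondegb (Φτ : (OV A)[X]) (hΦ : Φτ.Monic) (p : ℕ) (f1 f1' : B1 A Φτ)
    (hf : f1 * f1' = 1)
    (hnd1 : (Algebra.traceForm (RatFunc (Kres A)) (FFb A Φτ)).Nondegenerate)
    (hpk : (p : RatFunc (Kres A)) ≠ 0) :
    (Algebra.traceForm (RatFunc (Kres A)) (EEb A Φτ p f1)).Nondegenerate := by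
  have : Module.Finite (RatFunc (Kres A)) (FFb A Φτ) :=
    Module.Finite.of_basis (AdjoinRoot.powerBasis' (hΦ.map (redV A))).basis
  have hp0 : p ≠ 0 := by rintro rfl; simp at hpk
  have h := kummer_nondeg hnd1 p hp0 hpk (incb1 A Φτ f1) (incb1 A Φτ f1')
    (by rw [← map_mul, hf, map_one])
  have e := kumPoly_map_incb1 A Φτ p f1
  unfold EEb
  rw [e]
  exact h

/-- `e`, `he`, `hcoord` of `core_step` -/
theorem ki_idem (Φτ : (OV A)[X]) (hΦ : Φτ.Monic) (ψ : ℕ) (hψ : Φτ.natDegree = ψ)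
    (hψ0 : ψ ≠ 0) (p : ℕ) (hp : p.Prime) (f1 : B1 A Φτ) (g1 ginv : FFb A Φτ)
    (hg1 : incb1 A Φτ f1 = g1 ^ p) (hginv : g1 * ginv = 1) (hpk : (p : RatFunc (Kres A)) ≠ 0) :
    ∃ e : EEb A Φτ p f1, e * e = e ∧ ∃ (i : Unit × Fin ψ) (l : Fin p), (l : ℕ) ≠ 0 ∧
      (model2 A Φτ hΦ ψ hψ hψ0 p hp.ne_zero f1).bb.repr e (i, l) ≠ 0 := by
  have hn : Nontrivial (FF A Φτ) := ki_nontrivial_FF A Φτ hΦ (by rw [hψ]; exact hψ0)
  have hnb : Nontrivial (FFb A Φτ) := ki_nontrivial_FFb A Φτ hΦ (by rw [hψ]; exact hψ0)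
  set pinv : FFb A Φτ := algebraMap (RatFunc (Kres A)) (FFb A Φτ) ((p : RatFunc (Kres A))⁻¹)
    with hpinv
  have hpp : pinv * (p : FFb A Φτ) = 1 := by
    rw [hpinv, ← map_natCast (algebraMap (RatFunc (Kres A)) (FFb A Φτ)), ← map_mul,
      inv_mul_cancel₀ hpk, map_one]
  have hq : ((kumPoly A Φτ p f1).map (incb1 A Φτ)).Monic :=
    (kumPoly_monic A Φτ hp.ne_zero f1).map _
  have hqd : ((kumPoly A Φτ p f1).map (incb1 A Φτ)).natDegree = p := by
    rw [kumPoly_map_incb1, natDegree_X_pow_sub_C]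
  refine ⟨AdjoinRoot.mk _ (kumIdemPoly p ginv pinv),
    kumIdem_mul_self g1 ginv pinv hginv hpp _ (by rw [kumPoly_map_incb1, hg1]), ?_⟩
  have hc : pinv * ginv ≠ 0 := kum_unit_ne_zero g1 ginv pinv hginv hpp
  have hex : ∃ i, (model1 A Φτ hΦ ψ hψ).bb.repr (pinv * ginv) i ≠ 0 := by
    by_contra hcon
    push Not at hcon
    apply hc
    apply (model1 A Φτ hΦ ψ hψ).bb.repr.injective
    ext i
    rw [hcon i, map_zero, Finsupp.zero_apply]
  obtain ⟨i, hi⟩ := hex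
  refine ⟨i, ⟨1, hp.one_lt⟩, one_ne_zero, ?_⟩
  have hrepr : (model2 A Φτ hΦ ψ hψ hψ0 p hp.ne_zero f1).bb.repr
      (AdjoinRoot.mk _ (kumIdemPoly p ginv pinv)) (i, ⟨1, hp.one_lt⟩) =
      (model1 A Φτ hΦ ψ hψ).bb.repr ((AdjoinRoot.modByMonicHom hq
        (AdjoinRoot.mk _ (kumIdemPoly p ginv pinv))).coeff (1 : ℕ)) i :=
    Model.adjoin_bb_repr _ _ _ _ _ _ _ _
  rw [hrepr, kum_modByMonicHom_idem hp.ne_zero ginv pinv _ hq hqd, kumIdemPoly_coeff,
    if_pos hp.one_lt, pow_one]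
  exact hi

end Fermat.Agent.S18
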