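import Fermat.Agent.S18.EB
import Fermat.Agent.S18.Base

set_option autoImplicit false

/-! # S18 plan Z, step (h): the abstract idempotent lifting -/

namespace Fermat.Agent.S18

section ring

variable {R : Type*} [CommRing R]

theorem newton_step (α e : R) (j : ℕ) (h : α ^ j ∣ e ^ 2 - e) :
    α ^ (2 * j) ∣ (3 * e ^ 2 - 2 * e ^ 3) ^ 2 - (3 * e ^ 2 - 2 * e ^ 3) ∧
      α ^ j ∣ (3 * e ^ 2 - 2 * e ^ 3) - e := by
  obtain ⟨x, hx⟩ := h
  constructor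
  · refine ⟨x ^ 2 * (4 * e ^ 2 - 4 * e - 3), ?_⟩
    have : (3 * e ^ 2 - 2 * e ^ 3) ^ 2 - (3 * e ^ 2 - 2 * e ^ 3)
        = (e ^ 2 - e) ^ 2 * (4 * e ^ 2 - 4 * e - 3) := by ring
    rw [this, hx]; ring
  · refine ⟨x * (1 - 2 * e), ?_⟩
    have : (3 * e ^ 2 - 2 * e ^ 3) - e = (e ^ 2 - e) * (1 - 2 * e) := by ring
    rw [this, hx]; ring

theorem newton_seq (α e : R) (h : α ∣ e ^ 2 - e) (k : ℕ) :
    ∃ e' : R, α ^ (2 ^ k) ∣ e' ^ 2 - e' ∧ α ∣ e' - e := by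
  induction k with
  | zero => exact ⟨e, by simpa using h, by simp⟩
  | succ k ih =>
    obtain ⟨e', h1, h2⟩ := ih
    obtain ⟨h3, h4⟩ := newton_step α e' (2 ^ k) h1
    refine ⟨3 * e' ^ 2 - 2 * e' ^ 3, ?_, ?_⟩
    · rwa [pow_succ, mul_comm (2 ^ k) 2]
    · have h5 : α ∣ (3 * e' ^ 2 - 2 * e' ^ 3) - e' :=
        (dvd_pow_self α (by positivity)).trans h4
      have := dvd_add h5 h2
      rwa [sub_add_sub_cancel] at this

theorem dvd_of_cube (α x : R) (m : ℕ) (h1 : α ∣ x) (h3 : α ^ m ∣ x ^ 3 - x) : α ^ m ∣ x := by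
  have key : ∀ i : ℕ, i ≤ m → α ^ i ∣ x := by
    intro i
    induction i with
    | zero => intro _; simp
    | succ i ih =>
      intro hi
      rcases Nat.eq_zero_or_pos i with rfl | hpos
      · simpa using h1
      have hx := ih (by omega)
      have h4 : α ^ (i + 1) ∣ x ^ 3 :=
        (pow_dvd_pow α (by omega : i + 1 ≤ i * 3)).trans (by rw [pow_mul]; exact pow_dvd_pow_of_dvd hx 3)
      have h5 : α ^ (i + 1) ∣ x ^ 3 - x := (pow_dvd_pow α hi).trans h3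
      have := dvd_sub h4 h5
      rwa [sub_sub_cancel] at this
  exact key m le_rfl

theorem idem_sub_cube (α e e' : R) (m : ℕ) (h : α ^ m ∣ e ^ 2 - e) (h' : α ^ m ∣ e' ^ 2 - e') :
    α ^ m ∣ (e - e') ^ 3 - (e - e') := by
  have : (e - e') ^ 3 - (e - e')
      = (e ^ 2 - e) * (1 + e - 3 * e') + (e' ^ 2 - e') * (3 * e - 1 - e') := by ring
  rw [this]
  exact dvd_add (h.mul_right _) (h'.mul_right _)

end ring

section main

variable {L : Type*} [Field L] (A : ValuationSubring L)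
  {E : Type*} [CommRing E] [Algebra L E] {Eb : Type*} [CommRing Eb]

theorem nonunits_mul_mem {a x : L} (ha : a ∈ A.nonunits) (hx : x ∈ A) : a * x ∈ A.nonunits := by
  rw [ValuationSubring.mem_nonunits_iff] at *
  rw [map_mul]
  exact mul_lt_one_of_lt_of_le ha ((A.valuation_le_one_iff x).2 hx)

/-- **(h) LIFT, abstract core.** -/
theorem lift_core (hA : IsRankOne A) (O : Subring E) (red : O →+* Eb) (S T U : Subalgebra L E)
    (hSU : S ≤ U) (hTU : T ≤ U)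
    (hOA : ∀ a ∈ A, ∀ y ∈ O, a • y ∈ O)
    (hker : ∀ y : O, red y = 0 → ∃ a ∈ A.nonunits, ∃ y' : O, (y : E) = a • (y' : E))
    (hker' : ∀ a ∈ A.nonunits, ∀ (y' : O) (h : a • (y' : E) ∈ O), red ⟨a • (y' : E), h⟩ = 0)
    (htors : ∃ c ∈ A, c ≠ 0 ∧ ∀ v ∈ O, v ∈ U → (∃ s ∈ S, ∃ t ∈ T, v = s + t) →
      ∃ s' ∈ S, ∃ t' ∈ T, s' ∈ O ∧ t' ∈ O ∧ c • v = s' + t')
    (e : Eb) (he : e * e = e) (e0 e0' : O) (h0S : (e0 : E) ∈ S) (h0T : (e0' : E) ∈ T)
    (hr0 : red e0 = e) (hr0' : red e0' = e) :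
    ∃ y : O, (y : E) ∈ S ∧ (y : E) ∈ T ∧ red y = e := by
  classical
  have hnA : ∀ {a : L}, a ∈ A.nonunits → a ∈ A := fun h => eb_nonunits_mem A h
  -- the three congruences
  have k1 : red (e0 ^ 2 - e0) = 0 := by rw [map_sub, map_pow, hr0, sq, he, sub_self]
  have k2 : red (e0' ^ 2 - e0') = 0 := by rw [map_sub, map_pow, hr0', sq, he, sub_self]
  have k3 : red (e0 - e0') = 0 := by rw [map_sub, hr0, hr0', sub_self]
  obtain ⟨a1, ha1, x1, hx1⟩ := hker _ k1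
  obtain ⟨a2, ha2, x2, hx2⟩ := hker _ k2
  obtain ⟨a3, ha3, x3, hx3⟩ := hker _ k3
  obtain ⟨a12, ha12, ⟨u1, hu1, e1⟩, ⟨u2, hu2, e2⟩, -⟩ := eb_exists_common A ha1 ha2
  obtain ⟨a, ha, ⟨w, hw, e12⟩, ⟨u3, hu3, e3⟩, -⟩ := eb_exists_common A ha12 ha3
  have hx1' : ((e0 : E) ^ 2 - e0) = a • ((w * u1) • (x1 : E)) := by
    have : ((e0 ^ 2 - e0 : O) : E) = (e0 : E) ^ 2 - e0 := rfl
    rw [← this, hx1, e1, e12, smul_smul, mul_assoc]
  have hx2' : ((e0' : E) ^ 2 - e0') = a • ((w * u2) • (x2 : E)) := by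
    have : ((e0' ^ 2 - e0' : O) : E) = (e0' : E) ^ 2 - e0' := rfl
    rw [← this, hx2, e2, e12, smul_smul, mul_assoc]
  have hx3' : ((e0 : E) - e0') = a • (u3 • (x3 : E)) := by
    have : ((e0 - e0' : O) : E) = (e0 : E) - e0' := rfl
    rw [← this, hx3, e3, smul_smul]
  have hO1 : (w * u1) • (x1 : E) ∈ O := hOA _ (A.mul_mem _ _ hw hu1) _ x1.2
  have hO2 : (w * u2) • (x2 : E) ∈ O := hOA _ (A.mul_mem _ _ hw hu2) _ x2.2
  have hO3 : u3 • (x3 : E) ∈ O := hOA _ hu3 _ x3.2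
  by_cases ha0 : a = 0
  · refine ⟨e0, h0S, ?_, hr0⟩
    rw [ha0, zero_smul, sub_eq_zero] at hx3'
    rw [hx3']; exact h0T
  have hdiv : ∀ (X : Subalgebra L E) (y x : E), y ∈ X → y = a • x → x ∈ X := by
    intro X y x hy hyx
    have : x = a⁻¹ • y := by rw [hyx, smul_smul, inv_mul_cancel₀ ha0, one_smul]
    rw [this]; exact X.smul_mem hy _
  -- the three rings
  let RS : Subring E := S.toSubring ⊓ O
  let RT : Subring E := T.toSubring ⊓ O
  let RU : Subring E := U.toSubring ⊓ O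
  have h1O : a • (1 : E) ∈ O := hOA _ (hnA ha) _ O.one_mem
  let αS : RS := ⟨a • 1, S.smul_mem S.one_mem _, h1O⟩
  let αT : RT := ⟨a • 1, T.smul_mem T.one_mem _, h1O⟩
  let αU : RU := ⟨a • 1, U.smul_mem U.one_mem _, h1O⟩
  let iS : RS →+* RU := Subring.inclusion (inf_le_inf_right _ hSU)
  let iT : RT →+* RU := Subring.inclusion (inf_le_inf_right _ hTU)
  have hiS : iS αS = αU := rfl
  have hiT : iT αT = αU := rfl
  let E0 : RS := ⟨e0, h0S, e0.2⟩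
  let E0' : RT := ⟨e0', h0T, e0'.2⟩
  have d1 : αS ∣ E0 ^ 2 - E0 := by
    refine ⟨⟨(w * u1) • (x1 : E), hdiv S _ _ (S.sub_mem (S.pow_mem h0S 2) h0S) hx1', hO1⟩, ?_⟩
    apply Subtype.ext
    change (e0 : E) ^ 2 - e0 = (a • (1 : E)) * ((w * u1) • (x1 : E))
    rw [smul_mul_assoc, one_mul]; exact hx1'
  have d2 : αT ∣ E0' ^ 2 - E0' := by
    refine ⟨⟨(w * u2) • (x2 : E), hdiv T _ _ (T.sub_mem (T.pow_mem h0T 2) h0T) hx2', hO2⟩, ?_⟩
    apply Subtype.ext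
    change (e0' : E) ^ 2 - e0' = (a • (1 : E)) * ((w * u2) • (x2 : E))
    rw [smul_mul_assoc, one_mul]; exact hx2'
  have d3 : αU ∣ iS E0 - iT E0' := by
    refine ⟨⟨u3 • (x3 : E), hdiv U _ _ (U.sub_mem (hSU h0S) (hTU h0T)) hx3', hO3⟩, ?_⟩
    apply Subtype.ext
    change (e0 : E) - e0' = (a • (1 : E)) * (u3 • (x3 : E))
    rw [smul_mul_assoc, one_mul]; exact hx3'
  obtain ⟨c, hcA, hc0, htors⟩ := htors
  obtain ⟨K, d, hd, hK⟩ := hA a ha c hcA hc0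
  obtain ⟨Ek, n1, n2⟩ := newton_seq αS E0 d1 K
  obtain ⟨Ek', n1', n2'⟩ := newton_seq αT E0' d2 K
  have m1 : αU ^ (2 ^ K) ∣ (iS Ek) ^ 2 - iS Ek := by
    have := map_dvd iS n1
    rwa [map_pow, hiS, map_sub, map_pow] at this
  have m1' : αU ^ (2 ^ K) ∣ (iT Ek') ^ 2 - iT Ek' := by
    have := map_dvd iT n1'
    rwa [map_pow, hiT, map_sub, map_pow] at this
  have m2 : αU ∣ iS Ek - iS E0 := by
    have := map_dvd iS n2
    rwa [hiS, map_sub] at this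
  have m2' : αU ∣ iT Ek' - iT E0' := by
    have := map_dvd iT n2'
    rwa [hiT, map_sub] at this
  have m3 : αU ∣ iS Ek - iT Ek' := by
    have : iS Ek - iT Ek' = (iS Ek - iS E0) + (iS E0 - iT E0') - (iT Ek' - iT E0') := by ring
    rw [this]
    exact dvd_sub (dvd_add m2 d3) m2'
  obtain ⟨v, hv⟩ := dvd_of_cube αU _ _ m3 (idem_sub_cube αU _ _ _ m1 m1')
  have hpow : ∀ n : ℕ, ((αU ^ n : RU) : E) = a ^ n • (1 : E) := by
    intro n
    change (a • (1 : E)) ^ n = _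
    rw [smul_pow, one_pow]
  have hvE : (Ek : E) - (Ek' : E) = a ^ (2 ^ K) • (v : E) := by
    have := congrArg (fun z : RU => (z : E)) hv
    change (Ek : E) - (Ek' : E) = ((αU ^ (2 ^ K) : RU) : E) * (v : E) at this
    rw [this, hpow, smul_mul_assoc, one_mul]
  have hapow : a ^ (2 ^ K) ≠ 0 := pow_ne_zero _ ha0
  obtain ⟨s', hs'S, t', ht'T, hs'O, ht'O, hst⟩ := htors (v : E) v.2.2 v.2.1
    ⟨(a ^ (2 ^ K))⁻¹ • (Ek : E), S.smul_mem Ek.2.1 _, -((a ^ (2 ^ K))⁻¹ • (Ek' : E)),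
      T.neg_mem (T.smul_mem Ek'.2.1 _), by
        rw [← sub_eq_add_neg, ← smul_sub, hvE, smul_smul, inv_mul_cancel₀ hapow, one_smul]⟩
  -- the small scalar
  have hKle : K ≤ 2 ^ K := Nat.lt_two_pow_self.le
  set d' : L := d * a ^ (2 ^ K - K) with hd'
  have hd'n : d' ∈ A.nonunits := nonunits_mul_mem A hd (A.pow_mem (hnA ha) _)
  have hcd : a ^ (2 ^ K) = d' * c := by
    rw [hd', ← Nat.add_sub_cancel' hKle, pow_add, hK, Nat.add_sub_cancel' hKle]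
    ring
  have hsplit : (Ek : E) - (Ek' : E) = d' • s' + d' • t' := by
    rw [hvE, hcd, mul_smul, hst, smul_add]
  have hds : d' • s' ∈ O := hOA _ (hnA hd'n) _ hs'O
  refine ⟨⟨Ek, Ek.2.2⟩ - ⟨d' • s', hds⟩, ?_, ?_, ?_⟩
  · exact S.sub_mem Ek.2.1 (S.smul_mem hs'S _)
  · have : ((⟨Ek, Ek.2.2⟩ - ⟨d' • s', hds⟩ : O) : E) = (Ek' : E) + d' • t' := by
      change (Ek : E) - d' • s' = _
      linear_combination hsplit
    rw [this]
    exact T.add_mem Ek'.2.1 (T.smul_mem ht'T _)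
  · rw [map_sub, hker' d' hd'n ⟨s', hs'O⟩ hds, sub_zero]
    obtain ⟨z, hz⟩ := n2
    have hzE : (Ek : E) = (e0 : E) + a • (z : E) := by
      have := congrArg (fun z : RS => (z : E)) hz
      change (Ek : E) - (e0 : E) = (a • (1 : E)) * (z : E) at this
      rw [smul_mul_assoc, one_mul] at this
      linear_combination this
    have hazO : a • (z : E) ∈ O := hOA _ (hnA ha) _ z.2.2
    have : (⟨Ek, Ek.2.2⟩ : O) = e0 + ⟨a • (z : E), hazO⟩ := Subtype.ext hzE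
    rw [this, map_add, hker' a ha ⟨z, z.2.2⟩ hazO, add_zero, hr0]

end main

end Fermat.Agent.S18
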