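import Mathlib

/-!
# S18 (G3), block PHI: ring homs `RatFunc L →+* LaurentSeries C` attached to a non-constant series
-/

set_option autoImplicit false

namespace Fermat.Agent.S18.Phi

open Polynomial

variable {L C : Type*} [Field L] [Field C]

theorem ev_ne_zero [IsAlgClosed C] (τ : LaurentSeries C) (hτ : ∀ c : C, τ ≠ HahnSeries.C c) :
    ∀ (n : ℕ) (Q : C[X]), Q.natDegree = n → Q ≠ 0 →
      Polynomial.eval₂ (HahnSeries.C : C →+* LaurentSeries C) τ Q ≠ 0 := by
  intro n
  induction n with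
  | zero =>
    intro Q hn hQ
    rw [Polynomial.eq_C_of_natDegree_eq_zero hn] at hQ ⊢
    rw [eval₂_C]
    intro h
    apply hQ
    rw [(map_eq_zero _).1 h, Polynomial.C_0]
  | succ n ih =>
    intro Q hn hQ
    obtain ⟨r, hr⟩ := IsAlgClosed.exists_root Q (by
      intro h
      have := natDegree_eq_zero_iff_degree_le_zero.2 h.le
      omega)
    obtain ⟨Q', rfl⟩ := dvd_iff_isRoot.2 hr
    have hQ' : Q' ≠ 0 := right_ne_zero_of_mul hQ
    rw [eval₂_mul, eval₂_sub, eval₂_X, eval₂_C]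
    refine mul_ne_zero (sub_ne_zero.2 (hτ r)) (ih Q' ?_ hQ')
    rw [natDegree_mul (X_sub_C_ne_zero r) hQ', natDegree_X_sub_C] at hn
    omega

/-- evaluation of polynomials over `L` at `τ`, through `ι0 : L →+* C` -/
noncomputable def polyHom (ι0 : L →+* C) (τ : LaurentSeries C) : L[X] →+* LaurentSeries C :=
  Polynomial.eval₂RingHom ((HahnSeries.C : C →+* LaurentSeries C).comp ι0) τ

theorem polyHom_apply (ι0 : L →+* C) (τ : LaurentSeries C) (P : L[X]) :
    polyHom ι0 τ P = Polynomial.eval₂ (HahnSeries.C : C →+* LaurentSeries C) τ (P.map ι0) := by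
  rw [polyHom, coe_eval₂RingHom, eval₂_map]

theorem polyHom_injective [IsAlgClosed C] (ι0 : L →+* C) (τ : LaurentSeries C)
    (hτ : ∀ c : C, τ ≠ HahnSeries.C c) : Function.Injective (polyHom ι0 τ) := by
  rw [injective_iff_map_eq_zero]
  intro P hP
  by_contra hne
  rw [polyHom_apply] at hP
  exact ev_ne_zero τ hτ _ _ rfl ((Polynomial.map_ne_zero_iff ι0.injective).2 hne) hP

/-- the ring hom `L(X) → C((u))`, `X ↦ τ` -/
noncomputable def ratHom [IsAlgClosed C] (ι0 : L →+* C) (τ : LaurentSeries C)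
    (hτ : ∀ c : C, τ ≠ HahnSeries.C c) : RatFunc L →+* LaurentSeries C :=
  IsFractionRing.lift (polyHom_injective ι0 τ hτ)

section

variable [IsAlgClosed C] (ι0 : L →+* C) (τ : LaurentSeries C) (hτ : ∀ c : C, τ ≠ HahnSeries.C c)

theorem ratHom_algebraMap (P : L[X]) :
    ratHom ι0 τ hτ (algebraMap L[X] (RatFunc L) P) =
      Polynomial.eval₂ (HahnSeries.C : C →+* LaurentSeries C) τ (P.map ι0) := by
  rw [ratHom, IsFractionRing.lift_algebraMap, polyHom_apply]

theorem ratHom_X : ratHom ι0 τ hτ RatFunc.X = τ := by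
  rw [← RatFunc.algebraMap_X, ratHom_algebraMap, Polynomial.map_X, eval₂_X]

theorem ratHom_C (c : L) : ratHom ι0 τ hτ (RatFunc.C c) = HahnSeries.C (ι0 c) := by
  rw [← RatFunc.algebraMap_C, ratHom_algebraMap, Polynomial.map_C, eval₂_C]

theorem ratHom_algebraMap_const (c : L) :
    ratHom ι0 τ hτ (algebraMap L (RatFunc L) c) = HahnSeries.C (ι0 c) := by
  rw [RatFunc.algebraMap_eq_C, ratHom_C]

theorem ratHom_X_sub_C (a : L) :
    ratHom ι0 τ hτ (RatFunc.X - algebraMap L (RatFunc L) a) = τ - HahnSeries.C (ι0 a) := by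
  rw [map_sub, ratHom_X, ratHom_algebraMap_const]

theorem ratHom_X_inv_sub_C (a : L) :
    ratHom ι0 τ hτ (RatFunc.X⁻¹ - algebraMap L (RatFunc L) a) = τ⁻¹ - HahnSeries.C (ι0 a) := by
  rw [map_sub, map_inv₀, ratHom_X, ratHom_algebraMap_const]

end

/-! ### non-constancy and orders -/

theorem order_C (c : C) : (HahnSeries.C c : LaurentSeries C).order = 0 := by
  rcases eq_or_ne c 0 with rfl | hc
  · simp
  · exact HahnSeries.order_single hc

theorem ne_C_of_order_sub {τ : LaurentSeries C} {a : C} {eps : ℕ} (heps : 0 < eps)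
    (h : (τ - HahnSeries.C a).order = (eps : ℤ)) : ∀ c : C, τ ≠ HahnSeries.C c := by
  rintro c rfl
  rw [← map_sub, order_C] at h
  omega

theorem ne_C_of_order_inv {τ : LaurentSeries C} {eps : ℕ} (heps : 0 < eps)
    (h : (τ⁻¹).order = (eps : ℤ)) : ∀ c : C, τ ≠ HahnSeries.C c := by
  rintro c rfl
  rw [← map_inv₀, order_C] at h
  omega

/-- if `ord (τ - a') = eps > 0` with `a' ≠ 0`, then `ord (τ⁻¹ - a'⁻¹) = eps` -/
theorem order_inv_sub {τ : LaurentSeries C} {a' : C} (ha' : a' ≠ 0) {eps : ℕ} (heps : 0 < eps)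
    (h : (τ - HahnSeries.C a').order = (eps : ℤ)) :
    (τ⁻¹ - HahnSeries.C a'⁻¹).order = (eps : ℤ) := by
  have hsub : τ - HahnSeries.C a' ≠ 0 := by
    intro h0
    rw [h0, HahnSeries.order_zero] at h
    omega
  have hCa : (HahnSeries.C a' : LaurentSeries C) ≠ 0 := (_root_.map_ne_zero _).2 ha'
  have hτ0 : τ ≠ 0 := by
    rintro rfl
    rw [zero_sub, HahnSeries.order_neg, order_C] at h
    omega
  have hτord : τ.order = 0 := by
    have h1 : τ = HahnSeries.C a' + (τ - HahnSeries.C a') := by ring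
    have h2 : (HahnSeries.C a' : LaurentSeries C).orderTop < (τ - HahnSeries.C a').orderTop := by
      rw [← HahnSeries.order_eq_orderTop_of_ne_zero hCa,
        ← HahnSeries.order_eq_orderTop_of_ne_zero hsub, order_C, h]
      exact_mod_cast heps
    have h3 := HahnSeries.orderTop_add_eq_left h2
    rw [← h1, ← HahnSeries.order_eq_orderTop_of_ne_zero hCa,
      ← HahnSeries.order_eq_orderTop_of_ne_zero hτ0, order_C] at h3
    exact_mod_cast h3
  have key : (τ⁻¹ - HahnSeries.C a'⁻¹) * (τ * HahnSeries.C a') = -(τ - HahnSeries.C a') := by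
    rw [map_inv₀]
    field_simp
    ring
  have hne : τ⁻¹ - HahnSeries.C a'⁻¹ ≠ 0 := by
    intro h0
    rw [h0, zero_mul] at key
    exact hsub (neg_eq_zero.1 key.symm)
  have h3 := congrArg HahnSeries.order key
  rw [HahnSeries.order_mul hne (mul_ne_zero hτ0 hCa), HahnSeries.order_mul hτ0 hCa, hτord,
    order_C, HahnSeries.order_neg, h] at h3
  simpa using h3

end Fermat.Agent.S18.Phi
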