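import Fermat.Agent.S24.Families
import Fermat.Agent.S28.Tw
import Fermat.Agent.S18.Hensel
import Fermat.Agent.S18.Phi

/-!
# S18 (G3): the local data at all points of both charts of the `τ`-line,
at the level of `φ : RatFunc Kb →+* ℂ((u))` and the S24 families `σ : Cos N → FN N →+* ℂ((u))`.
-/

set_option autoImplicit false

namespace Fermat.Agent.S18.Points

open UpperHalfPlane ModularForm EisensteinSeries ModularCurve HahnSeries CongruenceSubgroup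
open Fermat.Agent.X0 Fermat.Agent.S24 Fermat.Agent.S18.Hensel Fermat.Agent.S18.Phi
open scoped MatrixGroups Manifold Real

variable (N : ℕ) [NeZero N]

/-- a family which moreover separates the index by the value at `j_N` -/
def IsFam (σ : Cos N → FN N →+* LaurentSeries ℂ) : Prop :=
  IsFamily N iotaC σ ∧
    ∀ x y, σ x (jdS N ⟨N, dvd_rfl⟩) = σ y (jdS N ⟨N, dvd_rfl⟩) → x = y

theorem fam_generic (a : Kb) (ha0 : a ≠ 0) (ha : a ≠ 1728) :
    ∃ σ, IsFam N σ ∧ ∀ i, (σ i (jBar N - algebraMap Kb (FN N) a)).order = 1 := by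
  obtain ⟨z₀, hz₀⟩ := jFun_surjective (iotaC a)
  obtain ⟨σ, h1, h2, h3, -⟩ := exists_family_at N z₀
  refine ⟨σ, ⟨h1, h3⟩, fun x => ?_⟩
  have h4 : E₄ z₀ ≠ 0 := by
    rw [Ne, ← jFun_eq_zero_iff, hz₀, map_eq_zero]
    exact ha0
  have h6 : E₆ z₀ ≠ 0 := by
    rw [Ne, ← jFun_eq_1728_iff, hz₀]
    intro h
    apply ha
    apply iotaC.injective
    rw [h, map_ofNat]
  have h := relAt_order z₀ (h2 x a) 1 (by
    have := jFun_order_generic z₀ h4 h6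
    rw [hz₀] at this
    exact this)
  simpa using h

theorem fam_1728 :
    ∃ σ, IsFam N σ ∧ ∀ i, (σ i (jBar N - algebraMap Kb (FN N) 1728)).order = 2 := by
  obtain ⟨σ, h1, h2, h3, -⟩ := exists_family_at N UpperHalfPlane.I
  refine ⟨σ, ⟨h1, h3⟩, fun x => ?_⟩
  have h := relAt_order UpperHalfPlane.I (h2 x 1728) 2 (by
    have := jFun_order_of_E6 UpperHalfPlane.I jf_E6_I
    have e : iotaC 1728 = 1728 := map_ofNat iotaC 1728
    rw [e]
    exact this)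
  simpa using h

theorem fam_zero :
    ∃ σ, IsFam N σ ∧ ∀ i, (σ i (jBar N - algebraMap Kb (FN N) 0)).order = 3 := by
  obtain ⟨σ, h1, h2, h3, -⟩ := exists_family_at N rhoH
  refine ⟨σ, ⟨h1, h3⟩, fun x => ?_⟩
  have h := relAt_order rhoH (h2 x 0) 3 (by
    have := jFun_order_of_E4 rhoH relAt_E4_rhoH
    have e : (fun z => jFun z - iotaC 0) ∘ ofComplex = fun w : ℂ => jFun (ofComplex w) := by
      ext w; simp
    rw [e]
    exact this)
  simpa using h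

/-- the family at `∞`, after the substitution `u ↦ u ^ c` -/
theorem fam_infty (c : ℕ) (hc : 0 < c) :
    ∃ σ, IsFam N σ ∧ ∀ i, (σ i (jBar N)⁻¹).order = ((c * N : ℕ) : ℤ) := by
  have : NeZero c := ⟨hc.ne'⟩
  obtain ⟨σ, ⟨h1, h1', h1''⟩, h2, -, -, h3, -⟩ := exists_family_infty' N
  have hinj : Function.Injective (qExpand ℂ c) := (qExpand ℂ c).injective
  refine ⟨fun x => (qExpand ℂ c).comp (σ x), ⟨⟨?_, ?_, ?_⟩, ?_⟩, ?_⟩
  · intro x y hxy
    apply h1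
    ext1 f
    exact hinj (by simpa using congrArg (fun g : FN N →+* LaurentSeries ℂ => g f) hxy)
  · intro i k
    rw [RingHom.comp_apply, h1', qExpand_C]
  · intro i k
    rw [RingHom.comp_apply, RingHom.comp_apply, h1'' i k]
  · intro x y hxy
    exact h3 x y (hinj hxy)
  · intro i
    rw [RingHom.comp_apply, Fermat.Agent.S28.order_qExpand, h2]
    push_cast
    ring

theorem fam_at (j0 : Kb) (m : ℕ)
    (h : (j0 = 0 ∧ m = 3) ∨ (j0 = 1728 ∧ m = 2) ∨ (j0 ≠ 0 ∧ j0 ≠ 1728 ∧ m = 1)) :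
    ∃ σ, IsFam N σ ∧ ∀ i, (σ i (jBar N - algebraMap Kb (FN N) j0)).order = (m : ℤ) := by
  rcases h with ⟨rfl, rfl⟩ | ⟨rfl, rfl⟩ | ⟨h0, h1, rfl⟩
  · exact fam_zero N
  · exact fam_1728 N
  · simpa using fam_generic N j0 h0 h1

open Polynomial in
/-- the local data at a point: `t` is the local function (`X - a` or `X⁻¹ - a`) -/
def PtData (Num Den : Kb[X]) (t : RatFunc Kb) (eps : ℕ)
    (φ : RatFunc Kb →+* LaurentSeries ℂ) (σ : Cos N → FN N →+* LaurentSeries ℂ) : Prop :=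
  IsFam N σ ∧ (∀ c, φ (algebraMap Kb (RatFunc Kb) c) = HahnSeries.C (iotaC c)) ∧
    φ t ≠ 0 ∧ (φ t).order = (eps : ℤ) ∧
    ∀ x, σ x (jBar N) * φ (algebraMap Kb[X] (RatFunc Kb) Den) =
      φ (algebraMap Kb[X] (RatFunc Kb) Num)

section

open Polynomial

variable {N}

theorem eval_map_iotaC (G : Kb[X]) (a : Kb) : (G.map iotaC).eval (iotaC a) = iotaC (G.eval a) := by
  rw [eval_map, eval₂_at_apply]

theorem ne_zero_of_order {x : LaurentSeries ℂ} {eps : ℕ} (heps : 0 < eps)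
    (h : x.order = (eps : ℤ)) : x ≠ 0 := by
  rintro rfl
  rw [HahnSeries.order_zero] at h
  omega

/-- assembling the data from a solution `τ` of `Num(τ) = w Den(τ)` -/
theorem mk_ptData (Num Den : Kb[X]) {σ : Cos N → FN N →+* LaurentSeries ℂ} (hσ : IsFam N σ)
    (τ : LaurentSeries ℂ) (hτ : ∀ c : ℂ, τ ≠ HahnSeries.C c)
    (hrel : ev τ (Num.map iotaC) = σ (QuotientGroup.mk 1) (jBar N) * ev τ (Den.map iotaC))
    (t : RatFunc Kb) (eps : ℕ) (heps : 0 < eps)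
    (ht : (ratHom iotaC τ hτ t).order = (eps : ℤ)) :
    PtData N Num Den t eps (ratHom iotaC τ hτ) σ := by
  refine ⟨hσ, fun c => ratHom_algebraMap_const iotaC τ hτ c, ne_zero_of_order heps ht, ht,
    fun x => ?_⟩
  rw [ratHom_algebraMap, ratHom_algebraMap, hσ.1.2.2 x (QuotientGroup.mk 1)]
  exact hrel.symm

variable (N)

theorem point_fin (Num Den : Kb[X])
    (hfin : ∀ a, Den.eval a ≠ 0 → ∃ (m : ℕ) (G : Kb[X]),
      Num - Polynomial.C (Num.eval a / Den.eval a) * Den = (X - Polynomial.C a) ^ m * G ∧ G.eval a ≠ 0 ∧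
      ((Num.eval a = 0 ∧ m = 3) ∨ (Num.eval a = 1728 * Den.eval a ∧ m = 2) ∨
        (Num.eval a ≠ 0 ∧ Num.eval a ≠ 1728 * Den.eval a ∧ m = 1)))
    (a : Kb) (ha : Den.eval a ≠ 0) :
    ∃ (τ : LaurentSeries ℂ) (hτ : ∀ c : ℂ, τ ≠ HahnSeries.C c) (σ : Cos N → FN N →+* LaurentSeries ℂ),
      (τ - HahnSeries.C (iotaC a)).order = ((1 : ℕ) : ℤ) ∧
      ∀ (t : RatFunc Kb), (ratHom iotaC τ hτ t).order = ((1 : ℕ) : ℤ) →
        PtData N Num Den t 1 (ratHom iotaC τ hτ) σ := by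
  obtain ⟨m, G, hfac, hG, hcase⟩ := hfin a ha
  set j0 := Num.eval a / Den.eval a with hj0
  have hcase' : (j0 = 0 ∧ m = 3) ∨ (j0 = 1728 ∧ m = 2) ∨ (j0 ≠ 0 ∧ j0 ≠ 1728 ∧ m = 1) := by
    rcases hcase with ⟨h, hm⟩ | ⟨h, hm⟩ | ⟨h1, h2, hm⟩
    · exact Or.inl ⟨by rw [hj0, h, zero_div], hm⟩
    · exact Or.inr (Or.inl ⟨by rw [hj0, h, mul_div_cancel_right₀ _ ha], hm⟩)
    · refine Or.inr (Or.inr ⟨div_ne_zero h1 ha, fun h => h2 ?_, hm⟩)
      rw [← h, hj0, div_mul_cancel₀ _ ha]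
  have hm : 0 < m := by rcases hcase' with ⟨-, h⟩ | ⟨-, h⟩ | ⟨-, -, h⟩ <;> omega
  obtain ⟨σ, hσ, hord⟩ := fam_at N j0 m hcase'
  have hfacC : Num.map iotaC - Polynomial.C (iotaC j0) * Den.map iotaC =
      (X - Polynomial.C (iotaC a)) ^ m * G.map iotaC := by
    have := congrArg (Polynomial.map iotaC) hfac
    simpa only [Polynomial.map_sub, Polynomial.map_mul, Polynomial.map_pow, Polynomial.map_C,
      Polynomial.map_X] using this
  obtain ⟨τ, h1, -, h3⟩ := exists_tau_finite (Num.map iotaC) (Den.map iotaC) (G.map iotaC)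
    (iotaC a) (iotaC j0) m 1 hm one_pos hfacC
    (by rw [eval_map_iotaC]; exact (_root_.map_ne_zero _).2 hG)
    (by rw [eval_map_iotaC]; exact (_root_.map_ne_zero _).2 ha)
    (σ (QuotientGroup.mk 1) (jBar N))
    (by
      have := hord (QuotientGroup.mk 1)
      rw [map_sub, hσ.1.2.1] at this
      rw [this, mul_one])
  have hτ := ne_C_of_order_sub one_pos h1
  exact ⟨τ, hτ, σ, h1, fun t ht => mk_ptData Num Den hσ τ hτ h3 t 1 one_pos ht⟩

theorem point_cusp (Num Den : Kb[X]) (c : ℕ) (hc : 0 < c)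
    (hcusp : ∀ a, Den.eval a = 0 → Num.eval a ≠ 0 ∧
      ∃ D1 : Kb[X], Den = (X - Polynomial.C a) ^ c * D1 ∧ D1.eval a ≠ 0)
    (a : Kb) (ha : Den.eval a = 0) :
    ∃ (τ : LaurentSeries ℂ) (hτ : ∀ c : ℂ, τ ≠ HahnSeries.C c) (σ : Cos N → FN N →+* LaurentSeries ℂ),
      (τ - HahnSeries.C (iotaC a)).order = ((N : ℕ) : ℤ) ∧
      ∀ (t : RatFunc Kb), (ratHom iotaC τ hτ t).order = ((N : ℕ) : ℤ) →
        PtData N Num Den t N (ratHom iotaC τ hτ) σ := by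
  have hN : 0 < N := Nat.pos_of_ne_zero (NeZero.ne N)
  obtain ⟨hNum, D1, hfac, hD1⟩ := hcusp a ha
  obtain ⟨σ, hσ, hord⟩ := fam_infty N c hc
  have hfacC : Den.map iotaC = (X - Polynomial.C (iotaC a)) ^ c * D1.map iotaC := by
    have := congrArg (Polynomial.map iotaC) hfac
    simpa only [Polynomial.map_sub, Polynomial.map_mul, Polynomial.map_pow, Polynomial.map_C,
      Polynomial.map_X] using this
  obtain ⟨τ, h1, -, h3⟩ := exists_tau_pole (Num.map iotaC) (Den.map iotaC) (D1.map iotaC)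
    (iotaC a) c N hc hN hfacC
    (by rw [eval_map_iotaC]; exact (_root_.map_ne_zero _).2 hD1)
    (by rw [eval_map_iotaC]; exact (_root_.map_ne_zero _).2 hNum)
    (σ (QuotientGroup.mk 1) (jBar N))
    (by rw [← map_inv₀]; exact hord _)
  have hτ := ne_C_of_order_sub hN h1
  exact ⟨τ, hτ, σ, h1, fun t ht => mk_ptData Num Den hσ τ hτ h3 t N hN ht⟩

theorem point_infty (Num Den : Kb[X]) (c : ℕ) (hc : 0 < c)
    (hdeg : Num.natDegree = Den.natDegree + c) (hDen : Den ≠ 0) :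
    ∃ (τ : LaurentSeries ℂ) (hτ : ∀ c : ℂ, τ ≠ HahnSeries.C c) (σ : Cos N → FN N →+* LaurentSeries ℂ),
      (τ⁻¹).order = ((N : ℕ) : ℤ) ∧
      ∀ (t : RatFunc Kb), (ratHom iotaC τ hτ t).order = ((N : ℕ) : ℤ) →
        PtData N Num Den t N (ratHom iotaC τ hτ) σ := by
  have hN : 0 < N := Nat.pos_of_ne_zero (NeZero.ne N)
  obtain ⟨σ, hσ, hord⟩ := fam_infty N c hc
  obtain ⟨τ, h1, -, h3⟩ := exists_tau_infty (Num.map iotaC) (Den.map iotaC) c N hc hN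
    (by rw [natDegree_map, natDegree_map, hdeg])
    ((Polynomial.map_ne_zero_iff iotaC.injective).2 hDen)
    (σ (QuotientGroup.mk 1) (jBar N))
    (by rw [← map_inv₀]; exact hord _)
  have hτ := ne_C_of_order_inv hN h1
  exact ⟨τ, hτ, σ, h1, fun t ht => mk_ptData Num Den hσ τ hτ h3 t N hN ht⟩

/-- **all points of the `τ`-chart** -/
theorem point_tau (Num Den : Kb[X]) (c : ℕ) (hc : 0 < c)
    (hfin : ∀ a, Den.eval a ≠ 0 → ∃ (m : ℕ) (G : Kb[X]),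
      Num - Polynomial.C (Num.eval a / Den.eval a) * Den = (X - Polynomial.C a) ^ m * G ∧ G.eval a ≠ 0 ∧
      ((Num.eval a = 0 ∧ m = 3) ∨ (Num.eval a = 1728 * Den.eval a ∧ m = 2) ∨
        (Num.eval a ≠ 0 ∧ Num.eval a ≠ 1728 * Den.eval a ∧ m = 1)))
    (hcusp : ∀ a, Den.eval a = 0 → Num.eval a ≠ 0 ∧
      ∃ D1 : Kb[X], Den = (X - Polynomial.C a) ^ c * D1 ∧ D1.eval a ≠ 0)
    (a : Kb) :
    ∃ (eps : ℕ) (φ : RatFunc Kb →+* LaurentSeries ℂ) (σ : Cos N → FN N →+* LaurentSeries ℂ),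
      1 ≤ eps ∧ eps ≤ N ∧ (Den.eval a ≠ 0 → eps = 1) ∧
      PtData N Num Den (RatFunc.X - algebraMap Kb (RatFunc Kb) a) eps φ σ := by
  have hN : 0 < N := Nat.pos_of_ne_zero (NeZero.ne N)
  by_cases ha : Den.eval a = 0
  · obtain ⟨τ, hτ, σ, h1, h2⟩ := point_cusp N Num Den c hc hcusp a ha
    exact ⟨N, _, σ, hN, le_rfl, fun h => absurd ha h, h2 _ (by rw [ratHom_X_sub_C]; exact h1)⟩
  · obtain ⟨τ, hτ, σ, h1, h2⟩ := point_fin N Num Den hfin a ha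
    exact ⟨1, _, σ, le_rfl, hN, fun _ => rfl, h2 _ (by rw [ratHom_X_sub_C]; exact h1)⟩

/-- **all points of the `s`-chart**, `s = τ⁻¹` -/
theorem point_s (Num Den : Kb[X]) (c : ℕ) (hc : 0 < c)
    (hfin : ∀ a, Den.eval a ≠ 0 → ∃ (m : ℕ) (G : Kb[X]),
      Num - Polynomial.C (Num.eval a / Den.eval a) * Den = (X - Polynomial.C a) ^ m * G ∧ G.eval a ≠ 0 ∧
      ((Num.eval a = 0 ∧ m = 3) ∨ (Num.eval a = 1728 * Den.eval a ∧ m = 2) ∨
        (Num.eval a ≠ 0 ∧ Num.eval a ≠ 1728 * Den.eval a ∧ m = 1)))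
    (hcusp : ∀ a, Den.eval a = 0 → Num.eval a ≠ 0 ∧
      ∃ D1 : Kb[X], Den = (X - Polynomial.C a) ^ c * D1 ∧ D1.eval a ≠ 0)
    (hdeg : Num.natDegree = Den.natDegree + c) (hDen : Den ≠ 0)
    (a : Kb) :
    ∃ (eps : ℕ) (φ : RatFunc Kb →+* LaurentSeries ℂ) (σ : Cos N → FN N →+* LaurentSeries ℂ),
      1 ≤ eps ∧ eps ≤ N ∧ (a ≠ 0 → Den.eval a⁻¹ ≠ 0 → eps = 1) ∧
      PtData N Num Den (RatFunc.X⁻¹ - algebraMap Kb (RatFunc Kb) a) eps φ σ := by
  have hN : 0 < N := Nat.pos_of_ne_zero (NeZero.ne N)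
  by_cases ha0 : a = 0
  · subst ha0
    obtain ⟨τ, hτ, σ, h1, h2⟩ := point_infty N Num Den c hc hdeg hDen
    exact ⟨N, _, σ, hN, le_rfl, fun h => absurd rfl h,
      h2 _ (by rw [ratHom_X_inv_sub_C, map_zero, map_zero, sub_zero]; exact h1)⟩
  have hia : iotaC a⁻¹ ≠ 0 := (_root_.map_ne_zero _).2 (inv_ne_zero ha0)
  have hinv : (iotaC a⁻¹)⁻¹ = iotaC a := by rw [map_inv₀, inv_inv]
  by_cases ha : Den.eval a⁻¹ = 0
  · obtain ⟨τ, hτ, σ, h1, h2⟩ := point_cusp N Num Den c hc hcusp a⁻¹ ha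
    refine ⟨N, _, σ, hN, le_rfl, fun _ h => absurd ha h, h2 _ ?_⟩
    rw [ratHom_X_inv_sub_C, ← hinv]
    exact order_inv_sub hia hN h1
  · obtain ⟨τ, hτ, σ, h1, h2⟩ := point_fin N Num Den hfin a⁻¹ ha
    refine ⟨1, _, σ, le_rfl, hN, fun _ _ => rfl, h2 _ ?_⟩
    rw [ratHom_X_inv_sub_C, ← hinv]
    exact order_inv_sub hia one_pos h1

end

end Fermat.Agent.S18.Points
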