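import Fermat.Agent.S18.Base
import Fermat.Agent.S18.RInst

set_option autoImplicit false

/-! # S18 plan Z: `polTau`, `polS` and their reductions (inputs of the trace trick) -/

namespace Fermat.Agent.S18

open Polynomial

variable {L : Type*} [Field L] (A : ValuationSubring L)

/-- `P̄(τ)` -/
noncomputable def polTauBar (P : (↥A)[X]) : Rtau (Kres A) :=
  polyEquivRtau (Kres A) (P.map (IsLocalRing.residue A))

/-- `P̄(s)` -/
noncomputable def polSBar (P : (↥A)[X]) : Rs (Kres A) :=
  polyEquivRs (Kres A) (P.map (IsLocalRing.residue A))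

theorem algebraMap_polTau (P : (↥A)[X]) :
    algebraMap (Rtau L) (RatFunc L) (polTau A P) =
      algebraMap L[X] (RatFunc L) (P.map A.subtype) := by
  rw [← aeval_X_eq]; rfl

theorem algebraMap_polS (P : (↥A)[X]) :
    algebraMap (Rs L) (RatFunc L) (polS A P) =
      Polynomial.aeval (RatFunc.X⁻¹ : RatFunc L) (P.map A.subtype) := rfl

theorem algebraMap_polTauBar (P : (↥A)[X]) :
    algebraMap (Rtau (Kres A)) (RatFunc (Kres A)) (polTauBar A P) =
      algebraMap (Kres A)[X] (RatFunc (Kres A)) (P.map (IsLocalRing.residue A)) := by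
  rw [← aeval_X_eq]; rfl

theorem algebraMap_polSBar (P : (↥A)[X]) :
    algebraMap (Rs (Kres A)) (RatFunc (Kres A)) (polSBar A P) =
      Polynomial.aeval (RatFunc.X⁻¹ : RatFunc (Kres A)) (P.map (IsLocalRing.residue A)) := rfl

theorem polTau_mem_OV (P : (↥A)[X]) : algebraMap (Rtau L) (RatFunc L) (polTau A P) ∈ OV A := by
  rw [algebraMap_polTau]; exact poly_map_mem A P

theorem polS_mem_OV (P : (↥A)[X]) : algebraMap (Rs L) (RatFunc L) (polS A P) ∈ OV A := by
  rw [algebraMap_polS]; exact polyInv_map_mem A P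

theorem redV_polTau (P : (↥A)[X]) :
    redV A ⟨algebraMap (Rtau L) (RatFunc L) (polTau A P), polTau_mem_OV A P⟩ =
      algebraMap (Rtau (Kres A)) (RatFunc (Kres A)) (polTauBar A P) := by
  rw [algebraMap_polTauBar, ← redV_poly_map]
  congr 1
  exact Subtype.ext (algebraMap_polTau A P)

theorem redV_polS (P : (↥A)[X]) :
    redV A ⟨algebraMap (Rs L) (RatFunc L) (polS A P), polS_mem_OV A P⟩ =
      algebraMap (Rs (Kres A)) (RatFunc (Kres A)) (polSBar A P) := by
  rw [algebraMap_polSBar, ← redV_polyInv_map]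
  rfl

theorem polTauBar_ne_zero {P : (↥A)[X]} (h : P.map (IsLocalRing.residue A) ≠ 0) :
    algebraMap (Rtau (Kres A)) (RatFunc (Kres A)) (polTauBar A P) ≠ 0 := by
  rw [algebraMap_polTauBar]
  exact RatFunc.algebraMap_ne_zero h

theorem polSBar_ne_zero {P : (↥A)[X]} (h : P.map (IsLocalRing.residue A) ≠ 0) :
    algebraMap (Rs (Kres A)) (RatFunc (Kres A)) (polSBar A P) ≠ 0 := by
  rw [algebraMap_polSBar]
  intro h0
  exact h (aeval_s_injective (Kres A) (by rw [h0, map_zero]))

theorem polTau_inv_mem_OV {P : (↥A)[X]} (h : P.map (IsLocalRing.residue A) ≠ 0) :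
    (algebraMap (Rtau L) (RatFunc L) (polTau A P))⁻¹ ∈ OV A :=
  inv_mem A (f := ⟨_, polTau_mem_OV A P⟩) (by rw [redV_polTau]; exact polTauBar_ne_zero A h)

theorem polS_inv_mem_OV {P : (↥A)[X]} (h : P.map (IsLocalRing.residue A) ≠ 0) :
    (algebraMap (Rs L) (RatFunc L) (polS A P))⁻¹ ∈ OV A :=
  inv_mem A (f := ⟨_, polS_mem_OV A P⟩) (by rw [redV_polS]; exact polSBar_ne_zero A h)

theorem polTau_ne_zero {P : (↥A)[X]} (h : P.map (IsLocalRing.residue A) ≠ 0) :
    algebraMap (Rtau L) (RatFunc L) (polTau A P) ≠ 0 := by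
  intro h0
  have h1 := redV_polTau A P
  have h2 : (⟨algebraMap (Rtau L) (RatFunc L) (polTau A P), polTau_mem_OV A P⟩ : OV A) = 0 :=
    Subtype.ext h0
  rw [h2, map_zero] at h1
  exact polTauBar_ne_zero A h h1.symm

theorem polS_ne_zero {P : (↥A)[X]} (h : P.map (IsLocalRing.residue A) ≠ 0) :
    algebraMap (Rs L) (RatFunc L) (polS A P) ≠ 0 := by
  intro h0
  have h1 := redV_polS A P
  have h2 : (⟨algebraMap (Rs L) (RatFunc L) (polS A P), polS_mem_OV A P⟩ : OV A) = 0 :=
    Subtype.ext h0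
  rw [h2, map_zero] at h1
  exact polSBar_ne_zero A h h1.symm

theorem isRadical_span_polTauBar {P : (↥A)[X]} (h : Squarefree (P.map (IsLocalRing.residue A))) :
    (Ideal.span {polTauBar A P}).IsRadical := isRadical_span_polyEquivRtau h

theorem isRadical_span_polSBar {P : (↥A)[X]} (h : Squarefree (P.map (IsLocalRing.residue A))) :
    (Ideal.span {polSBar A P}).IsRadical := isRadical_span_polyEquivRs h

end Fermat.Agent.S18
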