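import Mathlib

/-!
# S18, plan Z, steps (e), (f), (g) in abstract form

Context: `OV ⊆ K0` a subring with a reduction `redV : OV → K0b`, `E` a finite free `K0`-algebra with
basis `b`, `O = ⊕ OV b_i` a subring of `E`, `red : O → Eb` the coordinatewise reduction.
-/

set_option autoImplicit false
set_option linter.unusedSectionVars false
set_option linter.unusedVariables false

namespace Fermat.Agent.S18

open Polynomial Module

section ctx

variable {K0 K0b : Type*} [Field K0] [Field K0b] {OV : Subring K0} {redV : OV →+* K0b}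
variable {ι : Type*} [Fintype ι] [DecidableEq ι]
variable {E Eb : Type*} [CommRing E] [Algebra K0 E] [CommRing Eb] [Algebra K0b Eb]
variable {b : Basis ι K0 E} {bb : Basis ι K0b Eb} {O : Subring E} {red : O →+* Eb}
variable (mem_O : ∀ y : E, y ∈ O ↔ ∀ i, b.repr y i ∈ OV)
variable (repr_red : ∀ (y : O) (i : ι) (h : b.repr (y : E) i ∈ OV),
  bb.repr (red y) i = redV ⟨b.repr (y : E) i, h⟩)

include mem_O in
lemma qep_basis_mem (i : ι) : b i ∈ O := by
  rw [mem_O]
  intro j
  rw [Basis.repr_self, Finsupp.single_apply]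
  split_ifs
  · exact OV.one_mem
  · exact OV.zero_mem

include mem_O repr_red in
lemma qep_red_basis (i : ι) : red ⟨b i, qep_basis_mem mem_O i⟩ = bb i := by
  apply bb.repr.injective
  ext j
  have h := (mem_O (b i)).1 (qep_basis_mem mem_O i) j
  rw [repr_red ⟨b i, qep_basis_mem mem_O i⟩ j h]
  have h2 : (⟨b.repr (b i) j, h⟩ : OV) = if i = j then 1 else 0 := by
    apply Subtype.ext
    change b.repr (b i) j = _
    rw [Basis.repr_self, Finsupp.single_apply]
    split_ifs <;> rfl
  change redV ⟨b.repr (b i) j, h⟩ = _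
  rw [h2, Basis.repr_self, Finsupp.single_apply]
  split_ifs <;> simp

include mem_O in
lemma qep_smul_mem (c : OV) {y : E} (hy : y ∈ O) : (c : K0) • y ∈ O := by
  rw [mem_O] at hy ⊢
  intro i
  rw [map_smul, Finsupp.smul_apply, smul_eq_mul]
  exact OV.mul_mem c.2 (hy i)

include mem_O repr_red in
lemma qep_red_smul (c : OV) (y : O) :
    red ⟨(c : K0) • (y : E), qep_smul_mem mem_O c y.2⟩ = redV c • red y := by
  apply bb.repr.injective
  ext i
  have h1 := (mem_O _).1 (qep_smul_mem mem_O c y.2) i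
  have h2 := (mem_O _).1 y.2 i
  rw [repr_red _ i h1]
  rw [map_smul (bb.repr), Finsupp.smul_apply, repr_red y i h2, smul_eq_mul, ← map_mul]
  congr 1
  apply Subtype.ext
  simp

/-- the matrix of multiplication by `y ∈ O`, with entries in `OV` -/
noncomputable def qepMat (y : O) : Matrix ι ι OV := fun i j =>
  ⟨b.repr ((y : E) * b j) i, (mem_O _).1 (O.mul_mem y.2 (qep_basis_mem mem_O j)) i⟩

lemma qepMat_map_subtype (y : O) :
    (qepMat mem_O y).map OV.subtype = Algebra.leftMulMatrix b (y : E) := by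
  ext i j
  rw [Algebra.leftMulMatrix_eq_repr_mul]
  rfl

include repr_red in
lemma qepMat_map_red (y : O) :
    (qepMat mem_O y).map redV = Algebra.leftMulMatrix bb (red y) := by
  ext i j
  rw [Algebra.leftMulMatrix_eq_repr_mul, ← qep_red_basis mem_O repr_red j, ← map_mul]
  rw [repr_red _ i ((mem_O _).1 (O.mul_mem y.2 (qep_basis_mem mem_O j)) i)]
  rfl

lemma qep_charpoly (y : O) :
    (Algebra.leftMulMatrix b (y : E)).charpoly = (qepMat mem_O y).charpoly.map OV.subtype := by
  rw [← qepMat_map_subtype mem_O y, Matrix.charpoly_map]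

include repr_red in
lemma qep_charpoly_red (y : O) :
    (Algebra.leftMulMatrix bb (red y)).charpoly = (qepMat mem_O y).charpoly.map redV := by
  rw [← qepMat_map_red mem_O repr_red y, Matrix.charpoly_map]

include repr_red in
/-- the trace commutes with the reduction -/
lemma qep_trace_red (y : O) :
    Algebra.trace K0b Eb (red y) = redV (qepMat mem_O y).trace ∧
      Algebra.trace K0 E (y : E) = ((qepMat mem_O y).trace : K0) := by
  constructor
  · rw [Algebra.trace_eq_matrix_trace bb, ← qepMat_map_red mem_O repr_red y]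
    simp [Matrix.trace, map_sum]
  · rw [Algebra.trace_eq_matrix_trace b, ← qepMat_map_subtype mem_O y]
    simp [Matrix.trace]

/-- Cayley-Hamilton for an element of a finite free algebra -/
lemma qep_aeval_charpoly (z : Eb) : aeval z (Algebra.leftMulMatrix bb z).charpoly = 0 := by
  apply Algebra.leftMulMatrix_injective bb
  rw [← Polynomial.aeval_algHom_apply, Matrix.aeval_self_charpoly, map_zero]

variable {R Rt : Type*} [CommRing R] [CommRing Rt] [Algebra R K0] [Algebra Rt K0b]
  [Algebra Rt Eb] [IsScalarTower Rt K0b Eb]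

include mem_O repr_red in
/-- **(e) QEP**: if the characteristic polynomial of `y ∈ O` has coefficients in `R`, then `red y`
is integral over `Rt`. -/
theorem qep_isIntegral
    (hR : ∀ c : OV, (c : K0) ∈ (algebraMap R K0).range → redV c ∈ (algebraMap Rt K0b).range)
    (y : O)
    (hy : ∀ n, (Algebra.leftMulMatrix b (y : E)).charpoly.coeff n ∈ (algebraMap R K0).range) :
    IsIntegral Rt (red y) := by
  set q := (Algebra.leftMulMatrix bb (red y)).charpoly with hq
  have hql : q ∈ Polynomial.lifts (algebraMap Rt K0b) := by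
    rw [Polynomial.lifts_iff_coeff_lifts]
    intro n
    rw [hq, qep_charpoly_red mem_O repr_red y, Polynomial.coeff_map]
    apply hR
    have := hy n
    rw [qep_charpoly mem_O y, Polynomial.coeff_map] at this
    exact this
  obtain ⟨q', hq', -, hmon⟩ :=
    Polynomial.lifts_and_degree_eq_and_monic hql (Matrix.charpoly_monic _)
  refine ⟨q', hmon, ?_⟩
  have h0 := qep_aeval_charpoly (bb := bb) (red y)
  rw [← hq, ← hq', Polynomial.aeval_def, Polynomial.eval₂_map, ← IsScalarTower.algebraMap_eq] at h0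
  exact h0

end ctx

/-! ### (f) the trace trick -/

lemma tt_trace_dvd {R : Type*} [CommRing R] {n : Type*} [Fintype n] [DecidableEq n] (P : R)
    (hP : (Ideal.span {P}).IsRadical) (Z : Matrix n n R) (M : ℕ)
    (hZ : ∀ i j, P ∣ (Z ^ M) i j) : P ∣ Z.trace := by
  have hred : IsReduced (R ⧸ Ideal.span {P}) := (Ideal.isRadical_iff_quotient_reduced _).1 hP
  set π := Ideal.Quotient.mk (Ideal.span {P}) with hπ
  have h1 : (Z.map π) ^ M = 0 := by
    have : (Z.map π) ^ M = (Z ^ M).map π := by
      have := map_pow (RingHom.mapMatrix (m := n) π) Z M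
      simpa using this.symm
    rw [this]
    ext i j
    rw [Matrix.map_apply, Matrix.zero_apply, hπ, Ideal.Quotient.eq_zero_iff_mem,
      Ideal.mem_span_singleton]
    exact hZ i j
  have h2 : IsNilpotent (Z.map π).trace := Matrix.isNilpotent_trace_of_isNilpotent ⟨M, h1⟩
  have h3 : (Z.map π).trace = 0 := h2.eq_zero
  have h4 : (Z.map π).trace = π Z.trace := by
    simp [Matrix.trace, map_sum]
  rw [h4, hπ, Ideal.Quotient.eq_zero_iff_mem, Ideal.mem_span_singleton] at h3
  exact h3

section lattice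

variable {Rt K0b : Type*} [CommRing Rt] [Field K0b] [Algebra Rt K0b] [FaithfulSMul Rt K0b]
variable {ι : Type*} [Fintype ι] [DecidableEq ι]
variable {Eb : Type*} [CommRing Eb] [Algebra K0b Eb] [Algebra Rt Eb] [IsScalarTower Rt K0b Eb]
variable {v : Basis ι K0b Eb}
variable (hv : ∀ y : Eb, IsIntegral Rt y ↔ ∀ i, v.repr y i ∈ (algebraMap Rt K0b).range)

include hv in
lemma tt_basis_integral (i : ι) : IsIntegral Rt (v i) := by
  rw [hv]
  intro j
  rw [Basis.repr_self, Finsupp.single_apply]
  split_ifs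
  · exact ⟨1, map_one _⟩
  · exact ⟨0, map_zero _⟩

include hv in
lemma tt_exists_matrix (z : Eb) (hz : IsIntegral Rt z) :
    ∃ Z : Matrix ι ι Rt, Z.map (algebraMap Rt K0b) = Algebra.leftMulMatrix v z := by
  have h : ∀ i j, ∃ c : Rt, algebraMap Rt K0b c = v.repr (z * v j) i := fun i j =>
    (hv _).1 (hz.mul (tt_basis_integral hv j)) i
  choose Z hZ using h
  refine ⟨Matrix.of Z, ?_⟩
  ext i j
  rw [Algebra.leftMulMatrix_eq_repr_mul, Matrix.map_apply, Matrix.of_apply, hZ]

include hv in
/-- if `z ^ M ∈ P St` with `P` squarefree then `P ∣ Tr z` -/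
theorem tt_lattice (P : Rt) (hP : (Ideal.span {P}).IsRadical) (z u : Eb) (M : ℕ)
    (hz : IsIntegral Rt z) (hu : IsIntegral Rt u) (hzu : z ^ M = P • u) :
    ∃ t : Rt, Algebra.trace K0b Eb z = algebraMap Rt K0b (P * t) := by
  obtain ⟨Z, hZ⟩ := tt_exists_matrix hv z hz
  obtain ⟨U, hU⟩ := tt_exists_matrix hv u hu
  have hinj : Function.Injective (algebraMap Rt K0b) := FaithfulSMul.algebraMap_injective _ _
  have h1 : Z ^ M = P • U := by
    have e1 : (RingHom.mapMatrix (m := ι) (algebraMap Rt K0b)) (Z ^ M)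
        = Algebra.leftMulMatrix v (z ^ M) := by
      rw [map_pow, map_pow, ← hZ]; rfl
    have e2 : (RingHom.mapMatrix (m := ι) (algebraMap Rt K0b)) (P • U)
        = Algebra.leftMulMatrix v (P • u) := by
      rw [algebra_compatible_smul K0b P u, map_smul (Algebra.leftMulMatrix v), ← hU]
      ext i j
      simp only [RingHom.mapMatrix_apply, Matrix.map_apply, Matrix.smul_apply, smul_eq_mul,
        map_mul]
    have e3 : (RingHom.mapMatrix (m := ι) (algebraMap Rt K0b)) (Z ^ M)
        = (RingHom.mapMatrix (m := ι) (algebraMap Rt K0b)) (P • U) := by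
      rw [e1, e2, hzu]
    ext i j
    have := congrFun (congrFun e3 i) j
    simp only [RingHom.mapMatrix_apply, Matrix.map_apply] at this
    exact hinj this
  have h2 : P ∣ Z.trace := tt_trace_dvd P hP Z M (fun i j => by
    rw [h1]; exact ⟨U i j, by simp⟩)
  obtain ⟨t, ht⟩ := h2
  refine ⟨t, ?_⟩
  rw [Algebra.trace_eq_matrix_trace v, ← hZ, ← ht]
  simp [Matrix.trace, map_sum]

end lattice

section tt

variable {K0 K0b : Type*} [Field K0] [Field K0b] {OV : Subring K0} {redV : OV →+* K0b}
variable {ι : Type*} [Fintype ι] [DecidableEq ι]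
variable {E Eb : Type*} [CommRing E] [Algebra K0 E] [CommRing Eb] [Algebra K0b Eb]
variable {b : Basis ι K0 E} {bb : Basis ι K0b Eb} {O : Subring E} {red : O →+* Eb}
variable (mem_O : ∀ y : E, y ∈ O ↔ ∀ i, b.repr y i ∈ OV)
variable (repr_red : ∀ (y : O) (i : ι) (h : b.repr (y : E) i ∈ OV),
  bb.repr (red y) i = redV ⟨b.repr (y : E) i, h⟩)
variable {R Rt : Type*} [CommRing R] [CommRing Rt] [Algebra R K0] [Algebra Rt K0b]
  [Algebra R E] [IsScalarTower R K0 E]
  [Algebra Rt Eb] [IsScalarTower Rt K0b Eb] [FaithfulSMul Rt K0b]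

include mem_O repr_red in
/-- **(f) the trace trick**: `h ∈ S^# ∩ O ⇒ red h ∈ St^#`. -/
theorem tt_main
    (hS : ∀ y : O, IsIntegral R (y : E) → IsIntegral Rt (red y))
    {ι' : Type*} [Fintype ι'] [DecidableEq ι'] (v : Basis ι' K0b Eb)
    (hv : ∀ y : Eb, IsIntegral Rt y ↔ ∀ i, v.repr y i ∈ (algebraMap Rt K0b).range)
    (P : R) (Pb : Rt) (hPO : algebraMap R K0 P ∈ OV) (hPinv : (algebraMap R K0 P)⁻¹ ∈ OV)
    (hP0 : algebraMap R K0 P ≠ 0)
    (hPb : redV ⟨algebraMap R K0 P, hPO⟩ = algebraMap Rt K0b Pb)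
    (hrad : (Ideal.span {Pb}).IsRadical) (M : ℕ) (hM : 0 < M)
    (h : O) (hG3 : ∃ u : E, IsIntegral R u ∧ (P • (h : E)) ^ M = P • u)
    (w : Eb) (hw : IsIntegral Rt w) :
    Algebra.trace K0b Eb (red h * w) ∈ (algebraMap Rt K0b).range := by
  obtain ⟨u, hu, hPu⟩ := hG3
  set p0 : OV := ⟨algebraMap R K0 P, hPO⟩ with hp0
  set p1 : OV := ⟨(algebraMap R K0 P)⁻¹, hPinv⟩ with hp1
  have hp01 : p1 * p0 = 1 := Subtype.ext (inv_mul_cancel₀ hP0)
  have hPb0 : algebraMap Rt K0b Pb ≠ 0 := by
    intro h0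
    have := congrArg redV hp01
    rw [map_mul, hPb, h0, mul_zero, map_one] at this
    exact zero_ne_one this
  -- `P • h ∈ O`
  have hPh : (p0 : K0) • (h : E) ∈ O := qep_smul_mem mem_O p0 h.2
  have hPh' : P • (h : E) = (p0 : K0) • (h : E) := algebra_compatible_smul K0 P _
  -- `u ∈ O`
  have hu' : u = (p1 : K0) • ((p0 : K0) • (h : E)) ^ M := by
    rw [← hPh', hPu, algebra_compatible_smul K0 P u, smul_smul]
    change u = ((algebraMap R K0 P)⁻¹ * algebraMap R K0 P) • u
    rw [inv_mul_cancel₀ hP0, one_smul]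
  have huO : u ∈ O := by
    rw [hu']
    exact qep_smul_mem mem_O p1 (O.pow_mem hPh M)
  have hub : IsIntegral Rt (red ⟨u, huO⟩) := hS ⟨u, huO⟩ hu
  -- reduction of the relation
  have hrel : (Pb • red h) ^ M = Pb • red ⟨u, huO⟩ := by
    have e1 : red ⟨(p0 : K0) • (h : E), hPh⟩ = Pb • red h := by
      rw [qep_red_smul mem_O repr_red p0 h, hPb, ← algebra_compatible_smul]
    have e2 : red ⟨(p0 : K0) • u, qep_smul_mem mem_O p0 huO⟩ = Pb • red ⟨u, huO⟩ := by
      rw [qep_red_smul mem_O repr_red p0 ⟨u, huO⟩, hPb, ← algebra_compatible_smul]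
    rw [← e1, ← e2, ← map_pow]
    congr 1
    apply Subtype.ext
    change ((p0 : K0) • (h : E)) ^ M = (p0 : K0) • u
    rw [← hPh', hPu, algebra_compatible_smul K0 P u]
  set z : Eb := Pb • (red h * w) with hz
  have hzM : z ^ M = Pb • (red ⟨u, huO⟩ * w ^ M) := by
    rw [hz, ← smul_mul_assoc, mul_pow, hrel, smul_mul_assoc]
  have hint : IsIntegral Rt (red ⟨u, huO⟩ * w ^ M) := hub.mul (hw.pow M)
  have hzint : IsIntegral Rt z := by
    apply IsIntegral.of_pow hM
    rw [hzM]
    exact hint.smul Pb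
  obtain ⟨t, ht⟩ := tt_lattice hv Pb hrad z _ M hzint hint hzM
  refine ⟨t, ?_⟩
  rw [hz, algebra_compatible_smul K0b Pb, map_smul, smul_eq_mul, map_mul (algebraMap Rt K0b)] at ht
  exact (mul_left_cancel₀ hPb0 ht).symm

end tt

/-! ### (g) RR-lifting, abstract form -/

section rr

variable {k : Type*} [Field k] {Eb : Type*} [AddCommGroup Eb] [Module k Eb]

/-- two subspaces each containing enough independent vectors, with the right total dimension:
the independent vectors span. -/
theorem rr_span {d d' : ℕ} (W W' : Submodule k Eb) [FiniteDimensional k W] [FiniteDimensional k W']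
    (y : Fin d → Eb) (y' : Fin d' → Eb) (hy : ∀ i, y i ∈ W) (hy' : ∀ i, y' i ∈ W')
    (hli : LinearIndependent k y) (hli' : LinearIndependent k y')
    (hsum : finrank k W + finrank k W' ≤ d + d') :
    Submodule.span k (Set.range y) = W ∧ finrank k W = d := by
  have h1 : Submodule.span k (Set.range y) ≤ W := Submodule.span_le.2 (by rintro _ ⟨i, rfl⟩; exact hy i)
  have h1' : Submodule.span k (Set.range y') ≤ W' :=
    Submodule.span_le.2 (by rintro _ ⟨i, rfl⟩; exact hy' i)
  have h2 : finrank k (Submodule.span k (Set.range y)) = d := by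
    rw [finrank_span_eq_card hli, Fintype.card_fin]
  have h2' : finrank k (Submodule.span k (Set.range y')) = d' := by
    rw [finrank_span_eq_card hli', Fintype.card_fin]
  have h3 := Submodule.finrank_mono h1
  have h3' := Submodule.finrank_mono h1'
  have h4 : finrank k W = d := by omega
  exact ⟨Submodule.eq_of_le_of_finrank_eq h1 (by rw [h2, h4]), h4⟩

end rr

end Fermat.Agent.S18
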