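import Fermat.Agent.S18.SBMain

namespace Fermat.Agent.S18

open Module

universe uE

variable {κ K ι : Type*} {E : Type uE} [Field κ] [Field K] [Algebra κ K] [AddCommGroup E] [Module K E]
  [Module κ E] [IsScalarTower κ K E]

/-- the lattice spanned by a basis over a subalgebra, as a `κ`-subspace -/
def latSub (R : Subalgebra κ K) (v : Basis ι K E) : Submodule κ E where
  carrier := {y | ∀ i, v.repr y i ∈ R}
  add_mem' := by
    intro a b ha hb i
    rw [map_add, Finsupp.add_apply]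
    exact R.add_mem (ha i) (hb i)
  zero_mem' := by
    intro i
    rw [map_zero, Finsupp.zero_apply]
    exact R.zero_mem
  smul_mem' := by
    intro c y hy i
    rw [← algebraMap_smul K c y, map_smul, Finsupp.smul_apply, smul_eq_mul]
    exact R.mul_mem (R.algebraMap_mem c) (hy i)

theorem mem_latSub (R : Subalgebra κ K) (v : Basis ι K E) (y : E) :
    y ∈ latSub R v ↔ ∀ i, v.repr y i ∈ R := Iff.rfl

theorem latSub_smul_mem {R : Subalgebra κ K} {v : Basis ι K E} {r : K} (hr : r ∈ R) {y : E}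
    (hy : y ∈ latSub R v) : r • y ∈ latSub R v := by
  intro i
  rw [map_smul, Finsupp.smul_apply, smul_eq_mul]
  exact R.mul_mem hr (hy i)

theorem basis_mem_latSub (R : Subalgebra κ K) (v : Basis ι K E) (i : ι) : v i ∈ latSub R v := by
  classical
  intro j
  rw [Basis.repr_self, Finsupp.single_apply]
  split_ifs
  · exact R.one_mem
  · exact R.zero_mem

theorem adjoin_split (x : K) {r : K} (hr : r ∈ Algebra.adjoin κ {x}) :
    ∃ a : κ, ∃ r' ∈ Algebra.adjoin κ {x}, r = algebraMap κ K a + x * r' := by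
  rw [Algebra.adjoin_singleton_eq_range_aeval] at hr
  obtain ⟨p, rfl⟩ := hr
  refine ⟨p.coeff 0, Polynomial.aeval x p.divX, ?_, ?_⟩
  · rw [Algebra.adjoin_singleton_eq_range_aeval]; exact ⟨_, rfl⟩
  · have h := congrArg (Polynomial.aeval x) (Polynomial.divX_mul_X_add p)
    rw [map_add, map_mul, Polynomial.aeval_X, Polynomial.aeval_C] at h
    show Polynomial.aeval x p = _
    rw [← h]; ring

theorem exists_bound_of_mem_LauSet (τ : K) {s : Set ℤ} {c : K} (hc : c ∈ LauSet κ τ s) :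
    ∃ D : ℤ, c ∈ LauSet κ τ (Set.Iic D) := by
  unfold LauSet at hc
  induction hc using Submodule.span_induction with
  | mem x hx =>
    obtain ⟨j, _, rfl⟩ := hx
    exact ⟨j, zpow_mem_LauSet τ (Set.mem_Iic.2 le_rfl)⟩
  | zero => exact ⟨0, Submodule.zero_mem _⟩
  | add x y _ _ hx hy =>
    obtain ⟨D1, h1⟩ := hx
    obtain ⟨D2, h2⟩ := hy
    exact ⟨max D1 D2, Submodule.add_mem _
      (LauSet_mono τ (Set.Iic_subset_Iic.2 (le_max_left _ _)) h1)
      (LauSet_mono τ (Set.Iic_subset_Iic.2 (le_max_right _ _)) h2)⟩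
  | smul a x _ hx =>
    obtain ⟨D, h⟩ := hx
    exact ⟨D, Submodule.smul_mem _ _ h⟩

/-- normal form of a pair of lattices -/
structure SBForm (κ : Type*) {K E ι : Type*} [Field κ] [Field K] [Algebra κ K] [AddCommGroup E]
    [Module K E] (τ : K) (S T : Set E) (v : Basis ι K E) (d : ι → ℤ) : Prop where
  memS : ∀ y, y ∈ S ↔ ∀ i, v.repr y i ∈ Algebra.adjoin κ {τ}
  memT : ∀ y, y ∈ T ↔ ∀ i, τ ^ (d i) * v.repr y i ∈ Algebra.adjoin κ {τ⁻¹}

theorem sb_lo [Fintype ι] {τ : K} (hτ : Transcendental κ τ) (vS vT : Basis ι K E) (m : ℕ)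
    (huS : ∀ i, τ ^ m • vT i ∈ latSub (Algebra.adjoin κ {τ}) vS) :
    ∃ lo : ℤ, ∀ y ∈ latSub (Algebra.adjoin κ {τ}) vS,
      τ ^ (-lo) • y ∈ latSub (Algebra.adjoin κ {τ⁻¹}) vT → y = 0 := by
  have h0 := transc_ne_zero hτ
  have h1 : ∀ x : ι × ι, ∃ D : ℤ, vS.repr (vT x.1) x.2 ∈ LauSet κ τ (Set.Iic D) := by
    intro x
    have := huS x.1 x.2
    rw [map_smul, Finsupp.smul_apply, smul_eq_mul, mem_adjoin_iff] at this
    obtain ⟨D, hD⟩ := exists_bound_of_mem_LauSet τ this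
    have h2 := LauSet_mul (κ := κ) h0 (-(m : ℤ)) _ hD
    rw [← mul_assoc, zpow_neg, zpow_natCast, inv_mul_cancel₀ (pow_ne_zero _ h0), one_mul] at h2
    exact exists_bound_of_mem_LauSet τ h2
  choose D hD using h1
  obtain ⟨D0, hD0⟩ := Finite.exists_le D
  have h2 : ∀ j i, τ ^ (-D0) * vS.repr (vT j) i ∈ Algebra.adjoin κ {τ⁻¹} := by
    intro j i
    rw [mul_mem_adjoin_inv_iff h0]
    exact LauSet_mono τ (Set.Iic_subset_Iic.2 (hD0 (j, i))) (hD (j, i))
  refine ⟨-D0 - 1, fun y hy ht => ?_⟩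
  set t := τ ^ (-(-D0 - 1)) • y with htdef
  have hyt : y = τ ^ (-D0 - 1) • t := by
    rw [htdef, smul_smul, ← zpow_add₀ h0]
    have : (-D0 - 1 + -(-D0 - 1) : ℤ) = 0 := by ring
    rw [this, zpow_zero, one_smul]
  have hrepr : ∀ i, vS.repr y i = τ ^ (-D0 - 1) * ∑ j, vT.repr t j * vS.repr (vT j) i := by
    intro i
    conv_lhs => rw [hyt, ← vT.sum_repr t]
    rw [map_smul, map_sum, Finsupp.smul_apply, Finsupp.finsetSum_apply, smul_eq_mul]
    congr 1
    refine Finset.sum_congr rfl fun j _ => ?_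
    rw [map_smul, Finsupp.smul_apply, smul_eq_mul]
  have hz : ∀ i, vS.repr y i = 0 := by
    intro i
    have hmem : vS.repr y i ∈ Lau κ τ 0 (-1) := by
      rw [mem_Lau_iff hτ]
      refine ⟨by simpa using hy i, ?_⟩
      rw [hrepr i, ← mul_assoc, ← zpow_add₀ h0, Finset.mul_sum]
      refine Subalgebra.sum_mem _ fun j _ => ?_
      have : τ ^ (- -1 + (-D0 - 1)) * (vT.repr t j * vS.repr (vT j) i)
          = vT.repr t j * (τ ^ (-D0) * vS.repr (vT j) i) := by
        have : (- -1 + (-D0 - 1) : ℤ) = -D0 := by ring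
        rw [this]; ring
      rw [this]
      exact Subalgebra.mul_mem _ (ht j) (h2 j i)
    rw [Lau_eq_bot τ (by norm_num)] at hmem
    simpa using hmem
  apply vS.repr.injective
  ext i
  simpa using hz i

theorem sb_core [Fintype ι] {τ : K} (hτ : Transcendental κ τ) (vS vT : Basis ι K E)
    (hST : ∀ y ∈ latSub (Algebra.adjoin κ {τ}) vS, ∃ m : ℕ,
      (τ⁻¹) ^ m • y ∈ latSub (Algebra.adjoin κ {τ⁻¹}) vT)
    (hTS : ∀ y ∈ latSub (Algebra.adjoin κ {τ⁻¹}) vT, ∃ m : ℕ,
      τ ^ m • y ∈ latSub (Algebra.adjoin κ {τ}) vS) :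
    ∃ (v : Basis ι K E) (d : ι → ℤ),
      SBForm κ τ (latSub (Algebra.adjoin κ {τ}) vS : Set E)
        (latSub (Algebra.adjoin κ {τ⁻¹}) vT : Set E) v d := by
  classical
  have h0 := transc_ne_zero hτ
  set S := latSub (Algebra.adjoin κ {τ}) vS with hSdef
  set T := latSub (Algebra.adjoin κ {τ⁻¹}) vT with hTdef
  have hτ1 : τ ∈ Algebra.adjoin κ {τ} := Algebra.self_mem_adjoin_singleton κ τ
  have hτ2 : τ⁻¹ ∈ Algebra.adjoin κ {τ⁻¹} := Algebra.self_mem_adjoin_singleton κ τ⁻¹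
  have hS : ∀ y ∈ S, τ • y ∈ S := fun y hy => latSub_smul_mem hτ1 hy
  have hT : ∀ y ∈ T, τ⁻¹ • y ∈ T := fun y hy => latSub_smul_mem hτ2 hy
  -- uniform m
  have hm : ∃ m : ℕ, ∀ i, τ ^ m • vT i ∈ S := by
    choose f hf using fun i => hTS (vT i) (basis_mem_latSub _ vT i)
    obtain ⟨m, hm⟩ := Finite.exists_le f
    refine ⟨m, fun i => ?_⟩
    have : τ ^ m • vT i = τ ^ (m - f i) • (τ ^ (f i) • vT i) := by
      rw [smul_smul, ← pow_add, Nat.sub_add_cancel (hm i)]
    rw [this]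
    exact latSub_smul_mem (Subalgebra.pow_mem _ hτ1 _) (hf i)
  obtain ⟨m, hm⟩ := hm
  obtain ⟨lo, hlo⟩ := sb_lo hτ vS vT m hm
  have hu : ∀ t ∈ T, ∃ a : ι → κ, τ • (t - ∑ i, a i • vT i) ∈ T := by
    intro t ht
    choose a r' hr' hr using fun i => adjoin_split (κ := κ) τ⁻¹ (ht i)
    refine ⟨a, fun i => ?_⟩
    rw [map_smul, map_sub, map_sum, Finsupp.smul_apply, Finsupp.sub_apply, Finsupp.finsetSum_apply,
      Finset.sum_eq_single i]
    · rw [← algebraMap_smul K (a i) (vT i), map_smul, Basis.repr_self, Finsupp.smul_apply,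
        Finsupp.single_eq_same, hr i, smul_eq_mul, smul_eq_mul, mul_one, add_sub_cancel_left,
        ← mul_assoc, mul_inv_cancel₀ h0, one_mul]
      exact hr' i
    · intro j _ hj
      rw [← algebraMap_smul K (a j) (vT j), map_smul, Basis.repr_self, Finsupp.smul_apply,
        Finsupp.single_eq_of_ne (Ne.symm hj), smul_zero]
    · intro h; exact absurd (Finset.mem_univ i) h
  obtain ⟨B, _, v, δ, hcard, hv, key⟩ := sb_abstract h0 S T hS hT lo hlo vT m
    (basis_mem_latSub _ vT) hm hu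
  -- every element of S has an expansion
  have keyS : ∀ y ∈ S, ∃ c : B → K, (∀ w, c w ∈ Algebra.adjoin κ {τ}) ∧ y = ∑ w, c w • v w := by
    intro y hy
    obtain ⟨m', hm'⟩ := hST y hy
    obtain ⟨c, hc, hyc⟩ := key m' y hy (by rwa [zpow_neg, zpow_natCast, ← inv_pow])
    refine ⟨c, fun w => ?_, hyc⟩
    have := ((mem_Lau_iff hτ _ _ _).1 (hc w)).1
    simpa using this
  have hspan : ⊤ ≤ Submodule.span K (Set.range v) := by
    rw [← vS.span_eq, Submodule.span_le]
    rintro _ ⟨i, rfl⟩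
    obtain ⟨c, _, hyc⟩ := keyS (vS i) (basis_mem_latSub _ vS i)
    rw [hyc]
    exact Submodule.sum_mem _ fun w _ => Submodule.smul_mem _ _ (Submodule.subset_span ⟨w, rfl⟩)
  have hfr : finrank K E = Fintype.card ι := Module.finrank_eq_card_basis vS
  have hcard2 : Fintype.card ι ≤ Fintype.card B := by
    have h1 := finrank_range_le_card (R := K) v
    rw [Set.finrank, top_le_iff.1 hspan, finrank_top, hfr] at h1
    exact h1
  have hceq : Fintype.card B = Fintype.card ι := le_antisymm hcard hcard2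
  set bv : Basis B K E := basisOfTopLeSpanOfCardEqFinrank v hspan (hceq.trans hfr.symm) with hbv
  have hbvv : ∀ w, bv w = v w := fun w => by rw [hbv, coe_basisOfTopLeSpanOfCardEqFinrank]
  have hrepr : ∀ (c : B → K) (y : E), y = ∑ w, c w • v w → ∀ w, bv.repr y w = c w := by
    intro c y hy w
    have : y = ∑ w, c w • bv w := by rw [hy]; simp only [hbvv]
    rw [this, Basis.repr_sum_self]
  let e : B ≃ ι := Fintype.equivOfCardEq hceq
  refine ⟨bv.reindex e, fun i => δ (e.symm i), ⟨fun y => ?_, fun y => ?_⟩⟩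
  · simp only [Basis.repr_reindex_apply, SetLike.mem_coe]
    constructor
    · intro hy i
      obtain ⟨c, hc, hyc⟩ := keyS y hy
      rw [hrepr c y hyc]
      exact hc _
    · intro h
      rw [← bv.sum_repr y]
      refine Submodule.sum_mem _ fun w _ => ?_
      rw [hbvv]
      have := h (e w)
      rw [Equiv.symm_apply_apply] at this
      exact latSub_smul_mem this (hv w).1
  · simp only [Basis.repr_reindex_apply, SetLike.mem_coe]
    constructor
    · intro hy i
      obtain ⟨m', hm'⟩ := hTS y hy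
      obtain ⟨c, hc, hyc⟩ := key m' (τ ^ m' • y) hm' (by
        rw [smul_smul, zpow_neg, zpow_natCast, inv_mul_cancel₀ (pow_ne_zero _ h0), one_smul]
        exact hy)
      have h1 := hrepr c _ hyc (e.symm i)
      rw [map_smul, Finsupp.smul_apply, smul_eq_mul] at h1
      have h2 := ((mem_Lau_iff hτ _ _ _).1 (hc (e.symm i))).2
      rw [← h1, ← mul_assoc, ← zpow_natCast, ← zpow_add₀ h0] at h2
      convert h2 using 3
      ring
    · intro h
      rw [← bv.sum_repr y]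
      refine Submodule.sum_mem _ fun w _ => ?_
      rw [hbvv]
      have h1 := h (e w)
      rw [Equiv.symm_apply_apply] at h1
      have h2 := latSub_smul_mem h1 (hv w).2
      rw [smul_smul, mul_right_comm, ← zpow_add₀ h0, add_neg_cancel, zpow_zero, one_mul] at h2
      exact h2

theorem sb_exists [Fintype ι] {τ : K} (hτ : Transcendental κ τ) (S T : Set E)
    (hS : ∃ v : Basis ι K E, ∀ y, y ∈ S ↔ ∀ i, v.repr y i ∈ Algebra.adjoin κ {τ})
    (hT : ∃ v : Basis ι K E, ∀ y, y ∈ T ↔ ∀ i, v.repr y i ∈ Algebra.adjoin κ {τ⁻¹})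
    (hST : ∀ y ∈ S, ∃ m : ℕ, (τ⁻¹) ^ m • y ∈ T) (hTS : ∀ y ∈ T, ∃ m : ℕ, τ ^ m • y ∈ S) :
    ∃ (v : Basis ι K E) (d : ι → ℤ), SBForm κ τ S T v d := by
  obtain ⟨vS, hvS⟩ := hS
  obtain ⟨vT, hvT⟩ := hT
  have h1 : S = (latSub (Algebra.adjoin κ {τ}) vS : Set E) := Set.ext fun y => hvS y
  have h2 : T = (latSub (Algebra.adjoin κ {τ⁻¹}) vT : Set E) := Set.ext fun y => hvT y
  subst h1 h2
  exact sb_core hτ vS vT hST hTS

end Fermat.Agent.S18
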