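import Mathlib

namespace Fermat.Agent.S18

open Module

/-- adapted independent set for an increasing chain of subspaces -/
theorem sb_adapted {κ Q : Type*} [Field κ] [AddCommGroup Q] [Module κ Q]
    (W : ℤ → Submodule κ Q) (hmono : Monotone W) (lo : ℤ) (hlo : W lo = ⊥) (m : ℕ) :
    ∃ B : Set Q, LinearIndepOn κ id B ∧ B ⊆ W (lo + m) ∧
      ∀ d ≤ lo + m, W d ≤ Submodule.span κ (B ∩ W d) := by
  induction m with
  | zero =>
    refine ⟨∅, linearIndepOn_empty _ _, Set.empty_subset _, fun d hd => ?_⟩
    have : W d ≤ W lo := hmono (by simpa using hd)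
    rw [hlo] at this
    exact this.trans bot_le
  | succ m ih =>
    obtain ⟨B, hB, hBW, had⟩ := ih
    have hsub : B ⊆ (W (lo + (m + 1 : ℕ)) : Set Q) :=
      hBW.trans (hmono (by push_cast; omega))
    refine ⟨hB.extend hsub, hB.linearIndepOn_extend hsub, hB.extend_subset hsub, fun d hd => ?_⟩
    rcases (show d ≤ lo + m ∨ d = lo + (m + 1 : ℕ) by push_cast at hd ⊢; omega) with h | h
    · exact (had d h).trans
        (Submodule.span_mono (Set.inter_subset_inter_left _ (hB.subset_extend hsub)))
    · subst h
      rw [Set.inter_eq_left.mpr (hB.extend_subset hsub)]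
      exact hB.subset_span_extend hsub

end Fermat.Agent.S18
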