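import Fermat.Agent.S18.SBCor
import Fermat.Agent.S18.IntRat
import Fermat.Agent.S18.RRLift

/-! # S18 (d): the splitting theorem in the `box` / `boxD` language of `RRLift.lean` -/

set_option autoImplicit false

namespace Fermat.Agent.S18

open Module

variable {κ : Type*} [Field κ] {E : Type*} [CommRing E] [Algebra (RatFunc κ) E]
  [Algebra κ E] [IsScalarTower κ (RatFunc κ) E] {ι : Type*} [Fintype ι]

theorem X_zpow_neg_natCast (n : ℕ) :
    (RatFunc.X : RatFunc κ) ^ (-(n : ℤ)) = (RatFunc.X⁻¹ : RatFunc κ) ^ n := by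
  rw [zpow_neg, zpow_natCast, inv_pow]

theorem sb_sum_box [DecidableEq ι]
    (hnd : (Algebra.traceForm (RatFunc κ) E).Nondegenerate) (b : Basis ι (RatFunc κ) E) :
    ∃ n0 : ℕ, ∀ n, n0 ≤ n → FiniteDimensional κ (box κ E 0 n) ∧
      FiniteDimensional κ (boxD κ E 0 n) ∧
      finrank κ (box κ E 0 n) + finrank κ (boxD κ E 0 n) = 2 * Fintype.card ι * (n + 1) := by
  have : Module.Finite (RatFunc κ) E := Module.Finite.of_basis b
  obtain ⟨n0, h⟩ := sb_sum (κ := κ) (RatFunc.transcendental_X (K := κ))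
    {y : E | IsIntegral ↥(Rtau κ) y} {y : E | IsIntegral ↥(Rs κ) y}
    (Int.hS_shape hnd b) (Int.hT_shape hnd b) Int.hST_shape Int.hTS_shape
    (Algebra.traceForm (RatFunc κ) E) hnd
  refine ⟨n0, fun n hn => h n hn (box κ E 0 n) (boxD κ E 0 n) (fun y => ?_) (fun y => ?_)⟩
  · rw [mem_box, pow_zero, one_smul, X_zpow_neg_natCast]; rfl
  · rw [mem_boxD, pow_zero, one_smul, X_zpow_neg_natCast, Int.adjoin_X_eq_Rtau,
      Int.adjoin_X_inv_eq_Rs]
    rfl

theorem box_finiteDimensional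
    (hnd : (Algebra.traceForm (RatFunc κ) E).Nondegenerate) (b : Basis ι (RatFunc κ) E)
    (a n : ℕ) : FiniteDimensional κ (box κ E a n) := by
  have : Module.Finite (RatFunc κ) E := Module.Finite.of_basis b
  refine sb_box_finite (κ := κ) (RatFunc.transcendental_X (K := κ))
    {y : E | IsIntegral ↥(Rtau κ) y} {y : E | IsIntegral ↥(Rs κ) y}
    (Int.hS_shape hnd b) (Int.hT_shape hnd b) Int.hST_shape Int.hTS_shape a n (box κ E a n)
    (fun y => ?_)
  rw [mem_box, X_zpow_neg_natCast, zpow_natCast]; rfl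

theorem sb_decomp_box
    (hnd : (Algebra.traceForm (RatFunc κ) E).Nondegenerate) (b : Basis ι (RatFunc κ) E) :
    ∃ n1 : ℕ, ∀ (a n : ℕ) (y : E), y ∈ box κ E a n →
      ∃ y1 ∈ box κ E 0 n, ∃ y2 ∈ box κ E a 0, ∃ y3 ∈ box κ E n1 n1, y = y1 + y2 + y3 := by
  have : Module.Finite (RatFunc κ) E := Module.Finite.of_basis b
  obtain ⟨n1, h⟩ := sb_decomp (κ := κ) (RatFunc.transcendental_X (K := κ))
    {y : E | IsIntegral ↥(Rtau κ) y} {y : E | IsIntegral ↥(Rs κ) y}
    (Int.hS_shape hnd b) (Int.hT_shape hnd b) Int.hST_shape Int.hTS_shape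
  refine ⟨n1, fun a n y hy => ?_⟩
  obtain ⟨y1, y2, y3, e, b1, b2, b3⟩ := h a n y (by
    rw [mem_box] at hy
    rw [X_zpow_neg_natCast, zpow_natCast]; exact hy)
  refine ⟨y1, ?_, y2, ?_, y3, ?_, e⟩
  · rw [mem_box, pow_zero, one_smul]
    rw [X_zpow_neg_natCast] at b1; exact b1
  · rw [mem_box, pow_zero, one_smul]
    rw [zpow_natCast] at b2; exact b2
  · rw [mem_box]
    rw [X_zpow_neg_natCast, zpow_natCast] at b3; exact b3

end Fermat.Agent.S18
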