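import Fermat.Agent.S18.SBLau
import Fermat.Agent.S18.SBAdapt

namespace Fermat.Agent.S18

open Module

variable {κ K E ι : Type*} [Field κ] [Field K] [Algebra κ K] [AddCommGroup E] [Module K E]
  [Module κ E] [IsScalarTower κ K E]

/-- multiplication by `k : K` as a `κ`-linear map -/
def smK (κ : Type*) {K E : Type*} [Field κ] [Field K] [Algebra κ K] [AddCommGroup E] [Module K E]
    [Module κ E] [IsScalarTower κ K E] (k : K) : E →ₗ[κ] E :=
  (LinearMap.lsmul K E k).restrictScalars κ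

@[simp] theorem smK_apply (k : K) (y : E) : smK κ k y = k • y := rfl

/-- `τ^j T` -/
def Tz (τ : K) (T : Submodule κ E) (j : ℤ) : Submodule κ E := T.comap (smK κ (τ ^ (-j)))

theorem mem_Tz (τ : K) (T : Submodule κ E) (j : ℤ) (y : E) : y ∈ Tz τ T j ↔ τ ^ (-j) • y ∈ T :=
  Iff.rfl

/-- leading term map -/
def grd (τ : K) (T : Submodule κ E) (d : ℤ) : E →ₗ[κ] (E ⧸ Tz τ T (-1)) :=
  (Tz τ T (-1)).mkQ ∘ₗ smK κ (τ ^ (-d))

theorem grd_eq_zero {τ : K} (h0 : τ ≠ 0) (T : Submodule κ E) (d : ℤ) (y : E) :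
    grd τ T d y = 0 ↔ y ∈ Tz τ T (d - 1) := by
  rw [grd, LinearMap.comp_apply, Submodule.mkQ_apply, Submodule.Quotient.mk_eq_zero, mem_Tz, mem_Tz,
    smK_apply, smul_smul, ← zpow_add₀ h0]
  congr! 3
  ring

theorem grd_shift {τ : K} (h0 : τ ≠ 0) (T : Submodule κ E) (d e : ℤ) (y : E) :
    grd τ T (d + e) (τ ^ e • y) = grd τ T d y := by
  rw [grd, grd, LinearMap.comp_apply, LinearMap.comp_apply, smK_apply, smK_apply, smul_smul,
    ← zpow_add₀ h0]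
  congr! 3
  ring

theorem zpow_smul_mem_of_nonneg {τ : K} {S : Submodule κ E} (hS : ∀ y ∈ S, τ • y ∈ S) {e : ℤ}
    (he : 0 ≤ e) {y : E} (hy : y ∈ S) : τ ^ e • y ∈ S := by
  obtain ⟨n, rfl⟩ := Int.eq_ofNat_of_zero_le he
  rw [zpow_natCast]
  clear he
  induction n with
  | zero => simpa using hy
  | succ n ih => rw [pow_succ', mul_smul]; exact hS _ ih

theorem Tz_mono {τ : K} (h0 : τ ≠ 0) {T : Submodule κ E} (hT : ∀ y ∈ T, τ⁻¹ • y ∈ T) :
    Monotone (Tz τ T) := by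
  intro a b hab y hy
  rw [mem_Tz] at hy ⊢
  have := zpow_smul_mem_of_nonneg (τ := τ⁻¹) hT (e := b - a) (by omega) hy
  rw [smul_smul, inv_zpow', ← zpow_add₀ h0] at this
  convert this using 2
  congr 1
  ring

/-- the chain of leading-term spaces -/
def Wd (τ : K) (S T : Submodule κ E) (d : ℤ) : Submodule κ (E ⧸ Tz τ T (-1)) :=
  (S ⊓ Tz τ T d).map (grd τ T d)

theorem shift_mem {τ : K} (h0 : τ ≠ 0) {S T : Submodule κ E} (hS : ∀ y ∈ S, τ • y ∈ S)
    {d e : ℤ} (he : 0 ≤ e) {y : E} (hy : y ∈ S ⊓ Tz τ T d) : τ ^ e • y ∈ S ⊓ Tz τ T (d + e) := by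
  refine ⟨zpow_smul_mem_of_nonneg hS he hy.1, ?_⟩
  have : y ∈ Tz τ T d := hy.2
  show τ ^ e • y ∈ Tz τ T (d + e)
  rw [mem_Tz] at this ⊢
  rw [smul_smul, ← zpow_add₀ h0]
  convert this using 2
  congr 1
  ring

theorem Wd_mono {τ : K} (h0 : τ ≠ 0) {S T : Submodule κ E} (hS : ∀ y ∈ S, τ • y ∈ S) :
    Monotone (Wd τ S T) := by
  intro a b hab
  rintro _ ⟨y, hy, rfl⟩
  refine ⟨τ ^ (b - a) • y, ?_, ?_⟩
  · have := shift_mem h0 hS (e := b - a) (by omega) hy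
    rwa [add_sub_cancel] at this
  · have := grd_shift h0 T a (b - a) y
    rwa [add_sub_cancel] at this

end Fermat.Agent.S18
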