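import Mathlib

namespace Fermat.Agent.S18

open Module

variable {κ K : Type*} [Field κ] [Field K] [Algebra κ K]

/-- Laurent polynomials in `τ` with exponents in the set `s`. -/
def LauSet (κ : Type*) {K : Type*} [Field κ] [Field K] [Algebra κ K] (τ : K) (s : Set ℤ) :
    Submodule κ K :=
  Submodule.span κ ((fun j : ℤ => τ ^ j) '' s)

/-- Laurent polynomials in `τ` with exponents in `[a, b]`. -/
def Lau (κ : Type*) {K : Type*} [Field κ] [Field K] [Algebra κ K] (τ : K) (a b : ℤ) :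
    Submodule κ K :=
  Submodule.span κ ((fun j : ℤ => τ ^ j) '' Set.Icc a b)

theorem Lau_eq_LauSet (τ : K) (a b : ℤ) : Lau κ τ a b = LauSet κ τ (Set.Icc a b) := rfl

theorem transc_ne_zero {τ : K} (hτ : Transcendental κ τ) : τ ≠ 0 := by
  rintro rfl
  exact hτ ⟨Polynomial.X, Polynomial.X_ne_zero, by simp⟩

theorem linInd_zpow {τ : K} (hτ : Transcendental κ τ) :
    LinearIndependent κ (fun j : ℤ => τ ^ j) := by
  have h0 := transc_ne_zero hτ
  rw [linearIndependent_iff']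
  intro s g hg i hi
  obtain ⟨M, hM⟩ : ∃ M : ℕ, ∀ j ∈ s, 0 ≤ j + M := by
    refine ⟨(s.sum fun j => j.natAbs), fun j hj => ?_⟩
    have : j.natAbs ≤ s.sum fun j => j.natAbs :=
      Finset.single_le_sum (f := fun j : ℤ => j.natAbs) (fun _ _ => Nat.zero_le _) hj
    omega
  set p : Polynomial κ := ∑ j ∈ s, Polynomial.monomial (j + M).toNat (g j) with hp
  have hp0 : Polynomial.aeval τ p = 0 := by
    rw [hp, map_sum]
    have : ∀ j ∈ s, Polynomial.aeval τ (Polynomial.monomial (j + M).toNat (g j))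
        = τ ^ M * (g j • τ ^ j) := by
      intro j hj
      rw [Polynomial.aeval_monomial, ← zpow_natCast τ (j + M).toNat, Int.toNat_of_nonneg (hM j hj),
        zpow_add₀ h0, zpow_natCast, Algebra.smul_def]
      ring
    rw [Finset.sum_congr rfl this, ← Finset.mul_sum, hg, mul_zero]
  have hpz : p = 0 := by
    by_contra hne
    exact hτ ⟨p, hne, hp0⟩
  have hc : p.coeff (i + M).toNat = g i := by
    rw [hp, Polynomial.finsetSum_coeff, Finset.sum_eq_single i]
    · simp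
    · intro j hj hji
      rw [Polynomial.coeff_monomial, if_neg]
      intro h
      apply hji
      have h1 := hM j hj
      have h2 := hM i hi
      omega
    · intro h; exact absurd hi h
  rw [← hc, hpz, Polynomial.coeff_zero]

theorem LauSet_mono (τ : K) {s t : Set ℤ} (h : s ⊆ t) : LauSet κ τ s ≤ LauSet κ τ t :=
  Submodule.span_mono (Set.image_mono h)

theorem zpow_mem_LauSet (τ : K) {s : Set ℤ} {j : ℤ} (h : j ∈ s) : τ ^ j ∈ LauSet κ τ s :=
  Submodule.subset_span ⟨j, h, rfl⟩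

theorem LauSet_inter {τ : K} (hτ : Transcendental κ τ) (s t : Set ℤ) :
    LauSet κ τ (s ∩ t) = LauSet κ τ s ⊓ LauSet κ τ t := by
  have hinj := (linInd_zpow hτ)
  unfold LauSet
  rw [Finsupp.span_image_eq_map_linearCombination, Finsupp.span_image_eq_map_linearCombination,
    Finsupp.span_image_eq_map_linearCombination, Finsupp.supported_inter,
    Submodule.map_inf _ hinj]

theorem LauSet_mul {τ : K} (h0 : τ ≠ 0) (m : ℤ) (s : Set ℤ) {c : K} (hc : c ∈ LauSet κ τ s) :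
    τ ^ m * c ∈ LauSet κ τ ((fun j => m + j) '' s) := by
  unfold LauSet at hc
  induction hc using Submodule.span_induction with
  | mem x hx =>
    obtain ⟨j, hj, rfl⟩ := hx
    have : τ ^ m * τ ^ j = τ ^ (m + j) := (zpow_add₀ h0 m j).symm
    simp only
    rw [this]
    exact zpow_mem_LauSet τ ⟨j, hj, rfl⟩
  | zero => rw [mul_zero]; exact Submodule.zero_mem _
  | add x y _ _ hx hy => rw [mul_add]; exact Submodule.add_mem _ hx hy
  | smul a x _ hx => rw [mul_smul_comm]; exact Submodule.smul_mem _ _ hx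

theorem mul_mem_LauSet_iff {τ : K} (h0 : τ ≠ 0) (m : ℤ) (s : Set ℤ) (c : K) :
    τ ^ m * c ∈ LauSet κ τ ((fun j => m + j) '' s) ↔ c ∈ LauSet κ τ s := by
  refine ⟨fun h => ?_, LauSet_mul h0 m s⟩
  have := LauSet_mul (κ := κ) h0 (-m) _ h
  rw [← mul_assoc, ← zpow_add₀ h0, neg_add_cancel, zpow_zero, one_mul, Set.image_image] at this
  simpa using this

theorem adjoin_eq_LauSet (τ : K) :
    Subalgebra.toSubmodule (Algebra.adjoin κ {τ}) = LauSet κ τ (Set.Ici 0) := by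
  rw [Algebra.adjoin_eq_span, LauSet]
  congr 1
  ext x
  simp only [SetLike.mem_coe, Submonoid.mem_closure_singleton, Set.mem_image, Set.mem_Ici]
  constructor
  · rintro ⟨n, rfl⟩
    exact ⟨n, Int.natCast_nonneg n, zpow_natCast τ n⟩
  · rintro ⟨j, hj, rfl⟩
    exact ⟨j.toNat, by rw [← zpow_natCast, Int.toNat_of_nonneg hj]⟩

theorem adjoin_inv_eq_LauSet (τ : K) :
    Subalgebra.toSubmodule (Algebra.adjoin κ {τ⁻¹}) = LauSet κ τ (Set.Iic 0) := by
  rw [Algebra.adjoin_eq_span, LauSet]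
  congr 1
  ext x
  simp only [SetLike.mem_coe, Submonoid.mem_closure_singleton, Set.mem_image, Set.mem_Iic]
  constructor
  · rintro ⟨n, rfl⟩
    exact ⟨-n, by omega, by rw [zpow_neg, zpow_natCast, inv_pow]⟩
  · rintro ⟨j, hj, rfl⟩
    refine ⟨(-j).toNat, ?_⟩
    rw [inv_pow, ← zpow_natCast, Int.toNat_of_nonneg (by omega), ← zpow_neg, neg_neg]

theorem mem_adjoin_iff (τ : K) (c : K) : c ∈ Algebra.adjoin κ {τ} ↔ c ∈ LauSet κ τ (Set.Ici 0) := by
  rw [← adjoin_eq_LauSet, Subalgebra.mem_toSubmodule]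

theorem mem_adjoin_inv_iff (τ : K) (c : K) :
    c ∈ Algebra.adjoin κ {τ⁻¹} ↔ c ∈ LauSet κ τ (Set.Iic 0) := by
  rw [← adjoin_inv_eq_LauSet, Subalgebra.mem_toSubmodule]

theorem mul_mem_adjoin_iff {τ : K} (h0 : τ ≠ 0) (a : ℤ) (c : K) :
    τ ^ (-a) * c ∈ Algebra.adjoin κ {τ} ↔ c ∈ LauSet κ τ (Set.Ici a) := by
  rw [mem_adjoin_iff, ← mul_mem_LauSet_iff (κ := κ) h0 (-a) (Set.Ici a) c]
  have : (fun j => -a + j) '' Set.Ici a = Set.Ici 0 := by
    rw [Set.image_const_add_Ici]; simp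
  rw [this]

theorem mul_mem_adjoin_inv_iff {τ : K} (h0 : τ ≠ 0) (b : ℤ) (c : K) :
    τ ^ (-b) * c ∈ Algebra.adjoin κ {τ⁻¹} ↔ c ∈ LauSet κ τ (Set.Iic b) := by
  rw [mem_adjoin_inv_iff, ← mul_mem_LauSet_iff (κ := κ) h0 (-b) (Set.Iic b) c]
  have : (fun j => -b + j) '' Set.Iic b = Set.Iic 0 := by
    rw [Set.image_const_add_Iic]; simp
  rw [this]

theorem mem_Lau_iff {τ : K} (hτ : Transcendental κ τ) (a b : ℤ) (c : K) :
    c ∈ Lau κ τ a b ↔
      τ ^ (-a) * c ∈ Algebra.adjoin κ {τ} ∧ τ ^ (-b) * c ∈ Algebra.adjoin κ {τ⁻¹} := by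
  have h0 := transc_ne_zero hτ
  rw [mul_mem_adjoin_iff h0, mul_mem_adjoin_inv_iff h0, Lau_eq_LauSet, ← Set.Ici_inter_Iic,
    LauSet_inter hτ, Submodule.mem_inf]

theorem finrank_Lau {τ : K} (hτ : Transcendental κ τ) (a b : ℤ) :
    finrank κ (Lau κ τ a b) = (b - a + 1).toNat := by
  have hli : LinearIndependent κ (fun j : Set.Icc a b => τ ^ (j : ℤ)) :=
    (linInd_zpow hτ).comp _ Subtype.val_injective
  have hr : Set.range (fun j : Set.Icc a b => τ ^ (j : ℤ)) = (fun j : ℤ => τ ^ j) '' Set.Icc a b := by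
    ext x; simp
  rw [Lau, ← hr, finrank_span_eq_card hli]
  simp only [Fintype.card_ofFinset, Int.card_Icc]
  congr 1; ring

instance finiteDimensional_Lau (τ : K) (a b : ℤ) : FiniteDimensional κ (Lau κ τ a b) :=
  FiniteDimensional.span_of_finite κ ((Set.finite_Icc a b).image _)

theorem Lau_mono (τ : K) {a b a' b' : ℤ} (ha : a' ≤ a) (hb : b ≤ b') :
    Lau κ τ a b ≤ Lau κ τ a' b' :=
  Submodule.span_mono (Set.image_mono (Set.Icc_subset_Icc ha hb))

theorem zpow_mem_Lau (τ : K) {a b j : ℤ} (h1 : a ≤ j) (h2 : j ≤ b) : τ ^ j ∈ Lau κ τ a b :=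
  Submodule.subset_span ⟨j, ⟨h1, h2⟩, rfl⟩

theorem Lau_eq_bot (τ : K) {a b : ℤ} (h : b < a) : Lau κ τ a b = ⊥ := by
  rw [Lau, Set.Icc_eq_empty (by omega)]; simp

end Fermat.Agent.S18
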