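import Fermat.Agent.S18.SBCore

namespace Fermat.Agent.S18

open Module

universe uE

variable {κ K ι : Type*} {E : Type uE} [Field κ] [Field K] [Algebra κ K] [AddCommGroup E] [Module K E]
  [Module κ E] [IsScalarTower κ K E]

/-- abstract core of the splitting theorem -/
theorem sb_abstract [Fintype ι] {τ : K} (h0 : τ ≠ 0) (S T : Submodule κ E)
    (hS : ∀ y ∈ S, τ • y ∈ S) (hT : ∀ y ∈ T, τ⁻¹ • y ∈ T)
    (lo : ℤ) (hlo : ∀ y ∈ S, τ ^ (-lo) • y ∈ T → y = 0)
    (u : ι → E) (m : ℕ) (huT : ∀ i, u i ∈ T) (huS : ∀ i, τ ^ m • u i ∈ S)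
    (hu : ∀ t ∈ T, ∃ a : ι → κ, τ • (t - ∑ i, a i • u i) ∈ T) :
    ∃ (B : Type uE) (_ : Fintype B) (v : B → E) (δ : B → ℤ), Fintype.card B ≤ Fintype.card ι ∧
      (∀ w, v w ∈ S ∧ τ ^ (-δ w) • v w ∈ T) ∧
      ∀ (d : ℤ) (y : E), y ∈ S → τ ^ (-d) • y ∈ T →
        ∃ c : B → K, (∀ w, c w ∈ Lau κ τ 0 (d - δ w)) ∧ y = ∑ w, c w • v w := by
  classical
  set W := Wd τ S T with hW
  have hWmono : Monotone W := Wd_mono h0 hS
  have hTzmono := Tz_mono (κ := κ) h0 hT
  have hbot : ∀ d ≤ lo, S ⊓ Tz τ T d = ⊥ := by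
    intro d hd
    rw [eq_bot_iff]
    rintro y ⟨hy1, hy2⟩
    exact hlo y hy1 (hTzmono hd hy2)
  have hWlo : W lo = ⊥ := by
    rw [hW, Wd, hbot lo le_rfl, Submodule.map_bot]
  set Wtop : Submodule κ (E ⧸ Tz τ T (-1)) := T.map (Tz τ T (-1)).mkQ with hWtop
  have hWle : ∀ d, W d ≤ Wtop := by
    rintro d _ ⟨y, hy, rfl⟩
    exact ⟨τ ^ (-d) • y, hy.2, rfl⟩
  -- mod sT every element of T is a combination of the u i
  have hmk : ∀ t ∈ T, ∃ a : ι → κ, (Tz τ T (-1)).mkQ t = ∑ i, a i • (Tz τ T (-1)).mkQ (u i) := by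
    intro t ht
    obtain ⟨a, ha⟩ := hu t ht
    refine ⟨a, ?_⟩
    have : t - ∑ i, a i • u i ∈ Tz τ T (-1) := by
      rw [mem_Tz]; simpa using ha
    have h2 := (Submodule.Quotient.mk_eq_zero _).2 this
    rw [Submodule.Quotient.mk_sub, sub_eq_zero] at h2
    rw [Submodule.mkQ_apply, h2, ← Submodule.mkQ_apply, map_sum]
    simp
  have hWtop_le : ∀ d, (m : ℤ) ≤ d → Wtop ≤ W d := by
    intro d hd
    refine le_trans ?_ (hWmono hd)
    rintro _ ⟨t, ht, rfl⟩
    obtain ⟨a, ha⟩ := hmk t ht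
    refine ⟨∑ i, a i • (τ ^ m • u i), ⟨?_, ?_⟩, ?_⟩
    · exact Submodule.sum_mem _ fun i _ => Submodule.smul_mem _ _ (huS i)
    · refine Submodule.sum_mem _ fun i _ => Submodule.smul_mem _ _ ?_
      rw [mem_Tz, smul_smul, zpow_neg, zpow_natCast, inv_mul_cancel₀ (pow_ne_zero _ h0), one_smul]
      exact huT i
    · rw [ha, map_sum]
      refine Finset.sum_congr rfl fun i _ => ?_
      rw [map_smul, grd, LinearMap.comp_apply, smK_apply, smul_smul, zpow_neg, zpow_natCast,
        inv_mul_cancel₀ (pow_ne_zero _ h0), one_smul]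
  have hWtop_span : Wtop ≤ Submodule.span κ (Set.range fun i => (Tz τ T (-1)).mkQ (u i)) := by
    rintro _ ⟨t, ht, rfl⟩
    obtain ⟨a, ha⟩ := hmk t ht
    rw [ha]
    exact Submodule.sum_mem _ fun i _ => Submodule.smul_mem _ _ (Submodule.subset_span ⟨i, rfl⟩)
  -- adapted set
  obtain ⟨M, hM⟩ : ∃ M : ℕ, (m : ℤ) ≤ lo + M := ⟨(m - lo).toNat, by omega⟩
  obtain ⟨B, hB, hBW, had⟩ := sb_adapted W hWmono lo hWlo M
  have had' : ∀ d, W d ≤ Submodule.span κ (Subtype.val '' {w : B | (w : E ⧸ Tz τ T (-1)) ∈ W d}) := by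
    intro d
    have himg : Subtype.val '' {w : B | (w : E ⧸ Tz τ T (-1)) ∈ W d} = B ∩ W d := by
      ext x; simp [and_comm]
    rw [himg]
    rcases le_total d (lo + M) with h | h
    · exact had d h
    · refine ((hWle d).trans (hWtop_le _ hM)).trans ((had _ le_rfl).trans ?_)
      exact Submodule.span_mono (Set.inter_subset_inter_right _ (hWmono h))
  have hBli : LinearIndependent κ (fun x : B => (x : E ⧸ Tz τ T (-1))) := hB
  have hBrange : Set.range (fun x : B => (x : E ⧸ Tz τ T (-1))) ≤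
      Submodule.span κ (Set.range fun i => (Tz τ T (-1)).mkQ (u i)) := by
    rintro _ ⟨x, rfl⟩
    exact hWtop_span (hWle _ (hBW x.2))
  have : Finite B := hBli.finite_of_le_span_finite _ _ hBrange
  let _ : Fintype B := Fintype.ofFinite B
  have hcard : Fintype.card B ≤ Fintype.card ι := by
    have h1 := linearIndependent_le_span' _ hBli _ hBrange
    rw [Cardinal.mk_fintype, Nat.cast_le] at h1
    exact h1.trans (Fintype.card_range_le _)
  -- choose lifts
  have hch : ∀ w : B, ∃ (δ : ℤ) (v : E), v ∈ S ⊓ Tz τ T δ ∧ grd τ T δ v = w ∧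
      ∀ d, (w : E ⧸ Tz τ T (-1)) ∈ W d → δ ≤ d := by
    intro w
    have hw0 : (w : E ⧸ Tz τ T (-1)) ≠ 0 := hBli.ne_zero w
    obtain ⟨δ, hδ, hmin⟩ := Int.exists_least_of_bdd (P := fun d => (w : E ⧸ Tz τ T (-1)) ∈ W d)
      ⟨lo, fun z hz => by
        by_contra hlt
        have : W z ≤ W lo := hWmono (by omega)
        rw [hWlo] at this
        exact hw0 (by simpa using this hz)⟩ ⟨_, hBW w.2⟩
    obtain ⟨v, hv, hvw⟩ := hδ
    exact ⟨δ, v, hv, hvw, hmin⟩
  choose δ v hv hgv hmin using hch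
  refine ⟨B, inferInstance, v, δ, hcard, fun w => ⟨(hv w).1, (hv w).2⟩, ?_⟩
  -- main induction
  have key : ∀ n : ℕ, ∀ d : ℤ, d ≤ lo + n → ∀ y, y ∈ S ⊓ Tz τ T d →
      ∃ c : B → K, (∀ w, c w ∈ Lau κ τ 0 (d - δ w)) ∧ y = ∑ w, c w • v w := by
    intro n
    induction n with
    | zero =>
      intro d hd y hy
      have : y ∈ (⊥ : Submodule κ E) := hbot d (by simpa using hd) ▸ hy
      refine ⟨fun _ => 0, fun w => Submodule.zero_mem _, ?_⟩
      simpa using this
    | succ n ih =>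
      intro d hd y hy
      have hgr : grd τ T d y ∈ W d := ⟨y, hy, rfl⟩
      obtain ⟨l, hl, hsum⟩ := (Finsupp.mem_span_image_iff_linearCombination κ).1 (had' d hgr)
      rw [Finsupp.linearCombination_apply, Finsupp.sum_fintype _ _ (by simp)] at hsum
      have hlw : ∀ w, l w ≠ 0 → δ w ≤ d := by
        intro w hw
        have : w ∈ {w : B | (w : E ⧸ Tz τ T (-1)) ∈ W d} :=
          hl (Finsupp.mem_support_iff.2 hw)
        exact hmin w d this
      have hterm : ∀ w, l w • (τ ^ (d - δ w) • v w) ∈ S ⊓ Tz τ T d := by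
        intro w
        by_cases hw : l w = 0
        · rw [hw, zero_smul]; exact Submodule.zero_mem _
        · refine Submodule.smul_mem _ _ ?_
          have := shift_mem h0 hS (e := d - δ w) (by have := hlw w hw; omega) (hv w)
          rwa [add_sub_cancel] at this
      set z := ∑ w, l w • (τ ^ (d - δ w) • v w) with hz
      have hzmem : z ∈ S ⊓ Tz τ T d := Submodule.sum_mem _ fun w _ => hterm w
      have hgz : grd τ T d z = grd τ T d y := by
        rw [hz, map_sum, ← hsum]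
        refine Finset.sum_congr rfl fun w _ => ?_
        rw [map_smul]
        have := grd_shift h0 T (δ w) (d - δ w) (v w)
        rw [add_sub_cancel] at this
        rw [this, hgv]
      have hy' : y - z ∈ S ⊓ Tz τ T (d - 1) := by
        refine ⟨Submodule.sub_mem _ hy.1 hzmem.1, ?_⟩
        show y - z ∈ Tz τ T (d - 1)
        rw [← grd_eq_zero h0, map_sub, hgz, sub_self]
      obtain ⟨c', hc', hyc⟩ := ih (d - 1) (by push_cast at hd; omega) _ hy'
      refine ⟨fun w => c' w + l w • τ ^ (d - δ w), fun w => ?_, ?_⟩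
      · refine Submodule.add_mem _ (Lau_mono τ le_rfl (by omega) (hc' w)) ?_
        by_cases hw : l w = 0
        · rw [hw, zero_smul]; exact Submodule.zero_mem _
        · exact Submodule.smul_mem _ _ (zpow_mem_Lau τ (by have := hlw w hw; omega) le_rfl)
      · have : y = (y - z) + z := by abel
        rw [this, hyc, hz, ← Finset.sum_add_distrib]
        refine Finset.sum_congr rfl fun w _ => ?_
        rw [add_smul, smul_assoc]
  intro d y hy1 hy2
  exact key (d - lo).toNat d (by omega) y ⟨hy1, hy2⟩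

end Fermat.Agent.S18
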