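import Mathlib

/-!
# S18: abstract separability of the modular polynomial

`Φ(Y, X)` monic in `X` with `Φ(J, x) = 0` in `κ((q))`, the powers `x^i`, `i < deg Φ`, independent
over `κ[J]`, `κ` perfect, `q dJ/dq ≠ 0`.  Then `Φ` is irreducible and separable over `κ(Y)`, hence
stays separable after every injective base change `κ[Y] → K1`.
-/

set_option autoImplicit false

namespace Fermat.Agent.S18

open Polynomial

section theta

variable {κ : Type*} [Field κ]

/-- the derivation `θ = q d/dq` of `κ((q))` -/
noncomputable def sepTheta (f : LaurentSeries κ) : LaurentSeries κ where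
  coeff n := (n : κ) * f.coeff n
  isPWO_support' := f.isPWO_support.mono fun n hn => by
    simp only [Function.mem_support] at hn
    exact right_ne_zero_of_mul hn

theorem sepTheta_coeff (f : LaurentSeries κ) (n : ℤ) :
    (sepTheta f).coeff n = (n : κ) * f.coeff n := rfl

theorem sepTheta_support (f : LaurentSeries κ) : (sepTheta f).support ⊆ f.support := fun n hn => by
  simp only [HahnSeries.mem_support, sepTheta_coeff] at hn
  exact right_ne_zero_of_mul hn

theorem sepTheta_add (f g : LaurentSeries κ) : sepTheta (f + g) = sepTheta f + sepTheta g := by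
  ext n
  simp only [sepTheta_coeff, HahnSeries.coeff_add, mul_add]

theorem sepTheta_zero : sepTheta (0 : LaurentSeries κ) = 0 := by
  ext n
  simp [sepTheta_coeff]

theorem sepTheta_mul (f g : LaurentSeries κ) :
    sepTheta (f * g) = sepTheta f * g + f * sepTheta g := by
  ext n
  rw [sepTheta_coeff, HahnSeries.coeff_add, HahnSeries.coeff_mul,
    HahnSeries.coeff_mul_left' f.isPWO_support (sepTheta_support f),
    HahnSeries.coeff_mul_right' g.isPWO_support (sepTheta_support g), Finset.mul_sum,
    ← Finset.sum_add_distrib]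
  refine Finset.sum_congr rfl fun ij hij => ?_
  rw [Finset.mem_antidiagonal] at hij
  rw [sepTheta_coeff, sepTheta_coeff, ← hij.2.2]
  push_cast
  ring

theorem sepTheta_one : sepTheta (1 : LaurentSeries κ) = 0 := by
  have h := sepTheta_mul (1 : LaurentSeries κ) 1
  simp only [mul_one, one_mul] at h
  exact left_eq_add.1 h

theorem sepTheta_pow (f : LaurentSeries κ) (n : ℕ) :
    sepTheta (f ^ n) = (n : LaurentSeries κ) * f ^ (n - 1) * sepTheta f := by
  induction n with
  | zero => simp [sepTheta_one]
  | succ n ih =>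
    rw [pow_succ, sepTheta_mul, ih]
    rcases n with _ | n
    · simp
    · simp only [Nat.add_sub_cancel, pow_succ]
      push_cast
      ring

/-- chain rule, one variable -/
theorem sepTheta_hom (e : κ[X] →+* LaurentSeries κ) (he : ∀ c, sepTheta (e (C c)) = 0) (P : κ[X]) :
    sepTheta (e P) = e (derivative P) * sepTheta (e X) := by
  induction P using Polynomial.induction_on' with
  | add p q hp hq => rw [map_add, sepTheta_add, hp, hq, derivative_add, map_add, add_mul]
  | monomial n c =>
    rw [derivative_monomial, ← C_mul_X_pow_eq_monomial, ← C_mul_X_pow_eq_monomial, map_mul,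
      map_pow, sepTheta_mul, he, zero_mul, zero_add, sepTheta_pow, map_mul, map_pow, C_mul,
      map_mul, C_eq_natCast, map_natCast]
    ring

/-- the coefficientwise derivative `∂/∂Y` -/
noncomputable def sepDY (P : κ[X][X]) : κ[X][X] :=
  P.sum fun i c => monomial i (derivative c)

theorem sepDY_coeff (P : κ[X][X]) (n : ℕ) : (sepDY P).coeff n = derivative (P.coeff n) := by
  unfold sepDY
  rw [Polynomial.sum_def, finsetSum_coeff]
  simp only [coeff_monomial]
  rw [Finset.sum_ite_eq']
  split_ifs with h
  · rfl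
  · rw [notMem_support_iff.1 h, derivative_zero]

theorem sepDY_add (P Q : κ[X][X]) : sepDY (P + Q) = sepDY P + sepDY Q := by
  ext1 n
  simp only [sepDY_coeff, coeff_add, derivative_add]

theorem sepDY_monomial (n : ℕ) (c : κ[X]) : sepDY (monomial n c) = monomial n (derivative c) := by
  ext1 m
  rw [sepDY_coeff, coeff_monomial, coeff_monomial]
  split_ifs
  · rfl
  · exact derivative_zero

/-- chain rule, two variables -/
theorem sepTheta_eval (e : κ[X] →+* LaurentSeries κ) (he : ∀ c, sepTheta (e (C c)) = 0)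
    (x : LaurentSeries κ) (P : κ[X][X]) :
    sepTheta ((P.map e).eval x) = ((sepDY P).map e).eval x * sepTheta (e X) +
      ((derivative P).map e).eval x * sepTheta x := by
  induction P using Polynomial.induction_on' with
  | add p q hp hq =>
    simp only [Polynomial.map_add, eval_add, sepTheta_add, hp, hq, sepDY_add, derivative_add]
    ring
  | monomial n c =>
    rw [sepDY_monomial, derivative_monomial]
    simp only [map_monomial, eval_monomial]
    rw [sepTheta_mul, sepTheta_hom e he, sepTheta_pow, map_mul, map_natCast]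
    ring

end theta

section frob

variable {κ : Type*} [Field κ] (p : ℕ) [hp : Fact p.Prime] [CharP κ p] [PerfectRing κ p]

theorem sep_exists_pow {c : κ[X]} (hc : derivative c = 0) : ∃ d : κ[X], d ^ p = c := by
  refine ⟨(contract p c).map ((frobeniusEquiv κ p).symm : κ →+* κ), ?_⟩
  rw [← map_frobenius_expand, ← map_expand, expand_contract p hc hp.out.ne_zero, map_map]
  have : (frobenius κ p).comp ((frobeniusEquiv κ p).symm : κ →+* κ) = RingHom.id κ := by
    ext x
    simp
  rw [this, map_id]

theorem sep_exists_pow2 {Φ : κ[X][X]} (hX : derivative Φ = 0) (hY : sepDY Φ = 0) :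
    ∃ Ψ : κ[X][X], Ψ ^ p = Φ := by
  have h1 : expand κ[X] p (contract p Φ) = Φ := expand_contract p hX hp.out.ne_zero
  have h2 : contract p Φ ∈ lifts (frobenius κ[X] p) := by
    rw [lifts_iff_coeff_lifts]
    intro n
    rw [coeff_contract hp.out.ne_zero]
    obtain ⟨d, hd⟩ := sep_exists_pow p (c := Φ.coeff (n * p))
      (by rw [← sepDY_coeff, hY, coeff_zero])
    exact ⟨d, hd⟩
  obtain ⟨Ψ, hΨ⟩ := (mem_lifts _).1 h2
  refine ⟨Ψ, ?_⟩
  rw [← map_frobenius_expand, map_expand, hΨ, h1]

end frob

section main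

variable {κ : Type*} [Field κ] {e : κ[X] →+* LaurentSeries κ} {x : LaurentSeries κ} {Φ : κ[X][X]}

theorem sep_natDegree_pos (hΦ : Φ.Monic) (h0 : (Φ.map e).eval x = 0) : 0 < Φ.natDegree := by
  by_contra h
  have h1 : Φ = 1 := hΦ.natDegree_eq_zero.1 (by omega)
  rw [h1] at h0
  simp at h0

theorem sep_injective (hΦ : Φ.Monic) (h0 : (Φ.map e).eval x = 0)
    (hind : ∀ P : κ[X][X], P ≠ 0 → P.natDegree < Φ.natDegree → (P.map e).eval x ≠ 0) :
    Function.Injective e := by
  rw [injective_iff_map_eq_zero]
  intro Q hQ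
  by_contra hne
  refine hind (C Q) (by simpa using hne) (by rw [natDegree_C]; exact sep_natDegree_pos hΦ h0) ?_
  simp [hQ]

theorem sep_irreducible' (hΦ : Φ.Monic) (h0 : (Φ.map e).eval x = 0)
    (hind : ∀ P : κ[X][X], P ≠ 0 → P.natDegree < Φ.natDegree → (P.map e).eval x ≠ 0) :
    Irreducible (Φ.map (algebraMap κ[X] (RatFunc κ))) := by
  have hinj := sep_injective hΦ h0 hind
  have hpos := sep_natDegree_pos hΦ h0
  set φ0 : RatFunc κ →+* LaurentSeries κ := IsFractionRing.lift hinj with hφ0
  have hcomp : φ0.comp (algebraMap κ[X] (RatFunc κ)) = e := by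
    refine RingHom.ext fun a => ?_
    rw [RingHom.comp_apply, hφ0, IsFractionRing.lift_algebraMap]
  have claim : ∀ G : (RatFunc κ)[X], G ≠ 0 → G.natDegree < Φ.natDegree → eval₂ φ0 x G ≠ 0 := by
    intro G hG hdeg h
    have h1 := IsLocalization.integerNormalization_eval₂_eq_zero (nonZeroDivisors κ[X]) φ0 G h
    rw [hcomp, ← eval_map] at h1
    refine hind _ ?_ ?_ h1
    · rw [Ne, IsLocalization.integerNormalization_eq_zero_iff le_rfl]
      exact hG
    · refine lt_of_le_of_lt ?_ hdeg
      rw [natDegree_le_iff_coeff_eq_zero]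
      intro n hn
      have h2 : n ∉ G.support := by
        rw [notMem_support_iff]
        exact coeff_eq_zero_of_natDegree_lt hn
      exact notMem_support_iff.1 fun h3 =>
        h2 (IsLocalization.integerNormalization_support (nonZeroDivisors κ[X]) G h3)
  have hmon : (Φ.map (algebraMap κ[X] (RatFunc κ))).Monic := hΦ.map _
  have hdeg : (Φ.map (algebraMap κ[X] (RatFunc κ))).natDegree = Φ.natDegree := hΦ.natDegree_map _
  have hev : eval₂ φ0 x (Φ.map (algebraMap κ[X] (RatFunc κ))) = 0 := by
    rw [eval₂_map, hcomp, ← eval_map, h0]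
  rw [hmon.irreducible_iff_natDegree]
  refine ⟨?_, ?_⟩
  · intro h1
    rw [h1, natDegree_one] at hdeg
    omega
  · intro f g hf hg hfg
    by_contra hcon
    push Not at hcon
    have hsum : f.natDegree + g.natDegree = Φ.natDegree := by
      rw [← hf.natDegree_mul hg, hfg, hdeg]
    rw [← hfg, eval₂_mul] at hev
    rcases mul_eq_zero.1 hev with h | h
    · exact claim f hf.ne_zero (by omega) h
    · exact claim g hg.ne_zero (by omega) h

theorem sep_derivative_ne_zero [PerfectField κ] (he : ∀ c, sepTheta (e (C c)) = 0)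
    (hJ : sepTheta (e X) ≠ 0) (hΦ : Φ.Monic) (h0 : (Φ.map e).eval x = 0)
    (hind : ∀ P : κ[X][X], P ≠ 0 → P.natDegree < Φ.natDegree → (P.map e).eval x ≠ 0) :
    derivative Φ ≠ 0 := by
  intro hX
  have hpos := sep_natDegree_pos hΦ h0
  obtain ⟨p, hp⟩ := CharP.exists κ
  rcases Nat.eq_zero_or_pos p with rfl | hp0
  · have : CharZero κ := CharP.charP_to_charZero κ
    have := derivative_eq_zero.1 hX
    omega
  · have hprime : p.Prime := (CharP.char_is_prime_or_zero κ p).resolve_right hp0.ne'
    have : Fact p.Prime := ⟨hprime⟩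
    have : PerfectRing κ p := PerfectField.toPerfectRing p
    have h1 := sepTheta_eval e he x Φ
    rw [h0, sepTheta_zero, hX, Polynomial.map_zero, eval_zero, zero_mul, add_zero] at h1
    have h2 : ((sepDY Φ).map e).eval x = 0 := (mul_eq_zero.1 h1.symm).resolve_right hJ
    have hY : sepDY Φ = 0 := by
      by_contra hne
      refine hind _ hne ?_ h2
      have h3 : (sepDY Φ).natDegree ≤ Φ.natDegree - 1 := by
        rw [natDegree_le_iff_coeff_eq_zero]
        intro n hn
        rw [sepDY_coeff]
        rcases Nat.lt_or_ge Φ.natDegree n with h4 | h4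
        · rw [coeff_eq_zero_of_natDegree_lt h4, derivative_zero]
        · have h5 : n = Φ.natDegree := by omega
          rw [h5, hΦ.coeff_natDegree, derivative_one]
      omega
    obtain ⟨Ψ, hΨ⟩ := sep_exists_pow2 p hX hY
    have hΨ0 : Ψ ≠ 0 := by
      rintro rfl
      rw [zero_pow hprime.ne_zero] at hΨ
      exact hΦ.ne_zero hΨ.symm
    have hdeg : p * Ψ.natDegree = Φ.natDegree := by rw [← hΨ, natDegree_pow]
    refine hind Ψ hΨ0 ?_ ?_
    · have := hprime.two_le
      nlinarith
    · have h6 : ((Ψ.map e).eval x) ^ p = 0 := by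
        rw [← eval_pow, ← Polynomial.map_pow, hΨ, h0]
      exact (pow_eq_zero_iff hprime.ne_zero).1 h6

theorem sep_main' [PerfectField κ] (he : ∀ c, sepTheta (e (C c)) = 0)
    (hJ : sepTheta (e X) ≠ 0) (hΦ : Φ.Monic) (h0 : (Φ.map e).eval x = 0)
    (hind : ∀ P : κ[X][X], P ≠ 0 → P.natDegree < Φ.natDegree → (P.map e).eval x ≠ 0)
    {K1 : Type*} [Field K1] (ρ : κ[X] →+* K1) (hρ : Function.Injective ρ) :
    (Φ.map ρ).Separable := by
  have hirr := sep_irreducible' hΦ h0 hind
  have hsep : (Φ.map (algebraMap κ[X] (RatFunc κ))).Separable := by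
    rw [separable_iff_derivative_ne_zero hirr, derivative_map]
    intro h
    apply sep_derivative_ne_zero he hJ hΦ h0 hind
    exact (Polynomial.map_eq_zero_iff (IsFractionRing.injective κ[X] (RatFunc κ))).1 h
  have h1 := hsep.map (f := (IsFractionRing.lift hρ : RatFunc κ →+* K1))
  rw [map_map] at h1
  have hcomp : (IsFractionRing.lift hρ : RatFunc κ →+* K1).comp (algebraMap κ[X] (RatFunc κ)) = ρ := by
    refine RingHom.ext fun a => ?_
    rw [RingHom.comp_apply, IsFractionRing.lift_algebraMap]
  rwa [hcomp] at h1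

end main

section final

variable {κ : Type*} [Field κ]

theorem sepTheta_algebraMap (c : κ) : sepTheta (algebraMap κ (LaurentSeries κ) c) = 0 := by
  ext n
  rw [sepTheta_coeff]
  by_cases hn : n = 0
  · simp [hn]
  · have : (algebraMap κ (LaurentSeries κ) c).coeff n = 0 := by
      rw [HahnSeries.algebraMap_apply', PowerSeries.algebraMap_apply,
        Algebra.algebraMap_self_apply, HahnSeries.ofPowerSeries_C, HahnSeries.C_apply,
        HahnSeries.coeff_single_of_ne hn]
    simp [this]

/-- irreducibility over `κ(Y)` -/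
theorem sep_irreducible (J x : LaurentSeries κ) (Φ : κ[X][X]) (hΦ : Φ.Monic)
    (h0 : (Φ.map (aeval J : κ[X] →ₐ[κ] LaurentSeries κ).toRingHom).eval x = 0)
    (hind : ∀ P : κ[X][X], P ≠ 0 → P.natDegree < Φ.natDegree →
      (P.map (aeval J : κ[X] →ₐ[κ] LaurentSeries κ).toRingHom).eval x ≠ 0) :
    Irreducible (Φ.map (algebraMap κ[X] (RatFunc κ))) :=
  sep_irreducible' hΦ h0 hind

/-- separability after any injective base change -/
theorem sep_main [PerfectField κ] (J x : LaurentSeries κ) (hJ : ∃ n : ℤ, (n : κ) * J.coeff n ≠ 0)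
    (Φ : κ[X][X]) (hΦ : Φ.Monic)
    (h0 : (Φ.map (aeval J : κ[X] →ₐ[κ] LaurentSeries κ).toRingHom).eval x = 0)
    (hind : ∀ P : κ[X][X], P ≠ 0 → P.natDegree < Φ.natDegree →
      (P.map (aeval J : κ[X] →ₐ[κ] LaurentSeries κ).toRingHom).eval x ≠ 0)
    {K1 : Type*} [Field K1] (ρ : κ[X] →+* K1) (hρ : Function.Injective ρ) :
    (Φ.map ρ).Separable := by
  refine sep_main' (e := (aeval J : κ[X] →ₐ[κ] LaurentSeries κ).toRingHom) ?_ ?_ hΦ h0 hind ρ hρ
  · intro c
    have : (aeval J : κ[X] →ₐ[κ] LaurentSeries κ).toRingHom (C c) =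
        algebraMap κ (LaurentSeries κ) c := by simp
    rw [this, sepTheta_algebraMap]
  · have : (aeval J : κ[X] →ₐ[κ] LaurentSeries κ).toRingHom X = J := by simp
    rw [this]
    obtain ⟨n, hn⟩ := hJ
    intro h
    apply hn
    rw [← sepTheta_coeff, h, HahnSeries.coeff_zero]

end final

end Fermat.Agent.S18
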