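import Mathlib
import Fermat.Agent.S18.Transfer
import Fermat.Agent.S18.Trans
import Fermat.Agent.S18.PhiFN
import Fermat.Agent.S18.Defs2

/-!
# S18, (I-2/3): the last step of the transfer

From the two embeddings `emb : F_N → FF`, `embb : F̄_N → FFb` and `UnitRel f fb` we produce a unit
`f1` of `B1` with `emb f = inc1 f1`, `embb fb = incb1 f1`.
-/

set_option autoImplicit false
set_option linter.unusedSectionVars false

noncomputable section

namespace Fermat.Agent.S18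

open ModularCurve Polynomial Fermat.Agent.S28 Fermat.Agent.S24 Fermat.Agent.X0

/-- a relation between `q`-expansions transported along a ring hom out of a subfield of
`κ((q))` -/
theorem tfm_generic {κ : Type*} [Field κ] (N : ℕ) [NeZero N]
    (F : IntermediateField κ (LaurentSeries κ)) {T : Type*} [CommRing T] (e : F →+* T)
    (c0 : κ →+* T) (r x : T)
    (hc : ∀ c, e (algebraMap κ F c) = c0 c)
    (jF xF : F) (hj : (jF : LaurentSeries κ) = jqModC κ)
    (hx : (xF : LaurentSeries κ) = jqNModC κ N)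
    (hej : e jF = r) (hex : e xF = x)
    (f : F) (Q : κ[X]) (G : κ[X][X])
    (h : (f : LaurentSeries κ) * aeval (jqModC κ) Q = ev2 κ N G) :
    e f * eval₂ c0 r Q = eval₂ (eval₂RingHom c0 r) x G := by
  set evF : κ[X][X] →+* F := eval₂RingHom (aeval jF : κ[X] →ₐ[κ] F).toRingHom xF with hevF
  have h1 : (algebraMap F (LaurentSeries κ)).comp evF = ev2 κ N := by
    apply Polynomial.ringHom_ext
    · intro a
      simp only [RingHom.comp_apply, hevF, coe_eval₂RingHom, eval₂_C, ev2]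
      change algebraMap F (LaurentSeries κ) (aeval jF a) = aeval (jqModC κ) a
      rw [← aeval_algebraMap_apply]
      have e0 : algebraMap F (LaurentSeries κ) jF = jqModC κ := hj
      rw [e0]
    · simp only [RingHom.comp_apply, hevF, coe_eval₂RingHom, eval₂_X, ev2]
      exact hx
  have h2 : e.comp evF = eval₂RingHom (eval₂RingHom c0 r) x := by
    apply Polynomial.ringHom_ext
    · intro a
      simp only [RingHom.comp_apply, hevF, coe_eval₂RingHom, eval₂_C]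
      change e (aeval jF a) = _
      rw [aeval_def, hom_eval₂, hej]
      congr 1
      ext c
      exact hc c
    · simp only [RingHom.comp_apply, hevF, coe_eval₂RingHom, eval₂_X]
      exact hex
  have h3 : f * evF (C Q) = evF G := by
    apply Subtype.ext
    have e1 : ((evF G : F) : LaurentSeries κ) = ev2 κ N G := congrArg (fun g => g G) h1
    have e2 : ((evF (C Q) : F) : LaurentSeries κ) = ev2 κ N (C Q) :=
      congrArg (fun g => g (C Q)) h1
    rw [tf_ev2_C] at e2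
    change (f : LaurentSeries κ) * ((evF (C Q) : F) : LaurentSeries κ) = _
    rw [e1, e2, h]
  have h4 := congrArg e h3
  rw [map_mul] at h4
  have e3 : e (evF G) = eval₂ (eval₂RingHom c0 r) x G := congrArg (fun g => g G) h2
  have e4 : e (evF (C Q)) = eval₂ (eval₂RingHom c0 r) x (C Q) := congrArg (fun g => g (C Q)) h2
  have e5 : eval₂ (eval₂RingHom c0 r) x (C Q) = eval₂ c0 r Q := by
    rw [eval₂_C, coe_eval₂RingHom]
  rw [← e3, ← e5, ← e4, h4]

section alg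

variable {L : Type*} [Field L] (A : ValuationSubring L) (Rτ : OV A) (Φτ : (OV A)[X])

/-- evaluation `A[Y][X] → B1` -/
def tfmEvB : (↥A)[X][X] →+* B1 A Φτ :=
  eval₂RingHom ((AdjoinRoot.of Φτ).comp (evTau A Rτ)) (AdjoinRoot.root Φτ)

theorem tfm_inc1_of (y : OV A) :
    inc1 A Φτ (AdjoinRoot.of Φτ y) = AdjoinRoot.of _ (y : RatFunc L) := by
  rw [inc1, AdjoinRoot.map_of]; rfl

theorem tfm_incb1_of (y : OV A) :
    incb1 A Φτ (AdjoinRoot.of Φτ y) = AdjoinRoot.of _ (redV A y) := by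
  rw [incb1, AdjoinRoot.map_of]

theorem tfm_inc1_root : inc1 A Φτ (AdjoinRoot.root Φτ) = AdjoinRoot.root _ := by
  rw [inc1, AdjoinRoot.map_root]

theorem tfm_incb1_root : incb1 A Φτ (AdjoinRoot.root Φτ) = AdjoinRoot.root _ := by
  rw [incb1, AdjoinRoot.map_root]

theorem tfm_hom1 :
    (eval₂RingHom ((AdjoinRoot.of (Φτ.map (OV A).subtype)).comp (RatFunc.C : L →+* RatFunc L))
      (AdjoinRoot.of (Φτ.map (OV A).subtype) (Rτ : RatFunc L))).comp (mapRingHom A.subtype) =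
    (inc1 A Φτ).comp ((AdjoinRoot.of Φτ).comp (evTau A Rτ)) := by
  apply Polynomial.ringHom_ext
  · intro a
    simp [tfm_inc1_of]
  · simp [tfm_inc1_of]

theorem tfm_homb1 :
    (eval₂RingHom ((AdjoinRoot.of (Φτ.map (redV A))).comp
        (RatFunc.C : Kres A →+* RatFunc (Kres A)))
      (AdjoinRoot.of (Φτ.map (redV A)) (redV A Rτ))).comp
        (mapRingHom (IsLocalRing.residue A)) =
    (incb1 A Φτ).comp ((AdjoinRoot.of Φτ).comp (evTau A Rτ)) := by
  apply Polynomial.ringHom_ext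
  · intro a
    simp [tfm_incb1_of, redV_cOV]
  · simp [tfm_incb1_of]

theorem tfm_inc1_evB (G : (↥A)[X][X]) :
    inc1 A Φτ (tfmEvB A Rτ Φτ G) =
      eval₂ (eval₂RingHom ((AdjoinRoot.of (Φτ.map (OV A).subtype)).comp
          (RatFunc.C : L →+* RatFunc L))
        (AdjoinRoot.of (Φτ.map (OV A).subtype) (Rτ : RatFunc L)))
        (AdjoinRoot.root _) (G.map (mapRingHom A.subtype)) := by
  rw [eval₂_map, tfm_hom1, tfmEvB, coe_eval₂RingHom, hom_eval₂, tfm_inc1_root]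

theorem tfm_incb1_evB (G : (↥A)[X][X]) :
    incb1 A Φτ (tfmEvB A Rτ Φτ G) =
      eval₂ (eval₂RingHom ((AdjoinRoot.of (Φτ.map (redV A))).comp
          (RatFunc.C : Kres A →+* RatFunc (Kres A)))
        (AdjoinRoot.of (Φτ.map (redV A)) (redV A Rτ)))
        (AdjoinRoot.root _) (G.map (mapRingHom (IsLocalRing.residue A))) := by
  rw [eval₂_map, tfm_homb1, tfmEvB, coe_eval₂RingHom, hom_eval₂, tfm_incb1_root]

theorem tfm_inc1_Q (Q : (↥A)[X]) :
    eval₂ ((AdjoinRoot.of (Φτ.map (OV A).subtype)).comp (RatFunc.C : L →+* RatFunc L))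
      (AdjoinRoot.of (Φτ.map (OV A).subtype) (Rτ : RatFunc L)) (Q.map A.subtype) =
    inc1 A Φτ (AdjoinRoot.of Φτ (evTau A Rτ Q)) :=
  congrArg (fun g => g Q) (tfm_hom1 A Rτ Φτ)

theorem tfm_incb1_Q (Q : (↥A)[X]) :
    eval₂ ((AdjoinRoot.of (Φτ.map (redV A))).comp (RatFunc.C : Kres A →+* RatFunc (Kres A)))
      (AdjoinRoot.of (Φτ.map (redV A)) (redV A Rτ)) (Q.map (IsLocalRing.residue A)) =
    incb1 A Φτ (AdjoinRoot.of Φτ (evTau A Rτ Q)) :=
  congrArg (fun g => g Q) (tfm_homb1 A Rτ Φτ)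

theorem tfm_isUnit (hRb : Transcendental (Kres A) (redV A Rτ)) (Q : (↥A)[X])
    (hQ : Q.map (IsLocalRing.residue A) ≠ 0) : IsUnit (evTau A Rτ Q) := by
  rw [isUnit_iff]
  have h1 : redV A (evTau A Rτ Q) = aeval (redV A Rτ) (Q.map (IsLocalRing.residue A)) :=
    congrArg (fun g => g Q) (redV_comp_evTau A Rτ)
  rw [h1]
  intro h0
  exact hQ ((transcendental_iff.1 hRb) _ h0)

end alg

section main

variable (A : ValuationSubring Kb) (N : ℕ) [NeZero N]

theorem tfm_jb_mem : jqModC (kA A) ∈ modularFunctionFieldFullC (kA A) N := by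
  have h : qExpand (kA A) 1 (jqModC (kA A)) ∈ divisorExpansionsC (kA A) N :=
    mem_divisorExpansionsC (kA A) N (one_dvd N)
  rw [qExpand_one_apply] at h
  exact IntermediateField.subset_adjoin _ _ h

theorem tfm_xb_mem : jqNModC (kA A) N ∈ modularFunctionFieldFullC (kA A) N :=
  IntermediateField.subset_adjoin _ _ (mem_divisorExpansionsC (kA A) N dvd_rfl)

theorem tfm_one (hN : (N : Kres A) ≠ 0) (Rτ : OV A)
    (hRb : Transcendental (Kres A) (redV A Rτ)) (Φτ : (OV A)[X])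
    (emb : FN N →+* FF A Φτ)
    (hembc : ∀ c : Kb, emb (algebraMap Kb (FN N) c) = AdjoinRoot.of _ (RatFunc.C c))
    (hembj : emb (jBar N) = AdjoinRoot.of _ (Rτ : RatFunc Kb))
    (hembx : emb (jdS N ⟨N, dvd_rfl⟩) = AdjoinRoot.root _)
    (embb : FbN A N →+* FFb A Φτ)
    (hembbc : ∀ c : kA A, embb (algebraMap (kA A) (FbN A N) c) = AdjoinRoot.of _ (RatFunc.C c))
    (hembbj : embb ⟨jqModC (kA A), tfm_jb_mem A N⟩ = AdjoinRoot.of _ (redV A Rτ))
    (hembbx : embb ⟨jqNModC (kA A) N, tfm_xb_mem A N⟩ = AdjoinRoot.root _)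
    (f : FN N) (fb : FbN A N) (hrel : UnitRel A N f fb) :
    ∃ f1 : B1 A Φτ, emb f = inc1 A Φτ f1 ∧ embb fb = incb1 A Φτ f1 := by
  obtain ⟨a, b, -, -, -, -, ha, hb, h1, h2⟩ := hrel
  obtain ⟨Q0, G0, hQ0, hG0, h0⟩ := span_FN N f
  obtain ⟨Q, G, hQ, hG, e1, e2⟩ := tf_ow A N (Nat.card (Cos N))
    (indep_of_hom N (Kres A) ((IsLocalRing.residue A).comp (zbA A)) hN)
    (f : LaurentSeries Kb) (fb : LaurentSeries (kA A)) a b hb h1 h2 Q0 hQ0 G0 hG0 h0
  rw [coeffMap_aeval_jqModC, coeffMap_ev2] at e1 e2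
  have E1 := tfm_generic N (modularFunctionFieldBar N) emb
    ((AdjoinRoot.of (Φτ.map (OV A).subtype)).comp (RatFunc.C : Kb →+* RatFunc Kb))
    (AdjoinRoot.of _ (Rτ : RatFunc Kb)) (AdjoinRoot.root _) hembc (jBar N) (jdS N ⟨N, dvd_rfl⟩)
    (coe_jBar N) (coe_jdS_N N) hembj hembx f _ _ e1
  have E2 := tfm_generic N (modularFunctionFieldFullC (kA A) N) embb
    ((AdjoinRoot.of (Φτ.map (redV A))).comp (RatFunc.C : Kres A →+* RatFunc (Kres A)))
    (AdjoinRoot.of _ (redV A Rτ)) (AdjoinRoot.root _) hembbc ⟨_, tfm_jb_mem A N⟩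
    ⟨_, tfm_xb_mem A N⟩ rfl rfl hembbj hembbx fb _ _ e2
  rw [tfm_inc1_Q, ← tfm_inc1_evB] at E1
  rw [tfm_incb1_Q, ← tfm_incb1_evB] at E2
  obtain ⟨v, hv⟩ := (tfm_isUnit A Rτ hRb Q hQ).exists_right_inv
  refine ⟨AdjoinRoot.of Φτ v * tfmEvB A Rτ Φτ G, ?_, ?_⟩
  · rw [map_mul, ← E1]
    calc emb f = emb f * inc1 A Φτ (AdjoinRoot.of Φτ (evTau A Rτ Q * v)) := by
          rw [hv, map_one, map_one, mul_one]
      _ = _ := by rw [map_mul, map_mul]; ring
  · rw [map_mul, ← E2]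
    calc embb fb = embb fb * incb1 A Φτ (AdjoinRoot.of Φτ (evTau A Rτ Q * v)) := by
          rw [hv, map_one, map_one, mul_one]
      _ = _ := by rw [map_mul, map_mul]; ring

/-- the last step of the transfer -/
theorem tfm_main (hN : (N : Kres A) ≠ 0) (Rτ : OV A)
    (hRb : Transcendental (Kres A) (redV A Rτ)) (Φτ : (OV A)[X]) (hΦ : Φτ.Monic)
    (emb : FN N →+* FF A Φτ)
    (hembc : ∀ c : Kb, emb (algebraMap Kb (FN N) c) = AdjoinRoot.of _ (RatFunc.C c))
    (hembj : emb (jBar N) = AdjoinRoot.of _ (Rτ : RatFunc Kb))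
    (hembx : emb (jdS N ⟨N, dvd_rfl⟩) = AdjoinRoot.root _)
    (embb : FbN A N →+* FFb A Φτ)
    (hembbc : ∀ c : kA A, embb (algebraMap (kA A) (FbN A N) c) = AdjoinRoot.of _ (RatFunc.C c))
    (hembbj : embb ⟨jqModC (kA A), tfm_jb_mem A N⟩ = AdjoinRoot.of _ (redV A Rτ))
    (hembbx : embb ⟨jqNModC (kA A) N, tfm_xb_mem A N⟩ = AdjoinRoot.root _)
    (f : FN N) (fb : FbN A N) (hrel : UnitRel A N f fb) :
    ∃ f1 f1' : B1 A Φτ, f1 * f1' = 1 ∧ emb f = inc1 A Φτ f1 ∧ embb fb = incb1 A Φτ f1 := by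
  obtain ⟨f1, h1, h2⟩ := tfm_one A N hN Rτ hRb Φτ emb hembc hembj hembx embb hembbc hembbj
    hembbx f fb hrel
  obtain ⟨f1', h1', -⟩ := tfm_one A N hN Rτ hRb Φτ emb hembc hembj hembx embb hembbc hembbj
    hembbx f⁻¹ fb⁻¹ hrel.inv
  refine ⟨f1, f1', ?_, h1, h2⟩
  have hinj : Function.Injective (inc1 A Φτ) :=
    (model1 A Φτ hΦ _ rfl).inc_injective
  apply hinj
  rw [map_mul, ← h1, ← h1', ← map_mul, mul_inv_cancel₀ hrel.ne_zero.1, map_one, map_one]

/-- the form used by `core_step2` -/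
theorem tfm_core (hN : (N : Kres A) ≠ 0) (Rτ : OV A)
    (hRb : Transcendental (Kres A) (redV A Rτ)) (Φτ : (OV A)[X]) (hΦ : Φτ.Monic)
    (emb : FN N →+* FF A Φτ)
    (hembc : ∀ c : Kb, emb (algebraMap Kb (FN N) c) = AdjoinRoot.of _ (RatFunc.C c))
    (hembj : emb (jBar N) = AdjoinRoot.of _ (Rτ : RatFunc Kb))
    (hembx : emb (jdS N ⟨N, dvd_rfl⟩) = AdjoinRoot.root _)
    (embb : FbN A N →+* FFb A Φτ)
    (hembbc : ∀ c : kA A, embb (algebraMap (kA A) (FbN A N) c) = AdjoinRoot.of _ (RatFunc.C c))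
    (hembbj : embb ⟨jqModC (kA A), tfm_jb_mem A N⟩ = AdjoinRoot.of _ (redV A Rτ))
    (hembbx : embb ⟨jqNModC (kA A) N, tfm_xb_mem A N⟩ = AdjoinRoot.root _)
    (p : ℕ) (f : FN N) (gb : FbN A N) (hrel : UnitRel A N f (gb ^ p)) :
    ∃ (f1 f1' : B1 A Φτ) (g1 : FFb A Φτ), f1 * f1' = 1 ∧ emb f = inc1 A Φτ f1 ∧
      incb1 A Φτ f1 = g1 ^ p := by
  obtain ⟨f1, f1', h1, h2, h3⟩ := tfm_main A N hN Rτ hRb Φτ hΦ emb hembc hembj hembx embb hembbc
    hembbj hembbx f _ hrel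
  exact ⟨f1, f1', embb gb, h1, h2, by rw [← h3, map_pow]⟩

end main

end Fermat.Agent.S18
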